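/-
Programme MAZ (S15), chapter `r = 2` (P3), brick M1 (helper68).  **Marked local models.**

For `r = 2` the flat-descent family must remember, for each good module `N`, WHICH finite flat model
is used: the count in the devissage involves the order of the connected part.  A *marked local model*
of `(M, act)` at `p` is a function order `H ⊆ Fun(M, ℚ̄_p)` over `ℤ_p` (`FunOrder68.IsFunOrder`)
together with its kernel of reduction `M₀ = Red68.conn` (`m ∈ M₀ ↔ Cong H m 0`).

* `MarkedModel p M act M₀`, `MarkedModel.localFlatModel`, `MarkedModel.finite`,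
  `MarkedModel.act_sub_mem` (inertia moves points inside `M₀`);
* closure: `MarkedModel.of_injective` (mark `M₀.comap f`), `MarkedModel.of_addEquiv` (mark `M₀.map φ`),
  `MarkedModel.prod` (mark `M₀.prod M₀'`), `MarkedModel.const` (trivial action: mark `⊥`);
* the underlying facts on congruences: `cong_pullOrder_iff`, `cong_prodAlg_iff`,
  `cong_valSub_bot_iff`.
(Quotients: `MarkQuot68`, on top of helper33's `ConnQuot33`.)
-/
import Mathlib
import Fermat.Agent.TW.FF.Red68
import Fermat.Agent.TW.FF.ClosureProd68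
import Fermat.Agent.TW.FF.Closure68
import Fermat.Agent.MAZ.Desc.FlatAdm68

set_option autoImplicit false
set_option linter.unusedSectionVars false
set_option linter.style.haveILetI false

noncomputable section

namespace Fermat.Agent.MAZ.Flat.Mark68

open scoped TensorProduct
open Fermat.Agent.S19.Shell64 Fermat.Agent.TW.FF.FunOrder68 Fermat.Agent.TW.FF.FlatModel68
open Fermat.Agent.TW.FF.Spec72 Fermat.Agent.TW.FF.Red68 Fermat.Agent.TW.FF.Closure68
open Fermat.Agent.TW.FF.ClosureProd68 Fermat.Agent.FFJ.Alg.MaxOrder3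

/-! ### 1. Pull-back of an order along an injective equivariant map -/

section Pull

variable {R F K M N : Type} [CommRing R] [Field F] [Field K] [Algebra R K] [Algebra F K]
  [AddCommGroup M] [MulAction (K ≃ₐ[F] K) M] [AddCommGroup N] [MulAction (K ≃ₐ[F] K) N]

/-- pull-back of an order along an additive map. -/
def pullOrder (f : N →+ M) (H : Subalgebra R (M → K)) : Subalgebra R (N → K) :=
  H.map (pullAlg R K f)

/-- **function orders pull back along injective equivariant maps.** -/
theorem IsFunOrder.pull (f : N →+ M) (hf : ∀ (σ : K ≃ₐ[F] K) (n : N), f (σ • n) = σ • f n)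
    (hinj : Function.Injective f) {H : Subalgebra R (M → K)} (hH : IsFunOrder R F H) :
    IsFunOrder R F (pullOrder f H) := by
  have := hH.finite
  refine ⟨?_, ?_, ?_, ?_⟩
  · exact Module.Finite.of_surjective ((pullAlg R K f).subalgebraMap H).toLinearMap
      (AlgHom.subalgebraMap_surjective H _)
  · rintro _ ⟨h, hh, rfl⟩ σ n
    change h (f (σ • n)) = σ (h (f n))
    rw [hf]
    exact hH.equivariant h hh σ (f n)
  · intro n n' hnn
    obtain ⟨h, hh, hne⟩ := hH.separates (f n) (f n') (fun h => hnn (hinj h))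
    exact ⟨_, ⟨h, hh, rfl⟩, hne⟩
  · rintro _ ⟨h, hh, rfl⟩
    obtain ⟨k, a, b, hab⟩ := hH.comul h hh
    refine ⟨k, fun i => (pullAlg R K f).subalgebraMap H (a i),
      fun i => (pullAlg R K f).subalgebraMap H (b i), fun n n' => ?_⟩
    change h (f (n + n')) = _
    rw [map_add]
    exact hab (f n) (f n')

end Pull

variable {p : ℕ} [Fact p.Prime]

/-! ### 2. Congruences: pull-backs, products, constant groups -/

section CongLemmas

variable {M N : Type} [AddCommGroup M] [AddCommGroup N]

/-- the reduction on a pull-back is the pull-back of the reduction. -/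
theorem cong_pullOrder_iff (f : N →+ M) (H : Subalgebra ℤ_[p] (M → PadicAlgCl p)) (n n' : N) :
    Cong (pullOrder f H) n n' ↔ Cong H (f n) (f n') := by
  constructor
  · intro h g hg
    exact h (fun x : N => g (f x)) ⟨g, hg, rfl⟩
  · rintro h _ ⟨g, hg, rfl⟩
    exact h g hg

variable {M₁ M₂ : Type} [AddCommGroup M₁] [AddCommGroup M₂]
  {H₁ : Subalgebra ℤ_[p] (M₁ → PadicAlgCl p)} {H₂ : Subalgebra ℤ_[p] (M₂ → PadicAlgCl p)}

/-- the reduction on a product is the product of the reductions. -/
theorem cong_prodAlg_iff (h₁ : Module.Finite ℤ_[p] H₁) (h₂ : Module.Finite ℤ_[p] H₂)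
    (x y : M₁ × M₂) :
    Cong (prodAlg H₁ H₂) x y ↔ Cong H₁ x.1 y.1 ∧ Cong H₂ x.2 y.2 := by
  constructor
  · intro h
    refine ⟨fun a ha => ?_, fun b hb => ?_⟩
    · have := h _ (toProd H₁ H₂ ((⟨a, ha⟩ : H₁) ⊗ₜ[ℤ_[p]] (1 : H₂))).2
      rw [toProd_tmul, toProd_tmul] at this
      simpa using this
    · have := h _ (toProd H₁ H₂ ((1 : H₁) ⊗ₜ[ℤ_[p]] (⟨b, hb⟩ : H₂))).2
      rw [toProd_tmul, toProd_tmul] at this
      simpa using this
  · rintro ⟨hx, hy⟩ f hf
    obtain ⟨t, rfl⟩ := (AlgHom.mem_range _).mp hf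
    clear hf
    induction t using TensorProduct.induction_on with
    | zero => simp
    | tmul a b =>
      change ‖(a : M₁ → PadicAlgCl p) x.1 * (b : M₂ → PadicAlgCl p) x.2 -
        (a : M₁ → PadicAlgCl p) y.1 * (b : M₂ → PadicAlgCl p) y.2‖ < 1
      have e1 : (a : M₁ → PadicAlgCl p) x.1 * (b : M₂ → PadicAlgCl p) x.2 -
          (a : M₁ → PadicAlgCl p) y.1 * (b : M₂ → PadicAlgCl p) y.2 =
          ((a : M₁ → PadicAlgCl p) x.1 - (a : M₁ → PadicAlgCl p) y.1) *
            (b : M₂ → PadicAlgCl p) x.2 +
          (a : M₁ → PadicAlgCl p) y.1 *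
            ((b : M₂ → PadicAlgCl p) x.2 - (b : M₂ → PadicAlgCl p) y.2) := by
        ring
      rw [e1]
      refine lt_of_le_of_lt (IsUltrametricDist.norm_add_le_max _ _) (max_lt ?_ ?_)
      · rw [norm_mul]
        have := norm_apply_le_one h₂ b.2 x.2
        have h3 := hx _ a.2
        nlinarith [norm_nonneg ((a : M₁ → PadicAlgCl p) x.1 - (a : M₁ → PadicAlgCl p) y.1),
          norm_nonneg ((b : M₂ → PadicAlgCl p) x.2)]
      · rw [norm_mul]
        have := norm_apply_le_one h₁ a.2 y.1
        have h3 := hy _ b.2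
        nlinarith [norm_nonneg ((b : M₂ → PadicAlgCl p) x.2 - (b : M₂ → PadicAlgCl p) y.2),
          norm_nonneg ((a : M₁ → PadicAlgCl p) y.1)]
    | add s t hs ht =>
      rw [map_add, Pi.add_apply, Pi.add_apply]
      have e : (prodEval H₁.val H₂.val s x + prodEval H₁.val H₂.val t x) -
          (prodEval H₁.val H₂.val s y + prodEval H₁.val H₂.val t y) =
          (prodEval H₁.val H₂.val s x - prodEval H₁.val H₂.val s y) +
          (prodEval H₁.val H₂.val t x - prodEval H₁.val H₂.val t y) := by ring
      rw [e]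
      exact lt_of_le_of_lt (IsUltrametricDist.norm_add_le_max _ _) (max_lt hs ht)

/-- on a constant group distinct points have distinct reductions. -/
theorem cong_valSub_bot_iff (A : Type) (a a' : A) :
    Cong (valSub A (⊥ : Subalgebra ℤ_[p] (PadicAlgCl p))) a a' ↔ a = a' := by
  classical
  constructor
  · intro h
    by_contra hne
    have hs : (Pi.single a (1 : PadicAlgCl p) : A → PadicAlgCl p) ∈
        valSub A (⊥ : Subalgebra ℤ_[p] (PadicAlgCl p)) := by
      intro b
      by_cases hb : b = a
      · subst hb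
        rw [Pi.single_eq_same]
        exact Subalgebra.one_mem _
      · rw [Pi.single_eq_of_ne hb]
        exact Subalgebra.zero_mem _
    have := h _ hs
    rw [Pi.single_eq_same, Pi.single_eq_of_ne (Ne.symm hne), sub_zero, norm_one] at this
    exact lt_irrefl _ this
  · rintro rfl
    exact Cong.refl _

end CongLemmas

/-! ### 3. Marked models -/

/-- **a marked local model**: a function order over `ℤ_p` for `(M, act)` whose kernel of reduction
(connected part) is `M₀`. -/
def MarkedModel (p : ℕ) [Fact p.Prime] (M : Type) [AddCommGroup M] (act : GQp p → M → M)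
    (M₀ : AddSubgroup M) : Prop :=
  ∃ (_ : DistribMulAction (GQp p) M) (H : Subalgebra ℤ_[p] (M → PadicAlgCl p)),
    IsFunOrder ℤ_[p] ℚ_[p] H ∧ (∀ (τ : GQp p) (m : M), τ • m = act τ m) ∧
      ∀ m : M, m ∈ M₀ ↔ Cong H m 0

section API

variable {M N : Type} [AddCommGroup M] [AddCommGroup N]

/-- a function order is a marked model, marked by its kernel of reduction. -/
theorem MarkedModel.of_isFunOrder [DistribMulAction (GQp p) M]
    {H : Subalgebra ℤ_[p] (M → PadicAlgCl p)} (hH : IsFunOrder ℤ_[p] ℚ_[p] H)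
    (act : GQp p → M → M) (hact : ∀ τ m, τ • m = act τ m) : MarkedModel p M act (conn hH) :=
  ⟨inferInstance, H, hH, hact, fun _ => Iff.rfl⟩

/-- the mark is determined by the order: change of name. -/
theorem MarkedModel.mark_eq {act : GQp p → M → M} {M₀ M₀' : AddSubgroup M}
    (h : MarkedModel p M act M₀) (h' : M₀ = M₀') : MarkedModel p M act M₀' := h' ▸ h

theorem MarkedModel.act_congr {act act' : GQp p → M → M} {M₀ : AddSubgroup M}
    (h : MarkedModel p M act M₀) (h' : ∀ τ m, act τ m = act' τ m) : MarkedModel p M act' M₀ := by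
  have : act = act' := funext fun τ => funext fun m => h' τ m
  exact this ▸ h

/-- a marked model is a local flat model. -/
theorem MarkedModel.localFlatModel {act : GQp p → M → M} {M₀ : AddSubgroup M}
    (h : MarkedModel p M act M₀) : LocalFlatModel p M act := by
  obtain ⟨inst, H, hH, hact, -⟩ := h
  exact IsFunOrder.modelOf (F := ℚ_[p]) fixedFieldEqBase_of_isGalois hH act
    (fun τ m => (hact τ m).symm)

theorem MarkedModel.finite {act : GQp p → M → M} {M₀ : AddSubgroup M}
    (h : MarkedModel p M act M₀) : Finite M := by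
  obtain ⟨inst, H, hH, -, -⟩ := h
  exact IsFunOrder.finite_carrier (F := ℚ_[p]) hH

/-- inertia moves every point inside the connected part. -/
theorem MarkedModel.act_sub_mem {act : GQp p → M → M} {M₀ : AddSubgroup M}
    (h : MarkedModel p M act M₀) {τ : GQp p} (hτ : τ ∈ inertiaSet p) (m : M) :
    act τ m - m ∈ M₀ := by
  obtain ⟨inst, H, hH, hact, hM₀⟩ := h
  rw [hM₀, ← hact]
  exact smul_sub_mem_conn hH hτ m

/-- if the mark is trivial, inertia acts trivially. -/
theorem MarkedModel.act_eq_of_mark_bot {act : GQp p → M → M}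
    (h : MarkedModel p M act ⊥) {τ : GQp p} (hτ : τ ∈ inertiaSet p) (m : M) : act τ m = m := by
  have := h.act_sub_mem hτ m
  rwa [AddSubgroup.mem_bot, sub_eq_zero] at this

/-- **marked models restrict along injective equivariant maps**; the mark is the preimage. -/
theorem MarkedModel.of_injective {actM : GQp p → M → M} {actN : GQp p → N → N}
    {M₀ : AddSubgroup M} (f : N →+ M) (hinj : Function.Injective f)
    (hf : ∀ τ n, f (actN τ n) = actM τ (f n)) (h : MarkedModel p M actM M₀) :
    MarkedModel p N actN (M₀.comap f) := by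
  obtain ⟨inst, H, hH, hact, hM₀⟩ := h
  letI : SMul (GQp p) N := ⟨actN⟩
  have hsm : ∀ (τ : GQp p) (n : N), f (τ • n) = τ • f n := fun τ n => by
    rw [hact]
    exact hf τ n
  letI : DistribMulAction (GQp p) N := Function.Injective.distribMulAction f hinj hsm
  refine ⟨inferInstance, pullOrder f H, IsFunOrder.pull f hsm hinj hH, fun _ _ => rfl, fun n => ?_⟩
  rw [AddSubgroup.mem_comap, hM₀, cong_pullOrder_iff, map_zero]

/-- transport of a marked model along an equivariant isomorphism. -/
theorem MarkedModel.of_addEquiv {actM : GQp p → M → M} {actN : GQp p → N → N}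
    {M₀ : AddSubgroup M} (φ : M ≃+ N) (hφ : ∀ τ m, φ (actM τ m) = actN τ (φ m))
    (h : MarkedModel p M actM M₀) : MarkedModel p N actN (M₀.map (φ : M →+ N)) := by
  have h1 := MarkedModel.of_injective (actN := actN) (φ.symm : N →+ M) φ.symm.injective
    (fun τ n => by
      apply φ.injective
      change φ (φ.symm (actN τ n)) = φ (actM τ (φ.symm n))
      rw [hφ, AddEquiv.apply_symm_apply, AddEquiv.apply_symm_apply]) h
  refine h1.mark_eq ?_
  ext n
  rw [AddSubgroup.mem_comap, AddSubgroup.mem_map]
  constructor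
  · intro hn
    exact ⟨φ.symm n, hn, φ.apply_symm_apply n⟩
  · rintro ⟨m, hm, rfl⟩
    change φ.symm (φ m) ∈ M₀
    rwa [AddEquiv.symm_apply_apply]

/-- **marked models are closed under products**; the mark is the product of the marks. -/
theorem MarkedModel.prod {actM : GQp p → M → M} {actN : GQp p → N → N}
    {M₀ : AddSubgroup M} {N₀ : AddSubgroup N} (hM : MarkedModel p M actM M₀)
    (hN : MarkedModel p N actN N₀) :
    MarkedModel p (M × N) (fun τ x => (actM τ x.1, actN τ x.2)) (M₀.prod N₀) := by
  obtain ⟨i1, H₁, hH₁, hact₁, hM₀⟩ := hM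
  obtain ⟨i2, H₂, hH₂, hact₂, hN₀⟩ := hN
  refine ⟨inferInstance, prodAlg H₁ H₂, IsFunOrder.prod hH₁ hH₂, fun τ x => ?_, fun x => ?_⟩
  · change (τ • x.1, τ • x.2) = _
    rw [hact₁, hact₂]
  · rw [AddSubgroup.mem_prod, hM₀, hN₀, cong_prodAlg_iff hH₁.finite hH₂.finite]
    rfl

/-- **the constant group** (trivial action) is a marked model with trivial mark (it is étale). -/
theorem MarkedModel.const (A : Type) [AddCommGroup A] [Finite A] :
    MarkedModel p A (fun _ a => a) ⊥ := by
  letI : DistribMulAction (GQp p) A :=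
    { smul := fun _ a => a
      one_smul := fun _ => rfl
      mul_smul := fun _ _ _ => rfl
      smul_zero := fun _ => rfl
      smul_add := fun _ _ _ => rfl }
  have hH : IsFunOrder ℤ_[p] ℚ_[p] (valSub A (⊥ : Subalgebra ℤ_[p] (PadicAlgCl p))) :=
    Fermat.Agent.MAZ.Desc.FlatAdm68.isFunOrder_const A (fun _ _ => rfl)
  refine ⟨inferInstance, _, hH, fun _ _ => rfl, fun a => ?_⟩
  rw [AddSubgroup.mem_bot, cong_valSub_bot_iff]

end API

end Fermat.Agent.MAZ.Flat.Mark68
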