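/-
Programme MAZ, pole P3 (`r = 2`, marked orders; owner of the vocabulary: helper68), brick CONN-EXACT
(helper33): **the connected part of a function order is exact on quotients.**

`H ⊆ Fun(M, K)` a function order (`FunOrder68.IsFunOrder`), `N ≤ M` a finite Galois-stable subgroup.
* `prodTr_mem` : the NORM `m ↦ ∏_{n ∈ N} h (m + n)` of `h ∈ H` lies in `H` (twin of helper68's
  `ClosureQuot68.sumTr_mem`); `prodTrQ` : its descent to the quotient order `quotAlg N H`.
* local case (`K = PadicAlgCl p`, `R = ℤ_[p]`, every prime `p`, `p = 2` included):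
  `exists_add_mem_conn_of_cong_quot` : a point of `M ⧸ N` which reduces to the unit point of the
  quotient order lifts to a point of `M` which reduces to the unit point, i.e.
  `conn (quotAlg N H) = π (conn H)` (`conn_quot_eq_map`; `⊇` is helper68's `Red68.Cong.mk`).

Proof of the local statement: `0 ∈ M` is Galois-fixed, so `h 0 ∈ ℤ_p` for `h ∈ H`; hence
`x ∈ conn H ↔ P_0 ≤ P_x` for the prime ideals `P_x := {h ∈ H | ‖h x‖ < 1}`.  If `m + N` misses `conn H`
then `P_0` is contained in no `P_{m+n}`, so by prime avoidance some `b ∈ P_0` is a unit at every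
`m + n`; its norm `g` lies in the quotient order, `‖g 0‖ < 1` and `‖g (m + N)‖ = 1`.
-/
import Mathlib
import Fermat.Agent.TW.FF.Red68

set_option autoImplicit false
set_option linter.unusedSectionVars false

noncomputable section

namespace Fermat.Agent.MAZ.Flat.ConnQuot33

open Fermat.Agent.S19.Shell64 Fermat.Agent.TW.FF.FunOrder68 Fermat.Agent.TW.FF.ClosureQuot68

/-! ### 1. Integral combinations of a basis, and the norm over a stable subgroup -/

section Generic

variable {R F K M : Type} [CommRing R] [IsDomain R] [IsPrincipalIdealRing R] [Field F] [Field K]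
  [Algebra R F] [IsFractionRing R F] [Algebra F K] [Algebra R K] [IsScalarTower R F K]
  [AddCommGroup M] [DistribMulAction (K ≃ₐ[F] K) M]
  {H : Subalgebra R (M → K)} {I : Type} [Fintype I] (b : Module.Basis I R H)

/-- `g` is a combination of the basis `b` of `H` with coefficients integral over `R`. -/
def IntComb (g : M → K) : Prop :=
  ∃ c : I → K, (∀ i, IsIntegral R (c i)) ∧ g = ∑ i, c i • ((b i : H) : M → K)

omit [IsDomain R] [IsPrincipalIdealRing R] [Algebra R F] [IsFractionRing R F]
  [IsScalarTower R F K] [DistribMulAction (K ≃ₐ[F] K) M] [Field F] [Algebra F K] in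
theorem intComb_of_mem {h : M → K} (hh : h ∈ H) : IntComb b h := by
  refine ⟨fun i => algebraMap R K (b.repr ⟨h, hh⟩ i), fun i => isIntegral_algebraMap, ?_⟩
  have h1 := b.sum_repr ⟨h, hh⟩
  have h2 : ((∑ i, b.repr ⟨h, hh⟩ i • b i : H) : M → K) = h := by rw [h1]
  refine h2.symm.trans ?_
  rw [AddSubmonoidClass.coe_finsetSum]
  refine Finset.sum_congr rfl (fun i _ => ?_)
  funext m
  simp [Algebra.smul_def]

variable {b}

omit [IsDomain R] [IsPrincipalIdealRing R] [Algebra R F] [IsFractionRing R F]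
  [IsScalarTower R F K] [DistribMulAction (K ≃ₐ[F] K) M] [Field F] [Algebra F K] [AddCommGroup M] in
theorem IntComb.smul {c : K} (hc : IsIntegral R c) {g : M → K} (hg : IntComb b g) :
    IntComb b (c • g) := by
  obtain ⟨d, hd, rfl⟩ := hg
  refine ⟨fun i => c * d i, fun i => hc.mul (hd i), ?_⟩
  rw [Finset.smul_sum]
  exact Finset.sum_congr rfl (fun i _ => by rw [smul_smul])

omit [IsDomain R] [IsPrincipalIdealRing R] [Algebra R F] [IsFractionRing R F]
  [IsScalarTower R F K] [DistribMulAction (K ≃ₐ[F] K) M] [Field F] [Algebra F K] [AddCommGroup M] in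
theorem IntComb.add {g g' : M → K} (hg : IntComb b g) (hg' : IntComb b g') :
    IntComb b (g + g') := by
  obtain ⟨d, hd, rfl⟩ := hg
  obtain ⟨d', hd', rfl⟩ := hg'
  refine ⟨fun i => d i + d' i, fun i => (hd i).add (hd' i), ?_⟩
  rw [← Finset.sum_add_distrib]
  exact Finset.sum_congr rfl (fun i _ => by rw [add_smul])

omit [IsDomain R] [IsPrincipalIdealRing R] [Algebra R F] [IsFractionRing R F]
  [IsScalarTower R F K] [DistribMulAction (K ≃ₐ[F] K) M] [Field F] [Algebra F K] [AddCommGroup M] in
theorem IntComb.zero : IntComb b (0 : M → K) :=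
  ⟨fun _ => 0, fun _ => isIntegral_zero, by simp⟩

omit [IsDomain R] [IsPrincipalIdealRing R] [Algebra R F] [IsFractionRing R F]
  [IsScalarTower R F K] [DistribMulAction (K ≃ₐ[F] K) M] [Field F] [Algebra F K] in
theorem IntComb.sum {ι : Type*} (s : Finset ι) (f : ι → M → K) (h : ∀ i ∈ s, IntComb b (f i)) :
    IntComb b (∑ i ∈ s, f i) :=
  Finset.sum_induction f (IntComb b) (fun _ _ => IntComb.add) IntComb.zero h

omit [IsDomain R] [IsPrincipalIdealRing R] [Algebra R F] [IsFractionRing R F]
  [IsScalarTower R F K] [DistribMulAction (K ≃ₐ[F] K) M] [Field F] [Algebra F K] in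
theorem IntComb.mul_mem {g h : M → K} (hg : IntComb b g) (hh : h ∈ H) : IntComb b (g * h) := by
  obtain ⟨d, hd, rfl⟩ := hg
  rw [Finset.sum_mul]
  refine IntComb.sum _ _ (fun i _ => ?_)
  rw [smul_mul_assoc]
  exact (intComb_of_mem b (H.mul_mem (b i).2 hh)).smul (hd i)

omit [IsDomain R] [IsPrincipalIdealRing R] [Algebra R F] [IsFractionRing R F]
  [IsScalarTower R F K] [DistribMulAction (K ≃ₐ[F] K) M] [Field F] [Algebra F K] in
theorem IntComb.mul {g g' : M → K} (hg : IntComb b g) (hg' : IntComb b g') :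
    IntComb b (g * g') := by
  obtain ⟨d', hd', rfl⟩ := hg'
  rw [Finset.mul_sum]
  refine IntComb.sum _ _ (fun i _ => ?_)
  rw [mul_smul_comm]
  exact (hg.mul_mem (b i).2).smul (hd' i)

omit [IsDomain R] [IsPrincipalIdealRing R] [Algebra R F] [IsFractionRing R F]
  [IsScalarTower R F K] [DistribMulAction (K ≃ₐ[F] K) M] [Field F] [Algebra F K] in
theorem IntComb.one : IntComb b (1 : M → K) := intComb_of_mem b H.one_mem

omit [IsDomain R] [IsPrincipalIdealRing R] [Algebra R F] [IsFractionRing R F]
  [IsScalarTower R F K] [DistribMulAction (K ≃ₐ[F] K) M] [Field F] [Algebra F K] in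
theorem IntComb.prod {ι : Type*} (s : Finset ι) (f : ι → M → K) (h : ∀ i ∈ s, IntComb b (f i)) :
    IntComb b (∏ i ∈ s, f i) :=
  Finset.prod_induction f (IntComb b) (fun _ _ => IntComb.mul) IntComb.one h

omit [IsDomain R] [IsPrincipalIdealRing R] [Algebra R F] [IsFractionRing R F]
  [IsScalarTower R F K] in
/-- the translates of the functions of `H` are integral combinations of the basis. -/
theorem intComb_translate (hH : IsFunOrder R F H) {h : M → K} (hh : h ∈ H) (n : M) :
    IntComb b (fun m => h (m + n)) := by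
  have := hH.finite
  obtain ⟨k, a, c, hac⟩ := hH.comul h hh
  have e : (fun m => h (m + n)) = ∑ i, ((c i : H) : M → K) n • ((a i : H) : M → K) := by
    funext m
    rw [hac m n, Finset.sum_apply]
    exact Finset.sum_congr rfl (fun i _ => by rw [Pi.smul_apply, smul_eq_mul, mul_comm])
  rw [e]
  refine IntComb.sum _ _ (fun i _ => ?_)
  refine (intComb_of_mem b (a i).2).smul ?_
  exact (Algebra.IsIntegral.isIntegral (R := R) (c i)).map (evalPt H.val n)

/-- an equivariant integral combination of the basis lies in `H`. -/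
theorem mem_of_intComb (hfix : FixedFieldEqBase F K) (hH : IsFunOrder R F H) {g : M → K}
    (hg : IntComb b g) (heq : IsEquivariantFun F g) : g ∈ H := by
  classical
  obtain ⟨c, hc, rfl⟩ := hg
  have hli : LinearIndependent K (fun i => ((b i : H) : M → K)) :=
    basis_linearIndependent hfix H hH.equivariant b
  have hfixc : ∀ i, ∀ σ : K ≃ₐ[F] K, σ (c i) = c i := by
    intro i σ
    have hz : ∑ j, (σ (c j) - c j) • ((b j : H) : M → K) = 0 := by
      funext m
      have h1 := heq σ (σ⁻¹ • m)
      rw [smul_inv_smul] at h1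
      simp only [Finset.sum_apply, Pi.smul_apply, smul_eq_mul, Pi.zero_apply, map_sum, map_mul]
        at h1 ⊢
      have h2 : ∀ j, σ (((b j : H) : M → K) (σ⁻¹ • m)) = ((b j : H) : M → K) m := by
        intro j
        rw [← hH.equivariant _ (b j).2 σ (σ⁻¹ • m), smul_inv_smul]
      simp only [h2] at h1
      simp only [sub_mul, Finset.sum_sub_distrib]
      rw [← h1, sub_self]
    have := Fintype.linearIndependent_iff.mp hli _ hz i
    exact sub_eq_zero.mp this
  choose r hr using fun i =>
    mem_range_of_fixed_of_isIntegral (R := R) hfix (hfixc i) (hc i)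
  have e : ∑ i, c i • ((b i : H) : M → K) = ((∑ i, r i • b i : H) : M → K) := by
    rw [AddSubmonoidClass.coe_finsetSum]
    refine Finset.sum_congr rfl (fun i _ => ?_)
    funext m
    simp [Algebra.smul_def, hr i]
  rw [e]
  exact (∑ i, r i • b i : H).2

variable (N : AddSubgroup M)

/-- the product of the translates of a function by the elements of `N`. -/
def prodTr [Fintype N] (h : M → K) : M → K := fun m => ∏ n : N, h (m + n)

omit [IsDomain R] [IsPrincipalIdealRing R] [Field F] [Algebra R F] [IsFractionRing R F]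
  [Algebra F K] [IsScalarTower R F K] [DistribMulAction (K ≃ₐ[F] K) M] [Algebra R K] in
theorem prodTr_add_mem [Fintype N] (h : M → K) (m : M) {n₀ : M} (hn₀ : n₀ ∈ N) :
    prodTr N h (m + n₀) = prodTr N h m := by
  unfold prodTr
  refine Fintype.prod_equiv (Equiv.addLeft (⟨n₀, hn₀⟩ : N)) _ _ (fun n => ?_)
  simp [add_assoc]

variable (hfix : FixedFieldEqBase F K)
  (hN : ∀ (σ : K ≃ₐ[F] K) (n : M), n ∈ N → σ • n ∈ N) (hH : IsFunOrder R F H)

include hN hH in
omit [IsDomain R] [IsPrincipalIdealRing R] [Algebra R F] [IsFractionRing R F]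
  [IsScalarTower R F K] in
theorem prodTr_equivariant [Fintype N] {h : M → K} (hh : h ∈ H) :
    IsEquivariantFun F (prodTr N h) := by
  intro σ m
  unfold prodTr
  rw [map_prod]
  let _ := Fermat.Agent.TW.FF.ClosureSub68.subAction N hN
  refine Fintype.prod_equiv (MulAction.toPerm σ⁻¹ : Equiv.Perm N) _ _ (fun n => ?_)
  rw [← hH.equivariant h hh σ]
  congr 1
  change σ • m + (n : M) = σ • (m + σ⁻¹ • (n : M))
  rw [smul_add, smul_inv_smul]

include hfix hN hH in
/-- **the norm of `h ∈ H` over the stable subgroup `N` lies in `H`.** -/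
theorem prodTr_mem [Fintype N] {h : M → K} (hh : h ∈ H) : prodTr N h ∈ H := by
  classical
  have := hH.finite
  have : Module.IsTorsionFree R (M → K) := isTorsionFree_fun (F := F)
  have : Module.IsTorsionFree R H :=
    Function.Injective.moduleIsTorsionFree (fun h : H => (h : M → K)) Subtype.val_injective
      (fun _ _ => rfl)
  have : Module.Free R H := Module.free_of_finite_type_torsion_free'
  let b := Module.Free.chooseBasis R H
  refine mem_of_intComb (b := b) hfix hH ?_ (prodTr_equivariant N hN hH hh)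
  have e : prodTr N h = ∏ n : N, (fun m => h (m + n)) := by
    funext m
    rw [Finset.prod_apply]
    rfl
  rw [e]
  exact IntComb.prod _ _ (fun n _ => intComb_translate hH hh n)

/-- the norm, as a function on the quotient. -/
def prodTrQ [Fintype N] (h : M → K) : (M ⧸ N) → K := fun q => prodTr N h q.out

omit [IsDomain R] [IsPrincipalIdealRing R] [Field F] [Algebra R F] [IsFractionRing R F]
  [Algebra F K] [IsScalarTower R F K] [DistribMulAction (K ≃ₐ[F] K) M] [Algebra R K] in
@[simp] theorem prodTrQ_mk [Fintype N] (h : M → K) (m : M) :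
    prodTrQ N h (QuotientAddGroup.mk m) = prodTr N h m := by
  obtain ⟨n, hn⟩ := QuotientAddGroup.mk_out_eq_add N m
  rw [prodTrQ, hn, prodTr_add_mem N h m n.2]

include hfix hN hH in
/-- the norm of `h ∈ H` lies in the quotient order. -/
theorem prodTrQ_mem [Fintype N] {h : M → K} (hh : h ∈ H) : prodTrQ N h ∈ quotAlg N H := by
  change pullQ (R := R) N (prodTrQ N h) ∈ H
  have : pullQ (R := R) N (prodTrQ N h) = prodTr N h := funext fun m => prodTrQ_mk N _ m
  rw [this]
  exact prodTr_mem N hfix hN hH hh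

end Generic

/-! ### 2. The local case: exactness of the connected part -/

section Local

open Fermat.Agent.TW.FF.FlatModel68 Fermat.Agent.TW.FF.Spec72 Fermat.Agent.TW.FF.Red68

variable {p : ℕ} [Fact p.Prime] {M : Type} [AddCommGroup M] [DistribMulAction (GQp p) M]
  {H : Subalgebra ℤ_[p] (M → PadicAlgCl p)}

/-- the value at the unit point of a function of a function order lies in `ℤ_p`. -/
theorem exists_apply_zero_eq (hH : IsFunOrder ℤ_[p] ℚ_[p] H) {h : M → PadicAlgCl p} (hh : h ∈ H) :
    ∃ r : ℤ_[p], algebraMap ℤ_[p] (PadicAlgCl p) r = h 0 := by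
  have := hH.finite
  refine mem_range_of_fixed_of_isIntegral (R := ℤ_[p]) (F := ℚ_[p])
    fixedFieldEqBase_of_isGalois (fun σ => ?_) ?_
  · rw [← hH.equivariant h hh σ 0, smul_zero]
  · exact (Algebra.IsIntegral.isIntegral (R := ℤ_[p]) (⟨h, hh⟩ : H)).map (evalPt H.val (0 : M))

/-- the prime ideal of the functions of `H` which vanish at the reduction of the point `x`. -/
def redIdeal (hfin : Module.Finite ℤ_[p] H) (x : M) : Ideal H where
  carrier := {h | ‖(h : M → PadicAlgCl p) x‖ < 1}
  add_mem' := by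
    intro a c ha hc
    exact lt_of_le_of_lt (IsUltrametricDist.norm_add_le_max _ _) (max_lt ha hc)
  zero_mem' := by
    change ‖(0 : PadicAlgCl p)‖ < 1
    rw [norm_zero]
    exact one_pos
  smul_mem' := by
    intro c h hh
    change ‖(c : M → PadicAlgCl p) x * (h : M → PadicAlgCl p) x‖ < 1
    rw [norm_mul]
    have h1 := norm_apply_le_one hfin c.2 x
    have h2 : ‖(h : M → PadicAlgCl p) x‖ < 1 := hh
    nlinarith [norm_nonneg ((c : M → PadicAlgCl p) x), norm_nonneg ((h : M → PadicAlgCl p) x)]

theorem mem_redIdeal_iff (hfin : Module.Finite ℤ_[p] H) (x : M) (h : H) :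
    h ∈ redIdeal hfin x ↔ ‖(h : M → PadicAlgCl p) x‖ < 1 := Iff.rfl

theorem redIdeal_isPrime (hfin : Module.Finite ℤ_[p] H) (x : M) : (redIdeal hfin x).IsPrime := by
  refine ⟨?_, ?_⟩
  · intro htop
    have h1 : (1 : H) ∈ redIdeal hfin x := by rw [htop]; trivial
    rw [mem_redIdeal_iff] at h1
    change ‖(1 : PadicAlgCl p)‖ < 1 at h1
    rw [norm_one] at h1
    exact lt_irrefl _ h1
  · intro a c hac
    rw [mem_redIdeal_iff] at hac
    change ‖(a : M → PadicAlgCl p) x * (c : M → PadicAlgCl p) x‖ < 1 at hac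
    rw [norm_mul] at hac
    by_contra hcon
    push Not at hcon
    obtain ⟨h1, h2⟩ := hcon
    rw [mem_redIdeal_iff, not_lt] at h1 h2
    have := mul_le_mul h1 h2 zero_le_one (norm_nonneg _)
    rw [one_mul] at this
    exact absurd hac (not_lt.mpr this)

/-- a point `x` with `P_0 ≤ P_x` reduces to the unit point. -/
theorem mem_conn_of_redIdeal_le (hH : IsFunOrder ℤ_[p] ℚ_[p] H) {x : M}
    (hle : redIdeal hH.finite 0 ≤ redIdeal hH.finite x) : x ∈ conn hH := by
  intro h hh
  obtain ⟨r, hr⟩ := exists_apply_zero_eq hH hh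
  have hmem : (⟨h, hh⟩ - algebraMap ℤ_[p] H r : H) ∈ redIdeal hH.finite 0 := by
    rw [mem_redIdeal_iff]
    change ‖h 0 - algebraMap ℤ_[p] (PadicAlgCl p) r‖ < 1
    rw [hr, sub_self, norm_zero]
    exact one_pos
  have h2 := hle hmem
  rw [mem_redIdeal_iff] at h2
  change ‖h x - algebraMap ℤ_[p] (PadicAlgCl p) r‖ < 1 at h2
  rwa [hr] at h2

variable (N : AddSubgroup M) (hN : ∀ (σ : GQp p) (n : M), n ∈ N → σ • n ∈ N)

include hN in
/-- **exactness of the connected part**: a point of `M ⧸ N` which reduces to the unit point of the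
quotient order is the image of a point of `M` which reduces to the unit point. -/
theorem exists_add_mem_conn_of_cong_quot [Finite N] (hH : IsFunOrder ℤ_[p] ℚ_[p] H) (m : M)
    (h : Cong (quotAlg N H) (QuotientAddGroup.mk m : M ⧸ N) 0) : ∃ n ∈ N, m + n ∈ conn hH := by
  classical
  have := Fintype.ofFinite N
  have hfin := hH.finite
  by_contra hcon
  push Not at hcon
  -- `P_0` is contained in no `P_{m+n}`
  have hnle : ¬ ∃ n ∈ (Finset.univ : Finset N),
      redIdeal hfin 0 ≤ redIdeal hfin (m + (n : M)) := by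
    rintro ⟨n, -, hle⟩
    exact hcon n n.2 (mem_conn_of_redIdeal_le hH hle)
  have hav := (Ideal.subset_union_prime (s := (Finset.univ : Finset N))
    (f := fun n : N => redIdeal hfin (m + (n : M))) (⟨0, N.zero_mem⟩ : N) (⟨0, N.zero_mem⟩ : N)
    (fun n _ _ _ => redIdeal_isPrime hfin _) (I := redIdeal hfin 0)).not.mpr hnle
  rw [Set.not_subset] at hav
  obtain ⟨b, hb0, hbn⟩ := hav
  have hb0' : ‖(b : M → PadicAlgCl p) 0‖ < 1 := hb0
  have hbn' : ∀ n : N, ‖(b : M → PadicAlgCl p) (m + (n : M))‖ = 1 := by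
    intro n
    refine le_antisymm (norm_apply_le_one hfin b.2 _) ?_
    by_contra hlt
    push Not at hlt
    exact hbn (Set.mem_biUnion (Finset.mem_coe.mpr (Finset.mem_univ n)) hlt)
  -- the norm of `b`
  have hg := prodTrQ_mem (R := ℤ_[p]) (F := ℚ_[p]) N fixedFieldEqBase_of_isGalois hN hH b.2
  have h1 := h _ hg
  rw [← QuotientAddGroup.mk_zero N, prodTrQ_mk, prodTrQ_mk] at h1
  have hm1 : ‖prodTr N (b : M → PadicAlgCl p) m‖ = 1 := by
    unfold prodTr
    rw [norm_prod]
    exact Finset.prod_eq_one (fun n _ => hbn' n)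
  have h01 : ‖prodTr N (b : M → PadicAlgCl p) 0‖ < 1 := by
    unfold prodTr
    rw [norm_prod, ← Finset.mul_prod_erase Finset.univ _ (Finset.mem_univ (⟨0, N.zero_mem⟩ : N))]
    have h3 : ∏ n ∈ Finset.univ.erase (⟨0, N.zero_mem⟩ : N),
        ‖(b : M → PadicAlgCl p) (0 + (n : M))‖ ≤ 1 :=
      Finset.prod_le_one (fun n _ => norm_nonneg _) (fun n _ => norm_apply_le_one hfin b.2 _)
    have h4 : ‖(b : M → PadicAlgCl p) (0 + ((⟨0, N.zero_mem⟩ : N) : M))‖ < 1 := by
      rw [add_zero]
      exact hb0'
    have h5 : 0 ≤ ∏ n ∈ Finset.univ.erase (⟨0, N.zero_mem⟩ : N),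
        ‖(b : M → PadicAlgCl p) (0 + (n : M))‖ :=
      Finset.prod_nonneg (fun n _ => norm_nonneg _)
    nlinarith [norm_nonneg ((b : M → PadicAlgCl p) (0 + ((⟨0, N.zero_mem⟩ : N) : M)))]
  have h6 : ‖prodTr N (b : M → PadicAlgCl p) m‖ < 1 := by
    have e : prodTr N (b : M → PadicAlgCl p) m =
        (prodTr N (b : M → PadicAlgCl p) m - prodTr N (b : M → PadicAlgCl p) 0) +
          prodTr N (b : M → PadicAlgCl p) 0 := by ring
    rw [e]
    exact lt_of_le_of_lt (IsUltrametricDist.norm_add_le_max _ _) (max_lt h1 h01)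
  rw [hm1] at h6
  exact lt_irrefl _ h6

/-- **`conn (quotAlg N H) = π (conn H)`.** -/
theorem conn_quot_eq_map [Finite N] (hH : IsFunOrder ℤ_[p] ℚ_[p] H)
    (hQ : @IsFunOrder ℤ_[p] ℚ_[p] (PadicAlgCl p) (M ⧸ N) _ _ _ _ _ _
      (quotAction N hN).toMulAction (quotAlg N H)) :
    @conn p _ (M ⧸ N) (quotAlg N H) _ (quotAction N hN).toMulAction hQ =
      (conn hH).map (QuotientAddGroup.mk' N) := by
  ext q
  induction q using QuotientAddGroup.induction_on with
  | H m =>
    constructor
    · intro hq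
      obtain ⟨n, hn, hmn⟩ := exists_add_mem_conn_of_cong_quot N hN hH m hq
      refine ⟨m + n, hmn, ?_⟩
      change (QuotientAddGroup.mk (m + n) : M ⧸ N) = QuotientAddGroup.mk m
      rw [QuotientAddGroup.eq]
      simpa using hn
    · rintro ⟨x, hx, hxm⟩
      change (QuotientAddGroup.mk x : M ⧸ N) = QuotientAddGroup.mk m at hxm
      have := Cong.mk H N (m := x) (m' := 0) hx
      rw [hxm] at this
      exact this

include hN in
/-- the quotient order is a function order (`ClosureQuot68.IsFunOrder.quotient` over `ℤ_p`, where the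
hypothesis on the order of `N` is automatic). -/
theorem isFunOrder_quotAlg [Finite N] (hH : IsFunOrder ℤ_[p] ℚ_[p] H) :
    @IsFunOrder ℤ_[p] ℚ_[p] (PadicAlgCl p) (M ⧸ N) _ _ _ _ _ _
      (quotAction N hN).toMulAction (quotAlg N H) := by
  have := Fintype.ofFinite N
  refine IsFunOrder.quotient N fixedFieldEqBase_of_isGalois hN hH ?_
  exact_mod_cast (Fintype.card_ne_zero : Fintype.card N ≠ 0)

include hN in
/-- two points of `M` with congruent images in `M ⧸ N` are congruent up to an element of `N`. -/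
theorem exists_cong_add_of_cong_quot [Finite N] (hH : IsFunOrder ℤ_[p] ℚ_[p] H) (m m' : M)
    (h : Cong (quotAlg N H) (QuotientAddGroup.mk m : M ⧸ N) (QuotientAddGroup.mk m')) :
    ∃ n ∈ N, Cong H (m + n) m' := by
  let _ := (quotAction N hN).toMulAction
  have hQ := isFunOrder_quotAlg N hN hH
  have h1 := Cong.sub hQ h (Cong.refl (H := quotAlg N H) (QuotientAddGroup.mk m' : M ⧸ N))
  rw [sub_self, ← QuotientAddGroup.mk_sub] at h1
  obtain ⟨n, hn, hmem⟩ := exists_add_mem_conn_of_cong_quot N hN hH (m - m') h1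
  refine ⟨n, hn, ?_⟩
  have h2 := Cong.add hH hmem (Cong.refl (H := H) m')
  have e : m - m' + n + m' = m + n := by abel
  rwa [e, zero_add] at h2

end Local

end Fermat.Agent.MAZ.Flat.ConnQuot33
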