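/-
Programme MAZ (S15), chapter `r = 2` (P3), brick M3a (helper68).  **Marked models pass to quotients**;
the mark of the quotient is the IMAGE of the mark (exactness of the connected part: helper33's
`ConnQuot33.exists_add_mem_conn_of_cong_quot`).

* `MarkedModel.quotient` (quotient by a stable subgroup), `MarkedModel.of_surjective`
  (along an equivariant surjection, mark `M₀.map g`), `MarkedModel.of_subquotient`.
-/
import Mathlib
import Fermat.Agent.MAZ.Flat.Mark68
import Fermat.Agent.MAZ.Flat.ConnQuot33

set_option autoImplicit false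
set_option linter.unusedSectionVars false
set_option linter.style.haveILetI false

noncomputable section

namespace Fermat.Agent.MAZ.Flat.MarkQuot68

open Fermat.Agent.S19.Shell64 Fermat.Agent.TW.FF.FunOrder68 Fermat.Agent.TW.FF.FlatModel68
open Fermat.Agent.TW.FF.Spec72 Fermat.Agent.TW.FF.Red68 Fermat.Agent.TW.FF.Closure68
open Fermat.Agent.TW.FF.ClosureQuot68 Fermat.Agent.MAZ.Flat.Mark68 Fermat.Agent.MAZ.Flat.ConnQuot33

variable {p : ℕ} [Fact p.Prime] {M Q : Type} [AddCommGroup M] [AddCommGroup Q]

/-- **marked models pass to quotients by stable subgroups**; the mark is the image. -/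
theorem MarkedModel.quotient {act : GQp p → M → M} {M₀ : AddSubgroup M}
    (h : MarkedModel p M act M₀) (N : AddSubgroup M) (hN : ∀ τ n, n ∈ N → act τ n ∈ N)
    (act' : GQp p → M ⧸ N → M ⧸ N)
    (hact' : ∀ τ (m : M), act' τ (QuotientAddGroup.mk m) = QuotientAddGroup.mk (act τ m)) :
    MarkedModel p (M ⧸ N) act' (M₀.map (QuotientAddGroup.mk' N)) := by
  obtain ⟨inst, H, hH, hact, hM₀⟩ := h
  have hN' : ∀ (τ : GQp p) (n : M), n ∈ N → τ • n ∈ N := fun τ n hn => by
    rw [hact]
    exact hN τ n hn
  haveI : Finite M := IsFunOrder.finite_carrier (F := ℚ_[p]) hH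
  refine ⟨quotAction N hN', quotAlg N H, isFunOrder_quotAlg N hN' hH, fun τ q => ?_, fun q => ?_⟩
  · induction q using QuotientAddGroup.induction_on with
    | H m =>
      rw [hact', ← hact]
      rfl
  · induction q using QuotientAddGroup.induction_on with
    | H m =>
      constructor
      · rintro ⟨x, hx, hxm⟩
        change (QuotientAddGroup.mk x : M ⧸ N) = QuotientAddGroup.mk m at hxm
        have := Cong.mk H N (m := x) (m' := 0) ((hM₀ x).1 hx)
        rw [hxm] at this
        exact this
      · intro hq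
        obtain ⟨n, hn, hmn⟩ := exists_add_mem_conn_of_cong_quot N hN' hH m hq
        refine ⟨m + n, (hM₀ _).2 hmn, ?_⟩
        change (QuotientAddGroup.mk (m + n) : M ⧸ N) = QuotientAddGroup.mk m
        rw [QuotientAddGroup.eq]
        simpa using hn

/-- **marked models pass to equivariant quotients**; the mark is the image. -/
theorem MarkedModel.of_surjective {actM : GQp p → M → M} {actQ : GQp p → Q → Q}
    {M₀ : AddSubgroup M} (g : M →+ Q) (hsurj : Function.Surjective g)
    (hg : ∀ τ m, g (actM τ m) = actQ τ (g m)) (h : MarkedModel p M actM M₀) :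
    MarkedModel p Q actQ (M₀.map g) := by
  have hact0 : ∀ τ, actM τ 0 = 0 := by
    obtain ⟨inst, H, hH, hact, -⟩ := h
    intro τ
    rw [← hact]
    exact smul_zero τ
  have hQ0 : ∀ τ, actQ τ 0 = 0 := fun τ => by
    rw [← map_zero g, ← hg, hact0, map_zero]
  have hker : ∀ τ n, n ∈ g.ker → actM τ n ∈ g.ker := fun τ n hn => by
    rw [AddMonoidHom.mem_ker] at hn ⊢
    rw [hg, hn, hQ0]
  let φ : M ⧸ g.ker ≃+ Q := QuotientAddGroup.quotientKerEquivOfSurjective g hsurj
  have hφ : ∀ m : M, φ (QuotientAddGroup.mk m) = g m := fun m => rfl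
  have hq := MarkedModel.quotient h g.ker hker (fun τ q => φ.symm (actQ τ (φ q)))
    (fun τ m => by
      apply φ.injective
      rw [AddEquiv.apply_symm_apply, hφ, hφ, hg])
  have h2 := MarkedModel.of_addEquiv (actN := actQ) φ
    (fun τ q => by rw [AddEquiv.apply_symm_apply]) hq
  refine h2.mark_eq ?_
  ext y
  simp only [AddSubgroup.mem_map]
  constructor
  · rintro ⟨q, ⟨m, hm, rfl⟩, rfl⟩
    exact ⟨m, hm, rfl⟩
  · rintro ⟨m, hm, rfl⟩
    exact ⟨QuotientAddGroup.mk m, ⟨m, hm, rfl⟩, rfl⟩

/-- marked models pass to subquotients; the mark is the image of the preimage. -/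
theorem MarkedModel.of_subquotient {S : Type} [AddCommGroup S] {actM : GQp p → M → M}
    {actS : GQp p → S → S} {actQ : GQp p → Q → Q} {M₀ : AddSubgroup M}
    (i : S →+ M) (hinj : Function.Injective i) (hi : ∀ τ s, i (actS τ s) = actM τ (i s))
    (g : S →+ Q) (hsurj : Function.Surjective g) (hg : ∀ τ s, g (actS τ s) = actQ τ (g s))
    (h : MarkedModel p M actM M₀) : MarkedModel p Q actQ ((M₀.comap i).map g) :=
  MarkedModel.of_surjective g hsurj hg (MarkedModel.of_injective i hinj hi h)

end Fermat.Agent.MAZ.Flat.MarkQuot68
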