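/-
Programme MAZ (S15), chapter `r = 2` (P3), brick M3b (helper68).  **Marked models of `G_ℚ`-modules and of
their extension modules** `E_c = N × ℤ/r^k` (`FlatAdm68.extActN`), for the local action through
`localGaloisToGlobal r`: the twins of `FlatAdm68` §3 (`flat_ext_*`) with the marks threaded.

Module level: `marked_of_injective` (mark = preimage), `marked_of_surjective` (mark = image),
`marked_prod`.  Extensions (the mark of `E_c` is always `N₀.prod ⊥`): `marked_ext_zero`,
`marked_ext_add` (Baer sum), `marked_ext_neg`, `marked_ext_map` (push-out, needs `f N₀ ≤ N₀'`),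
`marked_ext_comap` (pull-back, needs `N₀ = f⁻¹ N₀'`), `marked_ext_dd` (coboundaries).
-/
import Mathlib
import Fermat.Agent.MAZ.Flat.MarkQuot68

set_option autoImplicit false
set_option linter.unusedSectionVars false
set_option linter.style.haveILetI false

noncomputable section

namespace Fermat.Agent.MAZ.Flat.MarkExt68

open Fermat.Agent.TW.FF.FlatModel68 Fermat.Agent.MAZ.Desc.FlatAdm68
open Fermat.Agent.MAZ.Desc.SelmerCone95 Fermat.Agent.MAZ.Flat.Mark68
open Fermat.Agent.MAZ.Flat.MarkQuot68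

variable (r : ℕ) [Fact r.Prime] (k : ℕ) {N N' : Type} [AddCommGroup N] [DistribMulAction GQ N]
  [AddCommGroup N'] [DistribMulAction GQ N']

/-! ### Module level -/

/-- restriction along an equivariant injection; the mark is the preimage. -/
theorem marked_of_injective {N₀' : AddSubgroup N'} (f : N →+ N')
    (hf : ∀ (σ : GQ) (x : N), f (σ • x) = σ • f x) (hinj : Function.Injective f)
    (h : MarkedModel r N' (fun (τ : GQp r) (x : N') => localGaloisToGlobal r τ • x) N₀') :
    MarkedModel r N (fun (τ : GQp r) (x : N) => localGaloisToGlobal r τ • x) (N₀'.comap f) :=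
  MarkedModel.of_injective f hinj (fun _ n => hf _ n) h

/-- quotient along an equivariant surjection; the mark is the image. -/
theorem marked_of_surjective {N₀ : AddSubgroup N} (f : N →+ N')
    (hf : ∀ (σ : GQ) (x : N), f (σ • x) = σ • f x) (hsurj : Function.Surjective f)
    (h : MarkedModel r N (fun (τ : GQp r) (x : N) => localGaloisToGlobal r τ • x) N₀) :
    MarkedModel r N' (fun (τ : GQp r) (x : N') => localGaloisToGlobal r τ • x) (N₀.map f) :=
  MarkedModel.of_surjective f hsurj (fun _ n => hf _ n) h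

/-- products. -/
theorem marked_prod {N₀ : AddSubgroup N} {N₀' : AddSubgroup N'}
    (h : MarkedModel r N (fun (τ : GQp r) (x : N) => localGaloisToGlobal r τ • x) N₀)
    (h' : MarkedModel r N' (fun (τ : GQp r) (x : N') => localGaloisToGlobal r τ • x) N₀') :
    MarkedModel r (N × N') (fun (τ : GQp r) (x : N × N') => localGaloisToGlobal r τ • x)
      (N₀.prod N₀') :=
  (MarkedModel.prod h h').act_congr (fun _ _ => rfl)

/-! ### Extension modules -/

/-- the split extension. -/
theorem marked_ext_zero {N₀ : AddSubgroup N}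
    (hN : MarkedModel r N (fun (τ : GQp r) (x : N) => localGaloisToGlobal r τ • x) N₀) :
    MarkedModel r (N × ZMod (r ^ k))
      (fun (τ : GQp r) => extActN r k (0 : GQ → N) (localGaloisToGlobal r τ))
      (N₀.prod (⊥ : AddSubgroup (ZMod (r ^ k)))) := by
  refine (MarkedModel.prod hN (MarkedModel.const (p := r) (ZMod (r ^ k)))).act_congr ?_
  intro τ x
  simp [extActN]

/-- **Baer sum.** -/
theorem marked_ext_add {N₀ : AddSubgroup N} {c c' : GQ → N}
    (hc : MarkedModel r (N × ZMod (r ^ k))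
      (fun (τ : GQp r) => extActN r k c (localGaloisToGlobal r τ))
      (N₀.prod (⊥ : AddSubgroup (ZMod (r ^ k)))))
    (hc' : MarkedModel r (N × ZMod (r ^ k))
      (fun (τ : GQp r) => extActN r k c' (localGaloisToGlobal r τ))
      (N₀.prod (⊥ : AddSubgroup (ZMod (r ^ k))))) :
    MarkedModel r (N × ZMod (r ^ k))
      (fun (τ : GQp r) => extActN r k (c + c') (localGaloisToGlobal r τ))
      (N₀.prod (⊥ : AddSubgroup (ZMod (r ^ k)))) := by
  let i : N × N × ZMod (r ^ k) →+ (N × ZMod (r ^ k)) × (N × ZMod (r ^ k)) :=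
    { toFun := fun x => ((x.1, x.2.2), (x.2.1, x.2.2))
      map_zero' := rfl
      map_add' := fun _ _ => rfl }
  let g : N × N × ZMod (r ^ k) →+ N × ZMod (r ^ k) :=
    { toFun := fun x => (x.1 + x.2.1, x.2.2)
      map_zero' := by simp
      map_add' := fun x y => by
        ext
        · simp only [Prod.fst_add, Prod.snd_add]
          abel
        · rfl }
  have h := MarkedModel.of_subquotient
    (actS := fun (τ : GQp r) (x : N × N × ZMod (r ^ k)) =>
      (localGaloisToGlobal r τ • x.1 + x.2.2.val • c (localGaloisToGlobal r τ),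
        localGaloisToGlobal r τ • x.2.1 + x.2.2.val • c' (localGaloisToGlobal r τ), x.2.2))
    (actQ := fun (τ : GQp r) => extActN r k (c + c') (localGaloisToGlobal r τ))
    i ?_ ?_ g ?_ ?_ (MarkedModel.prod hc hc')
  · refine h.mark_eq ?_
    ext ⟨n, a⟩
    simp only [AddSubgroup.mem_map, AddSubgroup.mem_comap, AddSubgroup.mem_prod,
      AddSubgroup.mem_bot]
    constructor
    · rintro ⟨x, ⟨⟨h1, h2⟩, ⟨h3, -⟩⟩, hx⟩
      have e1 : x.1 + x.2.1 = n := congrArg Prod.fst hx
      have e2 : x.2.2 = a := congrArg Prod.snd hx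
      exact ⟨e1 ▸ N₀.add_mem h1 h3, e2 ▸ h2⟩
    · rintro ⟨hn, ha⟩
      refine ⟨(n, 0, a), ⟨⟨hn, ha⟩, ⟨N₀.zero_mem, ha⟩⟩, ?_⟩
      change ((n + 0, a) : N × ZMod (r ^ k)) = (n, a)
      rw [add_zero]
  · intro x y hxy
    have h1 := congrArg (fun z => z.1.1) hxy
    have h2 := congrArg (fun z => z.2.1) hxy
    have h3 := congrArg (fun z => z.1.2) hxy
    exact Prod.ext h1 (Prod.ext h2 h3)
  · intro τ x
    rfl
  · rintro ⟨n, a⟩
    exact ⟨(n, 0, a), by simp [g]⟩
  · intro τ x
    change (localGaloisToGlobal r τ • x.1 + x.2.2.val • c (localGaloisToGlobal r τ) +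
        (localGaloisToGlobal r τ • x.2.1 + x.2.2.val • c' (localGaloisToGlobal r τ)), x.2.2) =
      (localGaloisToGlobal r τ • (x.1 + x.2.1) +
        x.2.2.val • (c (localGaloisToGlobal r τ) + c' (localGaloisToGlobal r τ)), x.2.2)
    rw [smul_add, smul_add]
    congr 1
    abel

/-- `E_{-c} ≅ E_c`. -/
theorem marked_ext_neg {N₀ : AddSubgroup N} {c : GQ → N}
    (hc : MarkedModel r (N × ZMod (r ^ k))
      (fun (τ : GQp r) => extActN r k c (localGaloisToGlobal r τ))
      (N₀.prod (⊥ : AddSubgroup (ZMod (r ^ k))))) :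
    MarkedModel r (N × ZMod (r ^ k))
      (fun (τ : GQp r) => extActN r k (-c) (localGaloisToGlobal r τ))
      (N₀.prod (⊥ : AddSubgroup (ZMod (r ^ k)))) := by
  have h := MarkedModel.of_addEquiv
    (actN := fun (τ : GQp r) => extActN r k (-c) (localGaloisToGlobal r τ))
    ((AddEquiv.neg N).prodCongr (AddEquiv.refl (ZMod (r ^ k)))) (fun τ x => ?_) hc
  · refine h.mark_eq ?_
    ext ⟨n, a⟩
    simp only [AddSubgroup.mem_map, AddSubgroup.mem_prod, AddSubgroup.mem_bot]
    constructor
    · rintro ⟨x, ⟨h1, h2⟩, hx⟩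
      have e1 : -x.1 = n := congrArg Prod.fst hx
      have e2 : x.2 = a := congrArg Prod.snd hx
      exact ⟨e1 ▸ N₀.neg_mem h1, e2 ▸ h2⟩
    · rintro ⟨hn, ha⟩
      refine ⟨(-n, a), ⟨N₀.neg_mem hn, ha⟩, ?_⟩
      change ((- -n, a) : N × ZMod (r ^ k)) = (n, a)
      rw [neg_neg]
  · change (-(localGaloisToGlobal r τ • x.1 + x.2.val • c (localGaloisToGlobal r τ)), x.2) =
      (localGaloisToGlobal r τ • (-x.1) + x.2.val • (-c (localGaloisToGlobal r τ)), x.2)
    rw [smul_neg, smul_neg, neg_add]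

/-- **push-out**: `E_{f ∘ c}` is a quotient of `E_c × N'`. -/
theorem marked_ext_map {N₀ : AddSubgroup N} {N₀' : AddSubgroup N'} (f : N →+ N')
    (hf : ∀ (σ : GQ) (x : N), f (σ • x) = σ • f x) (hf₀ : ∀ x ∈ N₀, f x ∈ N₀')
    (hN' : MarkedModel r N' (fun (τ : GQp r) (x : N') => localGaloisToGlobal r τ • x) N₀')
    {c : GQ → N}
    (hc : MarkedModel r (N × ZMod (r ^ k))
      (fun (τ : GQp r) => extActN r k c (localGaloisToGlobal r τ))
      (N₀.prod (⊥ : AddSubgroup (ZMod (r ^ k))))) :
    MarkedModel r (N' × ZMod (r ^ k))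
      (fun (τ : GQp r) => extActN r k (fun σ => f (c σ)) (localGaloisToGlobal r τ))
      (N₀'.prod (⊥ : AddSubgroup (ZMod (r ^ k)))) := by
  let g : (N × ZMod (r ^ k)) × N' →+ N' × ZMod (r ^ k) :=
    { toFun := fun x => (f x.1.1 + x.2, x.1.2)
      map_zero' := by simp
      map_add' := fun x y => by
        ext
        · simp only [Prod.fst_add, Prod.snd_add, map_add]
          abel
        · rfl }
  have h := MarkedModel.of_surjective
    (actQ := fun (τ : GQp r) => extActN r k (fun σ => f (c σ)) (localGaloisToGlobal r τ))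
    g ?_ ?_ (MarkedModel.prod hc hN')
  · refine h.mark_eq ?_
    ext ⟨n, a⟩
    simp only [AddSubgroup.mem_map, AddSubgroup.mem_prod, AddSubgroup.mem_bot]
    constructor
    · rintro ⟨x, ⟨⟨h1, h2⟩, h3⟩, hx⟩
      have e1 : f x.1.1 + x.2 = n := congrArg Prod.fst hx
      have e2 : x.1.2 = a := congrArg Prod.snd hx
      exact ⟨e1 ▸ N₀'.add_mem (hf₀ _ h1) h3, e2 ▸ h2⟩
    · rintro ⟨hn, ha⟩
      refine ⟨((0, a), n), ⟨⟨N₀.zero_mem, ha⟩, hn⟩, ?_⟩
      change ((f 0 + n, a) : N' × ZMod (r ^ k)) = (n, a)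
      rw [map_zero, zero_add]
  · rintro ⟨n', a⟩
    exact ⟨((0, a), n'), by simp [g]⟩
  · intro τ x
    change (f (localGaloisToGlobal r τ • x.1.1 + x.1.2.val • c (localGaloisToGlobal r τ)) +
        localGaloisToGlobal r τ • x.2, x.1.2) =
      (localGaloisToGlobal r τ • (f x.1.1 + x.2) +
        x.1.2.val • f (c (localGaloisToGlobal r τ)), x.1.2)
    rw [map_add, hf, map_nsmul, smul_add]
    congr 1
    abel

/-- **pull-back**: `E_c` embeds into `E_{f ∘ c}` for `f` injective. -/
theorem marked_ext_comap {N₀ : AddSubgroup N} {N₀' : AddSubgroup N'} (f : N →+ N')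
    (hf : ∀ (σ : GQ) (x : N), f (σ • x) = σ • f x) (hinj : Function.Injective f)
    (hf₀ : ∀ x, x ∈ N₀ ↔ f x ∈ N₀') {c : GQ → N}
    (hc : MarkedModel r (N' × ZMod (r ^ k))
      (fun (τ : GQp r) => extActN r k (fun σ => f (c σ)) (localGaloisToGlobal r τ))
      (N₀'.prod (⊥ : AddSubgroup (ZMod (r ^ k))))) :
    MarkedModel r (N × ZMod (r ^ k))
      (fun (τ : GQp r) => extActN r k c (localGaloisToGlobal r τ))
      (N₀.prod (⊥ : AddSubgroup (ZMod (r ^ k)))) := by
  let i : N × ZMod (r ^ k) →+ N' × ZMod (r ^ k) :=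
    { toFun := fun x => (f x.1, x.2)
      map_zero' := by simp
      map_add' := fun x y => by simp }
  have h := MarkedModel.of_injective
    (actN := fun (τ : GQp r) => extActN r k c (localGaloisToGlobal r τ)) i ?_ ?_ hc
  · refine h.mark_eq ?_
    ext ⟨n, a⟩
    simp only [AddSubgroup.mem_comap, AddSubgroup.mem_prod, AddSubgroup.mem_bot]
    change f n ∈ N₀' ∧ a = 0 ↔ n ∈ N₀ ∧ a = 0
    rw [hf₀]
  · intro x y hxy
    have h1 := congrArg Prod.fst hxy
    have h2 := congrArg Prod.snd hxy
    exact Prod.ext (hinj h1) h2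
  · intro τ x
    change (f (localGaloisToGlobal r τ • x.1 + x.2.val • c (localGaloisToGlobal r τ)), x.2) =
      (localGaloisToGlobal r τ • f x.1 + x.2.val • f (c (localGaloisToGlobal r τ)), x.2)
    rw [map_add, hf, map_nsmul]

/-- the extension of a coboundary splits: `(n, a) ↦ (n + a • m, a)`. -/
theorem marked_ext_dd {N₀ : AddSubgroup N}
    (hN : MarkedModel r N (fun (τ : GQp r) (x : N) => localGaloisToGlobal r τ • x) N₀)
    (m : N) (hm : r ^ k • m = 0) :
    MarkedModel r (N × ZMod (r ^ k))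
      (fun (τ : GQp r) => extActN r k (dd m : GQ → N) (localGaloisToGlobal r τ))
      (N₀.prod (⊥ : AddSubgroup (ZMod (r ^ k)))) := by
  let φ : N × ZMod (r ^ k) →+ N × ZMod (r ^ k) :=
    { toFun := fun x => (x.1 + x.2.val • m, x.2)
      map_zero' := by simp
      map_add' := fun x y => by
        ext
        · simp only [Prod.fst_add, Prod.snd_add]
          rw [val_add_nsmul68 hm]
          abel
        · rfl }
  have h := MarkedModel.of_injective
    (actN := fun (τ : GQp r) => extActN r k (dd m : GQ → N) (localGaloisToGlobal r τ)) φ ?_ ?_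
    (marked_ext_zero r k hN)
  · refine h.mark_eq ?_
    ext ⟨n, a⟩
    simp only [AddSubgroup.mem_comap, AddSubgroup.mem_prod, AddSubgroup.mem_bot]
    change n + a.val • m ∈ N₀ ∧ a = 0 ↔ n ∈ N₀ ∧ a = 0
    constructor
    · rintro ⟨h1, rfl⟩
      rw [ZMod.val_zero, zero_smul, add_zero] at h1
      exact ⟨h1, rfl⟩
    · rintro ⟨h1, rfl⟩
      rw [ZMod.val_zero, zero_smul, add_zero]
      exact ⟨h1, rfl⟩
  · intro x y hxy
    have h2 : x.2 = y.2 := by
      have := congrArg Prod.snd hxy
      exact this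
    have h1 : x.1 + x.2.val • m = y.1 + y.2.val • m := by
      have := congrArg Prod.fst hxy
      exact this
    rw [h2] at h1
    exact Prod.ext (add_right_cancel h1) h2
  · intro τ x
    change (localGaloisToGlobal r τ • x.1 + x.2.val • (localGaloisToGlobal r τ • m - m) +
        x.2.val • m, x.2) =
      (localGaloisToGlobal r τ • (x.1 + x.2.val • m) + x.2.val • (0 : N), x.2)
    rw [smul_zero, add_zero, smul_add, smul_sub, smul_comm (localGaloisToGlobal r τ) x.2.val m]
    congr 1
    abel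

end Fermat.Agent.MAZ.Flat.MarkExt68
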