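/-
Programme MAZ (S15), G-side, brick CARTIER (helper68).

**Cartier duality for function orders.**  `R` a PID with fraction field `F`, `K ⊇ F` with
`K^{Aut(K/F)} = F`, `M` a finite abelian group with an action of `Γ = Aut(K/F)`, `H ⊆ Fun(M, K)` a function
order (`FunOrder68.IsFunOrder`: the function form of a finite flat commutative Hopf algebra over `R` with
generic fibre `M`).  Let `D` be an abelian group with a `Γ`-action and `e : D → M → K` a bi-multiplicative,
equivariant pairing which separates the points of `D` (`D` = a `Γ`-stable group of characters of `M`,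
e.g. `Hom(M, μ_n)` with the contragredient action).  Then the `R`-MEASURES on `M` which are `R`-valued on
`H` (`= Hom_R(H, R)`, an order in the group algebra `K[M]`: closed under convolution because `H` is closed
under the translation comultiplication), evaluated on the characters, form a function order on `D`:
the function form of the Cartier dual Hopf algebra.

* `pair68 ℓ g = ∑ m, ℓ m * g m`, `conv68`, `evMeas68 e ℓ d = pair68 ℓ (e d)`;
* `exists_dualMeasures`   : a basis of `H` is a `K`-basis of `Fun(M, K)` (dual measures);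
* `dualAlg68 H e …`       : the dual order, a subalgebra of `Fun(D, K)`;
* `isFunOrder_dualAlg68`  : it is a function order;
* `ModelOf.cartier`, `FlatModel.cartier` : models are closed under `M ↦ D`.
-/
import Mathlib
import Fermat.Agent.TW.FF.Closure68
import Fermat.Agent.FFJ.Glue.GlobalClosure68

set_option autoImplicit false
set_option linter.unusedSectionVars false
set_option linter.style.haveILetI false

noncomputable section

namespace Fermat.Agent.MAZ.Flat.Cartier68

open Fermat.Agent.S19.Shell64 Fermat.Agent.TW.FF.FunOrder68 Fermat.Agent.TW.FF.ReducedModel68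
open Fermat.Agent.TW.FF.FlatModel68 Fermat.Agent.TW.FF.Closure68
open Fermat.Agent.FFJ.Glue.GlobalClosure68

/-! ### 1. Measures on a finite group -/

section Measures

variable {K M : Type} [Field K] [AddCommGroup M] [Fintype M]

/-- the pairing of a measure `ℓ` with a function `g`. -/
def pair68 (ℓ g : M → K) : K := ∑ m, ℓ m * g m

theorem pair68_add_left (ℓ ℓ' g : M → K) : pair68 (ℓ + ℓ') g = pair68 ℓ g + pair68 ℓ' g := by
  simp only [pair68, Pi.add_apply, add_mul, Finset.sum_add_distrib]

theorem pair68_add_right (ℓ g g' : M → K) : pair68 ℓ (g + g') = pair68 ℓ g + pair68 ℓ g' := by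
  simp only [pair68, Pi.add_apply, mul_add, Finset.sum_add_distrib]

theorem pair68_smul_left (c : K) (ℓ g : M → K) : pair68 (c • ℓ) g = c * pair68 ℓ g := by
  simp only [pair68, Pi.smul_apply, smul_eq_mul, Finset.mul_sum, mul_assoc]

theorem pair68_smul_right (c : K) (ℓ g : M → K) : pair68 ℓ (c • g) = c * pair68 ℓ g := by
  simp only [pair68, Pi.smul_apply, smul_eq_mul, Finset.mul_sum]
  refine Finset.sum_congr rfl fun m _ => ?_
  ring

theorem pair68_zero_left (g : M → K) : pair68 (0 : M → K) g = 0 := by
  simp [pair68]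

theorem pair68_sum_right {ι : Type*} (s : Finset ι) (ℓ : M → K) (g : ι → M → K) :
    pair68 ℓ (∑ i ∈ s, g i) = ∑ i ∈ s, pair68 ℓ (g i) := by
  classical
  induction s using Finset.induction_on with
  | empty => simp [pair68]
  | insert a t hat ih => rw [Finset.sum_insert hat, Finset.sum_insert hat, pair68_add_right, ih]

theorem pair68_sum_left {ι : Type*} (s : Finset ι) (ℓ : ι → M → K) (g : M → K) :
    pair68 (∑ i ∈ s, ℓ i) g = ∑ i ∈ s, pair68 (ℓ i) g := by
  classical
  induction s using Finset.induction_on with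
  | empty => simp [pair68]
  | insert a t hat ih => rw [Finset.sum_insert hat, Finset.sum_insert hat, pair68_add_left, ih]

theorem pair68_single_left [DecidableEq M] (m : M) (c : K) (g : M → K) :
    pair68 (Pi.single m c) g = c * g m := by
  unfold pair68
  rw [Finset.sum_eq_single m]
  · rw [Pi.single_eq_same]
  · intro b _ hb
    rw [Pi.single_eq_of_ne hb, zero_mul]
  · intro h
    exact absurd (Finset.mem_univ m) h

theorem pair68_single_right [DecidableEq M] (ℓ : M → K) (m : M) (c : K) :
    pair68 ℓ (Pi.single m c) = ℓ m * c := by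
  unfold pair68
  rw [Finset.sum_eq_single m]
  · rw [Pi.single_eq_same]
  · intro b _ hb
    rw [Pi.single_eq_of_ne hb, mul_zero]
  · intro h
    exact absurd (Finset.mem_univ m) h

theorem pair68_neg_right (ℓ g : M → K) : pair68 ℓ (-g) = -pair68 ℓ g := by
  simp only [pair68, Pi.neg_apply, mul_neg, Finset.sum_neg_distrib]

theorem pair68_sub_right (ℓ g g' : M → K) : pair68 ℓ (g - g') = pair68 ℓ g - pair68 ℓ g' := by
  rw [sub_eq_add_neg, pair68_add_right, pair68_neg_right, sub_eq_add_neg]

theorem pair68_algebraMap_smul_right {R : Type} [CommRing R] [Algebra R K] (r : R) (ℓ g : M → K) :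
    pair68 ℓ (r • g) = algebraMap R K r * pair68 ℓ g := by
  rw [← pair68_smul_right]
  congr 1
  funext m
  rw [Pi.smul_apply, Pi.smul_apply, Algebra.smul_def, smul_eq_mul]

/-- convolution of measures. -/
def conv68 (ℓ ℓ' : M → K) : M → K := fun x => ∑ m, ℓ m * ℓ' (x - m)

theorem pair68_conv68 (ℓ ℓ' g : M → K) :
    pair68 (conv68 ℓ ℓ') g = ∑ m, ∑ m', ℓ m * ℓ' m' * g (m + m') := by
  unfold pair68 conv68
  simp only [Finset.sum_mul]
  rw [Finset.sum_comm]
  refine Finset.sum_congr rfl fun m _ => ?_
  refine Fintype.sum_equiv (Equiv.subRight m) _ _ fun x => ?_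
  simp only [Equiv.subRight_apply, add_sub_cancel]

theorem sum_sum_mul_sum68 (ℓ ℓ' : M → K) {n : ℕ} (a c : Fin n → M → K) :
    ∑ m, ∑ m', ℓ m * ℓ' m' * ∑ i, a i m * c i m' = ∑ i, pair68 ℓ (a i) * pair68 ℓ' (c i) := by
  unfold pair68
  calc ∑ m, ∑ m', ℓ m * ℓ' m' * ∑ i, a i m * c i m'
      = ∑ m, ∑ m', ∑ i, (ℓ m * a i m) * (ℓ' m' * c i m') := by
        refine Finset.sum_congr rfl fun m _ => Finset.sum_congr rfl fun m' _ => ?_
        rw [Finset.mul_sum]
        refine Finset.sum_congr rfl fun i _ => ?_
        ring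
    _ = ∑ m, ∑ i, ∑ m', (ℓ m * a i m) * (ℓ' m' * c i m') := by
        refine Finset.sum_congr rfl fun m _ => Finset.sum_comm
    _ = ∑ i, ∑ m, ∑ m', (ℓ m * a i m) * (ℓ' m' * c i m') := Finset.sum_comm
    _ = ∑ i, (∑ m, ℓ m * a i m) * (∑ m', ℓ' m' * c i m') := by
        refine Finset.sum_congr rfl fun i _ => ?_
        rw [Finset.sum_mul_sum]

end Measures

/-! ### 2. A basis of a function order is a `K`-basis of all functions -/

section Dual

variable {R F K M : Type} [CommRing R] [IsDomain R] [IsPrincipalIdealRing R] [Field F] [Field K]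
  [Algebra R F] [IsFractionRing R F] [Algebra F K] [Algebra R K] [IsScalarTower R F K]
  [AddCommGroup M] [DistribMulAction (K ≃ₐ[F] K) M] [Fintype M]

/-- the rank of a function order is the order of the group. -/
theorem card_basis_eq (hfix : FixedFieldEqBase F K) {H : Subalgebra R (M → K)}
    (hH : IsFunOrder R F H) {I : Type} [Fintype I] (b : Module.Basis I R H) :
    Fintype.card I = Fintype.card M := by
  classical
  have hli : LinearIndependent K (fun i => ((b i : H) : M → K)) :=
    basis_linearIndependent hfix H hH.equivariant b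
  have h1 := hli.fintype_card_le_finrank
  rw [Module.finrank_fintype_fun_eq_card] at h1
  have hinj : Function.Injective (evalPt (K := K) H.val) :=
    evalPt_injective H.val fun m m' hmm => by
      obtain ⟨h, hh, hne⟩ := hH.separates m m' hmm
      exact ⟨⟨h, hh⟩, hne⟩
  have h2 := (linearIndependent_algHom_basis b (evalPt (K := K) H.val) hinj).fintype_card_le_finrank
  rw [Module.finrank_fintype_fun_eq_card] at h2
  omega

/-- **dual measures**: for a basis `b` of a function order `H` there are measures `ℓ i` on `M` with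
`⟨ℓ i, b i'⟩ = δ_{i i'}` and `g = ∑ i, ⟨ℓ i, g⟩ • b i` for every function `g`. -/
theorem exists_dualMeasures (hfix : FixedFieldEqBase F K) {H : Subalgebra R (M → K)}
    (hH : IsFunOrder R F H) {I : Type} [Fintype I] [DecidableEq I] (b : Module.Basis I R H) :
    ∃ ℓ : I → M → K, (∀ i i', pair68 (ℓ i) ((b i' : H) : M → K) = if i = i' then 1 else 0) ∧
      ∀ g : M → K, g = ∑ i, pair68 (ℓ i) g • ((b i : H) : M → K) := by
  classical
  have hli : LinearIndependent K (fun i => ((b i : H) : M → K)) :=
    basis_linearIndependent hfix H hH.equivariant b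
  have hcard : Fintype.card I = Module.finrank K (M → K) := by
    rw [Module.finrank_fintype_fun_eq_card]
    exact card_basis_eq hfix hH b
  let 𝔅 : Module.Basis I K (M → K) := basisOfLinearIndependentOfCardEqFinrank' _ hli hcard
  have h𝔅 : ∀ i, 𝔅 i = ((b i : H) : M → K) := fun i => by
    rw [coe_basisOfLinearIndependentOfCardEqFinrank']
  have hpair : ∀ (i : I) (g : M → K),
      pair68 (fun m => 𝔅.coord i (Pi.single m 1)) g = 𝔅.coord i g := by
    intro i g
    conv_rhs => rw [pi_eq_sum_univ' g]
    rw [map_sum]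
    unfold pair68
    refine Finset.sum_congr rfl fun m _ => ?_
    rw [map_smul, smul_eq_mul, mul_comm]
  refine ⟨fun i m => 𝔅.coord i (Pi.single m 1), fun i i' => ?_, fun g => ?_⟩
  · rw [hpair, ← h𝔅, Module.Basis.coord_apply, Module.Basis.repr_self, Finsupp.single_apply]
    by_cases h : i' = i
    · subst h
      simp
    · rw [if_neg h, if_neg (Ne.symm h)]
  · conv_lhs => rw [← 𝔅.sum_repr g]
    refine Finset.sum_congr rfl fun i _ => ?_
    rw [hpair, h𝔅, Module.Basis.coord_apply]

end Dual

/-! ### 3. Character pairings and the dual order -/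

/-- a bi-multiplicative, equivariant pairing `e : D → M → K` separating the points of `D`:
`D` is a `Γ`-stable group of characters of `M`. -/
structure IsCharPairing (F : Type) {K M D : Type} [Field F] [Field K] [Algebra F K]
    [AddCommGroup M] [MulAction (K ≃ₐ[F] K) M] [AddCommGroup D] [MulAction (K ≃ₐ[F] K) D]
    (e : D → M → K) : Prop where
  map_add : ∀ d m m', e d (m + m') = e d m * e d m'
  map_zero : ∀ d, e d 0 = 1
  add_map : ∀ d d' m, e (d + d') m = e d m * e d' m
  equivariant : ∀ (σ : K ≃ₐ[F] K) d m, e (σ • d) (σ • m) = σ (e d m)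
  separates : ∀ d d', d ≠ d' → ∃ m, e d m ≠ e d' m

section DualAlg

variable {R F K M D : Type} [CommRing R] [IsDomain R] [IsPrincipalIdealRing R] [Field F] [Field K]
  [Algebra R F] [IsFractionRing R F] [Algebra F K] [Algebra R K] [IsScalarTower R F K]
  [AddCommGroup M] [DistribMulAction (K ≃ₐ[F] K) M] [Fintype M]
  [AddCommGroup D] [MulAction (K ≃ₐ[F] K) D]

/-- a measure is *integral* for `H` if it is `R`-valued on `H`. -/
def IsIntMeas (H : Subalgebra R (M → K)) (ℓ : M → K) : Prop :=
  ∀ h ∈ H, pair68 ℓ h ∈ (algebraMap R K).range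

/-- the function on the characters defined by a measure. -/
def evMeas68 (e : D → M → K) (ℓ : M → K) : D → K := fun d => pair68 ℓ (e d)

/-- integral measures are closed under convolution (because `H` is closed under comultiplication). -/
theorem IsIntMeas.conv {H : Subalgebra R (M → K)}
    (hcomul : ∀ h ∈ H, ∃ (n : ℕ) (a b : Fin n → H), ∀ m m' : M,
      h (m + m') = ∑ i, (a i : M → K) m * (b i : M → K) m')
    {ℓ ℓ' : M → K} (hℓ : IsIntMeas H ℓ) (hℓ' : IsIntMeas H ℓ') : IsIntMeas H (conv68 ℓ ℓ') := by
  intro h hh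
  obtain ⟨n, a, c, hac⟩ := hcomul h hh
  rw [pair68_conv68]
  have : ∑ m, ∑ m', ℓ m * ℓ' m' * h (m + m') =
      ∑ i, pair68 ℓ ((a i : H) : M → K) * pair68 ℓ' ((c i : H) : M → K) := by
    rw [← sum_sum_mul_sum68]
    refine Finset.sum_congr rfl fun m _ => Finset.sum_congr rfl fun m' _ => ?_
    rw [hac]
  rw [this]
  exact Subring.sum_mem _ fun i _ => Subring.mul_mem _ (hℓ _ (a i).2) (hℓ' _ (c i).2)

theorem evMeas68_conv68 {e : D → M → K} (he : IsCharPairing F e) (ℓ ℓ' : M → K) :
    evMeas68 e (conv68 ℓ ℓ') = evMeas68 e ℓ * evMeas68 e ℓ' := by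
  funext d
  rw [Pi.mul_apply]
  unfold evMeas68
  rw [pair68_conv68]
  unfold pair68
  rw [Finset.sum_mul_sum]
  refine Finset.sum_congr rfl fun m _ => Finset.sum_congr rfl fun m' _ => ?_
  rw [he.map_add]
  ring

variable (hfix : FixedFieldEqBase F K) {H : Subalgebra R (M → K)} (hH : IsFunOrder R F H)
  {e : D → M → K} (he : IsCharPairing F e)

/-- **the dual order**: the integral measures, as functions on the characters. -/
def dualAlg68 : Subalgebra R (D → K) where
  carrier := {f | ∃ ℓ : M → K, IsIntMeas H ℓ ∧ f = evMeas68 e ℓ}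
  mul_mem' := by
    rintro _ _ ⟨ℓ, hℓ, rfl⟩ ⟨ℓ', hℓ', rfl⟩
    exact ⟨conv68 ℓ ℓ', hℓ.conv hH.comul hℓ', (evMeas68_conv68 he ℓ ℓ').symm⟩
  one_mem' := by
    classical
    haveI := hH.finite
    refine ⟨Pi.single 0 1, fun h hh => ?_, ?_⟩
    · rw [pair68_single_left, one_mul]
      obtain ⟨x, hx⟩ := eval_zero_mem_range hfix H hH.equivariant hh
      exact ⟨x, hx⟩
    · funext d
      unfold evMeas68
      rw [pair68_single_left, one_mul, he.map_zero]
      rfl
  add_mem' := by
    rintro _ _ ⟨ℓ, hℓ, rfl⟩ ⟨ℓ', hℓ', rfl⟩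
    refine ⟨ℓ + ℓ', fun h hh => ?_, ?_⟩
    · rw [pair68_add_left]
      exact Subring.add_mem _ (hℓ h hh) (hℓ' h hh)
    · funext d
      unfold evMeas68
      rw [Pi.add_apply, pair68_add_left]
  zero_mem' := by
    refine ⟨0, fun h hh => ?_, ?_⟩
    · rw [pair68_zero_left]
      exact Subring.zero_mem _
    · funext d
      unfold evMeas68
      rw [pair68_zero_left]
      rfl
  algebraMap_mem' := by
    classical
    haveI := hH.finite
    intro x
    refine ⟨Pi.single 0 (algebraMap R K x), fun h hh => ?_, ?_⟩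
    · rw [pair68_single_left]
      obtain ⟨y, hy⟩ := eval_zero_mem_range hfix H hH.equivariant hh
      exact Subring.mul_mem _ ⟨x, rfl⟩ ⟨y, hy⟩
    · funext d
      unfold evMeas68
      rw [pair68_single_left, he.map_zero, mul_one]
      rfl

theorem mem_dualAlg68 {f : D → K} :
    f ∈ dualAlg68 hfix hH he ↔ ∃ ℓ : M → K, IsIntMeas H ℓ ∧ f = evMeas68 e ℓ := Iff.rfl

/-! ### 4. The dual order is a function order -/

section Main

variable {I : Type} [Fintype I] [DecidableEq I] (b : Module.Basis I R H) {L : I → M → K}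
  (hL1 : ∀ i i', pair68 (L i) ((b i' : H) : M → K) = if i = i' then 1 else 0)
  (hL2 : ∀ g : M → K, g = ∑ i, pair68 (L i) g • ((b i : H) : M → K))

include hL2 in
/-- a measure is determined by its values on the basis. -/
theorem pair68_expand (ℓ g : M → K) :
    pair68 ℓ g = ∑ i, pair68 (L i) g * pair68 ℓ ((b i : H) : M → K) := by
  conv_lhs => rw [hL2 g]
  rw [pair68_sum_right]
  refine Finset.sum_congr rfl fun i _ => ?_
  rw [pair68_smul_right]

include hL2 in
theorem measure_expand (ℓ : M → K) (m : M) :
    ℓ m = ∑ i, L i m * pair68 ℓ ((b i : H) : M → K) := by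
  classical
  have h := pair68_expand b hL2 ℓ (Pi.single m 1)
  rw [pair68_single_right, mul_one] at h
  rw [h]
  refine Finset.sum_congr rfl fun i _ => ?_
  rw [pair68_single_right, mul_one]

include hL1 in
/-- the dual measures are integral. -/
theorem isIntMeas_dual (i : I) : IsIntMeas H (L i) := by
  intro h hh
  have hsum : h = ∑ i', (b.repr ⟨h, hh⟩ i') • ((b i' : H) : M → K) := by
    have h1 := congrArg (fun x : H => (x : M → K)) (b.sum_repr ⟨h, hh⟩).symm
    simp only [AddSubmonoidClass.coe_finsetSum] at h1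
    exact h1
  rw [hsum, pair68_sum_right]
  refine Subring.sum_mem _ fun i' _ => ?_
  rw [pair68_algebraMap_smul_right, hL1]
  exact Subring.mul_mem _ ⟨_, rfl⟩ (by split_ifs <;> simp)

include hH hL2 in
/-- **integral measures are equivariant.** -/
theorem IsIntMeas.equivariant {ℓ : M → K} (hℓ : IsIntMeas H ℓ) (σ : K ≃ₐ[F] K) (m : M) :
    ℓ (σ • m) = σ (ℓ m) := by
  -- the twisted measure
  set ℓ' : M → K := fun m => σ.symm (ℓ (σ • m)) with hℓ'
  have hpair : ∀ h ∈ H, pair68 ℓ' h = pair68 ℓ h := by
    intro h hh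
    obtain ⟨x, hx⟩ := hℓ h hh
    have hfixed : σ.symm (pair68 ℓ h) = pair68 ℓ h := by
      rw [← hx]
      change σ.symm (algebraMap R K x) = algebraMap R K x
      rw [IsScalarTower.algebraMap_apply R F K, AlgEquiv.commutes]
    rw [← hfixed]
    unfold pair68
    rw [map_sum]
    refine (Fintype.sum_equiv (MulAction.toPerm σ) _ _ fun m => ?_)
    rw [map_mul, MulAction.toPerm_apply, hH.equivariant h hh σ m, AlgEquiv.symm_apply_apply]
  have h1 := measure_expand b hL2 ℓ' m
  have h2 := measure_expand b hL2 ℓ m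
  have h3 : ℓ' m = ℓ m := by
    rw [h1, h2]
    refine Finset.sum_congr rfl fun i _ => ?_
    rw [hpair _ (b i).2]
  have h4 : σ (ℓ' m) = ℓ (σ • m) := by
    rw [hℓ']
    exact σ.apply_symm_apply _
  rw [← h4, h3]

include hL1 hL2 in
/-- the dual order is a function order (with a chosen basis and its dual measures). -/
theorem isFunOrder_dualAlg68_aux : IsFunOrder R F (dualAlg68 hfix hH he) := by
  classical
  refine ⟨?_, ?_, ?_, ?_⟩
  · -- finite: spanned by the dual measures
    have hspan : Subalgebra.toSubmodule (dualAlg68 hfix hH he) =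
        Submodule.span R (Set.range fun i => evMeas68 e (L i)) := by
      apply le_antisymm
      · rintro f ⟨ℓ, hℓ, rfl⟩
        choose r hr using fun i => hℓ _ (b i).2
        have hsum : evMeas68 e ℓ = ∑ i, r i • evMeas68 e (L i) := by
          funext d
          rw [Finset.sum_apply]
          unfold evMeas68
          rw [pair68_expand b hL2 ℓ (e d)]
          refine Finset.sum_congr rfl fun i _ => ?_
          rw [Pi.smul_apply, Algebra.smul_def, ← hr i, mul_comm]
        rw [hsum]
        exact Submodule.sum_mem _ fun i _ =>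
          Submodule.smul_mem _ _ (Submodule.subset_span ⟨i, rfl⟩)
      · rw [Submodule.span_le]
        rintro _ ⟨i, rfl⟩
        exact ⟨L i, isIntMeas_dual b hL1 i, rfl⟩
    have hfg : (Subalgebra.toSubmodule (dualAlg68 hfix hH he)).FG := by
      rw [hspan]
      exact Submodule.fg_span (Set.finite_range _)
    exact Module.Finite.iff_fg.2 hfg
  · -- equivariant
    rintro _ ⟨ℓ, hℓ, rfl⟩ σ d
    unfold evMeas68 pair68
    rw [map_sum]
    refine (Fintype.sum_equiv (MulAction.toPerm σ) _ _ fun m => ?_).symm
    rw [map_mul, MulAction.toPerm_apply, hℓ.equivariant hH b hL2 σ m, he.equivariant]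
  · -- separates
    intro d d' hdd
    obtain ⟨m, hm⟩ := he.separates d d' hdd
    by_contra hcon
    push Not at hcon
    have heq : e d = e d' := by
      rw [hL2 (e d), hL2 (e d')]
      refine Finset.sum_congr rfl fun i _ => ?_
      have h1 := hcon (evMeas68 e (L i)) ⟨L i, isIntMeas_dual b hL1 i, rfl⟩
      unfold evMeas68 at h1
      rw [h1]
    exact hm (congrFun heq m)
  · -- comultiplication
    rintro _ ⟨ℓ, hℓ, rfl⟩
    choose c hc using fun p : I × I => hℓ _ (H.mul_mem (b p.1).2 (b p.2).2)
    let eqv : Fin (Fintype.card (I × I)) ≃ I × I := (Fintype.equivFin (I × I)).symm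
    have hmemL : ∀ i, evMeas68 e (L i) ∈ dualAlg68 hfix hH he := fun i =>
      ⟨L i, isIntMeas_dual b hL1 i, rfl⟩
    refine ⟨Fintype.card (I × I),
      fun j => ⟨c (eqv j) • evMeas68 e (L (eqv j).1),
        Subalgebra.smul_mem _ (hmemL _) _⟩,
      fun j => ⟨evMeas68 e (L (eqv j).2), hmemL _⟩, fun d d' => ?_⟩
    change evMeas68 e ℓ (d + d') =
      ∑ j, (c (eqv j) • evMeas68 e (L (eqv j).1)) d * evMeas68 e (L (eqv j).2) d'
    rw [Equiv.sum_comp eqv
      (fun q : I × I => (c q • evMeas68 e (L q.1)) d * evMeas68 e (L q.2) d'),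
      Fintype.sum_prod_type]
    have hprod : e (d + d') = ∑ i, ∑ i', (pair68 (L i) (e d) * pair68 (L i') (e d')) •
        (((b i : H) : M → K) * ((b i' : H) : M → K)) := by
      have h1 : e (d + d') = e d * e d' := by
        funext m
        exact he.add_map d d' m
      rw [h1]
      conv_lhs => rw [hL2 (e d), hL2 (e d')]
      rw [Finset.sum_mul_sum]
      refine Finset.sum_congr rfl fun i _ => Finset.sum_congr rfl fun i' _ => ?_
      rw [smul_mul_smul_comm]
    unfold evMeas68
    rw [hprod, pair68_sum_right]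
    refine Finset.sum_congr rfl fun i _ => ?_
    rw [pair68_sum_right]
    refine Finset.sum_congr rfl fun i' _ => ?_
    rw [pair68_smul_right, Pi.smul_apply, Algebra.smul_def]
    have hcc := hc (i, i')
    change algebraMap R K (c (i, i')) = pair68 ℓ (((b i : H) : M → K) * ((b i' : H) : M → K)) at hcc
    rw [← hcc]
    ring

end Main

/-- **CARTIER DUALITY FOR FUNCTION ORDERS.**  If `H` is a function order on `M` and `e : D → M → K` is a
character pairing, the dual order is a function order on `D`. -/
theorem isFunOrder_dualAlg68 : IsFunOrder R F (dualAlg68 hfix hH he) := by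
  classical
  haveI := hH.finite
  have : Module.IsTorsionFree R (M → K) := isTorsionFree_fun (F := F)
  have : Module.IsTorsionFree R H :=
    Function.Injective.moduleIsTorsionFree (fun h : H => (h : M → K)) Subtype.val_injective
      (fun _ _ => rfl)
  have : Module.Free R H := Module.free_of_finite_type_torsion_free'
  let b := Module.Free.chooseBasis R H
  obtain ⟨L, hL1, hL2⟩ := exists_dualMeasures hfix hH b
  exact isFunOrder_dualAlg68_aux hfix hH he b hL1 hL2

end DualAlg

/-! ### 5. Models are closed under Cartier duality -/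

section Model

variable {R F K : Type} [CommRing R] [IsDomain R] [IsPrincipalIdealRing R] [Field F] [Field K]
  [Algebra R F] [IsFractionRing R F] [Algebra F K] [Algebra R K] [IsScalarTower R F K]

/-- **models are closed under Cartier duality**: if `M` is a model and `D` is a group of characters of
`M` (pairing `e : D → M → K`, equivariant for the given actions), then `D` is a model. -/
theorem ModelOf.cartier (hfix : FixedFieldEqBase F K) {M : Type} [AddCommGroup M]
    {act : (K ≃ₐ[F] K) → M → M} (h : ModelOf R F K M act)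
    {D : Type} [AddCommGroup D] [DistribMulAction (K ≃ₐ[F] K) D] (e : D → M → K)
    (h1 : ∀ d m m', e d (m + m') = e d m * e d m') (h0 : ∀ d, e d 0 = 1)
    (h2 : ∀ d d' m, e (d + d') m = e d m * e d' m)
    (h3 : ∀ (σ : K ≃ₐ[F] K) d m, e (σ • d) (act σ m) = σ (e d m))
    (h4 : ∀ d d', d ≠ d' → ∃ m, e d m ≠ e d' m) :
    ModelOf R F K D (fun σ d => σ • d) := by
  obtain ⟨H, i1, i2, hfin, -, -, e₀, hmul, hact⟩ := h
  let _ := galDistribMulAction (F := F) e₀ hmul
  have hH : IsFunOrder R F (redAlg e₀) := isFunOrder_redAlg (F := F) e₀ hmul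
  have hsm : ∀ (σ : K ≃ₐ[F] K) (m : M), σ • m = act σ m := fun σ m =>
    (act_eq_galSmul e₀ act hact σ m).symm
  have : Finite M := IsFunOrder.finite_carrier hH
  cases nonempty_fintype M
  have he : IsCharPairing F e := ⟨h1, h0, h2, fun σ d m => by rw [hsm]; exact h3 σ d m, h4⟩
  exact IsFunOrder.modelOf hfix (isFunOrder_dualAlg68 hfix hH he) _ (fun _ _ => rfl)

end Model

section Global

local notation "Qb" => AlgebraicClosure ℚ

variable {r : ℕ} [Fact r.Prime]

/-- **`FlatModel` is closed under Cartier duality** (pairing form). -/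
theorem FlatModel.cartier {M : Type} [AddCommGroup M] {act : GQ → M → M} (h : FlatModel r M act)
    {D : Type} [AddCommGroup D] [DistribMulAction GQ D] (e : D → M → Qb)
    (h1 : ∀ d m m', e d (m + m') = e d m * e d m') (h0 : ∀ d, e d 0 = 1)
    (h2 : ∀ d d' m, e (d + d') m = e d m * e d' m)
    (h3 : ∀ (σ : GQ) d m, e (σ • d) (act σ m) = σ (e d m))
    (h4 : ∀ d d', d ≠ d' → ∃ m, e d m ≠ e d' m) :
    FlatModel r D (fun σ d => σ • d) :=
  ModelOf.cartier (R := Zloc r) (F := ℚ) fixedFieldEqBase_Qbar h e h1 h0 h2 h3 h4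

/-- **`FlatModel` is closed under `M ↦ Hom(M, μ)`**: `D` a group of homomorphisms `M → C` (evaluation
`ev`, equivariant: `ev (σ • d) (σ • m) = σ • ev d m`, i.e. the contragredient action), `C` a group of roots
of unity (`j : C → ℚ̄` multiplicative, equivariant, injective). -/
theorem FlatModel.cartier_hom {M D C : Type} [AddCommGroup M] [DistribMulAction GQ M]
    [AddCommGroup D] [DistribMulAction GQ D] [AddCommGroup C] [DistribMulAction GQ C]
    (hM : FlatModel r M (fun σ x => σ • x)) (ev : D → M → C)
    (ev_add_right : ∀ d m m', ev d (m + m') = ev d m + ev d m')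
    (ev_add_left : ∀ d d' m, ev (d + d') m = ev d m + ev d' m)
    (ev_smul : ∀ (σ : GQ) d m, ev (σ • d) (σ • m) = σ • ev d m)
    (ev_inj : ∀ d d', (∀ m, ev d m = ev d' m) → d = d')
    (j : C → Qb) (j_add : ∀ c c', j (c + c') = j c * j c') (j_zero : j 0 = 1)
    (j_smul : ∀ (σ : GQ) c, j (σ • c) = σ (j c)) (j_inj : Function.Injective j) :
    FlatModel r D (fun σ d => σ • d) := by
  have ev_zero : ∀ d, ev d 0 = 0 := fun d => by
    have := ev_add_right d 0 0
    rw [add_zero] at this
    exact left_eq_add.mp this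
  refine FlatModel.cartier hM (fun d m => j (ev d m)) ?_ ?_ ?_ ?_ ?_
  · intro d m m'
    rw [ev_add_right, j_add]
  · intro d
    rw [ev_zero, j_zero]
  · intro d d' m
    rw [ev_add_left, j_add]
  · intro σ d m
    rw [ev_smul, j_smul]
  · intro d d' hdd
    by_contra hcon
    push Not at hcon
    exact hdd (ev_inj d d' fun m => j_inj (hcon m))

end Global

end Fermat.Agent.MAZ.Flat.Cartier68
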