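/-
Programme MAZ, pole P3 (`r = 2`, marked orders; vocabulary of helper68), brick M6 part 1 (helper33):
**Cartier duality of function orders and stable subgroups / quotients.**

`H ⊆ Fun(M, K)` a function order, `e : D → M → K` a bi-character (`IsBiChar`: the action-free part of
`Cartier68.IsCharPairing`), `N ≤ M` a subgroup, `ann he N ≤ D` its annihilator.
* `eSub he N : D ⧸ ann he N → N → K` and `eQuot he N : ann he N → M ⧸ N → K`, the induced bi-characters;
* (C3a, the inclusion used by the count) `exists_isIntMeas_of_sub` : every integral measure for the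
  restricted order `resAlg N H` is the restriction of an integral measure for `H`
  (`dual(H|_N) ⊆ (dual H) / ann N`);
* (C3b, the inclusion used by the count) `exists_isIntMeas_of_quot` : every integral measure for the
  quotient order `quotAlg N H` lifts to an integral measure for `H` with the same values on the characters
  trivial on `N` (`dual(H / N) ⊆ (dual H)|_{ann N}`); uses helper68's `ClosureQuot68.exists_retraction`
  (the quotient order is a direct summand of `H`) and `Cartier68.exists_dualMeasures`.
-/
import Mathlib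
import Fermat.Agent.MAZ.Flat.Cartier68

set_option autoImplicit false
set_option linter.unusedSectionVars false
set_option linter.style.haveILetI false

noncomputable section

namespace Fermat.Agent.MAZ.Flat.CartierRes33

open Fermat.Agent.S19.Shell64 Fermat.Agent.TW.FF.FunOrder68 Fermat.Agent.TW.FF.ClosureQuot68
open Fermat.Agent.TW.FF.ClosureSub68 Fermat.Agent.MAZ.Flat.Cartier68

/-! ### 1. Bi-characters -/

/-- a bi-multiplicative pairing `e : D → M → K` which separates the points of `D` from `0`. -/
structure IsBiChar {K M D : Type} [Field K] [AddCommGroup M] [AddCommGroup D] (e : D → M → K) :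
    Prop where
  map_add : ∀ d m m', e d (m + m') = e d m * e d m'
  map_zero : ∀ d, e d 0 = 1
  add_map : ∀ d d' m, e (d + d') m = e d m * e d' m
  sep : ∀ d, d ≠ 0 → ∃ m, e d m ≠ 1

section BiChar

variable {K M D : Type} [Field K] [AddCommGroup M] [AddCommGroup D] {e : D → M → K}

theorem IsBiChar.ne_zero (he : IsBiChar e) (d : D) (m : M) : e d m ≠ 0 := by
  intro h
  have h1 := he.map_add d m (-m)
  rw [add_neg_cancel, he.map_zero, h, zero_mul] at h1
  exact one_ne_zero h1

theorem IsBiChar.zero_left (he : IsBiChar e) (m : M) : e 0 m = 1 := by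
  have h1 := he.add_map 0 0 m
  rw [add_zero] at h1
  have h2 := he.ne_zero 0 m
  field_simp at h1
  exact h1.symm

theorem IsBiChar.neg_left (he : IsBiChar e) (d : D) (m : M) : e (-d) m = (e d m)⁻¹ := by
  have h1 := he.add_map d (-d) m
  rw [add_neg_cancel, he.zero_left] at h1
  exact eq_inv_of_mul_eq_one_right h1.symm

/-- a character pairing in the sense of `Cartier68` is a bi-character. -/
theorem isBiChar_of_isCharPairing {F : Type} [Field F] [Algebra F K] [MulAction (K ≃ₐ[F] K) M]
    [MulAction (K ≃ₐ[F] K) D] (he : IsCharPairing F e) : IsBiChar e := by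
  have h0 : IsBiChar (fun (_ : Unit) (m : M) => e 0 m) :=
    ⟨fun _ m m' => he.map_add 0 m m', fun _ => he.map_zero 0,
      fun _ _ m => by
        have := he.add_map 0 0 m
        rwa [add_zero] at this,
      fun d hd => absurd (Subsingleton.elim d 0) hd⟩
  have hz : ∀ m, e 0 m = 1 := fun m => h0.zero_left m
  refine ⟨he.map_add, he.map_zero, he.add_map, fun d hd => ?_⟩
  obtain ⟨m, hm⟩ := he.separates d 0 hd
  exact ⟨m, by rwa [hz m] at hm⟩

variable (he : IsBiChar e) (N : AddSubgroup M)

/-- the annihilator of `N` in `D`. -/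
def ann : AddSubgroup D where
  carrier := {d | ∀ n ∈ N, e d n = 1}
  zero_mem' := fun n _ => he.zero_left n
  add_mem' := fun {a b} ha hb n hn => by rw [he.add_map, ha n hn, hb n hn, one_mul]
  neg_mem' := fun {a} ha n hn => by rw [he.neg_left, ha n hn, inv_one]

theorem mem_ann_iff (d : D) : d ∈ ann he N ↔ ∀ n ∈ N, e d n = 1 := Iff.rfl

/-- the bi-character `D ⧸ ann N → N → K`. -/
def eSub : (D ⧸ ann he N) → N → K := fun q n =>
  Quotient.liftOn' q (fun d => e d (n : M)) (by
    intro a b hab
    rw [QuotientAddGroup.leftRel_apply] at hab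
    have h1 : b = a + (-a + b) := by abel
    change e a (n : M) = e b (n : M)
    rw [h1, he.add_map, hab (n : M) n.2, mul_one])

@[simp] theorem eSub_mk (d : D) (n : N) :
    eSub he N (QuotientAddGroup.mk d) n = e d (n : M) := rfl

theorem isBiChar_eSub : IsBiChar (eSub he N) := by
  refine ⟨fun q n n' => ?_, fun q => ?_, fun q q' n => ?_, fun q hq => ?_⟩
  · induction q using QuotientAddGroup.induction_on with
    | H d => simp only [eSub_mk, AddSubgroup.coe_add, he.map_add]
  · induction q using QuotientAddGroup.induction_on with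
    | H d => simp only [eSub_mk, AddSubgroup.coe_zero, he.map_zero]
  · induction q using QuotientAddGroup.induction_on with
    | H d =>
      induction q' using QuotientAddGroup.induction_on with
      | H d' =>
        rw [← QuotientAddGroup.mk_add]
        simp only [eSub_mk, he.add_map]
  · induction q using QuotientAddGroup.induction_on with
    | H d =>
      have hd : d ∉ ann he N := fun h => hq ((QuotientAddGroup.eq_zero_iff d).2 h)
      rw [mem_ann_iff] at hd
      push Not at hd
      obtain ⟨n, hn, hne⟩ := hd
      exact ⟨⟨n, hn⟩, hne⟩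

/-- the bi-character `ann N → M ⧸ N → K`. -/
def eQuot : ann he N → (M ⧸ N) → K := fun d q =>
  Quotient.liftOn' q (fun m => e (d : D) m) (by
    intro a b hab
    rw [QuotientAddGroup.leftRel_apply] at hab
    have h1 : b = a + (-a + b) := by abel
    change e (d : D) a = e (d : D) b
    rw [h1, he.map_add, d.2 _ hab, mul_one])

@[simp] theorem eQuot_mk (d : ann he N) (m : M) :
    eQuot he N d (QuotientAddGroup.mk m) = e (d : D) m := rfl

theorem isBiChar_eQuot : IsBiChar (eQuot he N) := by
  refine ⟨fun d q q' => ?_, fun d => ?_, fun d d' q => ?_, fun d hd => ?_⟩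
  · induction q using QuotientAddGroup.induction_on with
    | H m =>
      induction q' using QuotientAddGroup.induction_on with
      | H m' =>
        rw [← QuotientAddGroup.mk_add]
        simp only [eQuot_mk, he.map_add]
  · rw [← QuotientAddGroup.mk_zero]
    simp only [eQuot_mk, he.map_zero]
  · induction q using QuotientAddGroup.induction_on with
    | H m => simp only [eQuot_mk, AddSubgroup.coe_add, he.add_map]
  · have hd' : (d : D) ≠ 0 := fun h => hd (Subtype.ext h)
    obtain ⟨m, hm⟩ := he.sep _ hd'
    exact ⟨QuotientAddGroup.mk m, hm⟩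

end BiChar

/-! ### 2. Integral measures of the restricted order -/

section Sub

variable {R K M D : Type} [CommRing R] [Field K] [Algebra R K] [AddCommGroup M] [AddCommGroup D]
  [Fintype M] {e : D → M → K} (he : IsBiChar e) (N : AddSubgroup M) [Fintype N]
  (H : Subalgebra R (M → K))

/-- extension of a function on `N` by zero. -/
def extZero (ℓ : N → K) : M → K := fun m => by
  classical
  exact if h : m ∈ N then ℓ ⟨m, h⟩ else 0

theorem pair68_extZero (ℓ : N → K) (g : M → K) :
    pair68 (extZero N ℓ) g = pair68 ℓ (fun n : N => g (n : M)) := by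
  classical
  unfold pair68
  have h1 : ∑ m, extZero N ℓ m * g m =
      ∑ m ∈ Finset.univ.filter (fun m => m ∈ N), extZero N ℓ m * g m := by
    rw [Finset.sum_filter]
    refine Finset.sum_congr rfl (fun m _ => ?_)
    split_ifs with h
    · rfl
    · unfold extZero
      rw [dif_neg h, zero_mul]
  rw [h1, Finset.sum_subtype (Finset.univ.filter (fun m => m ∈ N)) (p := fun m => m ∈ N)
    (fun x => by simp)]
  refine Finset.sum_congr rfl (fun n _ => ?_)
  unfold extZero
  rw [dif_pos n.2]

theorem extZero_apply_coe (ℓ : N → K) (n : N) : extZero N ℓ (n : M) = ℓ n := by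
  unfold extZero
  rw [dif_pos n.2]

/-- **(C3a)** every integral measure for the restricted order is the restriction of an integral measure
for `H`: `dual (H|_N) ⊆ (dual H) / ann N`. -/
theorem exists_isIntMeas_of_sub {ℓN : N → K} (hℓ : IsIntMeas (resAlg N H) ℓN) :
    ∃ ℓ : M → K, IsIntMeas H ℓ ∧
      ∀ d : D, evMeas68 e ℓ d = evMeas68 (eSub he N) ℓN (QuotientAddGroup.mk d) := by
  refine ⟨extZero N ℓN, fun h hh => ?_, fun d => ?_⟩
  · rw [pair68_extZero]
    exact hℓ _ ⟨h, hh, rfl⟩
  · unfold evMeas68
    rw [pair68_extZero]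
    rfl

end Sub

/-! ### 3. Integral measures of the quotient order -/

section Quot

variable {R F K M D : Type} [CommRing R] [IsDomain R] [IsPrincipalIdealRing R] [Field F] [Field K]
  [Algebra R F] [IsFractionRing R F] [Algebra F K] [Algebra R K] [IsScalarTower R F K]
  [AddCommGroup M] [DistribMulAction (K ≃ₐ[F] K) M] [Fintype M] [AddCommGroup D]

/-- a function order has a basis with dual measures (`Cartier68.exists_dualMeasures` with a chosen
basis). -/
theorem exists_basis_dualMeasures (hfix : FixedFieldEqBase F K) {H : Subalgebra R (M → K)}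
    (hH : IsFunOrder R F H) :
    ∃ (I : Type) (_ : Fintype I) (_ : DecidableEq I) (b : Module.Basis I R H) (L : I → M → K),
      (∀ i i', pair68 (L i) ((b i' : H) : M → K) = if i = i' then 1 else 0) ∧
        ∀ g : M → K, g = ∑ i, pair68 (L i) g • ((b i : H) : M → K) := by
  classical
  haveI := hH.finite
  have : Module.IsTorsionFree R (M → K) := isTorsionFree_fun (F := F)
  have : Module.IsTorsionFree R H :=
    Function.Injective.moduleIsTorsionFree (fun h : H => (h : M → K)) Subtype.val_injective
      (fun _ _ => rfl)
  have : Module.Free R H := Module.free_of_finite_type_torsion_free'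
  let b := Module.Free.chooseBasis R H
  obtain ⟨L, hL1, hL2⟩ := exists_dualMeasures hfix hH b
  exact ⟨_, inferInstance, inferInstance, b, L, hL1, hL2⟩

variable {e : D → M → K} (he : IsBiChar e) (N : AddSubgroup M) [Fintype N] [Fintype (M ⧸ N)]
  {H : Subalgebra R (M → K)}

/-- **(C3b)** every integral measure for the quotient order lifts to an integral measure for `H` with the
same values on the characters which are trivial on `N`: `dual (H / N) ⊆ (dual H)|_{ann N}`. -/
theorem exists_isIntMeas_of_quot (hfix : FixedFieldEqBase F K)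
    (hN : ∀ (σ : K ≃ₐ[F] K) (n : M), n ∈ N → σ • n ∈ N) (hH : IsFunOrder R F H)
    (hcard : (Fintype.card N : R) ≠ 0) {ℓQ : (M ⧸ N) → K} (hℓ : IsIntMeas (quotAlg N H) ℓQ) :
    ∃ ℓ : M → K, IsIntMeas H ℓ ∧
      ∀ d : ann he N, evMeas68 e ℓ (d : D) = evMeas68 (eQuot he N) ℓQ d := by
  classical
  haveI := hH.finite
  obtain ⟨ρ, hρ⟩ := exists_retraction (F := F) N (H := H)
  obtain ⟨I, _, _, b, L, hL1, hL2⟩ := exists_basis_dualMeasures hfix hH
  -- the values of the functional on the basis
  choose c hc using fun i => hℓ _ (ρ (b i)).2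
  let ℓ : M → K := ∑ i, algebraMap R K (c i) • L i
  have hℓb : ∀ j, pair68 ℓ ((b j : H) : M → K) = algebraMap R K (c j) := by
    intro j
    rw [pair68_sum_left]
    simp only [pair68_smul_left, hL1]
    rw [Finset.sum_eq_single j]
    · rw [if_pos rfl, mul_one]
    · intro i _ hij
      rw [if_neg hij, mul_zero]
    · intro hj
      exact absurd (Finset.mem_univ j) hj
  -- the functional is `ℓQ ∘ ρ` on `H`
  have hℓH : ∀ h : H, pair68 ℓ (h : M → K) = pair68 ℓQ ((ρ h : quotAlg N H) : (M ⧸ N) → K) := by
    intro h
    have h1 : (h : M → K) = ∑ j, (b.repr h j) • ((b j : H) : M → K) := by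
      have := congrArg (fun x : H => (x : M → K)) (b.sum_repr h).symm
      simp only [AddSubmonoidClass.coe_finsetSum] at this
      exact this
    have h2 : ((ρ h : quotAlg N H) : (M ⧸ N) → K) =
        ∑ j, (b.repr h j) • ((ρ (b j) : quotAlg N H) : (M ⧸ N) → K) := by
      conv_lhs => rw [← b.sum_repr h]
      rw [map_sum]
      simp only [map_smul, AddSubmonoidClass.coe_finsetSum]
      rfl
    rw [h1, h2, pair68_sum_right, pair68_sum_right]
    refine Finset.sum_congr rfl (fun j _ => ?_)
    rw [pair68_algebraMap_smul_right, pair68_algebraMap_smul_right, hℓb j, hc j]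
  have hint : IsIntMeas H ℓ := by
    intro h hh
    rw [hℓH ⟨h, hh⟩]
    exact hℓ _ (ρ ⟨h, hh⟩).2
  -- on the pull-backs of the functions of the quotient order
  have hpull : ∀ g : quotAlg N H, pair68 ℓ (fun m => (g : (M ⧸ N) → K) (QuotientAddGroup.mk m)) =
      pair68 ℓQ (g : (M ⧸ N) → K) := by
    intro g
    have := hℓH (quotIncl N H g)
    rw [hρ g] at this
    exact this
  -- on all functions of the quotient
  letI := quotAction N hN
  have hQ : IsFunOrder R F (quotAlg N H) := IsFunOrder.quotient N hfix hN hH hcard
  obtain ⟨I', _, _, b', L', -, hL2'⟩ := exists_basis_dualMeasures hfix hQ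
  have hall : ∀ g : (M ⧸ N) → K, pair68 ℓ (fun m => g (QuotientAddGroup.mk m)) = pair68 ℓQ g := by
    intro g
    have h1 : (fun m : M => g (QuotientAddGroup.mk m)) =
        ∑ i, pair68 (L' i) g • (fun m : M => ((b' i : quotAlg N H) : (M ⧸ N) → K)
          (QuotientAddGroup.mk m)) := by
      funext m
      conv_lhs => rw [hL2' g]
      simp only [Finset.sum_apply, Pi.smul_apply]
    rw [h1, pair68_sum_right]
    conv_rhs => rw [hL2' g]
    rw [pair68_sum_right]
    refine Finset.sum_congr rfl (fun i _ => ?_)
    rw [pair68_smul_right, pair68_smul_right, hpull (b' i)]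
  refine ⟨ℓ, hint, fun d => ?_⟩
  unfold evMeas68
  rw [← hall (eQuot he N d)]
  rfl

end Quot

end Fermat.Agent.MAZ.Flat.CartierRes33
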