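/-
Programme MAZ, pole P3 (`r = 2`, marked orders; vocabulary of helper68), brick M6 part 2 (helper33):
**THE COUNT `#conn H · #conn H* ≤ #M`** for function orders over `ℤ_2` on modules with a stable filtration
whose graded pieces have order `2` (no local-local part).

* generic: `ann_stable`, `isCharPairing_eSub`, `isCharPairing_eQuot` (the induced pairings of
  `CartierRes33` are character pairings in the sense of `Cartier68`);
* local (`K = PadicAlgCl p`): `DCong H e` (congruence of characters for the dual order, action-free form),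
  `card_cong_zero_eq` (exactness of the connected part: `#conn H = #conn H|_N · #conn H/N`, from
  `Red68.cong_resAlg_iff` and `ConnQuot33`), `card_dcong_zero_le` (the dual side, from the two inclusions
  of `CartierRes33`), `count_step`;
* `count_base_two` : the case of a group of order `2` over `ℤ_2`;
* `count_le_of_class`, `card_conn_mul_card_conn_dual_le_two` : the induction.
-/
import Mathlib
import Fermat.Agent.MAZ.Flat.ConnQuot33
import Fermat.Agent.MAZ.Flat.CartierRes33

set_option autoImplicit false
set_option linter.unusedSectionVars false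
set_option linter.style.haveILetI false

noncomputable section

namespace Fermat.Agent.MAZ.Flat.CartierCount33

open Fermat.Agent.S19.Shell64 Fermat.Agent.TW.FF.FunOrder68 Fermat.Agent.TW.FF.ClosureQuot68
open Fermat.Agent.TW.FF.ClosureSub68 Fermat.Agent.MAZ.Flat.Cartier68
open Fermat.Agent.MAZ.Flat.CartierRes33 Fermat.Agent.MAZ.Flat.ConnQuot33

/-! ### 1. The induced pairings are character pairings -/

section Generic

variable {F K M D : Type} [Field F] [Field K] [Algebra F K] [AddCommGroup M]
  [DistribMulAction (K ≃ₐ[F] K) M] [AddCommGroup D] [DistribMulAction (K ≃ₐ[F] K) D]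
  {e : D → M → K}

theorem isBiChar_separates (hb : IsBiChar e) (d d' : D) (hdd : d ≠ d') : ∃ m, e d m ≠ e d' m := by
  obtain ⟨m, hm⟩ := hb.sep (d - d') (sub_ne_zero.mpr hdd)
  refine ⟨m, fun h => hm ?_⟩
  have h1 : e d m = e (d - d') m * e d' m := by rw [← hb.add_map, sub_add_cancel]
  rw [h] at h1
  have h2 := hb.ne_zero d' m
  field_simp at h1
  exact h1.symm

variable (he : IsCharPairing F e) (N : AddSubgroup M)
  (hN : ∀ (σ : K ≃ₐ[F] K) (n : M), n ∈ N → σ • n ∈ N)

include hN in
theorem ann_stable (σ : K ≃ₐ[F] K) (d : D) (hd : d ∈ ann (isBiChar_of_isCharPairing he) N) :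
    σ • d ∈ ann (isBiChar_of_isCharPairing he) N := by
  intro n hn
  have h1 := he.equivariant σ d (σ⁻¹ • n)
  rw [smul_inv_smul] at h1
  rw [h1, hd _ (hN σ⁻¹ n hn), map_one]

theorem isCharPairing_eSub :
    @IsCharPairing F K N (D ⧸ ann (isBiChar_of_isCharPairing he) N) _ _ _ _
      (subAction N hN).toMulAction _
      (quotAction (ann (isBiChar_of_isCharPairing he) N) (ann_stable he N hN)).toMulAction
      (eSub (isBiChar_of_isCharPairing he) N) := by
  have hb := isBiChar_eSub (isBiChar_of_isCharPairing he) N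
  letI := subAction N hN
  letI := quotAction (ann (isBiChar_of_isCharPairing he) N) (ann_stable he N hN)
  refine ⟨hb.map_add, hb.map_zero, hb.add_map, fun σ q n => ?_, isBiChar_separates hb⟩
  induction q using QuotientAddGroup.induction_on with
  | H d => exact he.equivariant σ d (n : M)

theorem isCharPairing_eQuot :
    @IsCharPairing F K (M ⧸ N) (ann (isBiChar_of_isCharPairing he) N) _ _ _ _
      (quotAction N hN).toMulAction _
      (subAction (ann (isBiChar_of_isCharPairing he) N) (ann_stable he N hN)).toMulAction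
      (eQuot (isBiChar_of_isCharPairing he) N) := by
  have hb := isBiChar_eQuot (isBiChar_of_isCharPairing he) N
  letI := quotAction N hN
  letI := subAction (ann (isBiChar_of_isCharPairing he) N) (ann_stable he N hN)
  refine ⟨hb.map_add, hb.map_zero, hb.add_map, fun σ d q => ?_, isBiChar_separates hb⟩
  induction q using QuotientAddGroup.induction_on with
  | H m => exact he.equivariant σ (d : D) m

end Generic

/-! ### 2. A counting lemma for subgroups -/

section Count

variable {M : Type} [AddCommGroup M] [Finite M]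

/-- `#C = #(C ∩ N) · #(image of C in M ⧸ N)`. -/
theorem card_eq_card_inf_mul_card_map (C N : AddSubgroup M) :
    Nat.card C = Nat.card {n : N // (n : M) ∈ C} *
      Nat.card {q : M ⧸ N // ∃ c ∈ C, (QuotientAddGroup.mk c : M ⧸ N) = q} := by
  let φ : C →+ M ⧸ N := (QuotientAddGroup.mk' N).comp C.subtype
  have h1 := AddSubgroup.card_eq_card_quotient_mul_card_addSubgroup φ.ker
  have h2 : Nat.card (C ⧸ φ.ker) = Nat.card φ.range :=
    Nat.card_congr (QuotientAddGroup.quotientKerEquivRange φ).toEquiv
  have h3 : Nat.card φ.range =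
      Nat.card {q : M ⧸ N // ∃ c ∈ C, (QuotientAddGroup.mk c : M ⧸ N) = q} := by
    refine Nat.card_congr (Equiv.subtypeEquivRight (fun q => ?_))
    constructor
    · rintro ⟨c, rfl⟩
      exact ⟨c, c.2, rfl⟩
    · rintro ⟨c, hc, rfl⟩
      exact ⟨⟨c, hc⟩, rfl⟩
  have h4 : Nat.card φ.ker = Nat.card {n : N // (n : M) ∈ C} := by
    refine Nat.card_congr
      { toFun := fun x => ⟨⟨(x.1 : M), (QuotientAddGroup.eq_zero_iff _).1 x.2⟩, x.1.2⟩
        invFun := fun y => ⟨⟨(y.1 : M), y.2⟩, (QuotientAddGroup.eq_zero_iff _).2 y.1.2⟩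
        left_inv := fun x => rfl
        right_inv := fun y => rfl }
  rw [h1, h2, h3, h4, mul_comm]

theorem card_subtype_le_of_imp {α : Type*} [Finite α] {P Q : α → Prop} (h : ∀ x, P x → Q x) :
    Nat.card {x // P x} ≤ Nat.card {x // Q x} :=
  Nat.card_le_card_of_injective (Subtype.map id h) (Subtype.map_injective h Function.injective_id)

end Count

/-! ### 3. The local case: the two exactness counts and the step -/

section Local

open Fermat.Agent.TW.FF.FlatModel68 Fermat.Agent.TW.FF.Spec72 Fermat.Agent.TW.FF.Red68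

variable {p : ℕ} [Fact p.Prime]

/-- congruence of two characters for the dual order, in action-free form: every integral measure takes
congruent values on them. -/
def DCong {M D : Type} [Fintype M] (H : Subalgebra ℤ_[p] (M → PadicAlgCl p))
    (e : D → M → PadicAlgCl p) (d d' : D) : Prop :=
  ∀ ℓ : M → PadicAlgCl p, IsIntMeas H ℓ → ‖evMeas68 e ℓ d - evMeas68 e ℓ d'‖ < 1

theorem hfixp : FixedFieldEqBase ℚ_[p] (PadicAlgCl p) := fixedFieldEqBase_of_isGalois

section Step

variable {M D : Type} [AddCommGroup M] [DistribMulAction (GQp p) M] [Fintype M]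
  [AddCommGroup D] [DistribMulAction (GQp p) D]
  {H : Subalgebra ℤ_[p] (M → PadicAlgCl p)} (hH : IsFunOrder ℤ_[p] ℚ_[p] H)
  {e : D → M → PadicAlgCl p} (he : IsCharPairing ℚ_[p] e)

theorem cong_dualAlg68_iff (d d' : D) :
    Cong (dualAlg68 hfixp hH he) d d' ↔ DCong H e d d' := by
  constructor
  · intro h ℓ hℓ
    exact h _ ⟨ℓ, hℓ, rfl⟩
  · rintro h _ ⟨ℓ, hℓ, rfl⟩
    exact h ℓ hℓ

/-- the connected part of the dual order, in action-free form. -/
theorem mem_conn_dual_iff (d : D) :
    d ∈ conn (isFunOrder_dualAlg68 hfixp hH he) ↔ DCong H e d 0 :=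
  cong_dualAlg68_iff hH he d 0

variable (N : AddSubgroup M) (hN : ∀ (σ : GQp p) (n : M), n ∈ N → σ • n ∈ N)

include hN hH in
/-- **exactness of the connected part**: `#conn H = #conn H|_N · #conn (H / N)`. -/
theorem card_cong_zero_eq :
    Nat.card {m : M // Cong H m 0} =
      Nat.card {n : N // Cong (resAlg N H) n 0} *
        Nat.card {q : M ⧸ N // Cong (quotAlg N H) q 0} := by
  have h1 := card_eq_card_inf_mul_card_map (conn hH) N
  have h2 : Nat.card {n : N // (n : M) ∈ conn hH} = Nat.card {n : N // Cong (resAlg N H) n 0} :=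
    Nat.card_congr (Equiv.subtypeEquivRight (fun n => (cong_resAlg_iff H N n 0).symm))
  have h3 : Nat.card {q : M ⧸ N // ∃ c ∈ conn hH, (QuotientAddGroup.mk c : M ⧸ N) = q} =
      Nat.card {q : M ⧸ N // Cong (quotAlg N H) q 0} := by
    refine Nat.card_congr (Equiv.subtypeEquivRight (fun q => ?_))
    constructor
    · rintro ⟨c, hc, rfl⟩
      have := Cong.mk H N (m := c) (m' := 0) hc
      exact this
    · intro hq
      induction q using QuotientAddGroup.induction_on with
      | H m =>
        obtain ⟨n, hn, hmn⟩ := exists_add_mem_conn_of_cong_quot N hN hH m hq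
        refine ⟨m + n, hmn, ?_⟩
        rw [QuotientAddGroup.eq]
        simpa using hn
  rw [← h2, ← h3]
  exact h1

include hN hH in
/-- the dual side: `#conn H* ≤ #conn (H / N)* · #conn (H|_N)*`. -/
theorem card_dcong_zero_le [Finite D] [Fintype N] [Fintype (M ⧸ N)] :
    Nat.card {d : D // DCong H e d 0} ≤
      Nat.card {a : ann (isBiChar_of_isCharPairing he) N //
          DCong (quotAlg N H) (eQuot (isBiChar_of_isCharPairing he) N) a 0} *
        Nat.card {q : D ⧸ ann (isBiChar_of_isCharPairing he) N //
          DCong (resAlg N H) (eSub (isBiChar_of_isCharPairing he) N) q 0} := by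
  set hb := isBiChar_of_isCharPairing he with hhb
  have hcardN : (Fintype.card N : ℤ_[p]) ≠ 0 := by
    exact_mod_cast (Fintype.card_ne_zero : Fintype.card N ≠ 0)
  have h0 : Nat.card {d : D // DCong H e d 0} =
      Nat.card (conn (isFunOrder_dualAlg68 hfixp hH he)) :=
    Nat.card_congr (Equiv.subtypeEquivRight (fun d => (mem_conn_dual_iff hH he d).symm))
  rw [h0, card_eq_card_inf_mul_card_map (conn (isFunOrder_dualAlg68 hfixp hH he)) (ann hb N)]
  refine Nat.mul_le_mul (card_subtype_le_of_imp (fun a ha => ?_))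
    (card_subtype_le_of_imp (fun q hq => ?_))
  · -- characters trivial on `N`
    rw [mem_conn_dual_iff] at ha
    intro ℓQ hℓQ
    obtain ⟨ℓ, hℓ, hval⟩ := exists_isIntMeas_of_quot hb N hfixp hN hH hcardN hℓQ
    have := ha ℓ hℓ
    rw [← hval a, ← hval 0]
    exact this
  · -- restriction to `N`
    obtain ⟨c, hc, rfl⟩ := hq
    rw [mem_conn_dual_iff] at hc
    intro ℓN hℓN
    obtain ⟨ℓ, hℓ, hval⟩ := exists_isIntMeas_of_sub (e := e) hb N H hℓN
    have := hc ℓ hℓ
    rw [hval c, hval 0] at this
    exact this

include hN hH in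
/-- **the step of the count.** -/
theorem count_step [Finite D] [Fintype N] [Fintype (M ⧸ N)] :
    Nat.card {m : M // Cong H m 0} * Nat.card {d : D // DCong H e d 0} ≤
      (Nat.card {n : N // Cong (resAlg N H) n 0} *
        Nat.card {q : D ⧸ ann (isBiChar_of_isCharPairing he) N //
          DCong (resAlg N H) (eSub (isBiChar_of_isCharPairing he) N) q 0}) *
      (Nat.card {q : M ⧸ N // Cong (quotAlg N H) q 0} *
        Nat.card {a : ann (isBiChar_of_isCharPairing he) N //
          DCong (quotAlg N H) (eQuot (isBiChar_of_isCharPairing he) N) a 0}) := by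
  rw [card_cong_zero_eq hH N hN]
  have h := card_dcong_zero_le hH he N hN
  calc Nat.card {n : N // Cong (resAlg N H) n 0} * Nat.card {q : M ⧸ N // Cong (quotAlg N H) q 0} *
        Nat.card {d : D // DCong H e d 0}
      ≤ Nat.card {n : N // Cong (resAlg N H) n 0} *
          Nat.card {q : M ⧸ N // Cong (quotAlg N H) q 0} *
        (Nat.card {a : ann (isBiChar_of_isCharPairing he) N //
            DCong (quotAlg N H) (eQuot (isBiChar_of_isCharPairing he) N) a 0} *
          Nat.card {q : D ⧸ ann (isBiChar_of_isCharPairing he) N //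
            DCong (resAlg N H) (eSub (isBiChar_of_isCharPairing he) N) q 0}) :=
        Nat.mul_le_mul_left _ h
    _ = _ := by ring

end Step

end Local

/-! ### 4. The base case: a group of order `2` over `ℤ_2` -/

section Base

open Fermat.Agent.TW.FF.FlatModel68 Fermat.Agent.TW.FF.Spec72 Fermat.Agent.TW.FF.Red68

variable {p : ℕ} [Fact p.Prime]

theorem norm_algebraMap_padicInt (z : ℤ_[p]) : ‖algebraMap ℤ_[p] (PadicAlgCl p) z‖ = ‖z‖ := by
  rw [IsScalarTower.algebraMap_apply ℤ_[p] ℚ_[p] (PadicAlgCl p)]
  exact (PadicAlgCl.norm_extends p _).trans (PadicInt.norm_def (z := z)).symm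

/-- the value of a function of a function order at a Galois-fixed point lies in `ℤ_p`. -/
theorem exists_apply_eq_of_fixed {M : Type} [AddCommGroup M] [DistribMulAction (GQp p) M]
    {H : Subalgebra ℤ_[p] (M → PadicAlgCl p)} (hH : IsFunOrder ℤ_[p] ℚ_[p] H)
    {h : M → PadicAlgCl p} (hh : h ∈ H) (m : M) (hm : ∀ σ : GQp p, σ • m = m) :
    ∃ r : ℤ_[p], algebraMap ℤ_[p] (PadicAlgCl p) r = h m := by
  have := hH.finite
  refine mem_range_of_fixed_of_isIntegral (R := ℤ_[p]) (F := ℚ_[p]) hfixp (fun σ => ?_) ?_
  · rw [← hH.equivariant h hh σ m, hm σ]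
  · exact (Algebra.IsIntegral.isIntegral (R := ℤ_[p]) (⟨h, hh⟩ : H)).map (evalPt H.val m)

end Base

section BaseTwo

open Fermat.Agent.TW.FF.FlatModel68 Fermat.Agent.TW.FF.Spec72 Fermat.Agent.TW.FF.Red68

variable {M D : Type} [AddCommGroup M] [DistribMulAction (GQp 2) M] [Fintype M]
  [AddCommGroup D] [Finite D]
  {H : Subalgebra ℤ_[2] (M → PadicAlgCl 2)} {e : D → M → PadicAlgCl 2}

/-- **the count for a group of order `2` over `ℤ_2`**: a connected order of rank `2` is `μ_2`, whose dual
is étale. -/
theorem count_base_two (hH : IsFunOrder ℤ_[2] ℚ_[2] H) (hb : IsBiChar e) (hcard : Nat.card M = 2) :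
    Nat.card {m : M // Cong H m 0} * Nat.card {d : D // DCong H e d 0} ≤ 2 := by
  classical
  obtain ⟨x, hx0, hxu⟩ := (Nat.card_eq_two_iff' (0 : M)).1 hcard
  have hM : ∀ m : M, m = 0 ∨ m = x := fun m => by
    by_cases h : m = 0
    · exact Or.inl h
    · exact Or.inr (hxu m h)
  have hxx : x + x = 0 := by
    by_contra h
    have h1 := hxu _ h
    exact hx0 (by simpa using h1)
  have hσ : ∀ σ : GQp 2, σ • x = x := by
    intro σ
    refine hxu _ (fun h => hx0 ?_)
    have := congrArg (fun y => σ⁻¹ • y) h
    simpa using this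
  have hsum : ∀ f : M → PadicAlgCl 2, ∑ m, f m = f 0 + f x := fun f =>
    Fintype.sum_eq_add 0 x (Ne.symm hx0) (fun m hm => by
      rcases hM m with h | h
      · exact absurd h hm.1
      · exact absurd h hm.2)
  -- the characters
  have hdx : ∀ d : D, d ≠ 0 → e d x = -1 := by
    intro d hd
    have h1 : e d x * e d x = 1 := by rw [← hb.map_add, hxx, hb.map_zero]
    have h2 : e d x ≠ 1 := by
      obtain ⟨m, hm⟩ := hb.sep d hd
      rcases hM m with h | h
      · rw [h, hb.map_zero] at hm
        exact absurd rfl hm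
      · rwa [h] at hm
    have h3 : (e d x - 1) * (e d x + 1) = 0 := by ring_nf; rw [sq, h1]; ring
    rcases mul_eq_zero.mp h3 with h | h
    · exact absurd (sub_eq_zero.mp h) h2
    · exact eq_neg_of_add_eq_zero_left h
  have hDeq : ∀ d d' : D, d ≠ 0 → d' ≠ 0 → d = d' := by
    intro d d' hd hd'
    by_contra hne
    obtain ⟨m, hm⟩ := hb.sep (d - d') (sub_ne_zero.mpr hne)
    have h1 : e d m = e (d - d') m * e d' m := by rw [← hb.add_map, sub_add_cancel]
    rcases hM m with h | h
    · rw [h, hb.map_zero] at hm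
      exact hm rfl
    · rw [h, hdx d hd, hdx d' hd'] at h1
      rw [h] at hm
      apply hm
      have : e (d - d') x * (-1) = -1 := h1.symm
      linear_combination -this
  have hD2 : Nat.card D ≤ 2 := by
    have hinj : Function.Injective (fun d : D => decide (d = 0)) := by
      intro d d' h
      have h' : (d = 0 ↔ d' = 0) := decide_eq_decide.mp h
      by_cases hd : d = 0
      · rw [hd, h'.mp hd]
      · exact hDeq d d' hd (fun h0 => hd (h'.mpr h0))
    have := Nat.card_le_card_of_injective _ hinj
    simpa using this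
  by_cases hxc : Cong H x 0
  · -- connected: the dual is étale
    have hsub : Nat.card {d : D // DCong H e d 0} ≤ 1 := by
      rw [Finite.card_le_one_iff_subsingleton]
      refine ⟨fun a b => ?_⟩
      suffices h : ∀ d : D, DCong H e d 0 → d = 0 from
        Subtype.ext ((h a a.2).trans (h b b.2).symm)
      intro d hd
      by_contra hd0
      let ℓ : M → PadicAlgCl 2 := fun m => if m = 0 then 2⁻¹ else -2⁻¹
      have hℓ0 : ℓ 0 = 2⁻¹ := if_pos rfl
      have hℓx : ℓ x = -2⁻¹ := if_neg hx0
      have h2 : (2 : PadicAlgCl 2) ≠ 0 := two_ne_zero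
      have hint : IsIntMeas H ℓ := by
        intro h hh
        obtain ⟨a, ha⟩ := exists_apply_eq_of_fixed hH hh 0 (fun σ => smul_zero σ)
        obtain ⟨b, hb'⟩ := exists_apply_eq_of_fixed hH hh x hσ
        have h1 := hxc h hh
        rw [← ha, ← hb', ← map_sub, norm_algebraMap_padicInt, PadicInt.norm_lt_one_iff_dvd] at h1
        obtain ⟨c, hc⟩ := h1
        refine ⟨-c, ?_⟩
        unfold pair68
        rw [hsum, hℓ0, hℓx, ← ha, ← hb']
        have h3 : algebraMap ℤ_[2] (PadicAlgCl 2) b =
            algebraMap ℤ_[2] (PadicAlgCl 2) a + 2 * algebraMap ℤ_[2] (PadicAlgCl 2) c := by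
          have : b = a + ((2 : ℕ) : ℤ_[2]) * c := by rw [← hc]; ring
          rw [this, map_add, map_mul, map_natCast]
          norm_num
        rw [h3, map_neg]
        field_simp
        ring
      have h3 := hd ℓ hint
      unfold evMeas68 pair68 at h3
      rw [hsum, hsum, hℓ0, hℓx, hb.map_zero, hb.map_zero, hdx d hd0, hb.zero_left] at h3
      have h4 : (2⁻¹ : PadicAlgCl 2) * 1 + -2⁻¹ * -1 - (2⁻¹ * 1 + -2⁻¹ * 1) = 1 := by
        field_simp
        ring
      rw [h4, norm_one] at h3
      exact lt_irrefl _ h3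
    have hM2 : Nat.card {m : M // Cong H m 0} ≤ 2 :=
      le_trans (Nat.card_le_card_of_injective _ Subtype.val_injective) hcard.le
    calc _ ≤ 2 * 1 := Nat.mul_le_mul hM2 hsub
      _ = 2 := rfl
  · -- étale
    have hsub : Nat.card {m : M // Cong H m 0} ≤ 1 := by
      rw [Finite.card_le_one_iff_subsingleton]
      refine ⟨fun a b => ?_⟩
      suffices h : ∀ m : M, Cong H m 0 → m = 0 from Subtype.ext ((h a a.2).trans (h b b.2).symm)
      intro m hm
      rcases hM m with h | h
      · exact h
      · rw [h] at hm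
        exact absurd hm hxc
    have hD' : Nat.card {d : D // DCong H e d 0} ≤ 2 :=
      le_trans (Nat.card_le_card_of_injective _ Subtype.val_injective) hD2
    calc _ ≤ 1 * 2 := Nat.mul_le_mul hsub hD'
      _ = 2 := rfl

end BaseTwo

/-! ### 5. The induction -/

section Induction

open Fermat.Agent.TW.FF.FlatModel68 Fermat.Agent.TW.FF.Spec72 Fermat.Agent.TW.FF.Red68

/-- **THE COUNT, by induction along a class of modules which have stable subgroups of order `2`**
(e.g. the modules with a stable filtration whose graded pieces have order `2`; `𝒞` is any predicate on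
`Gal(ℚ̄_2/ℚ_2)`-modules such that a nonzero module of the class has a stable subgroup of order `2` whose
quotient is in the class). -/
theorem count_le_of_class
    (𝒞 : ∀ (M : Type) [AddCommGroup M] [DistribMulAction (GQp 2) M], Prop)
    (h𝒞 : ∀ (M : Type) [AddCommGroup M] [DistribMulAction (GQp 2) M] [Finite M], 𝒞 M →
      Nontrivial M → ∃ (W : AddSubgroup M) (hW : ∀ (σ : GQp 2) (w : M), w ∈ W → σ • w ∈ W),
        Nat.card W = 2 ∧ @𝒞 (M ⧸ W) _ (quotAction W hW)) :
    ∀ (n : ℕ) (M : Type) [AddCommGroup M] [DistribMulAction (GQp 2) M] [Fintype M],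
      Nat.card M ≤ n → 𝒞 M →
      ∀ (H : Subalgebra ℤ_[2] (M → PadicAlgCl 2)), IsFunOrder ℤ_[2] ℚ_[2] H →
      ∀ (D : Type) [AddCommGroup D] [DistribMulAction (GQp 2) D] [Finite D]
        (e : D → M → PadicAlgCl 2), IsCharPairing ℚ_[2] e →
        Nat.card {m : M // Cong H m 0} * Nat.card {d : D // DCong H e d 0} ≤ Nat.card M := by
  intro n
  induction n with
  | zero =>
    intro M _ _ _ hn
    exfalso
    have := Nat.card_pos (α := M)
    omega
  | succ n ih =>
    intro M _ _ _ hn hM H hH D _ _ _ e he
    by_cases hnt : Nontrivial M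
    · obtain ⟨W, hW, hWcard, hQ⟩ := h𝒞 M hM hnt
      letI : Fintype W := Fintype.ofFinite W
      letI : Fintype (M ⧸ W) := Fintype.ofFinite _
      have hstep := count_step hH he W hW
      have hb := isBiChar_of_isCharPairing he
      have hMW := AddSubgroup.card_eq_card_quotient_mul_card_addSubgroup W
      rw [hWcard] at hMW
      -- the subgroup of order `2`
      have hbase : Nat.card {n : W // Cong (resAlg W H) n 0} *
          Nat.card {q : D ⧸ ann (isBiChar_of_isCharPairing he) W //
            DCong (resAlg W H) (eSub (isBiChar_of_isCharPairing he) W) q 0} ≤ 2 := by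
        letI := subAction W hW
        exact count_base_two (IsFunOrder.restrict W hW hH)
          (isBiChar_eSub (isBiChar_of_isCharPairing he) W) hWcard
      -- the quotient
      have hquot : Nat.card {q : M ⧸ W // Cong (quotAlg W H) q 0} *
          Nat.card {a : ann (isBiChar_of_isCharPairing he) W //
            DCong (quotAlg W H) (eQuot (isBiChar_of_isCharPairing he) W) a 0} ≤
          Nat.card (M ⧸ W) := by
        letI := quotAction W hW
        letI := subAction (ann (isBiChar_of_isCharPairing he) W) (ann_stable he W hW)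
        refine ih (M ⧸ W) ?_ hQ (quotAlg W H) (isFunOrder_quotAlg W hW hH)
          (ann (isBiChar_of_isCharPairing he) W) (eQuot (isBiChar_of_isCharPairing he) W)
          (isCharPairing_eQuot he W hW)
        omega
      calc Nat.card {m : M // Cong H m 0} * Nat.card {d : D // DCong H e d 0}
          ≤ _ := hstep
        _ ≤ 2 * Nat.card (M ⧸ W) := Nat.mul_le_mul hbase hquot
        _ = Nat.card M := by rw [hMW, mul_comm]
    · have hss : Subsingleton M := not_nontrivial_iff_subsingleton.mp hnt
      have hb := isBiChar_of_isCharPairing he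
      have h1 : Nat.card {m : M // Cong H m 0} ≤ 1 := by
        rw [Finite.card_le_one_iff_subsingleton]
        exact ⟨fun a b => Subtype.ext (Subsingleton.elim _ _)⟩
      have h2 : Nat.card {d : D // DCong H e d 0} ≤ 1 := by
        rw [Finite.card_le_one_iff_subsingleton]
        refine ⟨fun a b => Subtype.ext ?_⟩
        have hD : ∀ d : D, d = 0 := by
          intro d
          by_contra hd
          obtain ⟨m, hm⟩ := hb.sep d hd
          rw [Subsingleton.elim m 0, hb.map_zero] at hm
          exact hm rfl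
        rw [hD a, hD b]
      calc _ ≤ 1 * 1 := Nat.mul_le_mul h1 h2
        _ ≤ Nat.card M := Nat.card_pos

/-- **`#conn H · #conn H* ≤ #M`** over `ℤ_2`, for the modules of a class `𝒞` as in `count_le_of_class`,
in helper68's vocabulary (`Red68.conn`, `Cartier68.dualAlg68`). -/
theorem card_conn_mul_card_conn_dual_le_two
    (𝒞 : ∀ (M : Type) [AddCommGroup M] [DistribMulAction (GQp 2) M], Prop)
    (h𝒞 : ∀ (M : Type) [AddCommGroup M] [DistribMulAction (GQp 2) M] [Finite M], 𝒞 M →
      Nontrivial M → ∃ (W : AddSubgroup M) (hW : ∀ (σ : GQp 2) (w : M), w ∈ W → σ • w ∈ W),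
        Nat.card W = 2 ∧ @𝒞 (M ⧸ W) _ (quotAction W hW))
    {M D : Type} [AddCommGroup M] [DistribMulAction (GQp 2) M] [Fintype M] (hM : 𝒞 M)
    [AddCommGroup D] [DistribMulAction (GQp 2) D] [Finite D]
    {H : Subalgebra ℤ_[2] (M → PadicAlgCl 2)} (hH : IsFunOrder ℤ_[2] ℚ_[2] H)
    {e : D → M → PadicAlgCl 2} (he : IsCharPairing ℚ_[2] e) :
    Nat.card (conn hH) * Nat.card (conn (isFunOrder_dualAlg68 hfixp hH he)) ≤ Nat.card M := by
  have h := count_le_of_class 𝒞 h𝒞 (Nat.card M) M le_rfl hM H hH D e he
  have h1 : Nat.card (conn hH) = Nat.card {m : M // Cong H m 0} := rfl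
  have h2 : Nat.card (conn (isFunOrder_dualAlg68 hfixp hH he)) =
      Nat.card {d : D // DCong H e d 0} :=
    Nat.card_congr (Equiv.subtypeEquivRight (fun d => mem_conn_dual_iff hH he d))
  rw [h1, h2]
  exact h

end Induction

end Fermat.Agent.MAZ.Flat.CartierCount33
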