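/-
Programme MAZ, pole P3 (`r = 2`, marked orders; vocabulary of helper68), brick M6 part 3 (helper33):
**the formal inclusion `ann (conn H) ≤ conn (H*)`** for function orders over `ℤ_p` on `p`-groups
(request of helper50, P1 algebra at `r = 2`).

* `push N ℓ` : the push-forward of a measure to `M ⧸ N`; `isIntMeas_push`, `evMeas68_push`
  (the inclusion `(dual H)|_{ann N} ⊆ dual (H / N)`, converse of `CartierRes33.exists_isIntMeas_of_quot`);
* `dcong_of_dcong_quot` : for characters trivial on `N`, congruence to `0` for the dual of the quotient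
  order implies congruence to `0` for the dual of `H`;
* étale orders (`Cong H m m' → m = m'`): `IntOn`, `exists_delta` (Lagrange idempotents are integral
  combinations of the order), `norm_apply_le_one_of_isIntMeas` (integral measures have integral masses);
* `norm_sub_one_lt_one_of_pow_eq_one` : `p`-power roots of unity are `≡ 1`;
* `dcong_zero_of_etale` : the dual of an étale order on a `p`-group is connected;
* `eq_of_cong_quot_conn` : the quotient of a function order by its connected part is étale;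
* **`dcong_zero_of_mem_ann_conn`**, **`ann_conn_le_conn_dual`**.
-/
import Mathlib
import Fermat.Agent.MAZ.Flat.CartierCount33

set_option autoImplicit false
set_option linter.unusedSectionVars false
set_option linter.style.haveILetI false

noncomputable section

namespace Fermat.Agent.MAZ.Flat.CartierAnn33

open Fermat.Agent.S19.Shell64 Fermat.Agent.TW.FF.FunOrder68 Fermat.Agent.TW.FF.ClosureQuot68
open Fermat.Agent.TW.FF.ClosureSub68 Fermat.Agent.MAZ.Flat.Cartier68
open Fermat.Agent.MAZ.Flat.CartierRes33 Fermat.Agent.MAZ.Flat.ConnQuot33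
open Fermat.Agent.MAZ.Flat.CartierCount33

/-! ### 1. Push-forward of measures to a quotient -/

section Push

variable {R K M D : Type} [CommRing R] [Field K] [Algebra R K] [AddCommGroup M] [AddCommGroup D]
  [Fintype M] {e : D → M → K} (he : IsBiChar e) (N : AddSubgroup M) [Fintype (M ⧸ N)]

/-- the push-forward of a measure on `M` to `M ⧸ N`. -/
def push (ℓ : M → K) : (M ⧸ N) → K := fun q => by
  classical
  exact ∑ m : M, if (QuotientAddGroup.mk m : M ⧸ N) = q then ℓ m else 0

theorem pair68_push (ℓ : M → K) (g : (M ⧸ N) → K) :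
    pair68 (push N ℓ) g = pair68 ℓ (fun m => g (QuotientAddGroup.mk m)) := by
  classical
  unfold pair68 push
  simp only [Finset.sum_mul]
  rw [Finset.sum_comm]
  refine Finset.sum_congr rfl (fun m _ => ?_)
  rw [Finset.sum_eq_single (QuotientAddGroup.mk m : M ⧸ N)]
  · rw [if_pos rfl]
  · intro q _ hq
    rw [if_neg (Ne.symm hq), zero_mul]
  · intro h
    exact absurd (Finset.mem_univ _) h

theorem isIntMeas_push {H : Subalgebra R (M → K)} {ℓ : M → K} (hℓ : IsIntMeas H ℓ) :
    IsIntMeas (quotAlg N H) (push N ℓ) := by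
  intro g hg
  rw [pair68_push]
  exact hℓ _ hg

theorem evMeas68_push (ℓ : M → K) (d : ann he N) :
    evMeas68 (eQuot he N) (push N ℓ) d = evMeas68 e ℓ (d : D) := by
  unfold evMeas68
  rw [pair68_push]
  rfl

end Push

/-! ### 2. Characters trivial on `N`: the dual of `H` and the dual of the quotient order -/

section Local

open Fermat.Agent.TW.FF.FlatModel68 Fermat.Agent.TW.FF.Spec72 Fermat.Agent.TW.FF.Red68

variable {p : ℕ} [Fact p.Prime]

section Quot

variable {M D : Type} [AddCommGroup M] [Fintype M] [AddCommGroup D]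
  {H : Subalgebra ℤ_[p] (M → PadicAlgCl p)} {e : D → M → PadicAlgCl p} (hb : IsBiChar e)
  (N : AddSubgroup M) [Fintype (M ⧸ N)]

/-- a character trivial on `N` which is congruent to `0` for the dual of the quotient order is congruent
to `0` for the dual of `H` (push-forward of measures; no hypothesis on `N`). -/
theorem dcong_of_dcong_quot (a : ann hb N) (h : DCong (quotAlg N H) (eQuot hb N) a 0) :
    DCong H e (a : D) 0 := by
  intro ℓ hℓ
  have h1 := h (push N ℓ) (isIntMeas_push N hℓ)
  rw [evMeas68_push, evMeas68_push] at h1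
  exact h1

end Quot

/-! ### 3. Étale orders -/

section Etale

variable {M : Type} [AddCommGroup M] [Fintype M] {H : Subalgebra ℤ_[p] (M → PadicAlgCl p)}

/-- functions on which every integral measure takes an integral value (the `𝒪_Ω`-span of `H`). -/
def IntOn (H : Subalgebra ℤ_[p] (M → PadicAlgCl p)) (f : M → PadicAlgCl p) : Prop :=
  ∀ ℓ : M → PadicAlgCl p, IsIntMeas H ℓ → ‖pair68 ℓ f‖ ≤ 1

theorem intOn_of_mem {f : M → PadicAlgCl p} (hf : f ∈ H) : IntOn H f := by
  intro ℓ hℓ
  obtain ⟨r, hr⟩ := hℓ f hf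
  rw [← hr]
  change ‖algebraMap ℤ_[p] (PadicAlgCl p) r‖ ≤ 1
  rw [norm_algebraMap_padicInt]
  exact PadicInt.norm_le_one r

theorem IntOn.add {f g : M → PadicAlgCl p} (hf : IntOn H f) (hg : IntOn H g) : IntOn H (f + g) := by
  intro ℓ hℓ
  rw [pair68_add_right]
  exact le_trans (IsUltrametricDist.norm_add_le_max _ _) (max_le (hf ℓ hℓ) (hg ℓ hℓ))

theorem IntOn.smul {c : PadicAlgCl p} (hc : ‖c‖ ≤ 1) {f : M → PadicAlgCl p} (hf : IntOn H f) :
    IntOn H (c • f) := by
  intro ℓ hℓ
  rw [pair68_smul_right, norm_mul]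
  exact mul_le_one₀ hc (norm_nonneg _) (hf ℓ hℓ)

/-- multiplication of a measure by a function of the order preserves integrality. -/
theorem isIntMeas_mul {ℓ h : M → PadicAlgCl p} (hℓ : IsIntMeas H ℓ) (hh : h ∈ H) :
    IsIntMeas H (ℓ * h) := by
  intro g hg
  have e1 : pair68 (ℓ * h) g = pair68 ℓ (h * g) := by
    unfold pair68
    refine Finset.sum_congr rfl (fun m _ => ?_)
    simp only [Pi.mul_apply]
    ring
  rw [e1]
  exact hℓ _ (H.mul_mem hh hg)

theorem IntOn.mul_mem {f h : M → PadicAlgCl p} (hf : IntOn H f) (hh : h ∈ H) : IntOn H (h * f) := by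
  intro ℓ hℓ
  have e1 : pair68 ℓ (h * f) = pair68 (ℓ * h) f := by
    unfold pair68
    refine Finset.sum_congr rfl (fun m _ => ?_)
    simp only [Pi.mul_apply]
    ring
  rw [e1]
  exact hf _ (isIntMeas_mul hℓ hh)

variable [MulAction (GQp p) M]

/-- **Lagrange idempotents**: if the points of `M` are pairwise incongruent for `H`, the indicator
functions of the points are integral combinations of the order. -/
theorem exists_delta (hH : IsFunOrder ℤ_[p] ℚ_[p] H) (hsep : ∀ m m' : M, Cong H m m' → m = m')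
    (m : M) (S : Finset M) (hm : m ∉ S) :
    ∃ f : M → PadicAlgCl p, IntOn H f ∧ f m = 1 ∧ ∀ m' ∈ S, f m' = 0 := by
  classical
  have hfin := hH.finite
  induction S using Finset.induction_on with
  | empty =>
    exact ⟨1, intOn_of_mem H.one_mem, rfl, fun m' hm' => absurd hm' (Finset.notMem_empty m')⟩
  | insert m' S hm' ih =>
    have hmm' : m ≠ m' := fun h => hm (h ▸ Finset.mem_insert_self m S)
    have hmS : m ∉ S := fun h => hm (Finset.mem_insert_of_mem h)
    obtain ⟨f, hf, hfm, hfS⟩ := ih hmS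
    have hnc : ¬ Cong H m m' := fun h => hmm' (hsep m m' h)
    unfold Cong at hnc
    push Not at hnc
    obtain ⟨h, hh, hge⟩ := hnc
    set u : PadicAlgCl p := h m - h m' with hu
    have hu0 : u ≠ 0 := by
      intro h0
      rw [h0, norm_zero] at hge
      exact absurd hge (by norm_num)
    have huinv : ‖u⁻¹‖ ≤ 1 := by
      rw [norm_inv]
      exact inv_le_one_of_one_le₀ hge
    have hc : ‖h m'‖ ≤ 1 := norm_apply_le_one hfin hh m'
    refine ⟨u⁻¹ • (h * f + (-(h m')) • f), ?_, ?_, ?_⟩
    · exact IntOn.smul huinv (IntOn.add (IntOn.mul_mem hf hh)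
        (IntOn.smul (by rwa [norm_neg]) hf))
    · simp only [Pi.smul_apply, Pi.add_apply, Pi.mul_apply, smul_eq_mul, hfm]
      have e1 : h m * 1 + -h m' * 1 = u := by rw [hu]; ring
      rw [e1, inv_mul_cancel₀ hu0]
    · intro m'' hm''
      rcases Finset.mem_insert.mp hm'' with rfl | hS
      · simp only [Pi.smul_apply, Pi.add_apply, Pi.mul_apply, smul_eq_mul]
        ring
      · simp only [Pi.smul_apply, Pi.add_apply, Pi.mul_apply, smul_eq_mul, hfS m'' hS]
        ring

/-- for an étale order the integral measures have integral masses. -/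
theorem norm_apply_le_one_of_isIntMeas (hH : IsFunOrder ℤ_[p] ℚ_[p] H)
    (hsep : ∀ m m' : M, Cong H m m' → m = m') {ℓ : M → PadicAlgCl p} (hℓ : IsIntMeas H ℓ) (m : M) :
    ‖ℓ m‖ ≤ 1 := by
  classical
  obtain ⟨f, hf, hfm, hfS⟩ := exists_delta hH hsep m (Finset.univ.erase m) (Finset.notMem_erase m _)
  have h1 : pair68 ℓ f = ℓ m := by
    unfold pair68
    rw [Finset.sum_eq_single m]
    · rw [hfm, mul_one]
    · intro m' _ hm'
      rw [hfS m' (Finset.mem_erase.mpr ⟨hm', Finset.mem_univ _⟩), mul_zero]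
    · intro h
      exact absurd (Finset.mem_univ m) h
  rw [← h1]
  exact hf ℓ hℓ

end Etale

/-! ### 4. `p`-power roots of unity -/

/-- a `p`-power root of unity of `PadicAlgCl p` is congruent to `1`. -/
theorem norm_sub_one_lt_one_of_pow_eq_one {x : PadicAlgCl p} {k : ℕ} (hx : x ^ (p ^ k) = 1) :
    ‖x - 1‖ < 1 := by
  have hp : p.Prime := Fact.out
  have hx1 : ‖x‖ = 1 := by
    have h1 : ‖x‖ ^ (p ^ k) = 1 := by rw [← norm_pow, hx, norm_one]
    exact (pow_eq_one_iff_of_nonneg (norm_nonneg x) (pow_pos hp.pos k).ne').mp h1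
  set y := x - 1 with hy
  have hy1 : ‖y‖ ≤ 1 := by
    have e1 : y = x + (-1) := by rw [hy]; ring
    rw [e1]
    refine le_trans (IsUltrametricDist.norm_add_le_max _ _) ?_
    rw [hx1, norm_neg, norm_one, max_self]
  have hpnorm : ‖(p : PadicAlgCl p)‖ < 1 := by
    have h1 : (p : PadicAlgCl p) = algebraMap ℚ_[p] (PadicAlgCl p) (p : ℚ_[p]) := by
      rw [map_natCast]
    rw [h1, PadicAlgCl.norm_extends]
    exact Padic.norm_p_lt_one
  -- expand `(y + 1) ^ (p ^ k) = 1`
  have hexp : y ^ (p ^ k) = -∑ j ∈ (Finset.range (p ^ k)).erase 0, y ^ j * ((p ^ k).choose j : PadicAlgCl p) := by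
    have h1 : (y + 1) ^ (p ^ k) = 1 := by
      rw [hy, sub_add_cancel, hx]
    rw [add_pow] at h1
    simp only [one_pow, mul_one] at h1
    rw [Finset.sum_range_succ, Nat.choose_self, Nat.cast_one, mul_one,
      ← Finset.add_sum_erase (Finset.range (p ^ k)) _ (Finset.mem_range.mpr (pow_pos hp.pos k))] at h1
    simp only [pow_zero, Nat.choose_zero_right, Nat.cast_one, mul_one] at h1
    linear_combination h1
  have hsum : ‖∑ j ∈ (Finset.range (p ^ k)).erase 0, y ^ j * ((p ^ k).choose j : PadicAlgCl p)‖ < 1 := by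
    refine norm_sum_lt_one _ _ (fun j hj => ?_)
    have hj0 : j ≠ 0 := (Finset.mem_erase.mp hj).1
    have hjlt : j < p ^ k := Finset.mem_range.mp (Finset.mem_erase.mp hj).2
    obtain ⟨c, hc⟩ := hp.dvd_choose_pow hj0 hjlt.ne
    rw [hc, Nat.cast_mul, norm_mul, norm_mul, norm_pow]
    have h2 : ‖(c : PadicAlgCl p)‖ ≤ 1 := by
      have h3 : (c : PadicAlgCl p) = algebraMap ℚ_[p] (PadicAlgCl p) (c : ℚ_[p]) := by
        rw [map_natCast]
      rw [h3, PadicAlgCl.norm_extends]
      exact_mod_cast Padic.norm_int_le_one (p := p) (c : ℤ)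
    have h4 : ‖y‖ ^ j ≤ 1 := pow_le_one₀ (norm_nonneg _) hy1
    calc ‖y‖ ^ j * (‖(p : PadicAlgCl p)‖ * ‖(c : PadicAlgCl p)‖)
        ≤ 1 * (‖(p : PadicAlgCl p)‖ * 1) :=
          mul_le_mul h4 (mul_le_mul_of_nonneg_left h2 (norm_nonneg _))
            (mul_nonneg (norm_nonneg _) (norm_nonneg _)) zero_le_one
      _ < 1 := by rw [one_mul, mul_one]; exact hpnorm
  have hpow : ‖y‖ ^ (p ^ k) < 1 := by
    rw [← norm_pow, hexp, norm_neg]
    exact hsum
  by_contra hcon
  push Not at hcon
  have : 1 ≤ ‖y‖ ^ (p ^ k) := one_le_pow₀ hcon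
  linarith

/-! ### 5. The dual of an étale order on a `p`-group is connected -/

section EtaleDual

variable {M D : Type} [AddCommGroup M] [MulAction (GQp p) M] [Fintype M] [AddCommGroup D]
  {H : Subalgebra ℤ_[p] (M → PadicAlgCl p)} {e : D → M → PadicAlgCl p}

theorem IsBiChar.map_nsmul' (hb : IsBiChar e) (d : D) (n : ℕ) (m : M) :
    e d (n • m) = e d m ^ n := by
  induction n with
  | zero => rw [zero_smul, pow_zero, hb.map_zero]
  | succ n ih => rw [succ_nsmul, hb.map_add, ih, pow_succ]

theorem dcong_zero_of_etale (hH : IsFunOrder ℤ_[p] ℚ_[p] H)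
    (hsep : ∀ m m' : M, Cong H m m' → m = m') (hb : IsBiChar e)
    (hpow : ∀ m : M, ∃ k : ℕ, p ^ k • m = 0) (d : D) : DCong H e d 0 := by
  intro ℓ hℓ
  have h1 : evMeas68 e ℓ d - evMeas68 e ℓ 0 = ∑ m, ℓ m * (e d m - 1) := by
    unfold evMeas68 pair68
    rw [← Finset.sum_sub_distrib]
    refine Finset.sum_congr rfl (fun m _ => ?_)
    rw [hb.zero_left]
    ring
  rw [h1]
  refine norm_sum_lt_one _ _ (fun m _ => ?_)
  rw [norm_mul]
  have h2 : ‖ℓ m‖ ≤ 1 := norm_apply_le_one_of_isIntMeas hH hsep hℓ m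
  have h3 : ‖e d m - 1‖ < 1 := by
    obtain ⟨k, hk⟩ := hpow m
    refine norm_sub_one_lt_one_of_pow_eq_one (k := k) ?_
    rw [← IsBiChar.map_nsmul' hb, hk, hb.map_zero]
  calc ‖ℓ m‖ * ‖e d m - 1‖ ≤ 1 * ‖e d m - 1‖ := mul_le_mul_of_nonneg_right h2 (norm_nonneg _)
    _ < 1 := by rw [one_mul]; exact h3

end EtaleDual

/-! ### 6. `ann (conn H) ≤ conn (H*)` -/

section Main

variable {M D : Type} [AddCommGroup M] [DistribMulAction (GQp p) M] [Fintype M]
  [AddCommGroup D] [DistribMulAction (GQp p) D]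
  {H : Subalgebra ℤ_[p] (M → PadicAlgCl p)} (hH : IsFunOrder ℤ_[p] ℚ_[p] H)
  {e : D → M → PadicAlgCl p}

theorem conn_stable (σ : GQp p) (m : M) (hm : m ∈ conn hH) : σ • m ∈ conn hH := by
  rw [mem_conn_iff] at hm ⊢
  have := Cong.smul hH σ hm
  rwa [smul_zero] at this

/-- the quotient of a function order by its connected part is étale. -/
theorem eq_of_cong_quot_conn (q q' : M ⧸ conn hH) (h : Cong (quotAlg (conn hH) H) q q') : q = q' := by
  induction q using QuotientAddGroup.induction_on with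
  | H m =>
    induction q' using QuotientAddGroup.induction_on with
    | H m' =>
      obtain ⟨n, hn, hc⟩ := exists_cong_add_of_cong_quot (conn hH) (conn_stable hH) hH m m' h
      have h1 : Cong H (m + n) (m + 0) := Cong.add hH (Cong.refl (H := H) m) ((mem_conn_iff hH n).1 hn)
      rw [add_zero] at h1
      have h2 : Cong H m m' := h1.symm.trans hc
      have h3 := Cong.sub hH h2 (Cong.refl (H := H) m')
      rw [sub_self] at h3
      have h4 : m - m' ∈ conn hH := (mem_conn_iff hH _).2 h3
      rw [QuotientAddGroup.eq]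
      have e1 : -m + m' = -(m - m') := by abel
      rw [e1]
      exact (conn hH).neg_mem h4

/-- **the formal half of `conn (H*) = ann (conn H)`**: on a `p`-group, a character which is trivial on the
connected part of `H` lies in the connected part of the dual order. (False without the hypothesis on `M`:
constant group of order prime to `p`.) -/
theorem dcong_zero_of_mem_ann_conn (hb : IsBiChar e) (hpow : ∀ m : M, ∃ k : ℕ, p ^ k • m = 0)
    (d : D) (hd : ∀ m ∈ conn hH, e d m = 1) : DCong H e d 0 := by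
  letI : Fintype (M ⧸ conn hH) := Fintype.ofFinite _
  letI := quotAction (conn hH) (conn_stable hH)
  have hQ := isFunOrder_quotAlg (conn hH) (conn_stable hH) hH
  have hpowQ : ∀ q : M ⧸ conn hH, ∃ k : ℕ, p ^ k • q = 0 := by
    intro q
    induction q using QuotientAddGroup.induction_on with
    | H m =>
      obtain ⟨k, hk⟩ := hpow m
      refine ⟨k, ?_⟩
      rw [← QuotientAddGroup.mk_nsmul, hk, QuotientAddGroup.mk_zero]
  have h := dcong_zero_of_etale hQ (eq_of_cong_quot_conn hH) (isBiChar_eQuot hb (conn hH)) hpowQ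
    (⟨d, hd⟩ : ann hb (conn hH))
  exact dcong_of_dcong_quot hb (conn hH) ⟨d, hd⟩ h

theorem ann_conn_le_conn_dual (he : IsCharPairing ℚ_[p] e) (hpow : ∀ m : M, ∃ k : ℕ, p ^ k • m = 0)
    (d : D) (hd : ∀ m ∈ conn hH, e d m = 1) :
    d ∈ conn (isFunOrder_dualAlg68 hfixp hH he) :=
  (mem_conn_dual_iff hH he d).2
    (dcong_zero_of_mem_ann_conn hH (isBiChar_of_isCharPairing he) hpow d hd)

end Main

end Local

end Fermat.Agent.MAZ.Flat.CartierAnn33
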