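/-
Programme MAZ (S15), G-side, brick CARTIER, part 2 (helper68).

The good modules of the Eisenstein descent (`FlatAdm68.OkMod`) are closed under `M ↦ Hom(M, μ)`:
* `OkMod.cartier_hom`      : abstract form (`D` a group of homomorphisms `M → C`, `C` a group of roots of
                              unity unramified outside `{r, p}`);
* `okMod_dual`             : for helper2's `DualModule2.Dual M C` (contragredient action);
* `admFamily_ok_prod_dual` : the literal hypothesis `hOk : F.Ok (M × Dual M C)` of
                              `DualDevissage2.card_H1S_le_mul_dualH0` for `F = FlatAdm68.admFamily r k p`.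
-/
import Mathlib
import Fermat.Agent.MAZ.Flat.Cartier68
import Fermat.Agent.MAZ.Desc.FlatAdm68
import Fermat.Agent.MAZ.Desc.DualModule2

set_option autoImplicit false
set_option linter.unusedSectionVars false
set_option linter.style.haveILetI false

noncomputable section

namespace Fermat.Agent.MAZ.Flat.CartierOk68

open Fermat.Agent.TW.FF.FlatModel68 Fermat.Agent.FFJ.Glue.GlobalClosure68
open Fermat.Agent.MAZ.Flat.Cartier68 Fermat.Agent.MAZ.Desc.FlatAdm68
open Fermat.Agent.MAZ.Desc.DualModule2

local notation "Qb" => AlgebraicClosure ℚ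

variable {r : ℕ} [Fact r.Prime] {k p : ℕ}

/-- **good modules are closed under `M ↦ Hom(M, μ)`** (abstract form). -/
theorem OkMod.cartier_hom {M D C : Type} [AddCommGroup M] [DistribMulAction GQ M]
    [AddCommGroup D] [DistribMulAction GQ D] [AddCommGroup C] [DistribMulAction GQ C] [Finite C]
    (hM : OkMod r k p M) (ev : D → M → C)
    (ev_add_right : ∀ d m m', ev d (m + m') = ev d m + ev d m')
    (ev_add_left : ∀ d d' m, ev (d + d') m = ev d m + ev d' m)
    (ev_smul : ∀ (σ : GQ) d m, ev (σ • d) (σ • m) = σ • ev d m)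
    (ev_inj : ∀ d d', (∀ m, ev d m = ev d' m) → d = d')
    (j : C → Qb) (j_add : ∀ c c', j (c + c') = j c * j c') (j_zero : j 0 = 1)
    (j_smul : ∀ (σ : GQ) c, j (σ • c) = σ (j c)) (j_inj : Function.Injective j)
    (hC : ∀ q : ℕ, q.Prime → q ≠ r → q ≠ p → ∀ A : ValuationSubring Qb, A.LiesOverPrime q →
      ∀ σ ∈ A.inertiaSubgroupIn ℚ, ∀ c : C, σ • c = c) :
    OkMod r k p D := by
  haveI := hM.finite
  have ev_zero_right : ∀ d, ev d 0 = 0 := fun d => by
    have := ev_add_right d 0 0
    rw [add_zero] at this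
    exact left_eq_add.mp this
  have ev_zero_left : ∀ m, ev 0 m = 0 := fun m => by
    have := ev_add_left 0 0 m
    rw [add_zero] at this
    exact left_eq_add.mp this
  have ev_nsmul_right : ∀ (n : ℕ) d m, ev d (n • m) = n • ev d m := by
    intro n d m
    induction n with
    | zero => rw [zero_smul, zero_smul, ev_zero_right]
    | succ n ih => rw [succ_nsmul, succ_nsmul, ev_add_right, ih]
  have ev_nsmul_left : ∀ (n : ℕ) d m, ev (n • d) m = n • ev d m := by
    intro n d m
    induction n with
    | zero => rw [zero_smul, zero_smul, ev_zero_left]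
    | succ n ih => rw [succ_nsmul, succ_nsmul, ev_add_left, ih]
  refine ⟨?_, fun d => ?_, ?_, fun q hq hqr hqp A hA σ hσ d => ?_⟩
  · exact Finite.of_injective (fun d m => ev d m) fun d d' h => ev_inj d d' fun m => congrFun h m
  · refine ev_inj _ _ fun m => ?_
    rw [ev_nsmul_left, ← ev_nsmul_right, hM.killed, ev_zero_right, ev_zero_left]
  · exact FlatModel.cartier_hom hM.flat ev ev_add_right ev_add_left ev_smul ev_inj j j_add j_zero
      j_smul j_inj
  · refine ev_inj _ _ fun m => ?_
    have hσ' : σ⁻¹ ∈ A.inertiaSubgroupIn ℚ := inv_mem hσ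
    have h1 : ev (σ • d) (σ • (σ⁻¹ • m)) = σ • ev d (σ⁻¹ • m) := ev_smul σ d (σ⁻¹ • m)
    rw [smul_inv_smul] at h1
    rw [h1, hC q hq hqr hqp A hA σ hσ, hM.unram q hq hqr hqp A hA σ⁻¹ hσ']

variable {M C : Type} [AddCommGroup M] [DistribMulAction GQ M] [AddCommGroup C]
  [DistribMulAction GQ C] [Finite C]

/-- **good modules are closed under `M ↦ Dual M C`** (helper2's dual, contragredient action), for `C` a
group of roots of unity (`j`) unramified outside `{r, p}`. -/
theorem okMod_dual (hM : OkMod r k p M)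
    (j : C → Qb) (j_add : ∀ c c', j (c + c') = j c * j c') (j_zero : j 0 = 1)
    (j_smul : ∀ (σ : GQ) c, j (σ • c) = σ (j c)) (j_inj : Function.Injective j)
    (hC : ∀ q : ℕ, q.Prime → q ≠ r → q ≠ p → ∀ A : ValuationSubring Qb, A.LiesOverPrime q →
      ∀ σ ∈ A.inertiaSubgroupIn ℚ, ∀ c : C, σ • c = c) :
    OkMod r k p (Dual M C) := by
  refine OkMod.cartier_hom hM (fun (f : Dual M C) x => f.hom x) (fun f m m' => map_add f.hom m m')
    (fun f f' m => rfl) (fun σ f m => ?_) (fun f f' h => Dual.ext h) j j_add j_zero j_smul j_inj hC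
  rw [Dual.smul_hom, inv_smul_smul]

/-- **the hypothesis `hOk` of helper2's `DualDevissage2.card_H1S_le_mul_dualH0`** for the concrete
admissible family. -/
theorem admFamily_ok_prod_dual (hM : OkMod r k p M)
    (j : C → Qb) (j_add : ∀ c c', j (c + c') = j c * j c') (j_zero : j 0 = 1)
    (j_smul : ∀ (σ : GQ) c, j (σ • c) = σ (j c)) (j_inj : Function.Injective j)
    (hC : ∀ q : ℕ, q.Prime → q ≠ r → q ≠ p → ∀ A : ValuationSubring Qb, A.LiesOverPrime q →
      ∀ σ ∈ A.inertiaSubgroupIn ℚ, ∀ c : C, σ • c = c) :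
    (admFamily r k p).Ok (M × Dual M C) :=
  OkMod.prod hM (okMod_dual hM j j_add j_zero j_smul j_inj hC)

end Fermat.Agent.MAZ.Flat.CartierOk68
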