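/-
Programme MAZ (S15), chapter `r = 2` (P3), CARTIER WITH MARKS (helper68).

* `marked_cartier_hom` : a `G_ℚ`-module `M` with a marked local model at `r`, `D` a group of
  homomorphisms `M → C` (contragredient action), `C` a group of roots of unity: then `D` has a marked
  local model (the dual order `Cartier68.dualAlg68`, marked by its kernel of reduction).
* `UnipTwo` : the class of `Gal(ℚ̄_2/ℚ_2)`-modules of `2`-power exponent on which every element acts with
  `2`-power order; a nonzero finite module of the class has a stable subgroup of order two with quotient in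
  the class (`exists_stable_card_two`), so helper33's count applies:
* `marked_cartier_hom_two` : for `r = 2` and `M` unipotent, the mark `D₀` of the dual satisfies
  `#D₀ · #M₀ ≤ #M`  (`CartierCount33.card_conn_mul_card_conn_dual_le_two`).
* `exists_pow_smul_eq_of_eisData` : modules with Eichler–Shimura data at `r = 2` are unipotent.
* `marked_prod_dual_two` : the literal supplier for `M × Dual M C` (helper2's `DualModule2.Dual`).
-/
import Mathlib
import Fermat.Agent.MAZ.Flat.MarkExt68
import Fermat.Agent.MAZ.Flat.CartierCount33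
import Fermat.Agent.MAZ.Flat.CartierOk68
import Fermat.Agent.MAZ.Desc.EisFiltration19

set_option autoImplicit false
set_option linter.unusedSectionVars false
set_option linter.style.haveILetI false

noncomputable section

namespace Fermat.Agent.MAZ.Flat.CartierMarked68

open Fermat.Agent.S19.Shell64 Fermat.Agent.TW.FF.FunOrder68 Fermat.Agent.TW.FF.FlatModel68
open Fermat.Agent.TW.FF.Spec72 Fermat.Agent.TW.FF.Red68 Fermat.Agent.TW.FF.Closure68
open Fermat.Agent.TW.FF.ClosureQuot68
open Fermat.Agent.MAZ.Flat.Mark68 Fermat.Agent.MAZ.Flat.Cartier68 Fermat.Agent.MAZ.Flat.CartierCount33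

local notation "Qb" => AlgebraicClosure ℚ

/-- the action of the local Galois group on a `G_ℚ`-module. -/
@[reducible] def locDMA (r : ℕ) [Fact r.Prime] (N : Type) [AddCommGroup N] [DistribMulAction GQ N] :
    DistribMulAction (GQp r) N :=
  DistribMulAction.compHom N (localGaloisToGlobal r)

/-! ### 1. The dual of a marked model -/

section Dual

variable {r : ℕ} [Fact r.Prime] {M D C : Type} [AddCommGroup M] [DistribMulAction GQ M]
  [AddCommGroup D] [DistribMulAction GQ D] [AddCommGroup C] [DistribMulAction GQ C]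

/-- the character pairing attached to an evaluation pairing and an embedding `j : C → ℚ̄`. -/
theorem isCharPairing_of_ev (ev : D → M → C)
    (ev_add_right : ∀ d m m', ev d (m + m') = ev d m + ev d m')
    (ev_add_left : ∀ d d' m, ev (d + d') m = ev d m + ev d' m)
    (ev_smul : ∀ (σ : GQ) d m, ev (σ • d) (σ • m) = σ • ev d m)
    (ev_inj : ∀ d d', (∀ m, ev d m = ev d' m) → d = d')
    (j : C → Qb) (j_add : ∀ c c', j (c + c') = j c * j c') (j_zero : j 0 = 1)
    (j_smul : ∀ (σ : GQ) c, j (σ • c) = σ (j c)) (j_inj : Function.Injective j) :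
    @IsCharPairing ℚ_[r] (PadicAlgCl r) M D _ _ _ _ (locDMA r M).toMulAction _
      (locDMA r D).toMulAction (fun d m => padicEmbedding r (j (ev d m))) := by
  letI := locDMA r M
  letI := locDMA r D
  have ev_zero : ∀ d, ev d 0 = 0 := fun d => by
    have := ev_add_right d 0 0
    rw [add_zero] at this
    exact left_eq_add.mp this
  refine ⟨fun d m m' => ?_, fun d => ?_, fun d d' m => ?_, fun τ d m => ?_, fun d d' hdd => ?_⟩
  · rw [ev_add_right, j_add, map_mul]
  · rw [ev_zero, j_zero, map_one]
  · rw [ev_add_left, j_add, map_mul]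
  · change padicEmbedding r (j (ev (localGaloisToGlobal r τ • d) (localGaloisToGlobal r τ • m))) = _
    rw [ev_smul, j_smul, padicEmbedding_localGaloisToGlobal]
  · by_contra hcon
    push Not at hcon
    exact hdd (ev_inj d d' fun m => j_inj ((padicEmbedding r).injective (hcon m)))

/-- **marked models are closed under `M ↦ Hom(M, μ)`.** -/
theorem marked_cartier_hom {M₀ : AddSubgroup M}
    (hM : MarkedModel r M (fun (τ : GQp r) (x : M) => localGaloisToGlobal r τ • x) M₀)
    (ev : D → M → C)
    (ev_add_right : ∀ d m m', ev d (m + m') = ev d m + ev d m')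
    (ev_add_left : ∀ d d' m, ev (d + d') m = ev d m + ev d' m)
    (ev_smul : ∀ (σ : GQ) d m, ev (σ • d) (σ • m) = σ • ev d m)
    (ev_inj : ∀ d d', (∀ m, ev d m = ev d' m) → d = d')
    (j : C → Qb) (j_add : ∀ c c', j (c + c') = j c * j c') (j_zero : j 0 = 1)
    (j_smul : ∀ (σ : GQ) c, j (σ • c) = σ (j c)) (j_inj : Function.Injective j) :
    ∃ D₀ : AddSubgroup D,
      MarkedModel r D (fun (τ : GQp r) (x : D) => localGaloisToGlobal r τ • x) D₀ := by
  obtain ⟨inst, H, hH, hact, hM₀⟩ := hM
  have hinst : inst = locDMA r M := DistribMulAction.ext (by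
    funext τ m
    exact hact τ m)
  subst hinst
  letI := locDMA r M
  letI := locDMA r D
  haveI : Finite M := IsFunOrder.finite_carrier (F := ℚ_[r]) hH
  cases nonempty_fintype M
  have he := isCharPairing_of_ev (r := r) ev ev_add_right ev_add_left ev_smul ev_inj j j_add j_zero
    j_smul j_inj
  exact ⟨_, MarkedModel.of_isFunOrder (isFunOrder_dualAlg68 hfixp hH he) _ (fun _ _ => rfl)⟩

end Dual

/-! ### 2. The unipotent class at `2` -/

section Unip

/-- `2`-power exponent, and every element of the local Galois group acts with `2`-power order. -/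
def UnipTwo (M : Type) [AddCommGroup M] [DistribMulAction (GQp 2) M] : Prop :=
  (∃ n : ℕ, ∀ m : M, 2 ^ n • m = 0) ∧ ∀ τ : GQp 2, ∃ n : ℕ, ∀ m : M, τ ^ 2 ^ n • m = m

/-- an element of `2`-power order has a multiple of order exactly two. -/
theorem exists_order_two {M : Type} [AddCommGroup M] {x : M} (hx : x ≠ 0) {n : ℕ}
    (hn : 2 ^ n • x = 0) : ∃ j : ℕ, 2 ^ j • x ≠ 0 ∧ 2 • (2 ^ j • x) = 0 := by
  classical
  have hex : ∃ j : ℕ, 2 ^ j • x = 0 := ⟨n, hn⟩
  have hpos : 0 < Nat.find hex := by
    rw [Nat.pos_iff_ne_zero]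
    intro h0
    have := Nat.find_spec hex
    rw [h0, pow_zero, one_smul] at this
    exact hx this
  refine ⟨Nat.find hex - 1, Nat.find_min hex (by omega), ?_⟩
  rw [← mul_smul, ← pow_succ', show Nat.find hex - 1 + 1 = Nat.find hex by omega]
  exact Nat.find_spec hex

/-- **a nonzero finite module of the class has a stable subgroup of order two with quotient in the
class.** -/
theorem exists_stable_card_two (M : Type) [AddCommGroup M] [DistribMulAction (GQp 2) M] [Finite M]
    (hM : UnipTwo M) (hnt : Nontrivial M) :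
    ∃ (W : AddSubgroup M) (hW : ∀ (σ : GQp 2) (w : M), w ∈ W → σ • w ∈ W),
      Nat.card W = 2 ∧ @UnipTwo (M ⧸ W) _ (quotAction W hW) := by
  classical
  obtain ⟨⟨n, hn⟩, hτ⟩ := hM
  -- the image of Galois in the permutations of `M` is a `2`-group
  let Gbar : Subgroup (Equiv.Perm M) := (MulAction.toPermHom (GQp 2) M).range
  have hP : IsPGroup 2 Gbar := by
    rintro ⟨g, τ, rfl⟩
    obtain ⟨s, hs⟩ := hτ τ
    refine ⟨s, Subtype.ext ?_⟩
    change (MulAction.toPermHom (GQp 2) M τ) ^ 2 ^ s = 1
    rw [← map_pow]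
    ext m
    exact hs m
  -- `#M` is even
  obtain ⟨m₀, hm₀⟩ := exists_ne (0 : M)
  obtain ⟨j₀, hj₀, hj₀2⟩ := exists_order_two hm₀ (hn m₀)
  have heven : 2 ∣ Nat.card M := by
    have h1 : addOrderOf (2 ^ j₀ • m₀) = 2 := addOrderOf_eq_prime hj₀2 hj₀
    rw [← h1]
    exact addOrderOf_dvd_natCard _
  -- a nonzero fixed point
  have hmod := hP.card_modEq_card_fixedPoints M
  have hfix2 : 2 ∣ Nat.card (MulAction.fixedPoints Gbar M) :=
    (Nat.modEq_zero_iff_dvd.1 (hmod.symm.trans (Nat.modEq_zero_iff_dvd.2 heven)))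
  have hfixmem : ∀ x : M, x ∈ MulAction.fixedPoints Gbar M ↔ ∀ τ : GQp 2, τ • x = x := by
    intro x
    rw [MulAction.mem_fixedPoints]
    constructor
    · intro h τ
      exact h ⟨MulAction.toPermHom (GQp 2) M τ, τ, rfl⟩
    · rintro h ⟨g, τ, rfl⟩
      exact h τ
  have hexfix : ∃ x : M, x ≠ 0 ∧ ∀ τ : GQp 2, τ • x = x := by
    by_contra hcon
    push Not at hcon
    have hsub : Subsingleton (MulAction.fixedPoints Gbar M) := by
      refine ⟨fun a b => Subtype.ext ?_⟩
      have ha : (a : M) = 0 := by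
        by_contra h
        obtain ⟨τ, hτa⟩ := hcon a h
        exact hτa ((hfixmem a).1 a.2 τ)
      have hb : (b : M) = 0 := by
        by_contra h
        obtain ⟨τ, hτb⟩ := hcon b h
        exact hτb ((hfixmem b).1 b.2 τ)
      rw [ha, hb]
    have hne : Nonempty (MulAction.fixedPoints Gbar M) :=
      ⟨⟨0, (hfixmem 0).2 fun τ => smul_zero τ⟩⟩
    have h1 : Nat.card (MulAction.fixedPoints Gbar M) = 1 := Nat.card_unique
    rw [h1] at hfix2
    omega
  obtain ⟨x, hx0, hxfix⟩ := hexfix
  obtain ⟨j, hj, hj2⟩ := exists_order_two hx0 (hn x)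
  obtain ⟨y, hy⟩ : ∃ y : M, y = 2 ^ j • x := ⟨_, rfl⟩
  rw [← hy] at hj hj2
  have hyfix : ∀ τ : GQp 2, τ • y = y := fun τ => by
    have h1 : τ • (2 ^ j • x) = 2 ^ j • (τ • x) :=
      map_nsmul (DistribSMul.toAddMonoidHom M τ) (2 ^ j) x
    rw [hy, h1, hxfix]
  have hyord : addOrderOf y = 2 := addOrderOf_eq_prime hj2 hj
  have hW : ∀ (σ : GQp 2) (w : M), w ∈ AddSubgroup.zmultiples y →
      σ • w ∈ AddSubgroup.zmultiples y := by
    rintro σ w ⟨z, rfl⟩
    refine ⟨z, ?_⟩
    have h1 : σ • (z • y) = z • (σ • y) := map_zsmul (DistribSMul.toAddMonoidHom M σ) z y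
    change z • y = σ • (z • y)
    rw [h1, hyfix]
  refine ⟨AddSubgroup.zmultiples y, hW, ?_, ?_, ?_⟩
  · rw [Nat.card_zmultiples, hyord]
  · refine ⟨n, fun q => ?_⟩
    induction q using QuotientAddGroup.induction_on with
    | H m =>
      rw [← QuotientAddGroup.mk_nsmul, hn m]
      rfl
  · intro τ
    obtain ⟨s, hs⟩ := hτ τ
    refine ⟨s, fun q => ?_⟩
    induction q using QuotientAddGroup.induction_on with
    | H m =>
      change quotSmul _ hW (τ ^ 2 ^ s) (QuotientAddGroup.mk m) = _
      rw [quotSmul_mk, hs m]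

end Unip

/-! ### 3. The count at `2` -/

section Count

open Fermat.Agent.MAZ.Desc.DualModule2

variable {M D C : Type} [AddCommGroup M] [DistribMulAction GQ M]
  [AddCommGroup D] [DistribMulAction GQ D] [AddCommGroup C] [DistribMulAction GQ C]

/-- `2`-power exponent, and every element of `G_ℚ` acts with `2`-power order. -/
def UnipTwoGlobal (M : Type) [AddCommGroup M] [DistribMulAction GQ M] : Prop :=
  (∃ n : ℕ, ∀ m : M, 2 ^ n • m = 0) ∧ ∀ g : GQ, ∃ n : ℕ, ∀ m : M, g ^ 2 ^ n • m = m

theorem unipTwo_loc (h : UnipTwoGlobal M) : @UnipTwo M _ (locDMA 2 M) := by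
  letI := locDMA 2 M
  refine ⟨h.1, fun τ => ?_⟩
  obtain ⟨n, hn⟩ := h.2 (localGaloisToGlobal 2 τ)
  refine ⟨n, fun m => ?_⟩
  change localGaloisToGlobal 2 (τ ^ 2 ^ n) • m = m
  rw [map_pow]
  exact hn m

/-- **CARTIER WITH MARKS at `2`**: the dual of a unipotent marked module has a marked model whose mark
`D₀` satisfies `#D₀ · #M₀ ≤ #M`. -/
theorem marked_cartier_hom_two [Finite C] {M₀ : AddSubgroup M}
    (hM : MarkedModel 2 M (fun (τ : GQp 2) (x : M) => localGaloisToGlobal 2 τ • x) M₀)
    (hU : UnipTwoGlobal M) (ev : D → M → C)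
    (ev_add_right : ∀ d m m', ev d (m + m') = ev d m + ev d m')
    (ev_add_left : ∀ d d' m, ev (d + d') m = ev d m + ev d' m)
    (ev_smul : ∀ (σ : GQ) d m, ev (σ • d) (σ • m) = σ • ev d m)
    (ev_inj : ∀ d d', (∀ m, ev d m = ev d' m) → d = d')
    (j : C → Qb) (j_add : ∀ c c', j (c + c') = j c * j c') (j_zero : j 0 = 1)
    (j_smul : ∀ (σ : GQ) c, j (σ • c) = σ (j c)) (j_inj : Function.Injective j) :
    ∃ D₀ : AddSubgroup D,
      MarkedModel 2 D (fun (τ : GQp 2) (x : D) => localGaloisToGlobal 2 τ • x) D₀ ∧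
        Nat.card D₀ * Nat.card M₀ ≤ Nat.card M := by
  obtain ⟨inst, H, hH, hact, hM₀⟩ := hM
  have hinst : inst = locDMA 2 M := DistribMulAction.ext (by
    funext τ m
    exact hact τ m)
  subst hinst
  letI := locDMA 2 M
  letI := locDMA 2 D
  haveI : Finite M := IsFunOrder.finite_carrier (F := ℚ_[2]) hH
  haveI : Finite D :=
    Finite.of_injective (fun d m => ev d m) fun d d' h => ev_inj d d' fun m => congrFun h m
  cases nonempty_fintype M
  have he := isCharPairing_of_ev (r := 2) ev ev_add_right ev_add_left ev_smul ev_inj j j_add j_zero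
    j_smul j_inj
  refine ⟨_, MarkedModel.of_isFunOrder (isFunOrder_dualAlg68 hfixp hH he) _ (fun _ _ => rfl), ?_⟩
  have hcount := card_conn_mul_card_conn_dual_le_two
    (fun (M : Type) [AddCommGroup M] [DistribMulAction (GQp 2) M] => UnipTwo M)
    (fun M _ _ _ h hnt => exists_stable_card_two M h hnt) (unipTwo_loc hU) hH he
  have hconn : conn hH = M₀ := by
    ext m
    rw [mem_conn_iff, hM₀]
  rw [hconn] at hcount
  rw [mul_comm]
  exact hcount

end Count

/-! ### 4. Modules with Eichler–Shimura data at `2` are unipotent -/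

section Eis

open Fermat.Agent.MAZ.Desc.EisFiltration19 Fermat.Agent.MAZ.Desc.Devissage95

variable {G : Type*} [Group G] {T : Type*} [CommRing T] {π : T →+* ZMod 2} {χ : G →* ZMod 2}
  {τ δ : G → T}

theorem zmod_two_eq_one {a : ZMod 2} (ha : a ≠ 0) : a = 1 := by
  revert a
  decide

/-- **every element acts with `2`-power order on a finite module with Eichler–Shimura data at `2`.** -/
theorem exists_pow_smul_eq_of_eisData :
    ∀ (n : ℕ) (M : Type) [AddCommGroup M] [DistribMulAction G M] [Module T M]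
      [SMulCommClass G T M] [Finite M], Nat.card M ≤ n → EisData π χ τ δ M →
      ∀ g : G, ∃ s : ℕ, ∀ m : M, g ^ 2 ^ s • m = m := by
  intro n
  induction n with
  | zero =>
    intro M _ _ _ _ _ hn
    exfalso
    have := Nat.card_pos (α := M)
    omega
  | succ n ih =>
    intro M _ _ _ _ _ hn E g
    by_cases hnt : Nontrivial M
    · obtain ⟨W, -, hWst, hWcard, -, hWG⟩ := exists_rank_one_sub E
      -- `g` fixes `W` pointwise
      have hgW : ∀ w ∈ W, g • w = w := by
        rcases hWG with h | h
        · exact h g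
        · intro w hw
          have hχ : χ g = 1 := by
            apply zmod_two_eq_one
            intro h0
            have h1 : χ g * χ g⁻¹ = 1 := by rw [← map_mul, mul_inv_cancel, map_one]
            rw [h0, zero_mul] at h1
            exact zero_ne_one h1
          rw [h g w hw, hχ, ZMod.val_one, one_smul]
      have hpowW : ∀ (i : ℕ), ∀ w ∈ W, g ^ i • w = w := by
        intro i
        induction i with
        | zero => intro w _; rw [pow_zero, one_smul]
        | succ i ihi =>
          intro w hw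
          rw [pow_succ, mul_smul, hgW w hw, ihi w hw]
      have h2W : ∀ w ∈ W, 2 • w = 0 := by
        intro w hw
        have h1 : Nat.card W • (⟨w, hw⟩ : W) = 0 := card_nsmul_eq_zero'
        rw [hWcard] at h1
        exact congrArg Subtype.val h1
      -- the quotient
      letI := quotDMA (toSub W hWst) hWst.1
      haveI := quot_smulCommClass (toSub W hWst) hWst.1
      have EQ : EisData π χ τ δ (M ⧸ toSub W hWst) := eisData_quot (toSub W hWst) hWst.1 E
      have hcard := Submodule.card_eq_card_quotient_mul_card (toSub W hWst)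
      have hcW : Nat.card ↥(toSub W hWst) = 2 := hWcard
      rw [hcW] at hcard
      haveI : Finite (M ⧸ toSub W hWst) :=
        Finite.of_surjective _ (Submodule.Quotient.mk_surjective (toSub W hWst))
      have hQpos := Nat.card_pos (α := M ⧸ toSub W hWst)
      obtain ⟨s, hs⟩ := ih (M ⧸ toSub W hWst) (by omega) EQ g
      refine ⟨s + 1, fun m => ?_⟩
      have hmem : g ^ 2 ^ s • m - m ∈ W := by
        have h1 := hs (Submodule.Quotient.mk m)
        rw [quot_smul_mk (toSub W hWst) hWst.1] at h1
        exact (Submodule.Quotient.eq (toSub W hWst)).1 h1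
      have e1 : g ^ 2 ^ (s + 1) = g ^ 2 ^ s * g ^ 2 ^ s := by
        rw [pow_succ, pow_mul, pow_two]
      have e2 : g ^ 2 ^ s • m = m + (g ^ 2 ^ s • m - m) := by abel
      rw [e1, mul_smul, e2, smul_add, hpowW _ _ hmem]
      have h3 := h2W _ hmem
      rw [two_smul] at h3
      calc g ^ 2 ^ s • m + (g ^ 2 ^ s • m - m)
          = m + ((g ^ 2 ^ s • m - m) + (g ^ 2 ^ s • m - m)) := by abel
        _ = m := by rw [h3, add_zero]
    · have hss : Subsingleton M := not_nontrivial_iff_subsingleton.mp hnt
      exact ⟨0, fun m => Subsingleton.elim _ _⟩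

end Eis

/-! ### 5. The literal supplier for `M × Dual M C` -/

section Supplier

open Fermat.Agent.MAZ.Desc.DualModule2 Fermat.Agent.MAZ.Desc.EisFiltration19

variable {M C : Type} [AddCommGroup M] [DistribMulAction GQ M] [AddCommGroup C]
  [DistribMulAction GQ C] [Finite C]

/-- a finite `G_ℚ`-module with Eichler–Shimura data at `2` is unipotent. -/
theorem unipTwoGlobal_of_eisData {T : Type*} [CommRing T] [Module T M] [SMulCommClass GQ T M]
    [Finite M] {π : T →+* ZMod 2} {χ : GQ →* ZMod 2} {τ δ : GQ → T} (E : EisData π χ τ δ M) :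
    UnipTwoGlobal M := by
  refine ⟨?_, fun g => exists_pow_smul_eq_of_eisData _ M le_rfl E g⟩
  obtain ⟨m, hm⟩ := E.nil
  refine ⟨m, fun x => ?_⟩
  have h2 : ((2 : ℕ) : T) ∈ RingHom.ker π := by
    rw [RingHom.mem_ker, map_natCast]
    exact ZMod.natCast_self 2
  have h1 := hm _ (Ideal.pow_mem_pow h2 m) x
  rw [← Nat.cast_pow, Nat.cast_smul_eq_nsmul] at h1
  exact h1

/-- **the marked model of `M × Dual M C` at `2`** (helper2's dual, `C` a group of roots of unity): the
mark is `M₀.prod D₀` with `#D₀ · #M₀ ≤ #M`  — the numeric input of the dual marked devissage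
(`DualDevissageMarked95`). -/
theorem marked_prod_dual_two {M₀ : AddSubgroup M}
    (hM : MarkedModel 2 M (fun (τ : GQp 2) (x : M) => localGaloisToGlobal 2 τ • x) M₀)
    (hU : UnipTwoGlobal M)
    (j : C → Qb) (j_add : ∀ c c', j (c + c') = j c * j c') (j_zero : j 0 = 1)
    (j_smul : ∀ (σ : GQ) c, j (σ • c) = σ (j c)) (j_inj : Function.Injective j) :
    ∃ D₀ : AddSubgroup (Dual M C),
      MarkedModel 2 (M × Dual M C)
        (fun (τ : GQp 2) (x : M × Dual M C) => localGaloisToGlobal 2 τ • x) (M₀.prod D₀) ∧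
      Nat.card D₀ * Nat.card M₀ ≤ Nat.card M := by
  obtain ⟨D₀, hD, hcount⟩ := marked_cartier_hom_two hM hU (fun (f : Dual M C) x => f.hom x)
    (fun f m m' => map_add f.hom m m') (fun f f' m => rfl)
    (fun σ f m => by rw [Dual.smul_hom, inv_smul_smul]) (fun f f' h => Dual.ext h)
    j j_add j_zero j_smul j_inj
  exact ⟨D₀, Fermat.Agent.MAZ.Flat.MarkExt68.marked_prod 2 hM hD, hcount⟩

/-- the same for any prime `r`, without the count. -/
theorem marked_prod_dual {r : ℕ} [Fact r.Prime] {M₀ : AddSubgroup M}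
    (hM : MarkedModel r M (fun (τ : GQp r) (x : M) => localGaloisToGlobal r τ • x) M₀)
    (j : C → Qb) (j_add : ∀ c c', j (c + c') = j c * j c') (j_zero : j 0 = 1)
    (j_smul : ∀ (σ : GQ) c, j (σ • c) = σ (j c)) (j_inj : Function.Injective j) :
    ∃ D₀ : AddSubgroup (Dual M C),
      MarkedModel r (M × Dual M C)
        (fun (τ : GQp r) (x : M × Dual M C) => localGaloisToGlobal r τ • x) (M₀.prod D₀) := by
  obtain ⟨D₀, hD⟩ := marked_cartier_hom hM (fun (f : Dual M C) x => f.hom x)
    (fun f m m' => map_add f.hom m m') (fun f f' m => rfl)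
    (fun σ f m => by rw [Dual.smul_hom, inv_smul_smul]) (fun f f' h => Dual.ext h)
    j j_add j_zero j_smul j_inj
  exact ⟨D₀, Fermat.Agent.MAZ.Flat.MarkExt68.marked_prod r hM hD⟩

end Supplier

end Fermat.Agent.MAZ.Flat.CartierMarked68
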