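/-
Programme MAZ (S15), chapter `r = 2` (P3), CARTIER WITH MARKS, complement (helper68).

`CartierMarked68.marked_cartier_hom_two` with the third conjunct needed by the marked toric argument
(`ToricAsmM50.factorial_nsmul_fixed_le_range_marked_abs`): the mark `D₀` of the dual CONTAINS the
annihilator of the mark of `M` (helper33's `CartierAnn33.ann_conn_le_conn_dual`), for the SAME `D₀`.
* `marked_cartier_hom_two_ann`, `marked_prod_dual_two_ann` (literal for helper2's `Dual M C`).
-/
import Mathlib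
import Fermat.Agent.MAZ.Flat.CartierMarked68
import Fermat.Agent.MAZ.Flat.CartierAnn33

set_option autoImplicit false
set_option linter.unusedSectionVars false
set_option linter.style.haveILetI false

noncomputable section

namespace Fermat.Agent.MAZ.Flat.CartierMarkedAnn68

open Fermat.Agent.S19.Shell64 Fermat.Agent.TW.FF.FunOrder68 Fermat.Agent.TW.FF.FlatModel68
open Fermat.Agent.TW.FF.Spec72 Fermat.Agent.TW.FF.Red68 Fermat.Agent.TW.FF.Closure68
open Fermat.Agent.MAZ.Flat.Mark68 Fermat.Agent.MAZ.Flat.Cartier68 Fermat.Agent.MAZ.Flat.CartierCount33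
open Fermat.Agent.MAZ.Flat.CartierMarked68 Fermat.Agent.MAZ.Flat.CartierAnn33
open Fermat.Agent.MAZ.Desc.DualModule2

local notation "Qb" => AlgebraicClosure ℚ

variable {M D C : Type} [AddCommGroup M] [DistribMulAction GQ M]
  [AddCommGroup D] [DistribMulAction GQ D] [AddCommGroup C] [DistribMulAction GQ C]

/-- **CARTIER WITH MARKS at `2`, with the annihilator**: `#D₀ · #M₀ ≤ #M` and `M₀^⊥ ≤ D₀`. -/
theorem marked_cartier_hom_two_ann [Finite C] {M₀ : AddSubgroup M}
    (hM : MarkedModel 2 M (fun (τ : GQp 2) (x : M) => localGaloisToGlobal 2 τ • x) M₀)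
    (hU : UnipTwoGlobal M) (ev : D → M → C)
    (ev_add_right : ∀ d m m', ev d (m + m') = ev d m + ev d m')
    (ev_add_left : ∀ d d' m, ev (d + d') m = ev d m + ev d' m)
    (ev_smul : ∀ (σ : GQ) d m, ev (σ • d) (σ • m) = σ • ev d m)
    (ev_inj : ∀ d d', (∀ m, ev d m = ev d' m) → d = d')
    (j : C → Qb) (j_add : ∀ c c', j (c + c') = j c * j c') (j_zero : j 0 = 1)
    (j_smul : ∀ (σ : GQ) c, j (σ • c) = σ (j c)) (j_inj : Function.Injective j) :
    ∃ D₀ : AddSubgroup D,
      MarkedModel 2 D (fun (τ : GQp 2) (x : D) => localGaloisToGlobal 2 τ • x) D₀ ∧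
        Nat.card D₀ * Nat.card M₀ ≤ Nat.card M ∧
        ∀ d : D, (∀ m ∈ M₀, ev d m = 0) → d ∈ D₀ := by
  obtain ⟨inst, H, hH, hact, hM₀⟩ := hM
  have hinst : inst = locDMA 2 M := DistribMulAction.ext (by
    funext τ m
    exact hact τ m)
  subst hinst
  letI := locDMA 2 M
  letI := locDMA 2 D
  haveI : Finite M := IsFunOrder.finite_carrier (F := ℚ_[2]) hH
  haveI : Finite D :=
    Finite.of_injective (fun d m => ev d m) fun d d' h => ev_inj d d' fun m => congrFun h m
  cases nonempty_fintype M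
  have he := isCharPairing_of_ev (r := 2) ev ev_add_right ev_add_left ev_smul ev_inj j j_add j_zero
    j_smul j_inj
  have hconn : conn hH = M₀ := by
    ext m
    rw [mem_conn_iff, hM₀]
  refine ⟨_, MarkedModel.of_isFunOrder (isFunOrder_dualAlg68 hfixp hH he) _ (fun _ _ => rfl), ?_, ?_⟩
  · have hcount := card_conn_mul_card_conn_dual_le_two
      (fun (M : Type) [AddCommGroup M] [DistribMulAction (GQp 2) M] => UnipTwo M)
      (fun M _ _ _ h hnt => exists_stable_card_two M h hnt) (unipTwo_loc hU) hH he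
    rw [hconn] at hcount
    rw [mul_comm]
    exact hcount
  · intro d hd
    obtain ⟨n, hn⟩ := hU.1
    refine ann_conn_le_conn_dual hH he (fun m => ⟨n, hn m⟩) d (fun m hm => ?_)
    rw [hconn] at hm
    rw [hd m hm, j_zero, map_one]

/-- **the marked model of `M × Dual M C` at `2`**, with count and annihilator: exactly the inputs
`(D₀, hOk-mark, hann, hD₀)` of the marked toric / dual devissage at `r = 2`. -/
theorem marked_prod_dual_two_ann {M C : Type} [AddCommGroup M] [DistribMulAction GQ M]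
    [AddCommGroup C] [DistribMulAction GQ C] [Finite C] {M₀ : AddSubgroup M}
    (hM : MarkedModel 2 M (fun (τ : GQp 2) (x : M) => localGaloisToGlobal 2 τ • x) M₀)
    (hU : UnipTwoGlobal M)
    (j : C → Qb) (j_add : ∀ c c', j (c + c') = j c * j c') (j_zero : j 0 = 1)
    (j_smul : ∀ (σ : GQ) c, j (σ • c) = σ (j c)) (j_inj : Function.Injective j) :
    ∃ D₀ : AddSubgroup (Dual M C),
      MarkedModel 2 (M × Dual M C)
        (fun (τ : GQp 2) (x : M × Dual M C) => localGaloisToGlobal 2 τ • x) (M₀.prod D₀) ∧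
      Nat.card D₀ * Nat.card M₀ ≤ Nat.card M ∧ Dual.ann C M₀ ≤ D₀ := by
  obtain ⟨D₀, hD, hcount, hann⟩ := marked_cartier_hom_two_ann hM hU
    (fun (f : Dual M C) x => f.hom x)
    (fun f m m' => map_add f.hom m m') (fun f f' m => rfl)
    (fun σ f m => by rw [Dual.smul_hom, inv_smul_smul]) (fun f f' h => Dual.ext h)
    j j_add j_zero j_smul j_inj
  exact ⟨D₀, Fermat.Agent.MAZ.Flat.MarkExt68.marked_prod 2 hM hD, hcount,
    fun f hf => hann f (fun m hm => Dual.mem_ann.1 hf m hm)⟩

end Fermat.Agent.MAZ.Flat.CartierMarkedAnn68
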