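/-
Programme MAZ, chapter K-FLAT (owner helper69; this brick: helper92, GO of helper26 in report 2034).

**(2) A Galois-invariant class of an admissible set is defined over the base ring `O`.**

`𝒞` a chart of `B ↦ PicZeroR e B` over `O`, `η ∈ PicZeroR e Ω` fixed by `Aut(Ω/F)`, with `{η}`
admissible for `𝒞` and `ValSurj`.  If `Ω^{Aut(Ω/F)} = F` and `O` is integrally closed in `F` (and
`O → Ω` is injective), then `η` is the base change of a class `ζ ∈ PicZeroR e O`: the chart point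
`c : RW →ₐ[O] Ω` of `η` is Galois-invariant by `𝒞.inj` and integral over `O` (it extends over every
valuation subring `V ⊇ O` by `ValSurj` + `Admissible`), so it factors through `O`.
-/
import Mathlib
import Fermat.Agent.FFJ.Order.Order77

set_option autoImplicit false
set_option linter.style.haveILetI false
set_option linter.unusedSectionVars false

noncomputable section

namespace Fermat.Agent.MAZ.Flat.BaseClass92

open scoped TensorProduct
open Fermat.Agent.JAC.Core.Defs36 Fermat.Agent.JAC.Grp.Diag33 Fermat.Agent.FFJ.Core.ClR35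
  Fermat.Agent.FFJ.Core.ClRBc35 Fermat.Agent.TW.FF.FunOrder68 Fermat.Agent.FFJ.Spec.Spec35
  Fermat.Agent.S19.Shell64 Fermat.Agent.FFJ.Order.Order77

variable {O : Type} [CommRing O] {A0 A1 A01 : Type} [CommRing A0] [CommRing A1] [CommRing A01]
  [Algebra O A0] [Algebra O A1] [Algebra O A01] [Algebra A0 A01] [Algebra A1 A01]
  [IsScalarTower O A0 A01] [IsScalarTower O A1 A01] {t : A0} {s : A1}
  [IsLocalization.Away t A01] [IsLocalization.Away s A01] {e : A01 →ₐ[O] O}
  {F Ω : Type} [Field F] [Field Ω] [Algebra O F] [Algebra F Ω] [Algebra O Ω]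
  [IsScalarTower O F Ω]

/-- the chart point of a class in an admissible set is integral over `O`. -/
theorem isIntegral_point (𝒞 : ChartPkg O A0 A1 A01 t s e) {T : Set (ClR O A0 A1 A01 t s Ω)}
    (hVS : ValSurj O A0 A1 A01 t s e Ω) (hAdm : Admissible Ω 𝒞 T)
    (η : ClR O A0 A1 A01 t s Ω) (hη : η ∈ PicZeroR e Ω) (hηT : η ∈ T)
    (c : 𝒞.RW →ₐ[O] Ω) (hc : bcR c 𝒞.x = η) (r : 𝒞.RW) : IsIntegral O (c r) := by
  apply isIntegral_of_forall_mem
  intro V hV
  letI : Algebra O V := ((algebraMap O Ω).codRestrict V.toSubring hV).toAlgebra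
  haveI : IsScalarTower O V Ω := IsScalarTower.of_algebraMap_eq fun _ => rfl
  obtain ⟨ξ, hξ, hξΩ⟩ := hVS V η hη
  obtain ⟨φ, hφ⟩ := exists_point_val 𝒞 hAdm V ξ hξ (by rw [hξΩ]; exact hηT)
  have h1 : (IsScalarTower.toAlgHom O V Ω).comp φ = c :=
    𝒞.inj Ω _ _ (by rw [← bcR_bc, hφ, hξΩ, hc])
  have h2 : c r = (φ r : Ω) := by
    rw [← h1]
    rfl
  rw [h2]
  exact (φ r).2

/-- **a Galois-invariant class of an admissible set comes from `PicZeroR e O`.** -/
theorem exists_base_class (hO : Function.Injective (algebraMap O Ω))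
    (hfix : FixedFieldEqBase F Ω)
    (hic : ∀ y : F, IsIntegral O y → y ∈ Set.range (algebraMap O F))
    (𝒞 : ChartPkg O A0 A1 A01 t s e) {T : Set (ClR O A0 A1 A01 t s Ω)}
    (hVS : ValSurj O A0 A1 A01 t s e Ω) (hAdm : Admissible Ω 𝒞 T)
    (η : ClR O A0 A1 A01 t s Ω) (hη : η ∈ PicZeroR e Ω) (hηT : η ∈ T)
    (hinv : ∀ σ : Ω ≃ₐ[F] Ω, galActR O F σ η = η) :
    ∃ ζ : ClR O A0 A1 A01 t s O, ζ ∈ PicZeroR e O ∧ bcR (Algebra.ofId O Ω) ζ = η := by
  -- the chart point
  obtain ⟨c, hc⟩ : ∃ c : 𝒞.RW →ₐ[O] Ω, bcR c 𝒞.x = η :=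
    (𝒞.mem_iff Ω _ hη).mpr fun p =>
      (𝒞.W_iff Ω p.asIdeal.ResidueField (toResidueR Ω p) _ hη).mpr (hAdm.1 _ hηT)
  -- it is Galois-invariant
  have hcσ : ∀ (σ : Ω ≃ₐ[F] Ω) (r : 𝒞.RW), σ (c r) = c r := by
    intro σ r
    have h1 : (galHom O F σ).comp c = c :=
      𝒞.inj Ω _ _ (by
        rw [← bcR_bc, hc]
        exact hinv σ)
    have h2 : ((galHom O F σ).comp c) r = c r := by rw [h1]
    exact h2
  -- hence has values in the image of `O`
  have hval : ∀ r : 𝒞.RW, c r ∈ (Algebra.ofId O Ω).range := by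
    intro r
    obtain ⟨y, hy⟩ := hfix (c r) fun σ => hcσ σ r
    have hint : IsIntegral O y := by
      have h3 := isIntegral_point 𝒞 hVS hAdm η hη hηT c hc r
      rw [← hy] at h3
      exact (isIntegral_algHom_iff (IsScalarTower.toAlgHom O F Ω)
        (algebraMap F Ω).injective).mp h3
    obtain ⟨a, ha⟩ := hic y hint
    refine ⟨a, ?_⟩
    rw [← hy, ← ha]
    exact (IsScalarTower.algebraMap_apply O F Ω a)
  -- the point over `O`
  let eO : O ≃ₐ[O] (Algebra.ofId O Ω).range := AlgEquiv.ofInjective (Algebra.ofId O Ω) hO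
  let c' : 𝒞.RW →ₐ[O] O :=
    (eO.symm : (Algebra.ofId O Ω).range →ₐ[O] O).comp (c.codRestrict _ hval)
  have hc' : (Algebra.ofId O Ω).comp c' = c := by
    refine AlgHom.ext fun r => ?_
    have h4 : (Algebra.ofId O Ω) (eO.symm (c.codRestrict _ hval r)) =
        ((eO (eO.symm (c.codRestrict _ hval r)) : (Algebra.ofId O Ω).range) : Ω) := rfl
    change (Algebra.ofId O Ω) (eO.symm (c.codRestrict _ hval r)) = c r
    rw [h4, AlgEquiv.apply_symm_apply]
    rfl
  refine ⟨bcR c' 𝒞.x, picZeroR_bcR c' 𝒞.x_mem, ?_⟩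
  rw [bcR_bc, hc', hc]

end Fermat.Agent.MAZ.Flat.BaseClass92
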