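/-
Programme MAZ, chapter K-FLAT (helper69), brick KF3-b: **the two-level assembly with a carry.**

`geoInputNN_of_levelData`: at the level `O₁ = A ∩ K₁` a finite `G_ℚ`-module `E` with an invariant
projection `π : E →+ C`, a set map `j₁ : E → PicZeroR e₁ ℚ̄` (equivariant for `Gal(ℚ̄/K₁)`, injective on
the fibres of `π`) which is additive up to the powers of ONE class `c₁ ∈ PicZeroR e₁ ℚ̄` fixed by
`Gal(ℚ̄/K₁)`; at a bigger level `O' = A ∩ K'` (`K'` finite, unramified at `A`) a chart which contains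
the transported classes of `j₁(E) ∪ {c₁}` and all their specialisations, `PicZeroMul`, `ValSurj`
(= the output of KF4, `TwoLevelSet78`, for the family `Option E`).  Then `SpecNN78.GeoInputNN l E`.

Proof: `BaseClass92.exists_base_class` (KF2) descends the transported class of `c₁` to `O'`, then
`CarryLevel69.exists_isFunOrder_of_level` (= `KOrder92.exists_isFunOrder_carry` after `baseEquiv`).
-/
import Mathlib
import Fermat.Agent.MAZ.Flat.CarryLevel69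
import Fermat.Agent.MAZ.Flat.BaseClass92
import Fermat.Agent.FFJ.Pic.LevelInst85
import Fermat.Agent.FFJ.Val.ValInjR1
import Fermat.Agent.FFJ.Alg.SpecNN78

set_option autoImplicit false
set_option linter.style.haveILetI false
set_option linter.unusedSectionVars false
set_option maxHeartbeats 2000000

noncomputable section

namespace Fermat.Agent.MAZ.Flat.CarryGeo69

open scoped TensorProduct
open scoped Fermat.Agent.JAC.Core.ConstFamily36
open Fermat.Agent.JAC.Core.Defs36 Fermat.Agent.JAC.Core.ConstFamily36 Fermat.Agent.JAC.Grp.Diag33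
  Fermat.Agent.FFJ.Core.ClR35 Fermat.Agent.FFJ.Core.ClRBc35 Fermat.Agent.TW.FF.FunOrder68
  Fermat.Agent.FFJ.Spec.Spec35 Fermat.Agent.S19.Shell64 Fermat.Agent.FFJ.Alg.Spec78
  Fermat.Agent.FFJ.Alg.SpecLocal78 Fermat.Agent.FFJ.Alg.SpecNN78
  Fermat.Agent.TW.FF.FlatModel68 Fermat.Agent.FFJ.Order.GeoWire77
  Fermat.Agent.FFJ.Order.GeoWireOne77 Fermat.Agent.FFJ.Order.Order77
  Fermat.Agent.FFJ.Pic.SpecD35 Fermat.Agent.FFJ.Pic.BaseEquiv85 Fermat.Agent.FFJ.Pic.LevelIota85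
  Fermat.Agent.FFJ.Pic.LevelInst85

/-- the family `j₁(E) ∪ {c₁}` indexed by `Option E`. -/
def optFamily {E X : Type*} (j₁ : E → X) (c₁ : X) : Option E → X := fun o => o.elim c₁ j₁

@[simp] theorem optFamily_some {E X : Type*} (j₁ : E → X) (c₁ : X) (m : E) :
    optFamily j₁ c₁ (some m) = j₁ m := rfl

@[simp] theorem optFamily_none {E X : Type*} (j₁ : E → X) (c₁ : X) :
    optFamily j₁ c₁ none = c₁ := rfl

/-- `O = A ∩ K` is integrally closed in `K`. -/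
theorem integral_mem_range_OK (K : IntermediateField ℚ Qbar) (A : ValuationSubring Qbar)
    (y : K) (hy : IsIntegral (OK K A) y) : y ∈ Set.range (algebraMap (OK K A) K) := by
  obtain ⟨x, hx⟩ := IsIntegrallyClosed.algebraMap_eq_of_integral hy
  exact ⟨x, hx⟩

/-- **KF3: the two-level assembly with a carry.** -/
theorem geoInputNN_of_levelData (l : ℕ) (E : Type) [AddCommGroup E] [Finite E]
    [DistribMulAction GQ E] (C : Type) [AddCommGroup C] [Finite C] (π : E →+ C)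
    (hπ : ∀ (σ : GQ) (m : E), π (σ • m) = π m)
    (K₁ : IntermediateField ℚ Qbar) (A : ValuationSubring Qbar) (hA : A.LiesOverPrime l)
    (A0 A1 A01 : Type) [CommRing A0] [CommRing A1] [CommRing A01]
    [Algebra (OK K₁ A) A0] [Algebra (OK K₁ A) A1] [Algebra (OK K₁ A) A01] [Algebra A0 A01]
    [Algebra A1 A01] [IsScalarTower (OK K₁ A) A0 A01] [IsScalarTower (OK K₁ A) A1 A01]
    (t : A0) (s : A1) [IsLocalization.Away t A01] [IsLocalization.Away s A01]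
    (H₁ : Fermat.Agent.FFJ.Pic.ChartDefR35.CurveHypR (OK K₁ A) A0 A1 A01 t s)
    (e₁ : A01 →ₐ[OK K₁ A] OK K₁ A)
    (j₁ : E → ClR (OK K₁ A) A0 A1 A01 t s Qbar) (c₁ : ClR (OK K₁ A) A0 A1 A01 t s Qbar)
    (hinj : ∀ m m' : E, π m = π m' → j₁ m = j₁ m' → m = m')
    (hmem : ∀ m, j₁ m ∈ PicZeroR e₁ Qbar) (hc₁ : c₁ ∈ PicZeroR e₁ Qbar) (cr : C → C → ℕ)
    (hadd : ∀ m m', j₁ (m + m') = j₁ m * j₁ m' * c₁ ^ cr (π m) (π m'))
    (hequiv : ∀ (σ : Qbar ≃ₐ[K₁] Qbar) (m : E),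
      j₁ ((σ.restrictScalars ℚ : GQ) • m) = galActR (OK K₁ A) K₁ σ (j₁ m))
    (hfix : ∀ σ : Qbar ≃ₐ[K₁] Qbar, galActR (OK K₁ A) K₁ σ c₁ = c₁)
    (K' : IntermediateField ℚ Qbar) (hfd' : FiniteDimensional ℚ K') (hK : K₁ ≤ K')
    (hu' : UnramAtPlace A K')
    (h : letI := algebraOKOK hK A
      haveI := isScalarTower_OKOK_Qbar hK A
      ∃ 𝒞 : ChartPkg (OK K' A) (OK K' A ⊗[OK K₁ A] A0) (OK K' A ⊗[OK K₁ A] A1)
          (OK K' A ⊗[OK K₁ A] A01) ((1 : OK K' A) ⊗ₜ[OK K₁ A] t) ((1 : OK K' A) ⊗ₜ[OK K₁ A] s)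
          (rigHom (OK K' A) e₁),
        PicZeroMul (OK K' A) (OK K' A ⊗[OK K₁ A] A0) (OK K' A ⊗[OK K₁ A] A1)
          (OK K' A ⊗[OK K₁ A] A01) ((1 : OK K' A) ⊗ₜ[OK K₁ A] t) ((1 : OK K' A) ⊗ₜ[OK K₁ A] s)
          (rigHom (OK K' A) e₁) ∧
        ValSurj (OK K' A) (OK K' A ⊗[OK K₁ A] A0) (OK K' A ⊗[OK K₁ A] A1)
          (OK K' A ⊗[OK K₁ A] A01) ((1 : OK K' A) ⊗ₜ[OK K₁ A] t) ((1 : OK K' A) ⊗ₜ[OK K₁ A] s)
          (rigHom (OK K' A) e₁) Qbar ∧
        Admissible Qbar 𝒞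
          ((fun x => (baseEquiv (OK K₁ A) A0 A1 A01 t s (OK K' A) Qbar).symm x) ''
            Set.range (optFamily j₁ c₁))) :
    GeoInputNN l E := by
  letI := algebraOKOK hK A
  haveI := isScalarTower_OKOK_Qbar hK A
  obtain ⟨𝒞, hmul, hVS, hAdm⟩ := h
  haveI := isGalois_K_Qbar K'
  letI : MulAction (Qbar ≃ₐ[K'] Qbar) E := resMulAction K' E
  -- `1 ∈ PicZeroR` at the level `O'`
  have hone : (1 : ClR' (OK K₁ A) A0 A1 A01 t s (OK K' A) (OK K' A)) ∈
      PicZeroR (rigHom (OK K' A) e₁) (OK K' A) := by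
    rw [← baseEquiv_mem_picZeroR (OK K₁ A) A0 A1 A01 t s (OK K' A) (OK K' A) e₁, map_one]
    exact Fermat.Agent.FFJ.Val.PicZeroGrp1.one_mem e₁
      (Fermat.Agent.FFJ.Val.ValInjR1.curveHypR_v0 H₁) (OK K' A)
  -- the transported class of `c₁`
  have hηmem : (baseEquiv (OK K₁ A) A0 A1 A01 t s (OK K' A) Qbar).symm c₁ ∈
      PicZeroR (rigHom (OK K' A) e₁) Qbar := by
    rw [← baseEquiv_mem_picZeroR (OK K₁ A) A0 A1 A01 t s (OK K' A) Qbar e₁,
      MulEquiv.apply_symm_apply]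
    exact hc₁
  have hηT : (baseEquiv (OK K₁ A) A0 A1 A01 t s (OK K' A) Qbar).symm c₁ ∈
      (fun x => (baseEquiv (OK K₁ A) A0 A1 A01 t s (OK K' A) Qbar).symm x) ''
        Set.range (optFamily j₁ c₁) := ⟨c₁, ⟨none, rfl⟩, rfl⟩
  have hηinv : ∀ σ : Qbar ≃ₐ[K'] Qbar, galActR (OK K' A) K' σ
      ((baseEquiv (OK K₁ A) A0 A1 A01 t s (OK K' A) Qbar).symm c₁) =
      (baseEquiv (OK K₁ A) A0 A1 A01 t s (OK K' A) Qbar).symm c₁ := by
    intro σ
    rw [galActR_baseEquiv_symm (OK K₁ A) A0 A1 A01 t s (OK K' A) K₁ K' σ (galRestrict hK σ)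
      (fun _ => rfl), hfix]
  -- KF2: the class descends to `O'`
  have hζ := Fermat.Agent.MAZ.Flat.BaseClass92.exists_base_class (F := K')
    (algebraMap_OK_Qbar_injective A K') fixedFieldEqBase_of_isGalois
    (integral_mem_range_OK K' A) 𝒞 hVS hAdm _ hηmem hηT hηinv
  -- the set map is a subfamily
  have hAdm' : Admissible Qbar 𝒞
      ((fun x => (baseEquiv (OK K₁ A) A0 A1 A01 t s (OK K' A) Qbar).symm x) '' Set.range j₁) := by
    have hsub : (fun x => (baseEquiv (OK K₁ A) A0 A1 A01 t s (OK K' A) Qbar).symm x) ''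
        Set.range j₁ ⊆
        (fun x => (baseEquiv (OK K₁ A) A0 A1 A01 t s (OK K' A) Qbar).symm x) ''
          Set.range (optFamily j₁ c₁) := by
      rintro _ ⟨_, ⟨m, rfl⟩, rfl⟩
      exact ⟨j₁ m, ⟨some m, rfl⟩, rfl⟩
    exact Fermat.Agent.MAZ.Flat.CarryLevel69.admissible_subset hsub hAdm
  obtain ⟨Hs, hHs⟩ := Fermat.Agent.MAZ.Flat.CarryLevel69.exists_isFunOrder_of_level
    (OK K₁ A) A0 A1 A01 t s e₁ (OK K' A) K₁ K' hmul hone 𝒞 E C π
    (fun σ m => hπ (σ.restrictScalars ℚ : GQ) m) j₁ c₁ hinj hmem cr hadd (galRestrict hK)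
    (fun _ _ => rfl)
    (fun σ m => by
      have h1 := hequiv (galRestrict hK σ) m
      rw [galRestrict_restrictScalars hK σ] at h1
      exact h1)
    hVS hAdm' hζ
  exact ⟨K', hfd', A, hA, hu', Hs, hHs⟩

end Fermat.Agent.MAZ.Flat.CarryGeo69
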