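/-
Programme MAZ, chapter K-FLAT (helper69), brick KF3-c: **from a bridge on `J₀(M)(ℚ̄)` to the carry data.**

Let `ι₁ : J₀(M)(ℚ̄) → PicZeroR e₁ ℚ̄` be a BRIDGE on the whole group (`BridgeSubalgebra96` with
`T := JZero M`, `f := id`), `E` a finite `G_ℚ`-module with an invariant projection `π : E →+ C` and an
equivariant set map `jJ : E → J₀(M)(ℚ̄)`, injective on the fibres of `π`, with
`jJ (m + m') + cr (π m) (π m') • z = jJ m + jJ m'` for a rational point `z`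
(`KummerSet69.jmap_add`).  Then `j₁ := ι₁ ∘ jJ`, `c₁ := ι₁ (-z)` are carry data at the level of the
bridge, the family `Option E → {c₁} ∪ j₁(E)` is Galois-stable, and the output of the two-level seam
for this family (KF4, `TwoLevelSet78`, hypothesis `hLA`) gives `SpecNN78.GeoInputNN l E`.
-/
import Mathlib
import Fermat.Agent.MAZ.Flat.CarryGeo69

set_option autoImplicit false
set_option linter.style.haveILetI false
set_option linter.unusedSectionVars false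
set_option maxHeartbeats 2000000

noncomputable section

namespace Fermat.Agent.MAZ.Flat.CarryBridge69

open scoped TensorProduct
open scoped Fermat.Agent.JAC.Core.ConstFamily36
open ModularCurve
open Fermat.Agent.JAC.Core.Defs36 Fermat.Agent.JAC.Core.ConstFamily36 Fermat.Agent.JAC.Grp.Diag33
  Fermat.Agent.FFJ.Core.ClR35 Fermat.Agent.FFJ.Core.ClRBc35 Fermat.Agent.TW.FF.FunOrder68
  Fermat.Agent.FFJ.Spec.Spec35 Fermat.Agent.S19.Shell64 Fermat.Agent.FFJ.Alg.Spec78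
  Fermat.Agent.FFJ.Alg.SpecLocal78 Fermat.Agent.FFJ.Alg.SpecNN78
  Fermat.Agent.TW.FF.FlatModel68 Fermat.Agent.FFJ.Order.GeoWire77
  Fermat.Agent.FFJ.Order.GeoWireOne77 Fermat.Agent.FFJ.Order.Order77
  Fermat.Agent.FFJ.Pic.SpecD35 Fermat.Agent.FFJ.Pic.BaseEquiv85 Fermat.Agent.FFJ.Pic.LevelIota85
  Fermat.Agent.FFJ.Pic.LevelInst85 Fermat.Agent.MAZ.Flat.CarryGeo69

section Data

variable {Mlev : ℕ} {E C : Type} {X : Type*} [AddCommGroup E] [DistribMulAction GQ E]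
  [AddCommGroup C] [CommGroup X] (ι₁ : Multiplicative (JZero Mlev) →* X) (π : E →+ C)
  (jJ : E → JZero Mlev) (z : JZero Mlev) (cr : C → C → ℕ)

/-- the set map into the classes. -/
def jCl : E → X := fun m => ι₁ (Multiplicative.ofAdd (jJ m))

/-- the class of `-z`. -/
def cCl : X := ι₁ (Multiplicative.ofAdd (-z))

theorem jCl_add (hjadd : ∀ m m', jJ (m + m') + cr (π m) (π m') • z = jJ m + jJ m') (m m' : E) :
    jCl ι₁ jJ (m + m') = jCl ι₁ jJ m * jCl ι₁ jJ m' * cCl ι₁ z ^ cr (π m) (π m') := by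
  have h1 : jJ (m + m') = jJ m + jJ m' + cr (π m) (π m') • (-z) := by
    rw [neg_nsmul, ← sub_eq_add_neg, ← hjadd m m', add_sub_cancel_right]
  unfold jCl cCl
  rw [h1, ofAdd_add, ofAdd_add, ofAdd_nsmul, map_mul, map_mul, map_pow]

theorem jCl_inj (hinj : Function.Injective ι₁)
    (hjinj : ∀ m m' : E, π m = π m' → jJ m = jJ m' → m = m') (m m' : E) (hπ : π m = π m')
    (h : jCl ι₁ jJ m = jCl ι₁ jJ m') : m = m' :=
  hjinj m m' hπ (Multiplicative.ofAdd.injective (hinj h))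

end Data

/-- **KF3-c.**  The K-twin of `GeoTwoLevel77.geoInputNN_of_two_level`, with the two-level seam for
the family `Option E` as the hypothesis `hLA` (literal exit shape of `TwoLevelSet78.LevelAdmissible`
after unfolding). -/
theorem geoInputNN_carry_of_bridge (l : ℕ) (Mlev : ℕ) (E : Type) [AddCommGroup E] [Finite E]
    [DistribMulAction GQ E] (C : Type) [AddCommGroup C] [Finite C] (π : E →+ C)
    (hπ : ∀ (σ : GQ) (m : E), π (σ • m) = π m)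
    (jJ : E → JZero Mlev) (hjinj : ∀ m m' : E, π m = π m' → jJ m = jJ m' → m = m')
    (hjact : ∀ (σ : GQ) (m : E), jJ (σ • m) = σ • jJ m)
    (z : JZero Mlev) (hz : ∀ σ : GQ, σ • z = z) (cr : C → C → ℕ)
    (hjadd : ∀ m m', jJ (m + m') + cr (π m) (π m') • z = jJ m + jJ m')
    (K₁ : IntermediateField ℚ Qbar) (A : ValuationSubring Qbar) (hA : A.LiesOverPrime l)
    (A0 A1 A01 : Type) [CommRing A0] [CommRing A1] [CommRing A01]
    [Algebra (OK K₁ A) A0] [Algebra (OK K₁ A) A1] [Algebra (OK K₁ A) A01] [Algebra A0 A01]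
    [Algebra A1 A01] [IsScalarTower (OK K₁ A) A0 A01] [IsScalarTower (OK K₁ A) A1 A01]
    (t : A0) (s : A1) [IsLocalization.Away t A01] [IsLocalization.Away s A01]
    (H₁ : Fermat.Agent.FFJ.Pic.ChartDefR35.CurveHypR (OK K₁ A) A0 A1 A01 t s)
    (e₁ : A01 →ₐ[OK K₁ A] OK K₁ A)
    (ι₁ : Multiplicative (JZero Mlev) →* ClR (OK K₁ A) A0 A1 A01 t s Qbar)
    (hinj : Function.Injective ι₁) (hmem : ∀ m, ι₁ m ∈ PicZeroR e₁ Qbar)
    (hequiv : ∀ (σ : Qbar ≃ₐ[K₁] Qbar) (m : JZero Mlev),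
      ι₁ (Multiplicative.ofAdd ((σ.restrictScalars ℚ : GQ) • m)) =
        galActR (OK K₁ A) K₁ σ (ι₁ (Multiplicative.ofAdd m)))
    (hLA : (∀ i, optFamily (jCl ι₁ jJ) (cCl ι₁ z) i ∈ PicZeroR e₁ Qbar) →
      (∀ (σ : Qbar ≃ₐ[K₁] Qbar) (i : Option E), ∃ i' : Option E,
        optFamily (jCl ι₁ jJ) (cCl ι₁ z) i' =
          galActR (OK K₁ A) K₁ σ (optFamily (jCl ι₁ jJ) (cCl ι₁ z) i)) →
      ∃ (K' : IntermediateField ℚ Qbar) (_ : FiniteDimensional ℚ K') (hK : K₁ ≤ K'),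
        UnramAtPlace A K' ∧
        (letI := algebraOKOK hK A
         haveI := isScalarTower_OKOK_Qbar hK A
         ∃ 𝒞 : ChartPkg (OK K' A) (OK K' A ⊗[OK K₁ A] A0) (OK K' A ⊗[OK K₁ A] A1)
            (OK K' A ⊗[OK K₁ A] A01) ((1 : OK K' A) ⊗ₜ[OK K₁ A] t)
            ((1 : OK K' A) ⊗ₜ[OK K₁ A] s) (rigHom (OK K' A) e₁),
          PicZeroMul (OK K' A) (OK K' A ⊗[OK K₁ A] A0) (OK K' A ⊗[OK K₁ A] A1)
            (OK K' A ⊗[OK K₁ A] A01) ((1 : OK K' A) ⊗ₜ[OK K₁ A] t)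
            ((1 : OK K' A) ⊗ₜ[OK K₁ A] s) (rigHom (OK K' A) e₁) ∧
          ValSurj (OK K' A) (OK K' A ⊗[OK K₁ A] A0) (OK K' A ⊗[OK K₁ A] A1)
            (OK K' A ⊗[OK K₁ A] A01) ((1 : OK K' A) ⊗ₜ[OK K₁ A] t)
            ((1 : OK K' A) ⊗ₜ[OK K₁ A] s) (rigHom (OK K' A) e₁) Qbar ∧
          Admissible Qbar 𝒞
            ((fun x => (baseEquiv (OK K₁ A) A0 A1 A01 t s (OK K' A) Qbar).symm x) ''
              Set.range (optFamily (jCl ι₁ jJ) (cCl ι₁ z))))) :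
    GeoInputNN l E := by
  have hcfix : ∀ σ : Qbar ≃ₐ[K₁] Qbar, galActR (OK K₁ A) K₁ σ (cCl ι₁ z) = cCl ι₁ z := by
    intro σ
    have h1 := hequiv σ (-z)
    rw [smul_neg, hz] at h1
    exact h1.symm
  have hjequiv : ∀ (σ : Qbar ≃ₐ[K₁] Qbar) (m : E),
      jCl ι₁ jJ ((σ.restrictScalars ℚ : GQ) • m) = galActR (OK K₁ A) K₁ σ (jCl ι₁ jJ m) := by
    intro σ m
    unfold jCl
    rw [hjact]
    exact hequiv σ (jJ m)
  have hmem' : ∀ i, optFamily (jCl ι₁ jJ) (cCl ι₁ z) i ∈ PicZeroR e₁ Qbar := by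
    rintro (_ | m)
    · exact hmem _
    · exact hmem _
  have hstab : ∀ (σ : Qbar ≃ₐ[K₁] Qbar) (i : Option E), ∃ i' : Option E,
      optFamily (jCl ι₁ jJ) (cCl ι₁ z) i' =
        galActR (OK K₁ A) K₁ σ (optFamily (jCl ι₁ jJ) (cCl ι₁ z) i) := by
    rintro σ (_ | m)
    · exact ⟨none, (hcfix σ).symm⟩
    · exact ⟨some ((σ.restrictScalars ℚ : GQ) • m), hjequiv σ m⟩
  obtain ⟨K', hfd', hK, hu', h⟩ := hLA hmem' hstab
  exact geoInputNN_of_levelData l E C π hπ K₁ A hA A0 A1 A01 t s H₁ e₁ (jCl ι₁ jJ) (cCl ι₁ z)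
    (jCl_inj ι₁ π jJ hinj hjinj) (fun m => hmem _) (hmem _) cr (jCl_add ι₁ π jJ z cr hjadd)
    hjequiv hcfix K' hfd' hK hu' h

end Fermat.Agent.MAZ.Flat.CarryBridge69
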