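/-
Programme MAZ, chapter K-FLAT at the prime `2` (owner helper69; this brick: helper92).

**The congruences of the points of a carry order at the level `O' = A ∩ K'`, read at the level
`O₁ = A ∩ K₁` of the curve.**

K-FLAT builds its function order at a bigger level `O' = A ∩ K' ⊇ O₁ = A ∩ K₁` (two-level step) for the
set map `m ↦ (baseEquiv ℚ̄)⁻¹ (j₁ m)`, so `KOrderCong92.CongSpecCarry` describes the congruences of its
points by the specialisations of classes of the base-changed curve data `O' ⊗[O₁] A_i`.  The consumers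
(the mark of the finite flat model at `2`) want them in terms of the curve data over `O₁`, where the
points `j₁ m` live.  At the place `V = A` the two agree (`LevelInst85.baseEquiv_generic`,
`baseEquiv_special`, `BaseEquiv85.baseEquiv_mem_picZeroR`):

* `congSpecCarry_level` : for `A`-models `ξ, ξ'` over `O₁` of `j₁ m`, `j₁ m'`:
  `(∀ h ∈ H, h m - h m' ∈ A.nonunits) ↔ π m = π m' ∧ bcR (resV A) ξ = bcR (resV A) ξ'`;
* `congSpec_level` : the same for the orders of `ChartCong37.CongSpec` (group embeddings).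
-/
import Mathlib
import Fermat.Agent.FFJ.Order.KOrderCong92
import Fermat.Agent.FFJ.Pic.LevelIota85
import Fermat.Agent.FFJ.Pic.LevelInst85

set_option autoImplicit false
set_option linter.style.haveILetI false
set_option linter.unusedSectionVars false
set_option maxHeartbeats 400000

noncomputable section

namespace Fermat.Agent.MAZ.Flat.LevelCong92

open scoped TensorProduct
open scoped Fermat.Agent.JAC.Core.ConstFamily36
open Fermat.Agent.JAC.Core.Defs36 Fermat.Agent.JAC.Core.ConstFamily36 Fermat.Agent.JAC.Grp.Diag33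
  Fermat.Agent.FFJ.Core.ClR35 Fermat.Agent.FFJ.Core.ClRBc35
  Fermat.Agent.FFJ.Spec.Spec35 Fermat.Agent.FFJ.Alg.Spec78
  Fermat.Agent.FFJ.Order.GeoWire77
  Fermat.Agent.FFJ.Order.GeoWireOne77
  Fermat.Agent.FFJ.Pic.SpecD35 Fermat.Agent.FFJ.Pic.BaseEquiv85 Fermat.Agent.FFJ.Pic.LevelIota85
  Fermat.Agent.FFJ.Pic.LevelInst85 Fermat.Agent.FFJ.Order.KOrderCong92
  Fermat.Agent.FFJ.Order.ChartCong37

variable {K₁ K' : IntermediateField ℚ Qbar} (hK : K₁ ≤ K') (A : ValuationSubring Qbar)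
  {A0 A1 A01 : Type} [CommRing A0] [CommRing A1] [CommRing A01]
  [Algebra (OK K₁ A) A0] [Algebra (OK K₁ A) A1] [Algebra (OK K₁ A) A01] [Algebra A0 A01]
  [Algebra A1 A01] [IsScalarTower (OK K₁ A) A0 A01] [IsScalarTower (OK K₁ A) A1 A01]
  {t : A0} {s : A1} [IsLocalization.Away t A01] [IsLocalization.Away s A01]
  (e₁ : A01 →ₐ[OK K₁ A] OK K₁ A)

/-- the `A`-model over `O'` of a class over `O₁`, with its three properties. -/
theorem exists_level_model (x : ClR (OK K₁ A) A0 A1 A01 t s Qbar)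
    (ξ : letI := algebraOKA K₁ A; ClR (OK K₁ A) A0 A1 A01 t s A)
    (hξ : letI := algebraOKA K₁ A; ξ ∈ PicZeroR e₁ A)
    (hx : letI := algebraOKA K₁ A; haveI := isScalarTower_OKA K₁ A
      bcR (IsScalarTower.toAlgHom (OK K₁ A) A Qbar) ξ = x) :
    letI := algebraOKOK hK A
    letI := algebraOKA K₁ A
    letI := algebraOKA K' A
    haveI := isScalarTower_OKA K' A
    haveI := isScalarTower_OKOK_A hK A
    haveI := isScalarTower_OKOK_Qbar hK A
    haveI := isScalarTower_OKOK_residue hK A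
    ∃ ξ₁ : ClR' (OK K₁ A) A0 A1 A01 t s (OK K' A) A,
      ξ₁ ∈ PicZeroR (rigHom (OK K' A) e₁) A ∧
      bcR (IsScalarTower.toAlgHom (OK K' A) A Qbar) ξ₁ =
        (baseEquiv (OK K₁ A) A0 A1 A01 t s (OK K' A) Qbar).symm x ∧
      baseEquiv (OK K₁ A) A0 A1 A01 t s (OK K' A) (IsLocalRing.ResidueField A)
        (bcR (resV (O := OK K' A) A) ξ₁) =
          bcR (resV (O := OK K₁ A) A) ξ := by
  letI := algebraOKOK hK A
  letI := algebraOKA K₁ A
  letI := algebraOKA K' A
  haveI := isScalarTower_OKA K₁ A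
  haveI := isScalarTower_OKA K' A
  haveI := isScalarTower_OKOK_A hK A
  haveI := isScalarTower_OKOK_Qbar hK A
  haveI := isScalarTower_OKOK_residue hK A
  have hg := baseEquiv_generic (A0 := A0) (A1 := A1) (A01 := A01) (t := t) (s := s) hK A
    ((baseEquiv (OK K₁ A) A0 A1 A01 t s (OK K' A) A).symm ξ)
  have hs := baseEquiv_special (A0 := A0) (A1 := A1) (A01 := A01) (t := t) (s := s) hK A
    ((baseEquiv (OK K₁ A) A0 A1 A01 t s (OK K' A) A).symm ξ)
  rw [MulEquiv.apply_symm_apply] at hg hs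
  refine ⟨(baseEquiv (OK K₁ A) A0 A1 A01 t s (OK K' A) A).symm ξ, ?_, ?_, ?_⟩
  · rw [← baseEquiv_mem_picZeroR (OK K₁ A) A0 A1 A01 t s (OK K' A) A e₁,
      MulEquiv.apply_symm_apply]
    exact hξ
  · rw [MulEquiv.eq_symm_apply, ← hg]
    exact hx
  · exact hs.symm

/-- **The congruences of a carry order built at the level `O'`, in terms of the curve data over
`O₁`.** -/
theorem congSpecCarry_level {M C : Type} (π : M → C)
    (j₁ : M → ClR (OK K₁ A) A0 A1 A01 t s Qbar)
    (H : Subalgebra (OK K' A) (M → Qbar))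
    (hH : letI := algebraOKOK hK A
      haveI := isScalarTower_OKOK_Qbar hK A
      CongSpecCarry (rigHom (OK K' A) e₁) π
        (fun m => (baseEquiv (OK K₁ A) A0 A1 A01 t s (OK K' A) Qbar).symm (j₁ m)) H)
    (m m' : M)
    (ξ ξ' : letI := algebraOKA K₁ A; ClR (OK K₁ A) A0 A1 A01 t s A)
    (hξ : letI := algebraOKA K₁ A; ξ ∈ PicZeroR e₁ A)
    (hξ' : letI := algebraOKA K₁ A; ξ' ∈ PicZeroR e₁ A)
    (hm : letI := algebraOKA K₁ A; haveI := isScalarTower_OKA K₁ A
      bcR (IsScalarTower.toAlgHom (OK K₁ A) A Qbar) ξ = j₁ m)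
    (hm' : letI := algebraOKA K₁ A; haveI := isScalarTower_OKA K₁ A
      bcR (IsScalarTower.toAlgHom (OK K₁ A) A Qbar) ξ' = j₁ m') :
    letI := algebraOKA K₁ A
    ((∀ h ∈ H, h m - h m' ∈ A.nonunits) ↔
      π m = π m' ∧ bcR (resV (O := OK K₁ A) A) ξ =
        bcR (resV (O := OK K₁ A) A) ξ') := by
  letI := algebraOKOK hK A
  letI := algebraOKA K₁ A
  letI := algebraOKA K' A
  haveI := isScalarTower_OKA K₁ A
  haveI := isScalarTower_OKA K' A
  haveI := isScalarTower_OKOK_A hK A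
  haveI := isScalarTower_OKOK_Qbar hK A
  haveI := isScalarTower_OKOK_residue hK A
  obtain ⟨ξ₁, h1, h2, h3⟩ := exists_level_model hK A e₁ (j₁ m) ξ hξ hm
  obtain ⟨ξ₁', h1', h2', h3'⟩ := exists_level_model hK A e₁ (j₁ m') ξ' hξ' hm'
  rw [hH A m m' ξ₁ ξ₁' h1 h1' h2 h2', ← h3, ← h3']
  exact and_congr_right fun _ =>
    (baseEquiv (OK K₁ A) A0 A1 A01 t s (OK K' A) (IsLocalRing.ResidueField A)).injective.eq_iff.symm

/-- **The congruences of an order of `ChartCong37` built at the level `O'`, in terms of the curve data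
over `O₁`.** -/
theorem congSpec_level {M : Type} [AddCommGroup M]
    (ι₁ : Multiplicative M →* ClR (OK K₁ A) A0 A1 A01 t s Qbar)
    (H : Subalgebra (OK K' A) (M → Qbar))
    (hH : letI := algebraOKOK hK A
      haveI := isScalarTower_OKOK_Qbar hK A
      CongSpec (rigHom (OK K' A) e₁) (levelHom (OK K' A) ι₁) H)
    (m m' : M)
    (ξ ξ' : letI := algebraOKA K₁ A; ClR (OK K₁ A) A0 A1 A01 t s A)
    (hξ : letI := algebraOKA K₁ A; ξ ∈ PicZeroR e₁ A)
    (hξ' : letI := algebraOKA K₁ A; ξ' ∈ PicZeroR e₁ A)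
    (hm : letI := algebraOKA K₁ A; haveI := isScalarTower_OKA K₁ A
      bcR (IsScalarTower.toAlgHom (OK K₁ A) A Qbar) ξ = ι₁ (Multiplicative.ofAdd m))
    (hm' : letI := algebraOKA K₁ A; haveI := isScalarTower_OKA K₁ A
      bcR (IsScalarTower.toAlgHom (OK K₁ A) A Qbar) ξ' = ι₁ (Multiplicative.ofAdd m')) :
    letI := algebraOKA K₁ A
    ((∀ h ∈ H, h m - h m' ∈ A.nonunits) ↔
      bcR (resV (O := OK K₁ A) A) ξ = bcR (resV (O := OK K₁ A) A) ξ') := by
  letI := algebraOKOK hK A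
  letI := algebraOKA K₁ A
  letI := algebraOKA K' A
  haveI := isScalarTower_OKA K₁ A
  haveI := isScalarTower_OKA K' A
  haveI := isScalarTower_OKOK_A hK A
  haveI := isScalarTower_OKOK_Qbar hK A
  haveI := isScalarTower_OKOK_residue hK A
  obtain ⟨ξ₁, h1, h2, h3⟩ := exists_level_model hK A e₁ _ ξ hξ hm
  obtain ⟨ξ₁', h1', h2', h3'⟩ := exists_level_model hK A e₁ _ ξ' hξ' hm'
  rw [hH A m m' ξ₁ ξ₁' h1 h1' h2 h2', ← h3, ← h3']
  exact (baseEquiv (OK K₁ A) A0 A1 A01 t s (OK K' A)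
    (IsLocalRing.ResidueField A)).injective.eq_iff.symm

end Fermat.Agent.MAZ.Flat.LevelCong92
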