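/-
Programme MAZ, chapter K-FLAT at the prime `2` (owner helper69; this brick: helper92).

**KF3 WITH THE CONGRUENCES OF THE POINTS** = the twins of `CarryLevel69` / `CarryGeo69` /
`CarryBridge69` (helper69; same binders, nothing of theirs is edited) whose conclusions also record
which points of the extension module `E` are congruent modulo the maximal ideal of the place `A`
for all functions of the order:

  `m ≡ m'`  iff  `π m = π m'`  and the `A`-models (over the level `O₁ = A ∩ K₁` of the curve) of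
  `j₁ m`, `j₁ m'` have the same special fibre.

* `exists_isFunOrder_of_class_cong`, `exists_isFunOrder_of_level_cong` : `CarryLevel69` with
  `KOrderCong92.CongSpecCarry`;
* `CongAt π j₁ e₁ A H` : the congruences at the place `A`, read at the level `O₁`;
* `exists_order_of_levelData_cong` (twin of `CarryGeo69.geoInputNN_of_levelData`),
  `exists_order_carry_of_bridge_cong` (twin of `CarryBridge69.geoInputNN_carry_of_bridge`) :
  `∃ K' ⊇ K₁` finite, unramified at `A`, and a function order `H` over `O' = A ∩ K'` with `CongAt`;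
* `exists_descentOrder_of_congAt` : composition with `MainNNCong37.exists_descentOrder_cong` (ALG):
  a function order `D` over `ℤ_(l)` (hence a finite flat model, `MainNNCong37.flatModel_of_descentOrder`)
  with  `m ≡ m' (D)`  iff  `π m = π m'` and for every `ρ` in the decomposition group of `A` the
  `A`-models of `j₁ (ρ⁻¹ m)`, `j₁ (ρ⁻¹ m')` have the same special fibre;
* `exists_descentOrder_carry_of_bridge_cong` : the two together, on the binders of `CarryBridge69`.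
-/
import Mathlib
import Fermat.Agent.MAZ.Flat.CarryBridge69
import Fermat.Agent.MAZ.Flat.LevelCong92
import Fermat.Agent.FFJ.Alg.MainNNCong37

set_option autoImplicit false
set_option linter.style.haveILetI false
set_option linter.unusedSectionVars false
set_option linter.unusedVariables false
set_option maxHeartbeats 2000000

noncomputable section

namespace Fermat.Agent.MAZ.Flat.CarryCong92

open scoped TensorProduct
open scoped Fermat.Agent.JAC.Core.ConstFamily36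
open ModularCurve
open Fermat.Agent.JAC.Core.Defs36 Fermat.Agent.JAC.Core.ConstFamily36 Fermat.Agent.JAC.Grp.Diag33
  Fermat.Agent.FFJ.Core.ClR35 Fermat.Agent.FFJ.Core.ClRBc35 Fermat.Agent.TW.FF.FunOrder68
  Fermat.Agent.FFJ.Spec.Spec35 Fermat.Agent.S19.Shell64 Fermat.Agent.FFJ.Alg.Spec78
  Fermat.Agent.FFJ.Alg.SpecLocal78 Fermat.Agent.FFJ.Alg.SpecNN78
  Fermat.Agent.TW.FF.FlatModel68 Fermat.Agent.FFJ.Order.GeoWire77
  Fermat.Agent.FFJ.Order.GeoWireOne77 Fermat.Agent.FFJ.Order.Order77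
  Fermat.Agent.FFJ.Order.KOrder92 Fermat.Agent.FFJ.Order.KOrderCong92
  Fermat.Agent.FFJ.Order.ChartCong37
  Fermat.Agent.FFJ.Pic.SpecD35 Fermat.Agent.FFJ.Pic.BaseEquiv85 Fermat.Agent.FFJ.Pic.LevelIota85
  Fermat.Agent.FFJ.Pic.LevelInst85 Fermat.Agent.MAZ.Flat.CarryLevel69
  Fermat.Agent.MAZ.Flat.CarryGeo69 Fermat.Agent.MAZ.Flat.CarryBridge69

/-! ### One level -/

section OneLevel

variable (O : Type) [CommRing O] (A0 A1 A01 : Type) [CommRing A0] [CommRing A1] [CommRing A01]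
  [Algebra O A0] [Algebra O A1] [Algebra O A01] [Algebra A0 A01] [Algebra A1 A01]
  [IsScalarTower O A0 A01] [IsScalarTower O A1 A01] (t : A0) (s : A1)
  [IsLocalization.Away t A01] [IsLocalization.Away s A01] (e : A01 →ₐ[O] O)
  {F Ω : Type} [Field F] [Field Ω] [Algebra O F] [Algebra F Ω] [Algebra O Ω]
  [IsScalarTower O F Ω]

/-- `CarryLevel69.exists_isFunOrder_of_class` with the congruences of the points. -/
theorem exists_isFunOrder_of_class_cong (hmul : PicZeroMul O A0 A1 A01 t s e)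
    (hone : (1 : ClR O A0 A1 A01 t s O) ∈ PicZeroR e O)
    (𝒞 : ChartPkg O A0 A1 A01 t s e) (M : Type) [AddCommGroup M] [Finite M]
    [MulAction (Ω ≃ₐ[F] Ω) M] (C : Type) [AddCommGroup C] [Finite C] (π : M →+ C)
    (hπ : ∀ (σ : Ω ≃ₐ[F] Ω) (m : M), π (σ • m) = π m)
    (j : M → ClR O A0 A1 A01 t s Ω) (c : ClR O A0 A1 A01 t s Ω)
    (hinj : ∀ m m' : M, π m = π m' → j m = j m' → m = m')
    (hmem : ∀ m, j m ∈ PicZeroR e Ω) (cr : C → C → ℕ)
    (hadd : ∀ m m', j (m + m') = j m * j m' * c ^ cr (π m) (π m'))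
    (hequiv : ∀ (σ : Ω ≃ₐ[F] Ω) (m : M), j (σ • m) = galActR O F σ (j m))
    (hVS : ValSurj O A0 A1 A01 t s e Ω) (hAdm : Admissible Ω 𝒞 (Set.range j))
    (hζ : ∃ ζ : ClR O A0 A1 A01 t s O, ζ ∈ PicZeroR e O ∧ bcR (Algebra.ofId O Ω) ζ = c) :
    ∃ H : Subalgebra O (M → Ω), IsFunOrder O F H ∧ CongSpecCarry e π j H := by
  obtain ⟨ζ, hζ0, hζc⟩ := hζ
  refine exists_isFunOrder_carry_cong O A0 A1 A01 t s e hmul 𝒞 M C π hπ (fun a b => ζ ^ cr a b)
    (fun a b => pow_mem_picZeroR hmul O hone hζ0 _) j hinj hmem ?_ hequiv hVS hAdm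
  intro m m'
  rw [hadd, map_pow, hζc]

end OneLevel

/-! ### Two levels, abstract form -/

section TwoLevel

variable (k : Type) [CommRing k] (A0 A1 A01 : Type) [CommRing A0] [CommRing A1] [CommRing A01]
  [Algebra k A0] [Algebra k A1] [Algebra k A01] [Algebra A0 A01] [Algebra A1 A01]
  [IsScalarTower k A0 A01] [IsScalarTower k A1 A01] (t : A0) (s : A1)
  [IsLocalization.Away t A01] [IsLocalization.Away s A01] (e : A01 →ₐ[k] k)
  (k' : Type) [CommRing k'] [Algebra k k']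
  (F F' : Type) {Ω : Type} [Field F] [Field F'] [Field Ω]
  [Algebra k F] [Algebra F Ω] [Algebra k Ω] [IsScalarTower k F Ω]
  [Algebra k' F'] [Algebra F' Ω] [Algebra k' Ω] [IsScalarTower k' F' Ω]
  [IsScalarTower k k' Ω]

/-- `CarryLevel69.exists_isFunOrder_of_level` with the congruences of the points (at the level
`k'`, for the transported classes). -/
theorem exists_isFunOrder_of_level_cong
    (hmul : PicZeroMul k' (k' ⊗[k] A0) (k' ⊗[k] A1) (k' ⊗[k] A01) ((1 : k') ⊗ₜ[k] t)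
      ((1 : k') ⊗ₜ[k] s) (rigHom k' e))
    (hone : (1 : ClR' k A0 A1 A01 t s k' k') ∈ PicZeroR (rigHom k' e) k')
    (𝒞 : ChartPkg k' (k' ⊗[k] A0) (k' ⊗[k] A1) (k' ⊗[k] A01) ((1 : k') ⊗ₜ[k] t)
      ((1 : k') ⊗ₜ[k] s) (rigHom k' e))
    (M : Type) [AddCommGroup M] [Finite M] [MulAction (Ω ≃ₐ[F'] Ω) M]
    (C : Type) [AddCommGroup C] [Finite C] (π : M →+ C)
    (hπ : ∀ (σ : Ω ≃ₐ[F'] Ω) (m : M), π (σ • m) = π m)
    (j₁ : M → ClR k A0 A1 A01 t s Ω) (c₁ : ClR k A0 A1 A01 t s Ω)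
    (hinj : ∀ m m' : M, π m = π m' → j₁ m = j₁ m' → m = m')
    (hmem : ∀ m, j₁ m ∈ PicZeroR e Ω) (cr : C → C → ℕ)
    (hadd : ∀ m m', j₁ (m + m') = j₁ m * j₁ m' * c₁ ^ cr (π m) (π m'))
    (res : (Ω ≃ₐ[F'] Ω) → (Ω ≃ₐ[F] Ω)) (hres : ∀ σ x, res σ x = σ x)
    (hequiv : ∀ (σ : Ω ≃ₐ[F'] Ω) (m : M), j₁ (σ • m) = galActR k F (res σ) (j₁ m))
    (hVS : ValSurj k' (k' ⊗[k] A0) (k' ⊗[k] A1) (k' ⊗[k] A01) ((1 : k') ⊗ₜ[k] t)
      ((1 : k') ⊗ₜ[k] s) (rigHom k' e) Ω)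
    (hAdm : Admissible Ω 𝒞 ((fun x => (baseEquiv k A0 A1 A01 t s k' Ω).symm x) '' Set.range j₁))
    (hζ : ∃ ζ : ClR' k A0 A1 A01 t s k' k', ζ ∈ PicZeroR (rigHom k' e) k' ∧
      bcR (Algebra.ofId k' Ω) ζ = (baseEquiv k A0 A1 A01 t s k' Ω).symm c₁) :
    ∃ H : Subalgebra k' (M → Ω), IsFunOrder k' F' H ∧
      CongSpecCarry (rigHom k' e) π (fun m => (baseEquiv k A0 A1 A01 t s k' Ω).symm (j₁ m)) H := by
  refine exists_isFunOrder_of_class_cong k' (k' ⊗[k] A0) (k' ⊗[k] A1) (k' ⊗[k] A01)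
    ((1 : k') ⊗ₜ[k] t) ((1 : k') ⊗ₜ[k] s) (rigHom k' e) hmul hone 𝒞 M C π hπ
    (fun m => (baseEquiv k A0 A1 A01 t s k' Ω).symm (j₁ m))
    ((baseEquiv k A0 A1 A01 t s k' Ω).symm c₁) ?_ ?_ cr ?_ ?_ hVS ?_ hζ
  · intro m m' hπm hj
    exact hinj m m' hπm ((baseEquiv k A0 A1 A01 t s k' Ω).symm.injective hj)
  · intro m
    rw [← baseEquiv_mem_picZeroR k A0 A1 A01 t s k' Ω e, MulEquiv.apply_symm_apply]
    exact hmem m
  · intro m m'
    rw [hadd, map_mul, map_mul, map_pow]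
  · intro σ m
    rw [hequiv, galActR_baseEquiv_symm k A0 A1 A01 t s k' F F' σ (res σ)
      (fun x => (hres σ x).symm)]
  · have hsub : Set.range (fun m => (baseEquiv k A0 A1 A01 t s k' Ω).symm (j₁ m)) ⊆
        (fun x => (baseEquiv k A0 A1 A01 t s k' Ω).symm x) '' Set.range j₁ := by
      rintro _ ⟨m, rfl⟩
      exact ⟨j₁ m, ⟨m, rfl⟩, rfl⟩
    exact admissible_subset hsub hAdm

end TwoLevel

/-! ### The congruences at the place `A`, read at the level of the curve -/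

section Geo

variable {K₁ : IntermediateField ℚ Qbar} {A : ValuationSubring Qbar}
  {A0 A1 A01 : Type} [CommRing A0] [CommRing A1] [CommRing A01]
  [Algebra (OK K₁ A) A0] [Algebra (OK K₁ A) A1] [Algebra (OK K₁ A) A01] [Algebra A0 A01]
  [Algebra A1 A01] [IsScalarTower (OK K₁ A) A0 A01] [IsScalarTower (OK K₁ A) A1 A01]
  {t : A0} {s : A1} [IsLocalization.Away t A01] [IsLocalization.Away s A01]

/-- **The congruences of the points of an order on `E` at the place `A`**: `m, m'` are congruent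
modulo the maximal ideal of `A` for all functions of `H` iff `π m = π m'` and the `A`-models (over
`O₁ = A ∩ K₁`) of `j₁ m`, `j₁ m'` have the same special fibre. -/
def CongAt {E C R : Type} [CommRing R] [Algebra R Qbar] (π : E → C)
    (j₁ : E → ClR (OK K₁ A) A0 A1 A01 t s Qbar) (e₁ : A01 →ₐ[OK K₁ A] OK K₁ A)
    (H : Subalgebra R (E → Qbar)) : Prop :=
  letI := algebraOKA K₁ A
  haveI := isScalarTower_OKA K₁ A
  ∀ (m m' : E) (ξ ξ' : ClR (OK K₁ A) A0 A1 A01 t s A), ξ ∈ PicZeroR e₁ A → ξ' ∈ PicZeroR e₁ A →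
    bcR (IsScalarTower.toAlgHom (OK K₁ A) A Qbar) ξ = j₁ m →
    bcR (IsScalarTower.toAlgHom (OK K₁ A) A Qbar) ξ' = j₁ m' →
    ((∀ h ∈ H, h m - h m' ∈ A.nonunits) ↔
      π m = π m' ∧ bcR (resV (O := OK K₁ A) A) ξ = bcR (resV (O := OK K₁ A) A) ξ')

end Geo

/-- **KF3 with the congruences of the points: the two-level assembly with a carry** (twin of
`CarryGeo69.geoInputNN_of_levelData`, same binders). -/
theorem exists_order_of_levelData_cong (l : ℕ) (E : Type) [AddCommGroup E] [Finite E]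
    [DistribMulAction GQ E] (C : Type) [AddCommGroup C] [Finite C] (π : E →+ C)
    (hπ : ∀ (σ : GQ) (m : E), π (σ • m) = π m)
    (K₁ : IntermediateField ℚ Qbar) (A : ValuationSubring Qbar) (hA : A.LiesOverPrime l)
    (A0 A1 A01 : Type) [CommRing A0] [CommRing A1] [CommRing A01]
    [Algebra (OK K₁ A) A0] [Algebra (OK K₁ A) A1] [Algebra (OK K₁ A) A01] [Algebra A0 A01]
    [Algebra A1 A01] [IsScalarTower (OK K₁ A) A0 A01] [IsScalarTower (OK K₁ A) A1 A01]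
    (t : A0) (s : A1) [IsLocalization.Away t A01] [IsLocalization.Away s A01]
    (H₁ : Fermat.Agent.FFJ.Pic.ChartDefR35.CurveHypR (OK K₁ A) A0 A1 A01 t s)
    (e₁ : A01 →ₐ[OK K₁ A] OK K₁ A)
    (j₁ : E → ClR (OK K₁ A) A0 A1 A01 t s Qbar) (c₁ : ClR (OK K₁ A) A0 A1 A01 t s Qbar)
    (hinj : ∀ m m' : E, π m = π m' → j₁ m = j₁ m' → m = m')
    (hmem : ∀ m, j₁ m ∈ PicZeroR e₁ Qbar) (hc₁ : c₁ ∈ PicZeroR e₁ Qbar) (cr : C → C → ℕ)
    (hadd : ∀ m m', j₁ (m + m') = j₁ m * j₁ m' * c₁ ^ cr (π m) (π m'))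
    (hequiv : ∀ (σ : Qbar ≃ₐ[K₁] Qbar) (m : E),
      j₁ ((σ.restrictScalars ℚ : GQ) • m) = galActR (OK K₁ A) K₁ σ (j₁ m))
    (hfix : ∀ σ : Qbar ≃ₐ[K₁] Qbar, galActR (OK K₁ A) K₁ σ c₁ = c₁)
    (K' : IntermediateField ℚ Qbar) (hfd' : FiniteDimensional ℚ K') (hK : K₁ ≤ K')
    (hu' : UnramAtPlace A K')
    (h : letI := algebraOKOK hK A
      haveI := isScalarTower_OKOK_Qbar hK A
      ∃ 𝒞 : ChartPkg (OK K' A) (OK K' A ⊗[OK K₁ A] A0) (OK K' A ⊗[OK K₁ A] A1)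
          (OK K' A ⊗[OK K₁ A] A01) ((1 : OK K' A) ⊗ₜ[OK K₁ A] t) ((1 : OK K' A) ⊗ₜ[OK K₁ A] s)
          (rigHom (OK K' A) e₁),
        PicZeroMul (OK K' A) (OK K' A ⊗[OK K₁ A] A0) (OK K' A ⊗[OK K₁ A] A1)
          (OK K' A ⊗[OK K₁ A] A01) ((1 : OK K' A) ⊗ₜ[OK K₁ A] t) ((1 : OK K' A) ⊗ₜ[OK K₁ A] s)
          (rigHom (OK K' A) e₁) ∧
        ValSurj (OK K' A) (OK K' A ⊗[OK K₁ A] A0) (OK K' A ⊗[OK K₁ A] A1)
          (OK K' A ⊗[OK K₁ A] A01) ((1 : OK K' A) ⊗ₜ[OK K₁ A] t) ((1 : OK K' A) ⊗ₜ[OK K₁ A] s)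
          (rigHom (OK K' A) e₁) Qbar ∧
        Admissible Qbar 𝒞
          ((fun x => (baseEquiv (OK K₁ A) A0 A1 A01 t s (OK K' A) Qbar).symm x) ''
            Set.range (optFamily j₁ c₁))) :
    ∃ H : Subalgebra (A.comap (algebraMap K' Qbar)) (E → Qbar),
      @IsFunOrder (A.comap (algebraMap K' Qbar)) K' Qbar E _ _ _ _ _ _ (resMulAction K' E) H ∧
      CongAt π j₁ e₁ H := by
  letI := algebraOKOK hK A
  haveI := isScalarTower_OKOK_Qbar hK A
  obtain ⟨𝒞, hmul, hVS, hAdm⟩ := h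
  haveI := isGalois_K_Qbar K'
  letI : MulAction (Qbar ≃ₐ[K'] Qbar) E := resMulAction K' E
  -- `1 ∈ PicZeroR` at the level `O'`
  have hone : (1 : ClR' (OK K₁ A) A0 A1 A01 t s (OK K' A) (OK K' A)) ∈
      PicZeroR (rigHom (OK K' A) e₁) (OK K' A) := by
    rw [← baseEquiv_mem_picZeroR (OK K₁ A) A0 A1 A01 t s (OK K' A) (OK K' A) e₁, map_one]
    exact Fermat.Agent.FFJ.Val.PicZeroGrp1.one_mem e₁
      (Fermat.Agent.FFJ.Val.ValInjR1.curveHypR_v0 H₁) (OK K' A)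
  -- the transported class of `c₁`
  have hηmem : (baseEquiv (OK K₁ A) A0 A1 A01 t s (OK K' A) Qbar).symm c₁ ∈
      PicZeroR (rigHom (OK K' A) e₁) Qbar := by
    rw [← baseEquiv_mem_picZeroR (OK K₁ A) A0 A1 A01 t s (OK K' A) Qbar e₁,
      MulEquiv.apply_symm_apply]
    exact hc₁
  have hηT : (baseEquiv (OK K₁ A) A0 A1 A01 t s (OK K' A) Qbar).symm c₁ ∈
      (fun x => (baseEquiv (OK K₁ A) A0 A1 A01 t s (OK K' A) Qbar).symm x) ''
        Set.range (optFamily j₁ c₁) := ⟨c₁, ⟨none, rfl⟩, rfl⟩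
  have hηinv : ∀ σ : Qbar ≃ₐ[K'] Qbar, galActR (OK K' A) K' σ
      ((baseEquiv (OK K₁ A) A0 A1 A01 t s (OK K' A) Qbar).symm c₁) =
      (baseEquiv (OK K₁ A) A0 A1 A01 t s (OK K' A) Qbar).symm c₁ := by
    intro σ
    rw [galActR_baseEquiv_symm (OK K₁ A) A0 A1 A01 t s (OK K' A) K₁ K' σ (galRestrict hK σ)
      (fun _ => rfl), hfix]
  -- KF2: the class descends to `O'`
  have hζ := Fermat.Agent.MAZ.Flat.BaseClass92.exists_base_class (F := K')
    (algebraMap_OK_Qbar_injective A K') fixedFieldEqBase_of_isGalois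
    (integral_mem_range_OK K' A) 𝒞 hVS hAdm _ hηmem hηT hηinv
  -- the set map is a subfamily
  have hAdm' : Admissible Qbar 𝒞
      ((fun x => (baseEquiv (OK K₁ A) A0 A1 A01 t s (OK K' A) Qbar).symm x) '' Set.range j₁) := by
    have hsub : (fun x => (baseEquiv (OK K₁ A) A0 A1 A01 t s (OK K' A) Qbar).symm x) ''
        Set.range j₁ ⊆
        (fun x => (baseEquiv (OK K₁ A) A0 A1 A01 t s (OK K' A) Qbar).symm x) ''
          Set.range (optFamily j₁ c₁) := by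
      rintro _ ⟨_, ⟨m, rfl⟩, rfl⟩
      exact ⟨j₁ m, ⟨some m, rfl⟩, rfl⟩
    exact admissible_subset hsub hAdm
  obtain ⟨Hs, hHs, hcong⟩ := exists_isFunOrder_of_level_cong
    (OK K₁ A) A0 A1 A01 t s e₁ (OK K' A) K₁ K' hmul hone 𝒞 E C π
    (fun σ m => hπ (σ.restrictScalars ℚ : GQ) m) j₁ c₁ hinj hmem cr hadd (galRestrict hK)
    (fun _ _ => rfl)
    (fun σ m => by
      have h1 := hequiv (galRestrict hK σ) m
      rw [galRestrict_restrictScalars hK σ] at h1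
      exact h1)
    hVS hAdm' hζ
  refine ⟨Hs, hHs, ?_⟩
  intro m m' ξ ξ' hξ hξ' hm hm'
  exact Fermat.Agent.MAZ.Flat.LevelCong92.congSpecCarry_level hK A e₁ π j₁ Hs hcong m m' ξ ξ'
    hξ hξ' hm hm'

/-- **KF3-c with the congruences of the points** (twin of
`CarryBridge69.geoInputNN_carry_of_bridge`, same binders). -/
theorem exists_order_carry_of_bridge_cong (l : ℕ) (Mlev : ℕ) (E : Type) [AddCommGroup E]
    [Finite E] [DistribMulAction GQ E] (C : Type) [AddCommGroup C] [Finite C] (π : E →+ C)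
    (hπ : ∀ (σ : GQ) (m : E), π (σ • m) = π m)
    (jJ : E → JZero Mlev) (hjinj : ∀ m m' : E, π m = π m' → jJ m = jJ m' → m = m')
    (hjact : ∀ (σ : GQ) (m : E), jJ (σ • m) = σ • jJ m)
    (z : JZero Mlev) (hz : ∀ σ : GQ, σ • z = z) (cr : C → C → ℕ)
    (hjadd : ∀ m m', jJ (m + m') + cr (π m) (π m') • z = jJ m + jJ m')
    (K₁ : IntermediateField ℚ Qbar) (A : ValuationSubring Qbar) (hA : A.LiesOverPrime l)
    (A0 A1 A01 : Type) [CommRing A0] [CommRing A1] [CommRing A01]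
    [Algebra (OK K₁ A) A0] [Algebra (OK K₁ A) A1] [Algebra (OK K₁ A) A01] [Algebra A0 A01]
    [Algebra A1 A01] [IsScalarTower (OK K₁ A) A0 A01] [IsScalarTower (OK K₁ A) A1 A01]
    (t : A0) (s : A1) [IsLocalization.Away t A01] [IsLocalization.Away s A01]
    (H₁ : Fermat.Agent.FFJ.Pic.ChartDefR35.CurveHypR (OK K₁ A) A0 A1 A01 t s)
    (e₁ : A01 →ₐ[OK K₁ A] OK K₁ A)
    (ι₁ : Multiplicative (JZero Mlev) →* ClR (OK K₁ A) A0 A1 A01 t s Qbar)
    (hinj : Function.Injective ι₁) (hmem : ∀ m, ι₁ m ∈ PicZeroR e₁ Qbar)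
    (hequiv : ∀ (σ : Qbar ≃ₐ[K₁] Qbar) (m : JZero Mlev),
      ι₁ (Multiplicative.ofAdd ((σ.restrictScalars ℚ : GQ) • m)) =
        galActR (OK K₁ A) K₁ σ (ι₁ (Multiplicative.ofAdd m)))
    (hLA : (∀ i, optFamily (jCl ι₁ jJ) (cCl ι₁ z) i ∈ PicZeroR e₁ Qbar) →
      (∀ (σ : Qbar ≃ₐ[K₁] Qbar) (i : Option E), ∃ i' : Option E,
        optFamily (jCl ι₁ jJ) (cCl ι₁ z) i' =
          galActR (OK K₁ A) K₁ σ (optFamily (jCl ι₁ jJ) (cCl ι₁ z) i)) →
      ∃ (K' : IntermediateField ℚ Qbar) (_ : FiniteDimensional ℚ K') (hK : K₁ ≤ K'),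
        UnramAtPlace A K' ∧
        (letI := algebraOKOK hK A
         haveI := isScalarTower_OKOK_Qbar hK A
         ∃ 𝒞 : ChartPkg (OK K' A) (OK K' A ⊗[OK K₁ A] A0) (OK K' A ⊗[OK K₁ A] A1)
            (OK K' A ⊗[OK K₁ A] A01) ((1 : OK K' A) ⊗ₜ[OK K₁ A] t)
            ((1 : OK K' A) ⊗ₜ[OK K₁ A] s) (rigHom (OK K' A) e₁),
          PicZeroMul (OK K' A) (OK K' A ⊗[OK K₁ A] A0) (OK K' A ⊗[OK K₁ A] A1)
            (OK K' A ⊗[OK K₁ A] A01) ((1 : OK K' A) ⊗ₜ[OK K₁ A] t)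
            ((1 : OK K' A) ⊗ₜ[OK K₁ A] s) (rigHom (OK K' A) e₁) ∧
          ValSurj (OK K' A) (OK K' A ⊗[OK K₁ A] A0) (OK K' A ⊗[OK K₁ A] A1)
            (OK K' A ⊗[OK K₁ A] A01) ((1 : OK K' A) ⊗ₜ[OK K₁ A] t)
            ((1 : OK K' A) ⊗ₜ[OK K₁ A] s) (rigHom (OK K' A) e₁) Qbar ∧
          Admissible Qbar 𝒞
            ((fun x => (baseEquiv (OK K₁ A) A0 A1 A01 t s (OK K' A) Qbar).symm x) ''
              Set.range (optFamily (jCl ι₁ jJ) (cCl ι₁ z))))) :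
    ∃ (K' : IntermediateField ℚ Qbar) (_ : FiniteDimensional ℚ K') (_ : UnramAtPlace A K')
      (H : Subalgebra (A.comap (algebraMap K' Qbar)) (E → Qbar)),
      @IsFunOrder (A.comap (algebraMap K' Qbar)) K' Qbar E _ _ _ _ _ _ (resMulAction K' E) H ∧
      CongAt π (jCl ι₁ jJ) e₁ H := by
  have hcfix : ∀ σ : Qbar ≃ₐ[K₁] Qbar, galActR (OK K₁ A) K₁ σ (cCl ι₁ z) = cCl ι₁ z := by
    intro σ
    have h1 := hequiv σ (-z)
    rw [smul_neg, hz] at h1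
    exact h1.symm
  have hjequiv : ∀ (σ : Qbar ≃ₐ[K₁] Qbar) (m : E),
      jCl ι₁ jJ ((σ.restrictScalars ℚ : GQ) • m) = galActR (OK K₁ A) K₁ σ (jCl ι₁ jJ m) := by
    intro σ m
    unfold jCl
    rw [hjact]
    exact hequiv σ (jJ m)
  have hmem' : ∀ i, optFamily (jCl ι₁ jJ) (cCl ι₁ z) i ∈ PicZeroR e₁ Qbar := by
    rintro (_ | m)
    · exact hmem _
    · exact hmem _
  have hstab : ∀ (σ : Qbar ≃ₐ[K₁] Qbar) (i : Option E), ∃ i' : Option E,
      optFamily (jCl ι₁ jJ) (cCl ι₁ z) i' =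
        galActR (OK K₁ A) K₁ σ (optFamily (jCl ι₁ jJ) (cCl ι₁ z) i) := by
    rintro σ (_ | m)
    · exact ⟨none, (hcfix σ).symm⟩
    · exact ⟨some ((σ.restrictScalars ℚ : GQ) • m), hjequiv σ m⟩
  obtain ⟨K', hfd', hK, hu', h⟩ := hLA hmem' hstab
  obtain ⟨H, hH, hcong⟩ := exists_order_of_levelData_cong l E C π hπ K₁ A hA A0 A1 A01 t s H₁ e₁
    (jCl ι₁ jJ) (cCl ι₁ z) (jCl_inj ι₁ π jJ hinj hjinj) (fun m => hmem _) (hmem _) cr
    (jCl_add ι₁ π jJ z cr hjadd) hjequiv hcfix K' hfd' hK hu' h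
  exact ⟨K', hfd', hu', H, hH, hcong⟩

/-! ### Descent to `ℤ_(l)` (chapter ALG) -/

section Descent

open Fermat.Agent.FFJ.Alg.Defs78

variable {K₁ : IntermediateField ℚ Qbar} {A : ValuationSubring Qbar}
  {A0 A1 A01 : Type} [CommRing A0] [CommRing A1] [CommRing A01]
  [Algebra (OK K₁ A) A0] [Algebra (OK K₁ A) A1] [Algebra (OK K₁ A) A01] [Algebra A0 A01]
  [Algebra A1 A01] [IsScalarTower (OK K₁ A) A0 A01] [IsScalarTower (OK K₁ A) A1 A01]
  {t : A0} {s : A1} [IsLocalization.Away t A01] [IsLocalization.Away s A01]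

/-- **The descended order of an order with `CongAt`**: its congruences at `A` are the saturation
under the decomposition group of `A` of "same fibre of `π` and same special fibre". -/
theorem exists_descentOrder_of_congAt {l : ℕ} [Fact l.Prime] {E C : Type} [AddCommGroup E]
    [DistribMulAction GQ E] (π : E → C) (hπ : ∀ (σ : GQ) (m : E), π (σ • m) = π m)
    (j₁ : E → ClR (OK K₁ A) A0 A1 A01 t s Qbar) (e₁ : A01 →ₐ[OK K₁ A] OK K₁ A)
    (ξ : letI := algebraOKA K₁ A; E → ClR (OK K₁ A) A0 A1 A01 t s A)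
    (hξ : letI := algebraOKA K₁ A; haveI := isScalarTower_OKA K₁ A
      ∀ x, ξ x ∈ PicZeroR e₁ A ∧ bcR (IsScalarTower.toAlgHom (OK K₁ A) A Qbar) (ξ x) = j₁ x)
    (K' : IntermediateField ℚ Qbar) [FiniteDimensional ℚ K'] (hA : A.LiesOverPrime l)
    (hu' : UnramAtPlace A K')
    (H : Subalgebra (A.comap (algebraMap K' Qbar)) (E → Qbar))
    (hH : @IsFunOrder (A.comap (algebraMap K' Qbar)) K' Qbar E _ _ _ _ _ _ (resMulAction K' E) H)
    (hcong : CongAt π j₁ e₁ H) :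
    letI := algebraOKA K₁ A
    ∃ D : Subalgebra (Zloc l) (E → Qbar), IsFunOrder (Zloc l) ℚ D ∧
      ∀ m m' : E, (∀ g ∈ D, g m - g m' ∈ A.nonunits) ↔
        π m = π m' ∧ ∀ ρ ∈ stab (F := ℚ) A.toSubring,
          bcR (resV (O := OK K₁ A) A) (ξ (ρ⁻¹ • m)) = bcR (resV (O := OK K₁ A) A) (ξ (ρ⁻¹ • m')) := by
  letI := algebraOKA K₁ A
  haveI := isScalarTower_OKA K₁ A
  obtain ⟨D, hD, hDc⟩ :=
    Fermat.Agent.FFJ.Alg.MainNNCong37.exists_descentOrder_cong K' A hA hu' H hH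
  refine ⟨D, hD, fun m m' => ?_⟩
  rw [hDc m m']
  have key : ∀ ρ : GQ, (∀ h ∈ H, h (ρ⁻¹ • m) - h (ρ⁻¹ • m') ∈ A.nonunits) ↔
      π m = π m' ∧ bcR (resV (O := OK K₁ A) A) (ξ (ρ⁻¹ • m)) =
        bcR (resV (O := OK K₁ A) A) (ξ (ρ⁻¹ • m')) := by
    intro ρ
    rw [hcong (ρ⁻¹ • m) (ρ⁻¹ • m') (ξ _) (ξ _) (hξ _).1 (hξ _).1 (hξ _).2 (hξ _).2, hπ, hπ]
  constructor
  · intro h
    refine ⟨((key 1).mp (h 1 (one_mem _))).1, fun ρ hρ => ((key ρ).mp (h ρ hρ)).2⟩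
  · rintro ⟨h1, h2⟩ ρ hρ
    exact (key ρ).mpr ⟨h1, h2 ρ hρ⟩

/-- **K-FLAT with the congruences, from the bridge to the order over `ℤ_(l)`** (binders of
`CarryBridge69.geoInputNN_carry_of_bridge` + a family `ξJ` of `A`-models of the points of the
bridge): a function order `D` over `ℤ_(l)` on `E` (a finite flat model of `E`) such that `m ≡ m'`
modulo the maximal ideal of `A` iff `π m = π m'` and, for every `ρ` in the decomposition group of
`A`, the `A`-models of the points `ρ⁻¹ (jJ m)`, `ρ⁻¹ (jJ m')` have the same special fibre. -/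
theorem exists_descentOrder_carry_of_bridge_cong (l : ℕ) [Fact l.Prime] (Mlev : ℕ) (E : Type)
    [AddCommGroup E] [Finite E] [DistribMulAction GQ E] (C : Type) [AddCommGroup C] [Finite C]
    (π : E →+ C) (hπ : ∀ (σ : GQ) (m : E), π (σ • m) = π m)
    (jJ : E → JZero Mlev) (hjinj : ∀ m m' : E, π m = π m' → jJ m = jJ m' → m = m')
    (hjact : ∀ (σ : GQ) (m : E), jJ (σ • m) = σ • jJ m)
    (z : JZero Mlev) (hz : ∀ σ : GQ, σ • z = z) (cr : C → C → ℕ)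
    (hjadd : ∀ m m', jJ (m + m') + cr (π m) (π m') • z = jJ m + jJ m')
    (K₁ : IntermediateField ℚ Qbar) (A : ValuationSubring Qbar) (hA : A.LiesOverPrime l)
    (A0 A1 A01 : Type) [CommRing A0] [CommRing A1] [CommRing A01]
    [Algebra (OK K₁ A) A0] [Algebra (OK K₁ A) A1] [Algebra (OK K₁ A) A01] [Algebra A0 A01]
    [Algebra A1 A01] [IsScalarTower (OK K₁ A) A0 A01] [IsScalarTower (OK K₁ A) A1 A01]
    (t : A0) (s : A1) [IsLocalization.Away t A01] [IsLocalization.Away s A01]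
    (H₁ : Fermat.Agent.FFJ.Pic.ChartDefR35.CurveHypR (OK K₁ A) A0 A1 A01 t s)
    (e₁ : A01 →ₐ[OK K₁ A] OK K₁ A)
    (ι₁ : Multiplicative (JZero Mlev) →* ClR (OK K₁ A) A0 A1 A01 t s Qbar)
    (hinj : Function.Injective ι₁) (hmem : ∀ m, ι₁ m ∈ PicZeroR e₁ Qbar)
    (hequiv : ∀ (σ : Qbar ≃ₐ[K₁] Qbar) (m : JZero Mlev),
      ι₁ (Multiplicative.ofAdd ((σ.restrictScalars ℚ : GQ) • m)) =
        galActR (OK K₁ A) K₁ σ (ι₁ (Multiplicative.ofAdd m)))
    (hLA : (∀ i, optFamily (jCl ι₁ jJ) (cCl ι₁ z) i ∈ PicZeroR e₁ Qbar) →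
      (∀ (σ : Qbar ≃ₐ[K₁] Qbar) (i : Option E), ∃ i' : Option E,
        optFamily (jCl ι₁ jJ) (cCl ι₁ z) i' =
          galActR (OK K₁ A) K₁ σ (optFamily (jCl ι₁ jJ) (cCl ι₁ z) i)) →
      ∃ (K' : IntermediateField ℚ Qbar) (_ : FiniteDimensional ℚ K') (hK : K₁ ≤ K'),
        UnramAtPlace A K' ∧
        (letI := algebraOKOK hK A
         haveI := isScalarTower_OKOK_Qbar hK A
         ∃ 𝒞 : ChartPkg (OK K' A) (OK K' A ⊗[OK K₁ A] A0) (OK K' A ⊗[OK K₁ A] A1)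
            (OK K' A ⊗[OK K₁ A] A01) ((1 : OK K' A) ⊗ₜ[OK K₁ A] t)
            ((1 : OK K' A) ⊗ₜ[OK K₁ A] s) (rigHom (OK K' A) e₁),
          PicZeroMul (OK K' A) (OK K' A ⊗[OK K₁ A] A0) (OK K' A ⊗[OK K₁ A] A1)
            (OK K' A ⊗[OK K₁ A] A01) ((1 : OK K' A) ⊗ₜ[OK K₁ A] t)
            ((1 : OK K' A) ⊗ₜ[OK K₁ A] s) (rigHom (OK K' A) e₁) ∧
          ValSurj (OK K' A) (OK K' A ⊗[OK K₁ A] A0) (OK K' A ⊗[OK K₁ A] A1)
            (OK K' A ⊗[OK K₁ A] A01) ((1 : OK K' A) ⊗ₜ[OK K₁ A] t)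
            ((1 : OK K' A) ⊗ₜ[OK K₁ A] s) (rigHom (OK K' A) e₁) Qbar ∧
          Admissible Qbar 𝒞
            ((fun x => (baseEquiv (OK K₁ A) A0 A1 A01 t s (OK K' A) Qbar).symm x) ''
              Set.range (optFamily (jCl ι₁ jJ) (cCl ι₁ z)))))
    (ξJ : letI := algebraOKA K₁ A; JZero Mlev → ClR (OK K₁ A) A0 A1 A01 t s A)
    (hξJ : letI := algebraOKA K₁ A; haveI := isScalarTower_OKA K₁ A
      ∀ y, ξJ y ∈ PicZeroR e₁ A ∧
        bcR (IsScalarTower.toAlgHom (OK K₁ A) A Qbar) (ξJ y) = ι₁ (Multiplicative.ofAdd y)) :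
    letI := algebraOKA K₁ A
    ∃ D : Subalgebra (Zloc l) (E → Qbar), IsFunOrder (Zloc l) ℚ D ∧
      ∀ m m' : E, (∀ g ∈ D, g m - g m' ∈ A.nonunits) ↔
        π m = π m' ∧ ∀ ρ ∈ Fermat.Agent.FFJ.Alg.Defs78.stab (F := ℚ) A.toSubring,
          bcR (resV (O := OK K₁ A) A) (ξJ (ρ⁻¹ • jJ m)) =
            bcR (resV (O := OK K₁ A) A) (ξJ (ρ⁻¹ • jJ m')) := by
  letI := algebraOKA K₁ A
  haveI := isScalarTower_OKA K₁ A
  obtain ⟨K', hfd', hu', H, hH, hcong⟩ := exists_order_carry_of_bridge_cong l Mlev E C π hπ jJ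
    hjinj hjact z hz cr hjadd K₁ A hA A0 A1 A01 t s H₁ e₁ ι₁ hinj hmem hequiv hLA
  haveI := hfd'
  obtain ⟨D, hD, hDc⟩ := exists_descentOrder_of_congAt (l := l) (fun m => π m) hπ (jCl ι₁ jJ) e₁
    (fun x => ξJ (jJ x)) (fun x => hξJ (jJ x)) K' hA hu' H hH hcong
  refine ⟨D, hD, fun m m' => ?_⟩
  rw [hDc m m']
  simp only [hjact]

end Descent

end Fermat.Agent.MAZ.Flat.CarryCong92
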