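/-
Programme MAZ (S15), G-side, chapter K-FLAT, brick KF4 (the two-level seam), part 1.  Owner: helper78.

**CORE-ONE FOR A FINITE GALOIS-STABLE FAMILY OF CLASSES** (the one-level core of FFJ's chapter PIC,
`FFJ/Pic/CoreOne4`, with the group homomorphism `ι : M →* ClR` replaced by a finite family
`j : I → ClR`; the homomorphism property is never used in `CoreOne4` before its last step, the call of
chapter ORDER).

`O` a discrete valuation ring with fraction field `F`, `Ω/F` Galois, `Ω` algebraically closed and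
algebraic over `O`; curve data over `O` satisfying `ChartDefR35.CurveHypR`; a finite family
`j : I → PicZeroR e Ω` whose range is stable under `Gal(Ω/F)`; ONE valuation subring `V₀` of `Ω` over
`O`.  If, after ONE twist `lam` defined over `O`, the special fibres at `V₀` of the `V₀`-models of the
points `j i` are all good of the SAME rank `n`, and the residue field of `O` has more than `#I`
elements, then ONE chart package `𝒞` is admissible for `Set.range j`:

* `exists_chartPkg_admissible_of_goodAtRank` : `∃ 𝒞, Admissible Ω 𝒞 (Set.range j)`.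

(The twin with the carry cocycle concluding a function order, i.e. this statement followed by
`KOrder92.exists_isFunOrder_carry`, is `MAZ/Flat/CoreCarry92.exists_isFunOrder_carry_of_goodAtRank`
of helper92.)  `admissible_mono` : `Admissible` is monotone in the set.
-/
import Mathlib
import Fermat.Agent.FFJ.Pic.CoreOne4

set_option autoImplicit false
set_option maxHeartbeats 400000
set_option linter.unusedSectionVars false

noncomputable section

namespace Fermat.Agent.MAZ.Flat.CoreOneSet78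

open scoped TensorProduct
open Fermat.Agent.JAC.Core.Defs36 Fermat.Agent.FFJ.Core.ClR35 Fermat.Agent.FFJ.Core.ClRBc35
  Fermat.Agent.FFJ.Pic.ChartDefR35 Fermat.Agent.FFJ.Pic.ChartSpecR35
  Fermat.Agent.FFJ.Pic.LocalChartR35 Fermat.Agent.FFJ.Order.ValConj77
open Fermat.Agent.FFJ.Spec.Spec35 (ValSurj ValInj galActR ChartPkg Admissible)

variable {O : Type} [CommRing O] {A0 A1 A01 : Type} [CommRing A0] [CommRing A1] [CommRing A01]
  [Algebra O A0] [Algebra O A1] [Algebra O A01] [Algebra A0 A01] [Algebra A1 A01]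
  [IsScalarTower O A0 A01] [IsScalarTower O A1 A01] {t : A0} {s : A1}
  [IsLocalization.Away t A01] [IsLocalization.Away s A01]
  (F : Type) {Ω : Type} [Field F] [Field Ω] [Algebra O F] [Algebra F Ω] [Algebra O Ω]
  [IsScalarTower O F Ω]

/-- **CORE-ONE for a finite Galois-stable family**: one chart package admissible for `Set.range j`,
together with the by-product that the chart condition holds for the special fibres at `V₀`. -/
theorem exists_chartPkg_admissible_of_goodAtRank [IsDomain O] [IsDiscreteValuationRing O]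
    [IsFractionRing O F] [IsGalois F Ω] [IsAlgClosed Ω] [Algebra.IsAlgebraic O Ω]
    (hinj : Function.Injective (algebraMap O Ω))
    (H : CurveHypR O A0 A1 A01 t s) (e : A01 →ₐ[O] O)
    (I : Type) [Finite I] (j : I → ClR O A0 A1 A01 t s Ω)
    (hmem : ∀ i, j i ∈ PicZeroR e Ω)
    (hstab : ∀ (σ : Ω ≃ₐ[F] Ω) (i : I), ∃ i' : I, j i' = galActR O F σ (j i))
    (V₀ : ValuationSubring Ω) [Algebra O V₀] [IsScalarTower O V₀ Ω] (hV₀ : LiesOverBase O F V₀)
    (lam : PUnit.{1} → ClR O A0 A1 A01 t s O) (n : ℕ)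
    (hcard : Infinite (IsLocalRing.ResidueField O) ∨
      Nat.card I < Nat.card (IsLocalRing.ResidueField O))
    (hgood : ∀ (ξ : ClR O A0 A1 A01 t s V₀) (i : I), ξ ∈ PicZeroR e V₀ →
      bcR (IsScalarTower.toAlgHom O V₀ Ω) ξ = j i →
      Fermat.Agent.FFJ.Pic.SpecD35.GoodAtRank (IsLocalRing.ResidueField V₀)
        (bcR (Fermat.Agent.FFJ.Order.AdmOne77.resV V₀) ξ *
          twist lam (IsLocalRing.ResidueField V₀) PUnit.unit) n) :
    ∃ 𝒞 : ChartPkg O A0 A1 A01 t s e, Admissible Ω 𝒞 (Set.range j) := by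
  classical
  have hVS : ValSurj O A0 A1 A01 t s e Ω := Fermat.Agent.FFJ.Val.ValSurj67.valSurj' H e Ω
  have hVI : ValInj O A0 A1 A01 t s e Ω := Fermat.Agent.FFJ.Val.ValInjR1.valInj' e H hinj
  -- the `V₀`-models of the points
  have hmodel : ∀ i : I, ∃ ξ : ClR O A0 A1 A01 t s V₀, ξ ∈ PicZeroR e V₀ ∧
      bcR (IsScalarTower.toAlgHom O V₀ Ω) ξ = j i := fun i => hVS V₀ (j i) (hmem i)
  choose ξV hξV hξVj using hmodel
  -- their special fibres
  let ξbar : I → ClR O A0 A1 A01 t s (IsLocalRing.ResidueField V₀) := fun i =>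
    bcR (Fermat.Agent.FFJ.Order.AdmOne77.resV V₀) (ξV i)
  have hdeg : ∀ i, IsDegZeroR (IsLocalRing.ResidueField V₀) (ξbar i) := fun i =>
    (Fermat.Agent.FFJ.Order.Order77.picZeroR_bcR
      (Fermat.Agent.FFJ.Order.AdmOne77.resV V₀) (hξV i)).2
  have hrank : ∀ i, Fermat.Agent.FFJ.Pic.SpecD35.GoodAtRank (IsLocalRing.ResidueField V₀)
      (ξbar i * twist lam (IsLocalRing.ResidueField V₀) PUnit.unit) n := fun i =>
    hgood (ξV i) i (hξV i) (hξVj i)
  -- ONE chart containing all the special fibres: (D7) CHART-FIN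
  obtain ⟨β, φ, hc, hW⟩ := Fermat.Agent.FFJ.Pic.ChartFinClosed4.chartFin_of_curveHypR H e lam
    PUnit.unit n (IsLocalRing.ResidueField V₀)
    (Fermat.Agent.FFJ.Pic.CoreOne4.algebraMap_residueField_eq_zero F V₀ hV₀) I ξbar hcard hdeg hrank
  -- the chart package of that local chart
  refine ⟨Fermat.Agent.FFJ.Pic.ChartPkgOfLocal35.toChartPkg
    (Fermat.Agent.FFJ.Pic.ChartOfCurveR46.localChartR_of_curveHypR H e lam β PUnit.unit φ hc)
    (Fermat.Agent.FFJ.Pic.PicDry37.g4R H e), ?_⟩
  refine Fermat.Agent.FFJ.Order.AdmOne77.admissible_of_one F _ (Set.range j) ?_ ?_ V₀ hV₀ ?_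
  · rintro σ _ ⟨i, rfl⟩
    obtain ⟨i', hi'⟩ := hstab σ i
    exact ⟨i', hi'⟩
  · rintro _ ⟨i, rfl⟩
    have h := Fermat.Agent.FFJ.Pic.AdmOfSpecial37.W_generic_of_W_special
      (Fermat.Agent.FFJ.Pic.ChartOfCurveR46.localChartR_of_curveHypR H e lam β PUnit.unit φ hc)
      V₀ (ξV i) (hξV i) (hW i)
    rw [hξVj i] at h
    exact h
  · rintro ξ hξ ⟨i, hi⟩
    have hξeq : ξ = ξV i := hVI V₀ ξ (ξV i) hξ (hξV i) (hi.symm.trans (hξVj i).symm)
    rw [hξeq]
    exact hW i

/-- `Admissible` is monotone in the set of classes. -/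
theorem admissible_mono {e : A01 →ₐ[O] O} {𝒞 : ChartPkg O A0 A1 A01 t s e}
    {T T' : Set (ClR O A0 A1 A01 t s Ω)} (hTT' : T ⊆ T') (h : Admissible Ω 𝒞 T') :
    Admissible Ω 𝒞 T :=
  ⟨fun ξ hξ => h.1 ξ (hTT' hξ), fun V _ _ ξ hξ hξT => h.2 V ξ hξ (hTT' hξT)⟩

end Fermat.Agent.MAZ.Flat.CoreOneSet78
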