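/-
Programme MAZ (S15), G-side, chapter K-FLAT, brick KF4 (the two-level seam), part 0.  Owner: helper78.

**CHANGE OF LEVEL FOR A MAP OF SETS INTO THE CLASSES** = the twin of `FFJ/Pic/LevelIota85` (which
transports a group homomorphism `ι₁ : Multiplicative M →* ClR O₁ .. ℚ̄`) for an arbitrary MAP OF SETS
`j₁ : I → ClR O₁ .. ℚ̄` (the Kummer set map `jmap` of `MAZ/Flat/KummerSet69` is only additive up to a
carry).

For `k → k'` and two-chart curve data over `k`, `levelMap k' j₁ = (baseEquiv Ω)⁻¹ ∘ j₁` with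

* `levelMap_apply`, `baseEquiv_levelMap`, `levelMap_inj` (`levelMap j₁ i = levelMap j₁ i' ↔ j₁ i = j₁ i'`),
  `levelMap_injective`, `levelMap_mem_picZeroR`, `range_levelMap` (preimage form),
  `range_levelMap_eq_image` (image form, the literal set of `TwoLevelSet78`);
* multiplicativity: `levelMap_mul` (a relation `j₁ a = j₁ b * j₁ c * x` is transported),
  `levelClass` (a class over the base ring `k` seen over `k'`), `levelClass_mem_picZeroR`,
  `bcR_ofId_levelClass` (its image over `Ω` is the transport of its image over `Ω`),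
  `levelMap_add_carry` (the literal `hadd` of `KOrder92.exists_isFunOrder_carry`);
* Galois: `levelMap_galActR` (abstract), and for `K₁ ≤ K' : IntermediateField ℚ ℚ̄`,
  `levelMap_stable` (a Galois-stable family stays Galois-stable), `levelMap_equivariant`
  (the literal `hequiv` of `KOrder92` for the restricted action `resMulAction K' M`).
-/
import Mathlib
import Fermat.Agent.FFJ.Pic.LevelIota85
import Fermat.Agent.FFJ.Pic.LevelInst85

set_option autoImplicit false
set_option linter.unusedSectionVars false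
set_option linter.style.haveILetI false

open scoped TensorProduct
open scoped Fermat.Agent.JAC.Core.ConstFamily36

noncomputable section

namespace Fermat.Agent.MAZ.Flat.LevelSet78

open Fermat.Agent.JAC.Core.Defs36 Fermat.Agent.JAC.Core.ConstFamily36
  Fermat.Agent.JAC.Grp.Diag33
  Fermat.Agent.FFJ.Core.ClR35 Fermat.Agent.FFJ.Core.ClRBc35
  Fermat.Agent.FFJ.Spec.Spec35 Fermat.Agent.FFJ.Pic.SpecD35
  Fermat.Agent.FFJ.Pic.BaseEquiv85 Fermat.Agent.FFJ.Pic.LevelIota85

/-! ### Abstract form -/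

section Abstract

variable {k : Type} [CommRing k] {A0 A1 A01 : Type} [CommRing A0] [CommRing A1] [CommRing A01]
  [Algebra k A0] [Algebra k A1] [Algebra k A01] [Algebra A0 A01] [Algebra A1 A01]
  [IsScalarTower k A0 A01] [IsScalarTower k A1 A01] {t : A0} {s : A1}
  [IsLocalization.Away t A01] [IsLocalization.Away s A01]
  (k' : Type) [CommRing k'] [Algebra k k']

section SetMap

variable {I : Type} {Ω : Type} [Field Ω] [Algebra k Ω] [Algebra k' Ω] [IsScalarTower k k' Ω]

/-- **The family at the new level**: `j' = (baseEquiv Ω)⁻¹ ∘ j₁`. -/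
def levelMap (j₁ : I → ClR k A0 A1 A01 t s Ω) : I → ClR' k A0 A1 A01 t s k' Ω :=
  fun i => (baseEquiv k A0 A1 A01 t s k' Ω).symm (j₁ i)

theorem levelMap_apply (j₁ : I → ClR k A0 A1 A01 t s Ω) (i : I) :
    levelMap k' j₁ i = (baseEquiv k A0 A1 A01 t s k' Ω).symm (j₁ i) := rfl

@[simp]
theorem baseEquiv_levelMap (j₁ : I → ClR k A0 A1 A01 t s Ω) (i : I) :
    baseEquiv k A0 A1 A01 t s k' Ω (levelMap k' j₁ i) = j₁ i :=
  MulEquiv.apply_symm_apply _ _

theorem levelMap_inj (j₁ : I → ClR k A0 A1 A01 t s Ω) (i i' : I) :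
    levelMap k' j₁ i = levelMap k' j₁ i' ↔ j₁ i = j₁ i' :=
  (baseEquiv k A0 A1 A01 t s k' Ω).symm.injective.eq_iff

theorem levelMap_injective {j₁ : I → ClR k A0 A1 A01 t s Ω} (hinj : Function.Injective j₁) :
    Function.Injective (levelMap k' j₁) :=
  (baseEquiv k A0 A1 A01 t s k' Ω).symm.injective.comp hinj

theorem levelMap_mem_picZeroR (e : A01 →ₐ[k] k) {j₁ : I → ClR k A0 A1 A01 t s Ω}
    (hmem : ∀ i, j₁ i ∈ PicZeroR e Ω) (i : I) :
    levelMap k' j₁ i ∈ PicZeroR (rigHom k' e) Ω := by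
  rw [← baseEquiv_mem_picZeroR k A0 A1 A01 t s k' Ω e, baseEquiv_levelMap]
  exact hmem i

theorem range_levelMap (j₁ : I → ClR k A0 A1 A01 t s Ω) :
    Set.range (levelMap k' j₁) = (baseEquiv k A0 A1 A01 t s k' Ω) ⁻¹' Set.range j₁ := by
  ext x
  constructor
  · rintro ⟨i, rfl⟩
    exact ⟨i, (baseEquiv_levelMap k' j₁ i).symm⟩
  · rintro ⟨i, hi⟩
    exact ⟨i, by rw [levelMap_apply, hi, MulEquiv.symm_apply_apply]⟩

/-- The range of the transported family, in the image form used in `TwoLevelSet78`. -/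
theorem range_levelMap_eq_image (j₁ : I → ClR k A0 A1 A01 t s Ω) :
    Set.range (levelMap k' j₁) =
      (fun x => (baseEquiv k A0 A1 A01 t s k' Ω).symm x) '' Set.range j₁ := by
  rw [← Set.range_comp]
  rfl

/-- A multiplicative relation between members of the family is transported. -/
theorem levelMap_mul (j₁ : I → ClR k A0 A1 A01 t s Ω) (a b c : I) (x : ClR k A0 A1 A01 t s Ω)
    (h : j₁ a = j₁ b * j₁ c * x) :
    levelMap k' j₁ a =
      levelMap k' j₁ b * levelMap k' j₁ c * (baseEquiv k A0 A1 A01 t s k' Ω).symm x := by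
  rw [levelMap_apply, h, map_mul, map_mul]
  rfl

end SetMap

section BaseClass

variable {Ω : Type} [Field Ω] [Algebra k Ω] [Algebra k' Ω] [IsScalarTower k k' Ω]

/-- **A class over the base ring `k` at the new level `k'`**: the transport of its base change to
`k'`. -/
def levelClass (κ : ClR k A0 A1 A01 t s k) : ClR' k A0 A1 A01 t s k' k' :=
  (baseEquiv k A0 A1 A01 t s k' k').symm (bcR (Algebra.ofId k k') κ)

theorem baseEquiv_levelClass (κ : ClR k A0 A1 A01 t s k) :
    baseEquiv k A0 A1 A01 t s k' k' (levelClass k' κ) = bcR (Algebra.ofId k k') κ :=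
  MulEquiv.apply_symm_apply _ _

theorem levelClass_mem_picZeroR (e : A01 →ₐ[k] k) {κ : ClR k A0 A1 A01 t s k}
    (hκ : κ ∈ PicZeroR e k) : levelClass k' κ ∈ PicZeroR (rigHom k' e) k' := by
  rw [← baseEquiv_mem_picZeroR k A0 A1 A01 t s k' k' e, baseEquiv_levelClass]
  exact Fermat.Agent.FFJ.Order.Order77.picZeroR_bcR _ hκ

/-- The image over `Ω` of the class at the new level is the transport of the image over `Ω`. -/
theorem bcR_ofId_levelClass (κ : ClR k A0 A1 A01 t s k) :
    bcR (Algebra.ofId k' Ω) (levelClass k' κ) =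
      (baseEquiv k A0 A1 A01 t s k' Ω).symm (bcR (Algebra.ofId k Ω) κ) := by
  have hofId : ((Algebra.ofId k' Ω).restrictScalars k).comp (Algebra.ofId k k') =
      Algebra.ofId k Ω :=
    AlgHom.ext fun x => (IsScalarTower.algebraMap_apply k k' Ω x).symm
  rw [MulEquiv.eq_symm_apply, baseEquiv_bcR, baseEquiv_levelClass, bcR_bc, hofId]

/-- **Additivity up to a carry is transported** (the literal `hadd` of
`KOrder92.exists_isFunOrder_carry` at the new level). -/
theorem levelMap_add_carry {M C : Type} [Add M] (π : M → C)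
    (κ : C → C → ClR k A0 A1 A01 t s k) (j₁ : M → ClR k A0 A1 A01 t s Ω)
    (hadd : ∀ m m', j₁ (m + m') = j₁ m * j₁ m' * bcR (Algebra.ofId k Ω) (κ (π m) (π m')))
    (m m' : M) :
    levelMap k' j₁ (m + m') = levelMap k' j₁ m * levelMap k' j₁ m' *
      bcR (Algebra.ofId k' Ω) (levelClass k' (κ (π m) (π m'))) := by
  rw [bcR_ofId_levelClass]
  exact levelMap_mul k' j₁ _ _ _ _ (hadd m m')

end BaseClass

section Galois

variable {I : Type} (F F' : Type) {Ω : Type} [Field F] [Field F'] [Field Ω]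
  [Algebra k F] [Algebra F Ω] [Algebra k Ω] [IsScalarTower k F Ω]
  [Algebra k' F'] [Algebra F' Ω] [Algebra k' Ω] [IsScalarTower k' F' Ω]
  [IsScalarTower k k' Ω]

/-- Equivariance at the new level (abstract form). -/
theorem levelMap_galActR (j₁ : I → ClR k A0 A1 A01 t s Ω)
    (σ' : Ω ≃ₐ[F'] Ω) (σ : Ω ≃ₐ[F] Ω) (h : ∀ x, σ' x = σ x) (i i' : I)
    (hi : j₁ i' = galActR k F σ (j₁ i)) :
    levelMap k' j₁ i' = galActR k' F' σ' (levelMap k' j₁ i) := by
  rw [levelMap_apply, levelMap_apply, galActR_baseEquiv_symm k A0 A1 A01 t s k' F F' σ' σ h, hi]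

end Galois

end Abstract

/-! ### The two levels `O₁ = A ∩ K₁ ⊆ O' = A ∩ K'` -/

section Concrete

open Fermat.Agent.TW.FF.FlatModel68 Fermat.Agent.FFJ.Alg.Spec78 Fermat.Agent.FFJ.Order.GeoWire77

variable {K₁ K' : IntermediateField ℚ Qbar} (A : ValuationSubring Qbar)
  [Algebra (OK K₁ A) (OK K' A)] [IsScalarTower (OK K₁ A) (OK K' A) Qbar]
  {A0 A1 A01 : Type} [CommRing A0] [CommRing A1] [CommRing A01]
  [Algebra (OK K₁ A) A0] [Algebra (OK K₁ A) A1] [Algebra (OK K₁ A) A01] [Algebra A0 A01]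
  [Algebra A1 A01] [IsScalarTower (OK K₁ A) A0 A01] [IsScalarTower (OK K₁ A) A1 A01]
  {t : A0} {s : A1} [IsLocalization.Away t A01] [IsLocalization.Away s A01]

/-- **A Galois-stable family stays Galois-stable at the level `O' = A ∩ K'`.** -/
theorem levelMap_stable (hK : K₁ ≤ K') {I : Type}
    (j₁ : I → ClR (OK K₁ A) A0 A1 A01 t s Qbar)
    (hstab : ∀ (σ : Qbar ≃ₐ[K₁] Qbar) (i : I), ∃ i' : I,
      j₁ i' = galActR (OK K₁ A) K₁ σ (j₁ i))
    (σ : Qbar ≃ₐ[K'] Qbar) (i : I) :
    ∃ i' : I, levelMap (OK K' A) j₁ i' = galActR (OK K' A) K' σ (levelMap (OK K' A) j₁ i) := by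
  obtain ⟨i', hi'⟩ := hstab (galRestrict hK σ) i
  exact ⟨i', levelMap_galActR (OK K' A) K₁ K' j₁ σ (galRestrict hK σ) (fun _ => rfl) i i' hi'⟩

/-- **Equivariance at the level `O' = A ∩ K'`** for a `G_ℚ`-set `M`, in the literal shape of the
hypothesis `hequiv` of `KOrder92.exists_isFunOrder_carry` (for the action
`GeoWire77.resMulAction K' M`, `σ • m = (σ.restrictScalars ℚ : GQ) • m`). -/
theorem levelMap_equivariant (hK : K₁ ≤ K') {M : Type} [MulAction GQ M]
    (j₁ : M → ClR (OK K₁ A) A0 A1 A01 t s Qbar)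
    (hequiv : ∀ (σ : Qbar ≃ₐ[K₁] Qbar) (m : M),
      j₁ ((σ.restrictScalars ℚ : GQ) • m) = galActR (OK K₁ A) K₁ σ (j₁ m))
    (σ : Qbar ≃ₐ[K'] Qbar) (m : M) :
    levelMap (OK K' A) j₁ ((σ.restrictScalars ℚ : GQ) • m) =
      galActR (OK K' A) K' σ (levelMap (OK K' A) j₁ m) := by
  refine levelMap_galActR (OK K' A) K₁ K' j₁ σ (galRestrict hK σ) (fun _ => rfl) _ _ ?_
  rw [← galRestrict_restrictScalars hK σ]
  exact hequiv (galRestrict hK σ) m

end Concrete

/-! ### Models over `A` and their special fibres at the two levels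

(by-product for the marks at `r = 2`: "same specialisation at `𝔪_A`" does not depend on the level) -/

section Models

open Fermat.Agent.TW.FF.FlatModel68 Fermat.Agent.FFJ.Alg.Spec78 Fermat.Agent.FFJ.Order.GeoWire77
  Fermat.Agent.FFJ.Order.GeoWireOne77 Fermat.Agent.FFJ.Order.AdmOne77
  Fermat.Agent.FFJ.Pic.LevelInst85

variable {K₁ K' : IntermediateField ℚ Qbar} (hK : K₁ ≤ K') (A : ValuationSubring Qbar)
  {A0 A1 A01 : Type} [CommRing A0] [CommRing A1] [CommRing A01]
  [Algebra (OK K₁ A) A0] [Algebra (OK K₁ A) A1] [Algebra (OK K₁ A) A01] [Algebra A0 A01]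
  [Algebra A1 A01] [IsScalarTower (OK K₁ A) A0 A01] [IsScalarTower (OK K₁ A) A1 A01]
  {t : A0} {s : A1} [IsLocalization.Away t A01] [IsLocalization.Away s A01]

/-- The `A`-model at the level `O' = A ∩ K'` of an `A`-model at the level `O₁ = A ∩ K₁`:
membership in `PicZeroR`. -/
theorem levelModel_mem (e₁ : A01 →ₐ[OK K₁ A] OK K₁ A) :
    letI := algebraOKOK hK A
    letI := algebraOKA K₁ A
    letI := algebraOKA K' A
    haveI := isScalarTower_OKOK_A hK A
    ∀ ξ : ClR (OK K₁ A) A0 A1 A01 t s A, ξ ∈ PicZeroR e₁ A →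
      (baseEquiv (OK K₁ A) A0 A1 A01 t s (OK K' A) A).symm ξ ∈
        PicZeroR (rigHom (OK K' A) e₁) A := by
  letI := algebraOKOK hK A
  letI := algebraOKA K₁ A
  letI := algebraOKA K' A
  haveI := isScalarTower_OKOK_A hK A
  intro ξ hξ
  rw [← baseEquiv_mem_picZeroR (OK K₁ A) A0 A1 A01 t s (OK K' A) A e₁, MulEquiv.apply_symm_apply]
  exact hξ

/-- The generic fibre of the transported `A`-model is the transported generic fibre. -/
theorem levelModel_generic :
    letI := algebraOKOK hK A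
    letI := algebraOKA K₁ A
    letI := algebraOKA K' A
    haveI := isScalarTower_OKA K₁ A
    haveI := isScalarTower_OKA K' A
    haveI := isScalarTower_OKOK_A hK A
    haveI := isScalarTower_OKOK_Qbar hK A
    ∀ ξ : ClR (OK K₁ A) A0 A1 A01 t s A,
      bcR (IsScalarTower.toAlgHom (OK K' A) A Qbar)
          ((baseEquiv (OK K₁ A) A0 A1 A01 t s (OK K' A) A).symm ξ) =
        (baseEquiv (OK K₁ A) A0 A1 A01 t s (OK K' A) Qbar).symm
          (bcR (IsScalarTower.toAlgHom (OK K₁ A) A Qbar) ξ) := by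
  letI := algebraOKOK hK A
  letI := algebraOKA K₁ A
  letI := algebraOKA K' A
  haveI := isScalarTower_OKA K₁ A
  haveI := isScalarTower_OKA K' A
  haveI := isScalarTower_OKOK_A hK A
  haveI := isScalarTower_OKOK_Qbar hK A
  intro ξ
  rw [MulEquiv.eq_symm_apply, ← baseEquiv_generic hK A, MulEquiv.apply_symm_apply]

/-- The special fibre of the transported `A`-model is the transported special fibre. -/
theorem levelModel_special :
    letI := algebraOKOK hK A
    letI := algebraOKA K₁ A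
    letI := algebraOKA K' A
    haveI := isScalarTower_OKOK_A hK A
    haveI := isScalarTower_OKOK_residue hK A
    ∀ ξ : ClR (OK K₁ A) A0 A1 A01 t s A,
      bcR (resV (O := OK K' A) A)
          ((baseEquiv (OK K₁ A) A0 A1 A01 t s (OK K' A) A).symm ξ) =
        (baseEquiv (OK K₁ A) A0 A1 A01 t s (OK K' A) (IsLocalRing.ResidueField A)).symm
          (bcR (resV (O := OK K₁ A) A) ξ) := by
  letI := algebraOKOK hK A
  letI := algebraOKA K₁ A
  letI := algebraOKA K' A
  haveI := isScalarTower_OKOK_A hK A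
  haveI := isScalarTower_OKOK_residue hK A
  intro ξ
  rw [MulEquiv.eq_symm_apply, ← baseEquiv_special hK A, MulEquiv.apply_symm_apply]

end Models

end Fermat.Agent.MAZ.Flat.LevelSet78
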