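/-
Programme MAZ (S15), G-side, chapter K-FLAT, brick KF4 (the two-level seam), part 2.  Owner: helper78.

**THE TWO-LEVEL STEP FOR A FINITE GALOIS-STABLE FAMILY OF CLASSES** = the twin of
`FFJ/Spec/GeoTwoLevel77` (D8-TOP of FFJ) with the group embedding `ι₁ : M →* ClR O₁ .. ℚ̄` replaced by a
finite family `j₁ : I → ClR O₁ .. ℚ̄` (a MAP OF SETS), and with the exit one step earlier: not the
function order, but the chart package at the level `O' = A ∩ K'` with the three hypotheses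
`(hmul, hVS, hAdm)` of `KOrder92.exists_isFunOrder_carry` / `Order77.exists_isFunOrder`.

Input, at the level `O₁ = A ∩ K₁` (`K₁` finite over `ℚ`, unramified at the place `A`): curve data with
`ChartDefR35.CurveHypR`, a base point `e₁`, a finite family `j₁` of classes in `PicZeroR e₁ ℚ̄` whose
range is stable under `Gal(ℚ̄/K₁)`, FIB-R and SUPPLY exactly as in
`GeoTwoLevel77.geoInputNN_of_two_level`.  Output: `LevelAdmissible K₁ A A0 A1 A01 t s e₁ j₁`, i.e.

  `∃ K' ≥ K₁` finite over `ℚ`, unramified at `A`, `LevelData O₁ A0 A1 A01 t s O' e₁ ℚ̄ j₁`, where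
  `LevelData k .. k' e Ω j₁ := ∃ 𝒞 : ChartPkg k' (k' ⊗ A_i) .. (rigHom k' e),`
  `  PicZeroMul k' .. ∧ ValSurj k' .. Ω ∧ Admissible Ω 𝒞 (Set.range (levelMap k' j₁))`.

Proof = steps (1)-(5) of `GeoTwoLevel77` verbatim (the homomorphism property is not used there),
`LevelSet78` for the transport of the family to the level `O'`, and
`CoreOneSet78.exists_chartPkg_admissible_of_goodAtRank` (= CHART-FIN + `AdmOne77.admissible_of_one`)
instead of `CoreOne4`.

* `LevelData`, `LevelData.image`, `LevelData.comp` : the chart data at the level `k'` (abstract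
  `k → k'`), the image form of the admissible set, restriction to a subfamily;
* `LevelAdmissible`, `LevelAdmissible.comp`, `LevelAdmissible.elim` : the exit shape;
* `levelAdmissible_of_two_level`     : supply = a set of `A`-valued points, `t`-coordinate;
* `levelAdmissible_of_two_level_s`   : the same with the `s`-coordinate;
* `levelAdmissible_of_two_level_seq` : supply = a sequence of `ℚ̄`-valued points (the exit shape of
  `Supply39.supply`);
* `levelAdmissible_of_two_level_seq_AK` : the same with all binders in the `RED.Interface4.AK` form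
  (the form spoken by CURVE / BRIDGE / SUPPLY, cf. `FFJ/Spec/SupplySeam77`).
-/
import Mathlib
import Fermat.Agent.FFJ.Spec.GeoTwoLevelSeq77
import Fermat.Agent.RED.Interface4
import Fermat.Agent.MAZ.Flat.CoreOneSet78
import Fermat.Agent.MAZ.Flat.LevelSet78

set_option autoImplicit false
set_option linter.style.haveILetI false
set_option linter.unusedSectionVars false
set_option maxHeartbeats 400000

noncomputable section

namespace Fermat.Agent.MAZ.Flat.TwoLevelSet78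

open scoped TensorProduct
open scoped Fermat.Agent.JAC.Core.ConstFamily36
open Fermat.Agent.JAC.Core.Defs36 Fermat.Agent.JAC.Core.ConstFamily36 Fermat.Agent.JAC.Grp.Diag33
  Fermat.Agent.FFJ.Core.ClR35 Fermat.Agent.FFJ.Core.ClRBc35 Fermat.Agent.TW.FF.FunOrder68
  Fermat.Agent.FFJ.Spec.Spec35 Fermat.Agent.S19.Shell64 Fermat.Agent.FFJ.Alg.Spec78
  Fermat.Agent.FFJ.Alg.SpecLocal78 Fermat.Agent.FFJ.Alg.SpecNN78
  Fermat.Agent.TW.FF.FlatModel68 Fermat.Agent.FFJ.Order.GeoWire77 Fermat.Agent.FFJ.Order.AdmOne77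
  Fermat.Agent.FFJ.Order.GeoWireOne77 Fermat.Agent.FFJ.Order.ValConj77
  Fermat.Agent.FFJ.Order.Order77
  Fermat.Agent.FFJ.Pic.SpecD35 Fermat.Agent.FFJ.Pic.BaseEquiv85 Fermat.Agent.FFJ.Pic.LevelIota85
  Fermat.Agent.FFJ.Pic.LevelInst85 Fermat.Agent.FFJ.Spec.GeoTwoLevel77
  Fermat.Agent.FFJ.Spec.GeoTwoLevelSeq77 Fermat.Agent.MAZ.Flat.LevelSet78
open Fermat.Agent.RED.Interface4 (AK)

/-! ### The exit shape -/

section LevelData

variable (k : Type) [CommRing k] (A0 A1 A01 : Type) [CommRing A0] [CommRing A1] [CommRing A01]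
  [Algebra k A0] [Algebra k A1] [Algebra k A01] [Algebra A0 A01] [Algebra A1 A01]
  [IsScalarTower k A0 A01] [IsScalarTower k A1 A01] (t : A0) (s : A1)
  [IsLocalization.Away t A01] [IsLocalization.Away s A01]
  (k' : Type) [CommRing k'] [Algebra k k'] (e : A01 →ₐ[k] k)
  (Ω : Type) [Field Ω] [Algebra k Ω] [Algebra k' Ω] [IsScalarTower k k' Ω]

/-- **The chart data at the level `k'`** for a family `j₁` of classes at the level `k`: ONE chart
package for the tensor model `k' ⊗[k] A_i` (base point `rigHom k' e`) which is admissible for the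
transported family `LevelSet78.levelMap k' j₁`, together with `PicZeroMul` and `ValSurj` at that level
(= the hypotheses `hmul`, `𝒞`, `hVS`, `hAdm` of `KOrder92.exists_isFunOrder_carry` and of
`Order77.exists_isFunOrder`).

(Stated for abstract `k → k'` on purpose: all instance arguments are then the ones of the generic
lemmas of `BaseEquiv85` / `CurveBcR85` / `LevelIota85` / `LevelSet78`, syntactically.) -/
def LevelData {I : Type} (j₁ : I → ClR k A0 A1 A01 t s Ω) : Prop :=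
  ∃ 𝒞 : ChartPkg k' (k' ⊗[k] A0) (k' ⊗[k] A1) (k' ⊗[k] A01) ((1 : k') ⊗ₜ[k] t)
      ((1 : k') ⊗ₜ[k] s) (rigHom k' e),
    PicZeroMul k' (k' ⊗[k] A0) (k' ⊗[k] A1) (k' ⊗[k] A01) ((1 : k') ⊗ₜ[k] t)
      ((1 : k') ⊗ₜ[k] s) (rigHom k' e) ∧
    ValSurj k' (k' ⊗[k] A0) (k' ⊗[k] A1) (k' ⊗[k] A01) ((1 : k') ⊗ₜ[k] t)
      ((1 : k') ⊗ₜ[k] s) (rigHom k' e) Ω ∧
    Admissible Ω 𝒞 (Set.range (levelMap k' j₁))

variable {k A0 A1 A01 t s k' e Ω}

/-- The admissible set in the image form `(baseEquiv ..)⁻¹ '' Set.range j₁`. -/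
theorem LevelData.image {I : Type} {j₁ : I → ClR k A0 A1 A01 t s Ω}
    (h : LevelData k A0 A1 A01 t s k' e Ω j₁) :
    ∃ 𝒞 : ChartPkg k' (k' ⊗[k] A0) (k' ⊗[k] A1) (k' ⊗[k] A01) ((1 : k') ⊗ₜ[k] t)
        ((1 : k') ⊗ₜ[k] s) (rigHom k' e),
      PicZeroMul k' (k' ⊗[k] A0) (k' ⊗[k] A1) (k' ⊗[k] A01) ((1 : k') ⊗ₜ[k] t)
        ((1 : k') ⊗ₜ[k] s) (rigHom k' e) ∧
      ValSurj k' (k' ⊗[k] A0) (k' ⊗[k] A1) (k' ⊗[k] A01) ((1 : k') ⊗ₜ[k] t)
        ((1 : k') ⊗ₜ[k] s) (rigHom k' e) Ω ∧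
      Admissible Ω 𝒞
        ((fun x => (baseEquiv k A0 A1 A01 t s k' Ω).symm x) '' Set.range j₁) := by
  obtain ⟨𝒞, hmul, hVS, hAdm⟩ := h
  refine ⟨𝒞, hmul, hVS, ?_⟩
  rw [← range_levelMap_eq_image]
  exact hAdm

/-- The family may be shrunk (same chart package). -/
theorem LevelData.comp {I I' : Type} {j₁ : I → ClR k A0 A1 A01 t s Ω} (f : I' → I)
    (h : LevelData k A0 A1 A01 t s k' e Ω j₁) :
    LevelData k A0 A1 A01 t s k' e Ω (fun i => j₁ (f i)) := by
  obtain ⟨𝒞, hmul, hVS, hAdm⟩ := h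
  refine ⟨𝒞, hmul, hVS, Fermat.Agent.MAZ.Flat.CoreOneSet78.admissible_mono ?_ hAdm⟩
  rintro _ ⟨i, rfl⟩
  exact ⟨f i, rfl⟩

end LevelData

/-- **The conclusion of the two-level step for a family `j₁`**: a finite extension `K' ⊇ K₁`
unramified at the place `A` and, at the level `O' = A ∩ K'` (tensor model `O' ⊗[O₁] A_i`, base point
`rigHom O' e₁`), the chart data `LevelData` for the transported family. -/
def LevelAdmissible (K₁ : IntermediateField ℚ Qbar) (A : ValuationSubring Qbar)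
    (A0 A1 A01 : Type) [CommRing A0] [CommRing A1] [CommRing A01]
    [Algebra (OK K₁ A) A0] [Algebra (OK K₁ A) A1] [Algebra (OK K₁ A) A01] [Algebra A0 A01]
    [Algebra A1 A01] [IsScalarTower (OK K₁ A) A0 A01] [IsScalarTower (OK K₁ A) A1 A01]
    (t : A0) (s : A1) [IsLocalization.Away t A01] [IsLocalization.Away s A01]
    (e₁ : A01 →ₐ[OK K₁ A] OK K₁ A) {I : Type}
    (j₁ : I → ClR (OK K₁ A) A0 A1 A01 t s Qbar) : Prop :=
  ∃ (K' : IntermediateField ℚ Qbar) (_ : FiniteDimensional ℚ K') (hK : K₁ ≤ K'),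
    UnramAtPlace A K' ∧
    (letI := algebraOKOK hK A
     haveI := isScalarTower_OKOK_Qbar hK A
     LevelData (OK K₁ A) A0 A1 A01 t s (OK K' A) e₁ Qbar j₁)

section Exit

variable {K₁ : IntermediateField ℚ Qbar} {A : ValuationSubring Qbar}
  {A0 A1 A01 : Type} [CommRing A0] [CommRing A1] [CommRing A01]
  [Algebra (OK K₁ A) A0] [Algebra (OK K₁ A) A1] [Algebra (OK K₁ A) A01] [Algebra A0 A01]
  [Algebra A1 A01] [IsScalarTower (OK K₁ A) A0 A01] [IsScalarTower (OK K₁ A) A1 A01]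
  {t : A0} {s : A1} [IsLocalization.Away t A01] [IsLocalization.Away s A01]
  {e₁ : A01 →ₐ[OK K₁ A] OK K₁ A} {I : Type} {j₁ : I → ClR (OK K₁ A) A0 A1 A01 t s Qbar}

/-- The family may be shrunk: `LevelAdmissible` for `j₁` gives it for `j₁ ∘ f` (same `K'`, same chart
package). -/
theorem LevelAdmissible.comp {I' : Type} (f : I' → I)
    (h : LevelAdmissible K₁ A A0 A1 A01 t s e₁ j₁) :
    LevelAdmissible K₁ A A0 A1 A01 t s e₁ (fun i => j₁ (f i)) := by
  obtain ⟨K', hfd, hK, hu, h'⟩ := h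
  letI := algebraOKOK hK A
  haveI := isScalarTower_OKOK_Qbar hK A
  exact ⟨K', hfd, hK, hu, LevelData.comp f h'⟩

/-- Eliminator with the algebra structure `O₁ → O'` as a LOCAL VARIABLE `inst` (so that everything
elaborated afterwards in the consumer's context mentions the same instance term as the data). -/
theorem LevelAdmissible.elim {P : Prop} (h : LevelAdmissible K₁ A A0 A1 A01 t s e₁ j₁)
    (H : ∀ (K' : IntermediateField ℚ Qbar) (_ : FiniteDimensional ℚ K') (hK : K₁ ≤ K')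
      (_ : UnramAtPlace A K') [inst : Algebra (OK K₁ A) (OK K' A)] (_ : inst = algebraOKOK hK A)
      [IsScalarTower (OK K₁ A) (OK K' A) Qbar],
      LevelData (OK K₁ A) A0 A1 A01 t s (OK K' A) e₁ Qbar j₁ → P) : P := by
  obtain ⟨K', hfd, hK, hu, h'⟩ := h
  exact @H K' hfd hK hu (algebraOKOK hK A) rfl (isScalarTower_OKOK_Qbar hK A) h'

end Exit

/-! ### The two-level step -/

/-- **KF4, the two-level step for a finite Galois-stable family**: curve data at the level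
`O₁ = A ∩ K₁`, a finite family of classes in `PicZeroR e₁ ℚ̄` stable under `Gal(ℚ̄/K₁)`, FIB-R and a
supply of `A`-valued points of the overlap defined over extensions unramified at `A` give ONE chart
package at a level `O' = A ∩ K'` which is admissible for the transported family. -/
theorem levelAdmissible_of_two_level (l : ℕ) (hl : l.Prime)
    (K₁ : IntermediateField ℚ Qbar) [FiniteDimensional ℚ K₁]
    (A : ValuationSubring Qbar) (hA : A.LiesOverPrime l) (hunr : UnramAtPlace A K₁)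
    (A0 A1 A01 : Type) [CommRing A0] [CommRing A1] [CommRing A01]
    [Algebra (OK K₁ A) A0] [Algebra (OK K₁ A) A1] [Algebra (OK K₁ A) A01] [Algebra A0 A01]
    [Algebra A1 A01] [IsScalarTower (OK K₁ A) A0 A01] [IsScalarTower (OK K₁ A) A1 A01]
    (t : A0) (s : A1) [IsLocalization.Away t A01] [IsLocalization.Away s A01]
    (H₁ : Fermat.Agent.FFJ.Pic.ChartDefR35.CurveHypR (OK K₁ A) A0 A1 A01 t s)
    (e₁ : A01 →ₐ[OK K₁ A] OK K₁ A)
    (I : Type) [Finite I] (j₁ : I → ClR (OK K₁ A) A0 A1 A01 t s Qbar)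
    (hmem : ∀ i, j₁ i ∈ PicZeroR e₁ Qbar)
    (hstab : ∀ (σ : Qbar ≃ₐ[K₁] Qbar) (i : I), ∃ i' : I,
      j₁ i' = galActR (OK K₁ A) K₁ σ (j₁ i))
    (hFib : FibStatement (OK K₁ A) A0 A1 A01 t s H₁.hts)
    (S : letI := algebraOKA K₁ A; Set (A01 →ₐ[OK K₁ A] A))
    (hSinf : letI := algebraOKA K₁ A
      ((fun P : A01 →ₐ[OK K₁ A] A => IsLocalRing.residue A (P (algebraMap A0 A01 t))) '' S).Infinite)
    (hSunr : letI := algebraOKA K₁ A
      ∀ P ∈ S, ∃ K' : IntermediateField ℚ Qbar, FiniteDimensional ℚ K' ∧ K₁ ≤ K' ∧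
        UnramAtPlace A K' ∧ ∀ a, ((P a : A) : Qbar) ∈ K') :
    LevelAdmissible K₁ A A0 A1 A01 t s e₁ j₁ := by
  letI := algebraOKA K₁ A
  haveI := isScalarTower_OKA K₁ A
  haveI : IsDiscreteValuationRing (OK K₁ A) :=
    Fermat.Agent.RED.DESC.NumberFieldDVR27.isDiscreteValuationRing_AK A K₁ hl.ne_zero hA
  haveI := isAlgebraic_OK_Qbar A K₁
  haveI : IsAlgClosed (IsLocalRing.ResidueField A) :=
    Fermat.Agent.ES.KRON.KronInst10.isAlgClosed_residueField A
  have hinjO := algebraMap_OK_Qbar_injective A K₁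
  -- (1) the `A`-models of the points and their special fibres
  have hmod : ∀ i : I, ∃ ξ : ClR (OK K₁ A) A0 A1 A01 t s A, ξ ∈ PicZeroR e₁ A ∧
      bcR (IsScalarTower.toAlgHom (OK K₁ A) A Qbar) ξ = j₁ i := fun i =>
    (Fermat.Agent.FFJ.Val.ValInjR1.existsUnique_extension e₁ H₁ hinjO A (j₁ i) (hmem _)).exists
  choose ξ_ hξ_ hξj using hmod
  have hdeg : ∀ i, IsDegZeroR (IsLocalRing.ResidueField A) (bcR (resV A) (ξ_ i)) := fun i =>
    isDegZeroR_bcR _ _ (hξ_ i).2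
  -- (2) FIB-R with the reductions of the supply
  have hS' : ((fun q : A01 →ₐ[OK K₁ A] IsLocalRing.ResidueField A => q (algebraMap A0 A01 t)) ''
      ((fun P : A01 →ₐ[OK K₁ A] A => (resV A).comp P) '' S)).Infinite := by
    rw [Set.image_image]
    exact hSinf
  obtain ⟨lq, n, -, hlS, hgood⟩ := hFib (IsLocalRing.ResidueField A) I
    (fun i => bcR (resV A) (ξ_ i)) hdeg _ hS'
  -- (3) the field of definition of the chosen points, with a large residue field
  obtain ⟨K'', hfd'', hle'', hu'', hR''⟩ := exists_field_of_list A K₁ hunr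
    (fun (q : A01 →ₐ[OK K₁ A] IsLocalRing.ResidueField A) K => ∃ P : A01 →ₐ[OK K₁ A] A,
      (resV A).comp P = q ∧ ∀ a, ((P a : A) : Qbar) ∈ K)
    (fun q K K' hKK' ⟨P, hP, hPK⟩ => ⟨P, hP, fun a => hKK' (hPK a)⟩) lq
    (fun q hq => by
      obtain ⟨P, hPS, hPq⟩ := hlS q hq
      obtain ⟨K', hfd, hle, hu, hv⟩ := hSunr P hPS
      exact ⟨K', hfd, hle, hu, P, hPq, hv⟩)
  haveI := hfd''
  obtain ⟨K', hfd', hu', hle', -, hfin', hcard'⟩ :=
    Fermat.Agent.FFJ.Alg.ResFieldPlace82.exists_unramAtPlace_large_resField l hl A hA K'' hu''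
      (Nat.card I)
  have hK : K₁ ≤ K' := hle''.trans hle'
  refine ⟨K', hfd', hK, hu', ?_⟩
  -- (4) the level `O' = A ∩ K'`
  letI := algebraOKOK hK A
  letI := algebraOKA K' A
  haveI := isScalarTower_OKA K' A
  haveI := isScalarTower_OKOK_A hK A
  haveI := isScalarTower_OKOK_Qbar hK A
  haveI := isScalarTower_OKOK_residue hK A
  haveI := flat_OKOK hK A
  haveI := hfd'
  haveI : IsDiscreteValuationRing (OK K' A) :=
    Fermat.Agent.RED.DESC.NumberFieldDVR27.isDiscreteValuationRing_AK A K' hl.ne_zero hA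
  haveI := isAlgebraic_OK_Qbar A K'
  haveI := isGalois_K_Qbar K'
  have H' := Fermat.Agent.FFJ.Pic.CurveBcR85.curveHypR_bc (OK K₁ A) (OK K' A) H₁
  -- the chosen points as `O'`-valued points of `U0`
  obtain ⟨L, hL⟩ := exists_list_map_eq
    (fun q : A01 →ₐ[OK K₁ A] IsLocalRing.ResidueField A =>
      ptClassR (A1 := A1) (A01 := A01) (t := t) (s := s) H₁.hts
        (q.comp (IsScalarTower.toAlgHom (OK K₁ A) A0 A01)))
    (fun P : A0 →ₐ[OK K₁ A] OK K' A =>
      ptClassR (A1 := A1) (A01 := A01) (t := t) (s := s) H₁.hts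
        (((Algebra.ofId (OK K' A) (IsLocalRing.ResidueField A)).restrictScalars (OK K₁ A)).comp P))
    lq (fun q hq => by
      obtain ⟨P, hPq, hPK⟩ := hR'' q hq
      have hPK' : ∀ a, ((P a : A) : Qbar) ∈ K' := fun a => hle' (hPK a)
      refine ⟨(codRestrictOK hK A P hPK').comp (IsScalarTower.toAlgHom (OK K₁ A) A0 A01), ?_⟩
      show ptClassR H₁.hts _ = ptClassR H₁.hts _
      rw [← AlgHom.comp_assoc, ofId_comp_codRestrictOK hK A P hPK', hPq])
  -- (5) + (6) CORE-ONE for the transported family at the level `O'`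
  obtain ⟨𝒞, hAdm⟩ :=
    Fermat.Agent.MAZ.Flat.CoreOneSet78.exists_chartPkg_admissible_of_goodAtRank K'
      (algebraMap_OK_Qbar_injective A K') H' (rigHom (OK K' A) e₁) I
      (levelMap (OK K' A) j₁) (levelMap_mem_picZeroR (OK K' A) e₁ hmem)
      (levelMap_stable A hK j₁ hstab) A (liesOverBase_OKA K' A)
      (fun _ => (baseEquiv (OK K₁ A) A0 A1 A01 t s (OK K' A) (OK K' A)).symm
        ((L.map (ptClassR (A1 := A1) (A01 := A01) (t := t) (s := s) H₁.hts)).prod)) n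
      (Or.inr hcard') (by
        intro ξ' i hξ' hξ'i
        rw [Fermat.Agent.FFJ.Pic.LevelGood85.goodAtRank_twist_baseEquiv e₁ H₁, hL,
          ← baseEquiv_special hK A ξ']
        have hmodel : baseEquiv (OK K₁ A) A0 A1 A01 t s (OK K' A) A ξ' = ξ_ i := by
          refine Fermat.Agent.FFJ.Val.ValInjR1.valInj' e₁ H₁ hinjO A _ _ ?_ (hξ_ _) ?_
          · exact (baseEquiv_mem_picZeroR (OK K₁ A) A0 A1 A01 t s (OK K' A) A e₁ ξ').mpr hξ'
          · rw [baseEquiv_generic hK A ξ', hξ'i, baseEquiv_levelMap, hξj]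
        rw [hmodel]
        exact hgood i)
  exact ⟨𝒞, Fermat.Agent.FFJ.Val.ValInjR1.picZeroMul' (rigHom (OK K' A) e₁) H',
    Fermat.Agent.FFJ.Val.ValSurj67.valSurj' H' (rigHom (OK K' A) e₁) Qbar, hAdm⟩

/-- **KF4, `s`-coordinate form**: the same with the supply having infinitely many residues of the
coordinate `s` of the second chart. -/
theorem levelAdmissible_of_two_level_s (l : ℕ) (hl : l.Prime)
    (K₁ : IntermediateField ℚ Qbar) [FiniteDimensional ℚ K₁]
    (A : ValuationSubring Qbar) (hA : A.LiesOverPrime l) (hunr : UnramAtPlace A K₁)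
    (A0 A1 A01 : Type) [CommRing A0] [CommRing A1] [CommRing A01]
    [Algebra (OK K₁ A) A0] [Algebra (OK K₁ A) A1] [Algebra (OK K₁ A) A01] [Algebra A0 A01]
    [Algebra A1 A01] [IsScalarTower (OK K₁ A) A0 A01] [IsScalarTower (OK K₁ A) A1 A01]
    (t : A0) (s : A1) [IsLocalization.Away t A01] [IsLocalization.Away s A01]
    (H₁ : Fermat.Agent.FFJ.Pic.ChartDefR35.CurveHypR (OK K₁ A) A0 A1 A01 t s)
    (e₁ : A01 →ₐ[OK K₁ A] OK K₁ A)
    (I : Type) [Finite I] (j₁ : I → ClR (OK K₁ A) A0 A1 A01 t s Qbar)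
    (hmem : ∀ i, j₁ i ∈ PicZeroR e₁ Qbar)
    (hstab : ∀ (σ : Qbar ≃ₐ[K₁] Qbar) (i : I), ∃ i' : I,
      j₁ i' = galActR (OK K₁ A) K₁ σ (j₁ i))
    (hFib : FibStatement (OK K₁ A) A0 A1 A01 t s H₁.hts)
    (S : letI := algebraOKA K₁ A; Set (A01 →ₐ[OK K₁ A] A))
    (hSinf : letI := algebraOKA K₁ A
      ((fun P : A01 →ₐ[OK K₁ A] A => IsLocalRing.residue A (P (algebraMap A1 A01 s))) '' S).Infinite)
    (hSunr : letI := algebraOKA K₁ A
      ∀ P ∈ S, ∃ K' : IntermediateField ℚ Qbar, FiniteDimensional ℚ K' ∧ K₁ ≤ K' ∧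
        UnramAtPlace A K' ∧ ∀ a, ((P a : A) : Qbar) ∈ K') :
    LevelAdmissible K₁ A A0 A1 A01 t s e₁ j₁ := by
  letI := algebraOKA K₁ A
  refine levelAdmissible_of_two_level l hl K₁ A hA hunr A0 A1 A01 t s H₁ e₁ I j₁ hmem hstab hFib S
    ?_ hSunr
  have hinv : ∀ P : A01 →ₐ[OK K₁ A] A, IsLocalRing.residue A (P (algebraMap A0 A01 t)) =
      (IsLocalRing.residue A (P (algebraMap A1 A01 s)))⁻¹ := fun P => by
    refine eq_inv_of_mul_eq_one_left ?_
    rw [← map_mul, ← map_mul, H₁.hts, map_one, map_one]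
  have himg : (fun P : A01 →ₐ[OK K₁ A] A => IsLocalRing.residue A (P (algebraMap A0 A01 t))) '' S =
      (fun x : IsLocalRing.ResidueField A => x⁻¹) ''
        ((fun P : A01 →ₐ[OK K₁ A] A => IsLocalRing.residue A (P (algebraMap A1 A01 s))) '' S) := by
    rw [Set.image_image]
    exact Set.image_congr fun P _ => hinv P
  rw [himg]
  exact hSinf.image (inv_injective.injOn)

/-- **KF4, sequence form** (the exit shape of `Supply39.supply`). -/
theorem levelAdmissible_of_two_level_seq (l : ℕ) (hl : l.Prime)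
    (K₁ : IntermediateField ℚ Qbar) [FiniteDimensional ℚ K₁]
    (A : ValuationSubring Qbar) (hA : A.LiesOverPrime l) (hunr : UnramAtPlace A K₁)
    (A0 A1 A01 : Type) [CommRing A0] [CommRing A1] [CommRing A01]
    [Algebra (OK K₁ A) A0] [Algebra (OK K₁ A) A1] [Algebra (OK K₁ A) A01] [Algebra A0 A01]
    [Algebra A1 A01] [IsScalarTower (OK K₁ A) A0 A01] [IsScalarTower (OK K₁ A) A1 A01]
    (t : A0) (s : A1) [IsLocalization.Away t A01] [IsLocalization.Away s A01]
    (H₁ : Fermat.Agent.FFJ.Pic.ChartDefR35.CurveHypR (OK K₁ A) A0 A1 A01 t s)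
    (e₁ : A01 →ₐ[OK K₁ A] OK K₁ A)
    (I : Type) [Finite I] (j₁ : I → ClR (OK K₁ A) A0 A1 A01 t s Qbar)
    (hmem : ∀ i, j₁ i ∈ PicZeroR e₁ Qbar)
    (hstab : ∀ (σ : Qbar ≃ₐ[K₁] Qbar) (i : I), ∃ i' : I,
      j₁ i' = galActR (OK K₁ A) K₁ σ (j₁ i))
    (hFib : FibStatement (OK K₁ A) A0 A1 A01 t s H₁.hts)
    (P : ℕ → (A01 →ₐ[OK K₁ A] Qbar)) (hPA : ∀ i z, P i z ∈ A)
    (hPK : ∀ i, ∃ K' : IntermediateField ℚ Qbar, FiniteDimensional ℚ K' ∧ K₁ ≤ K' ∧
      UnramAtPlace A K' ∧ ∀ z, P i z ∈ K')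
    (hPs : ∀ i j, i ≠ j →
      P i (algebraMap A1 A01 s) - P j (algebraMap A1 A01 s) ∉ A.nonunits) :
    LevelAdmissible K₁ A A0 A1 A01 t s e₁ j₁ := by
  letI := algebraOKA K₁ A
  refine levelAdmissible_of_two_level_s l hl K₁ A hA hunr A0 A1 A01 t s H₁ e₁ I j₁ hmem hstab hFib
    (Set.range fun i => codRestrictA K₁ A (P i) (hPA i)) ?_ ?_
  · rw [← Set.range_comp]
    refine Set.infinite_range_of_injective ?_
    intro i j hij
    by_contra hne
    apply hPs i j hne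
    have h0 : IsLocalRing.residue A (codRestrictA K₁ A (P i) (hPA i) (algebraMap A1 A01 s) -
        codRestrictA K₁ A (P j) (hPA j) (algebraMap A1 A01 s)) = 0 := by
      rw [map_sub, sub_eq_zero]
      exact hij
    rw [IsLocalRing.residue_eq_zero_iff, ← ValuationSubring.coe_mem_nonunits_iff] at h0
    exact h0
  · rintro _ ⟨i, rfl⟩
    obtain ⟨K', hfd, hle, hu, hv⟩ := hPK i
    exact ⟨K', hfd, hle, hu, fun a => hv a⟩

/-- **KF4, sequence form, `AK` binders** (the form spoken by `CurveOut17.curveOut`,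
`TorsionBridge96.exists_bridge_torsion_subalgebra`, `FibR6.fibR` and `Supply39.supply`). -/
theorem levelAdmissible_of_two_level_seq_AK (l : ℕ) (hl : l.Prime)
    (K₁ : IntermediateField ℚ Qbar) [FiniteDimensional ℚ K₁]
    (A : ValuationSubring Qbar) (hA : A.LiesOverPrime l) (hunr : UnramAtPlace A K₁)
    (A0 A1 A01 : Type) [CommRing A0] [CommRing A1] [CommRing A01]
    [i0 : Algebra ↥(AK A K₁) A0] [i1 : Algebra ↥(AK A K₁) A1] [i01 : Algebra ↥(AK A K₁) A01]
    [j0 : Algebra A0 A01] [j1 : Algebra A1 A01] [h0 : IsScalarTower ↥(AK A K₁) A0 A01]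
    [h1 : IsScalarTower ↥(AK A K₁) A1 A01]
    (t : A0) (s : A1) [ht : IsLocalization.Away t A01] [hs : IsLocalization.Away s A01]
    (H₁ : Fermat.Agent.FFJ.Pic.ChartDefR35.CurveHypR ↥(AK A K₁) A0 A1 A01 t s)
    (e₁ : A01 →ₐ[↥(AK A K₁)] ↥(AK A K₁))
    (I : Type) [Finite I] (j₁ : I → ClR ↥(AK A K₁) A0 A1 A01 t s Qbar)
    (hmem : ∀ i, j₁ i ∈ PicZeroR e₁ Qbar)
    (hstab : ∀ (σ : Qbar ≃ₐ[K₁] Qbar) (i : I), ∃ i' : I,
      j₁ i' = galActR ↥(AK A K₁) K₁ σ (j₁ i))
    (hFib : FibStatement ↥(AK A K₁) A0 A1 A01 t s H₁.hts)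
    (P : ℕ → (A01 →ₐ[↥(AK A K₁)] Qbar)) (hPA : ∀ i z, P i z ∈ A)
    (hPK : ∀ i, ∃ K' : IntermediateField ℚ Qbar, FiniteDimensional ℚ K' ∧ K₁ ≤ K' ∧
      UnramAtPlace A K' ∧ ∀ z, P i z ∈ K')
    (hPs : ∀ i j, i ≠ j →
      P i (algebraMap A1 A01 s) - P j (algebraMap A1 A01 s) ∉ A.nonunits) :
    @LevelAdmissible K₁ A A0 A1 A01 _ _ _ i0 i1 i01 j0 j1 h0 h1 t s ht hs e₁ I j₁ :=
  @levelAdmissible_of_two_level_seq l hl K₁ _ A hA hunr A0 A1 A01 _ _ _ i0 i1 i01 j0 j1 h0 h1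
    t s ht hs H₁ e₁ I _ j₁ hmem hstab hFib P hPA hPK hPs

end Fermat.Agent.MAZ.Flat.TwoLevelSet78
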