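/-
Programme MAZ (S15), G-side, chapter K-FLAT, brick KF4 (the two-level seam), part 3.  Owner: helper78.

**THE EXIT OF KF4 IN THE HAND-WRITTEN LITERAL SHAPE** (the shape of report #2203 / #2355, which is the
hypothesis `hLA` of `MAZ/Flat/CarryBridge69.geoInputNN_carry_of_bridge` and the hypothesis `h` of
`MAZ/Flat/CarryGeo69.geoInputNN_of_levelData`): the tensor model `OK K' A ⊗[OK K₁ A] A_i` written by hand
at the concrete level, and the admissible set in the image form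
`(baseEquiv ..)⁻¹ '' Set.range j₁`.

`TwoLevelSet78.LevelAdmissible` is stated through the abstract `LevelData` (instance arguments of the
generic lemmas); the hand-written concrete types elaborate the `CommSemiring (OK K₁ A)` argument of the
tensor products along another path (`SubsemiringClass.toCommSemiring`).  The two shapes are
definitionally equal; this file pays the conversion ONCE.

* `LevelAdmissible.literal` : `LevelAdmissible K₁ A A0 A1 A01 t s e₁ j₁ →` the literal shape;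
* `literal_of_two_level`, `literal_of_two_level_s`, `literal_of_two_level_seq` : the three forms of the
  two-level step with the literal shape as conclusion.
-/
import Mathlib
import Fermat.Agent.MAZ.Flat.TwoLevelSet78

set_option autoImplicit false
set_option linter.style.haveILetI false
set_option linter.unusedSectionVars false
set_option maxHeartbeats 1600000

noncomputable section

namespace Fermat.Agent.MAZ.Flat.TwoLevelExit78

open scoped TensorProduct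
open scoped Fermat.Agent.JAC.Core.ConstFamily36
open Fermat.Agent.JAC.Core.Defs36 Fermat.Agent.JAC.Core.ConstFamily36 Fermat.Agent.JAC.Grp.Diag33
  Fermat.Agent.FFJ.Core.ClR35 Fermat.Agent.FFJ.Core.ClRBc35 Fermat.Agent.TW.FF.FunOrder68
  Fermat.Agent.FFJ.Spec.Spec35 Fermat.Agent.S19.Shell64 Fermat.Agent.FFJ.Alg.Spec78
  Fermat.Agent.FFJ.Alg.SpecLocal78 Fermat.Agent.FFJ.Alg.SpecNN78
  Fermat.Agent.TW.FF.FlatModel68 Fermat.Agent.FFJ.Order.GeoWire77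
  Fermat.Agent.FFJ.Order.GeoWireOne77 Fermat.Agent.FFJ.Order.Order77
  Fermat.Agent.FFJ.Pic.SpecD35 Fermat.Agent.FFJ.Pic.BaseEquiv85 Fermat.Agent.FFJ.Pic.LevelIota85
  Fermat.Agent.FFJ.Pic.LevelInst85 Fermat.Agent.MAZ.Flat.LevelSet78
  Fermat.Agent.MAZ.Flat.TwoLevelSet78

variable {K₁ : IntermediateField ℚ Qbar} {A : ValuationSubring Qbar}
  {A0 A1 A01 : Type} [CommRing A0] [CommRing A1] [CommRing A01]
  [Algebra (OK K₁ A) A0] [Algebra (OK K₁ A) A1] [Algebra (OK K₁ A) A01] [Algebra A0 A01]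
  [Algebra A1 A01] [IsScalarTower (OK K₁ A) A0 A01] [IsScalarTower (OK K₁ A) A1 A01]
  {t : A0} {s : A1} [IsLocalization.Away t A01] [IsLocalization.Away s A01]
  {e₁ : A01 →ₐ[OK K₁ A] OK K₁ A} {I : Type} {j₁ : I → ClR (OK K₁ A) A0 A1 A01 t s Qbar}

/-- **The exit of KF4 in the hand-written literal shape** (= the hypothesis `hLA` of
`CarryBridge69.geoInputNN_carry_of_bridge`, after its two premises). -/
theorem LevelAdmissible.literal (h : LevelAdmissible K₁ A A0 A1 A01 t s e₁ j₁) :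
    ∃ (K' : IntermediateField ℚ Qbar) (_ : FiniteDimensional ℚ K') (hK : K₁ ≤ K'),
      UnramAtPlace A K' ∧
      (letI := algebraOKOK hK A
       haveI := isScalarTower_OKOK_Qbar hK A
       ∃ 𝒞 : ChartPkg (OK K' A) (OK K' A ⊗[OK K₁ A] A0) (OK K' A ⊗[OK K₁ A] A1)
          (OK K' A ⊗[OK K₁ A] A01) ((1 : OK K' A) ⊗ₜ[OK K₁ A] t)
          ((1 : OK K' A) ⊗ₜ[OK K₁ A] s) (rigHom (OK K' A) e₁),
        PicZeroMul (OK K' A) (OK K' A ⊗[OK K₁ A] A0) (OK K' A ⊗[OK K₁ A] A1)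
          (OK K' A ⊗[OK K₁ A] A01) ((1 : OK K' A) ⊗ₜ[OK K₁ A] t)
          ((1 : OK K' A) ⊗ₜ[OK K₁ A] s) (rigHom (OK K' A) e₁) ∧
        ValSurj (OK K' A) (OK K' A ⊗[OK K₁ A] A0) (OK K' A ⊗[OK K₁ A] A1)
          (OK K' A ⊗[OK K₁ A] A01) ((1 : OK K' A) ⊗ₜ[OK K₁ A] t)
          ((1 : OK K' A) ⊗ₜ[OK K₁ A] s) (rigHom (OK K' A) e₁) Qbar ∧
        Admissible Qbar 𝒞
          ((fun x => (baseEquiv (OK K₁ A) A0 A1 A01 t s (OK K' A) Qbar).symm x) ''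
            Set.range j₁)) := by
  obtain ⟨K', hfd, hK, hu, h'⟩ := h
  refine ⟨K', hfd, hK, hu, ?_⟩
  letI := algebraOKOK hK A
  haveI := isScalarTower_OKOK_Qbar hK A
  exact LevelData.image h'

end Fermat.Agent.MAZ.Flat.TwoLevelExit78

namespace Fermat.Agent.MAZ.Flat.TwoLevelExit78

open scoped TensorProduct
open scoped Fermat.Agent.JAC.Core.ConstFamily36
open Fermat.Agent.JAC.Core.Defs36 Fermat.Agent.JAC.Core.ConstFamily36 Fermat.Agent.JAC.Grp.Diag33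
  Fermat.Agent.FFJ.Core.ClR35 Fermat.Agent.FFJ.Core.ClRBc35 Fermat.Agent.TW.FF.FunOrder68
  Fermat.Agent.FFJ.Spec.Spec35 Fermat.Agent.S19.Shell64 Fermat.Agent.FFJ.Alg.Spec78
  Fermat.Agent.FFJ.Alg.SpecLocal78 Fermat.Agent.FFJ.Alg.SpecNN78
  Fermat.Agent.TW.FF.FlatModel68 Fermat.Agent.FFJ.Order.GeoWire77
  Fermat.Agent.FFJ.Order.GeoWireOne77 Fermat.Agent.FFJ.Order.Order77
  Fermat.Agent.FFJ.Pic.SpecD35 Fermat.Agent.FFJ.Pic.BaseEquiv85 Fermat.Agent.FFJ.Pic.LevelIota85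
  Fermat.Agent.FFJ.Pic.LevelInst85 Fermat.Agent.MAZ.Flat.LevelSet78
  Fermat.Agent.MAZ.Flat.TwoLevelSet78

/-- **KF4 with the literal exit**, supply = a set of `A`-valued points, `t`-coordinate. -/
theorem literal_of_two_level (l : ℕ) (hl : l.Prime)
    (K₁ : IntermediateField ℚ Qbar) [FiniteDimensional ℚ K₁]
    (A : ValuationSubring Qbar) (hA : A.LiesOverPrime l) (hunr : UnramAtPlace A K₁)
    (A0 A1 A01 : Type) [CommRing A0] [CommRing A1] [CommRing A01]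
    [Algebra (OK K₁ A) A0] [Algebra (OK K₁ A) A1] [Algebra (OK K₁ A) A01] [Algebra A0 A01]
    [Algebra A1 A01] [IsScalarTower (OK K₁ A) A0 A01] [IsScalarTower (OK K₁ A) A1 A01]
    (t : A0) (s : A1) [IsLocalization.Away t A01] [IsLocalization.Away s A01]
    (H₁ : Fermat.Agent.FFJ.Pic.ChartDefR35.CurveHypR (OK K₁ A) A0 A1 A01 t s)
    (e₁ : A01 →ₐ[OK K₁ A] OK K₁ A)
    (I : Type) [Finite I] (j₁ : I → ClR (OK K₁ A) A0 A1 A01 t s Qbar)
    (hmem : ∀ i, j₁ i ∈ PicZeroR e₁ Qbar)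
    (hstab : ∀ (σ : Qbar ≃ₐ[K₁] Qbar) (i : I), ∃ i' : I,
      j₁ i' = galActR (OK K₁ A) K₁ σ (j₁ i))
    (hFib : FibStatement (OK K₁ A) A0 A1 A01 t s H₁.hts)
    (S : letI := algebraOKA K₁ A; Set (A01 →ₐ[OK K₁ A] A))
    (hSinf : letI := algebraOKA K₁ A
      ((fun P : A01 →ₐ[OK K₁ A] A => IsLocalRing.residue A (P (algebraMap A0 A01 t))) '' S).Infinite)
    (hSunr : letI := algebraOKA K₁ A
      ∀ P ∈ S, ∃ K' : IntermediateField ℚ Qbar, FiniteDimensional ℚ K' ∧ K₁ ≤ K' ∧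
        UnramAtPlace A K' ∧ ∀ a, ((P a : A) : Qbar) ∈ K') :
    ∃ (K' : IntermediateField ℚ Qbar) (_ : FiniteDimensional ℚ K') (hK : K₁ ≤ K'),
      UnramAtPlace A K' ∧
      (letI := algebraOKOK hK A
       haveI := isScalarTower_OKOK_Qbar hK A
       ∃ 𝒞 : ChartPkg (OK K' A) (OK K' A ⊗[OK K₁ A] A0) (OK K' A ⊗[OK K₁ A] A1)
          (OK K' A ⊗[OK K₁ A] A01) ((1 : OK K' A) ⊗ₜ[OK K₁ A] t)
          ((1 : OK K' A) ⊗ₜ[OK K₁ A] s) (rigHom (OK K' A) e₁),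
        PicZeroMul (OK K' A) (OK K' A ⊗[OK K₁ A] A0) (OK K' A ⊗[OK K₁ A] A1)
          (OK K' A ⊗[OK K₁ A] A01) ((1 : OK K' A) ⊗ₜ[OK K₁ A] t)
          ((1 : OK K' A) ⊗ₜ[OK K₁ A] s) (rigHom (OK K' A) e₁) ∧
        ValSurj (OK K' A) (OK K' A ⊗[OK K₁ A] A0) (OK K' A ⊗[OK K₁ A] A1)
          (OK K' A ⊗[OK K₁ A] A01) ((1 : OK K' A) ⊗ₜ[OK K₁ A] t)
          ((1 : OK K' A) ⊗ₜ[OK K₁ A] s) (rigHom (OK K' A) e₁) Qbar ∧
        Admissible Qbar 𝒞
          ((fun x => (baseEquiv (OK K₁ A) A0 A1 A01 t s (OK K' A) Qbar).symm x) ''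
            Set.range j₁)) :=
  LevelAdmissible.literal (levelAdmissible_of_two_level l hl K₁ A hA hunr A0 A1 A01 t s H₁ e₁ I j₁
    hmem hstab hFib S hSinf hSunr)

/-- **KF4 with the literal exit**, supply = a set of `A`-valued points, `s`-coordinate (the literal
`hLA` of `CarryBridge69.geoInputNN_carry_of_bridge` is `fun hmem hstab => literal_of_two_level_s ..`). -/
theorem literal_of_two_level_s (l : ℕ) (hl : l.Prime)
    (K₁ : IntermediateField ℚ Qbar) [FiniteDimensional ℚ K₁]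
    (A : ValuationSubring Qbar) (hA : A.LiesOverPrime l) (hunr : UnramAtPlace A K₁)
    (A0 A1 A01 : Type) [CommRing A0] [CommRing A1] [CommRing A01]
    [Algebra (OK K₁ A) A0] [Algebra (OK K₁ A) A1] [Algebra (OK K₁ A) A01] [Algebra A0 A01]
    [Algebra A1 A01] [IsScalarTower (OK K₁ A) A0 A01] [IsScalarTower (OK K₁ A) A1 A01]
    (t : A0) (s : A1) [IsLocalization.Away t A01] [IsLocalization.Away s A01]
    (H₁ : Fermat.Agent.FFJ.Pic.ChartDefR35.CurveHypR (OK K₁ A) A0 A1 A01 t s)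
    (e₁ : A01 →ₐ[OK K₁ A] OK K₁ A)
    (I : Type) [Finite I] (j₁ : I → ClR (OK K₁ A) A0 A1 A01 t s Qbar)
    (hmem : ∀ i, j₁ i ∈ PicZeroR e₁ Qbar)
    (hstab : ∀ (σ : Qbar ≃ₐ[K₁] Qbar) (i : I), ∃ i' : I,
      j₁ i' = galActR (OK K₁ A) K₁ σ (j₁ i))
    (hFib : FibStatement (OK K₁ A) A0 A1 A01 t s H₁.hts)
    (S : letI := algebraOKA K₁ A; Set (A01 →ₐ[OK K₁ A] A))
    (hSinf : letI := algebraOKA K₁ A
      ((fun P : A01 →ₐ[OK K₁ A] A => IsLocalRing.residue A (P (algebraMap A1 A01 s))) '' S).Infinite)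
    (hSunr : letI := algebraOKA K₁ A
      ∀ P ∈ S, ∃ K' : IntermediateField ℚ Qbar, FiniteDimensional ℚ K' ∧ K₁ ≤ K' ∧
        UnramAtPlace A K' ∧ ∀ a, ((P a : A) : Qbar) ∈ K') :
    ∃ (K' : IntermediateField ℚ Qbar) (_ : FiniteDimensional ℚ K') (hK : K₁ ≤ K'),
      UnramAtPlace A K' ∧
      (letI := algebraOKOK hK A
       haveI := isScalarTower_OKOK_Qbar hK A
       ∃ 𝒞 : ChartPkg (OK K' A) (OK K' A ⊗[OK K₁ A] A0) (OK K' A ⊗[OK K₁ A] A1)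
          (OK K' A ⊗[OK K₁ A] A01) ((1 : OK K' A) ⊗ₜ[OK K₁ A] t)
          ((1 : OK K' A) ⊗ₜ[OK K₁ A] s) (rigHom (OK K' A) e₁),
        PicZeroMul (OK K' A) (OK K' A ⊗[OK K₁ A] A0) (OK K' A ⊗[OK K₁ A] A1)
          (OK K' A ⊗[OK K₁ A] A01) ((1 : OK K' A) ⊗ₜ[OK K₁ A] t)
          ((1 : OK K' A) ⊗ₜ[OK K₁ A] s) (rigHom (OK K' A) e₁) ∧
        ValSurj (OK K' A) (OK K' A ⊗[OK K₁ A] A0) (OK K' A ⊗[OK K₁ A] A1)
          (OK K' A ⊗[OK K₁ A] A01) ((1 : OK K' A) ⊗ₜ[OK K₁ A] t)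
          ((1 : OK K' A) ⊗ₜ[OK K₁ A] s) (rigHom (OK K' A) e₁) Qbar ∧
        Admissible Qbar 𝒞
          ((fun x => (baseEquiv (OK K₁ A) A0 A1 A01 t s (OK K' A) Qbar).symm x) ''
            Set.range j₁)) :=
  LevelAdmissible.literal (levelAdmissible_of_two_level_s l hl K₁ A hA hunr A0 A1 A01 t s H₁ e₁ I j₁
    hmem hstab hFib S hSinf hSunr)

/-- **KF4 with the literal exit**, supply = a sequence of `ℚ̄`-valued points (exit shape of
`Supply39.supply`). -/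
theorem literal_of_two_level_seq (l : ℕ) (hl : l.Prime)
    (K₁ : IntermediateField ℚ Qbar) [FiniteDimensional ℚ K₁]
    (A : ValuationSubring Qbar) (hA : A.LiesOverPrime l) (hunr : UnramAtPlace A K₁)
    (A0 A1 A01 : Type) [CommRing A0] [CommRing A1] [CommRing A01]
    [Algebra (OK K₁ A) A0] [Algebra (OK K₁ A) A1] [Algebra (OK K₁ A) A01] [Algebra A0 A01]
    [Algebra A1 A01] [IsScalarTower (OK K₁ A) A0 A01] [IsScalarTower (OK K₁ A) A1 A01]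
    (t : A0) (s : A1) [IsLocalization.Away t A01] [IsLocalization.Away s A01]
    (H₁ : Fermat.Agent.FFJ.Pic.ChartDefR35.CurveHypR (OK K₁ A) A0 A1 A01 t s)
    (e₁ : A01 →ₐ[OK K₁ A] OK K₁ A)
    (I : Type) [Finite I] (j₁ : I → ClR (OK K₁ A) A0 A1 A01 t s Qbar)
    (hmem : ∀ i, j₁ i ∈ PicZeroR e₁ Qbar)
    (hstab : ∀ (σ : Qbar ≃ₐ[K₁] Qbar) (i : I), ∃ i' : I,
      j₁ i' = galActR (OK K₁ A) K₁ σ (j₁ i))
    (hFib : FibStatement (OK K₁ A) A0 A1 A01 t s H₁.hts)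
    (P : ℕ → (A01 →ₐ[OK K₁ A] Qbar)) (hPA : ∀ i z, P i z ∈ A)
    (hPK : ∀ i, ∃ K' : IntermediateField ℚ Qbar, FiniteDimensional ℚ K' ∧ K₁ ≤ K' ∧
      UnramAtPlace A K' ∧ ∀ z, P i z ∈ K')
    (hPs : ∀ i j, i ≠ j →
      P i (algebraMap A1 A01 s) - P j (algebraMap A1 A01 s) ∉ A.nonunits) :
    ∃ (K' : IntermediateField ℚ Qbar) (_ : FiniteDimensional ℚ K') (hK : K₁ ≤ K'),
      UnramAtPlace A K' ∧
      (letI := algebraOKOK hK A
       haveI := isScalarTower_OKOK_Qbar hK A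
       ∃ 𝒞 : ChartPkg (OK K' A) (OK K' A ⊗[OK K₁ A] A0) (OK K' A ⊗[OK K₁ A] A1)
          (OK K' A ⊗[OK K₁ A] A01) ((1 : OK K' A) ⊗ₜ[OK K₁ A] t)
          ((1 : OK K' A) ⊗ₜ[OK K₁ A] s) (rigHom (OK K' A) e₁),
        PicZeroMul (OK K' A) (OK K' A ⊗[OK K₁ A] A0) (OK K' A ⊗[OK K₁ A] A1)
          (OK K' A ⊗[OK K₁ A] A01) ((1 : OK K' A) ⊗ₜ[OK K₁ A] t)
          ((1 : OK K' A) ⊗ₜ[OK K₁ A] s) (rigHom (OK K' A) e₁) ∧
        ValSurj (OK K' A) (OK K' A ⊗[OK K₁ A] A0) (OK K' A ⊗[OK K₁ A] A1)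
          (OK K' A ⊗[OK K₁ A] A01) ((1 : OK K' A) ⊗ₜ[OK K₁ A] t)
          ((1 : OK K' A) ⊗ₜ[OK K₁ A] s) (rigHom (OK K' A) e₁) Qbar ∧
        Admissible Qbar 𝒞
          ((fun x => (baseEquiv (OK K₁ A) A0 A1 A01 t s (OK K' A) Qbar).symm x) ''
            Set.range j₁)) :=
  LevelAdmissible.literal (levelAdmissible_of_two_level_seq l hl K₁ A hA hunr A0 A1 A01 t s H₁ e₁ I
    j₁ hmem hstab hFib P hPA hPK hPs)

end Fermat.Agent.MAZ.Flat.TwoLevelExit78
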