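/-
Programme MAZ, chapter K-FLAT (helper69), brick KF6-a: **CURVE + BRIDGE + FIB-R + SUPPLY ⇒ a function
order for a module with a carry** (the K-twin of `Geo72.geoInputNN_of_curve_supply`).

The bridge is taken on the WHOLE group `J₀(M)(ℚ̄)` (`BridgeSubalgebra96.exists_bridge_subalgebra` with
`T := JZero M`, `f := id`: no finiteness is needed there), the two-level seam is the one for the finite
Galois-stable family `Option E → {c₁} ∪ j₁(E)` (`TwoLevelExit78.literal_of_two_level_s`), and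
the assembly is `CarryBridge69.geoInputNN_carry_of_bridge`.
-/
import Mathlib
import Fermat.Agent.MAZ.Flat.CarryBridge69
import Fermat.Agent.MAZ.Flat.TwoLevelExit78
import Fermat.Agent.FFJ.Bridge.BridgeSubalgebra96
import Fermat.Agent.FFJ.Fib.FibR6

set_option autoImplicit false
set_option linter.style.haveILetI false
set_option linter.unusedSectionVars false
set_option maxHeartbeats 2000000

noncomputable section

namespace Fermat.Agent.MAZ.Flat.CarryCurve69

open scoped TensorProduct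
open ModularCurve
open Fermat.Agent.FFJ.Core.ClR35 Fermat.Agent.FFJ.Core.ClRBc35 Fermat.Agent.FFJ.Spec.Spec35
  Fermat.Agent.S19.Shell64 Fermat.Agent.FFJ.Alg.Spec78 Fermat.Agent.FFJ.Alg.SpecLocal78
  Fermat.Agent.FFJ.Alg.SpecNN78
  Fermat.Agent.TW.FF.FlatModel68 Fermat.Agent.FFJ.Order.GeoWire77
  Fermat.Agent.FFJ.Order.GeoWireOne77 Fermat.Agent.FFJ.Pic.LevelInst85
  Fermat.Agent.MAZ.Flat.CarryBridge69 Fermat.Agent.MAZ.Flat.CarryGeo69
open Fermat.Agent.RED.Interface4 (FK)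

attribute [local instance 2000] SubalgebraClass.toAlgebra

/-- **CURVE + BRIDGE + FIB-R + SUPPLY ⇒ `GeoInputNN` for a module with a carry** (supply stated in
the coordinate `s`; binders of the geometric data verbatim those of
`Geo72.geoInputNN_of_curve_supply`). -/
theorem geoInputNN_carry_of_curve_supply (l : ℕ) (hl : l.Prime) (Mlev : ℕ)
    (E : Type) [AddCommGroup E] [Finite E] [DistribMulAction GQ E]
    (C : Type) [AddCommGroup C] [Finite C] (π : E →+ C)
    (hπ : ∀ (σ : GQ) (m : E), π (σ • m) = π m)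
    (jJ : E → JZero Mlev) (hjinj : ∀ m m' : E, π m = π m' → jJ m = jJ m' → m = m')
    (hjact : ∀ (σ : GQ) (m : E), jJ (σ • m) = σ • jJ m)
    (z : JZero Mlev) (hz : ∀ σ : GQ, σ • z = z) (cr : C → C → ℕ)
    (hjadd : ∀ m m', jJ (m + m') + cr (π m) (π m') • z = jJ m + jJ m')
    (K₁ : IntermediateField ℚ Qbar) [FiniteDimensional ℚ K₁] (A : ValuationSubring Qbar)
    (hA : A.LiesOverPrime l) (hunr : UnramAtPlace A K₁)
    [Algebra (OK K₁ A) (FK Mlev K₁)] [IsScalarTower (OK K₁ A) K₁ (FK Mlev K₁)]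
    (B01 : Subalgebra (OK K₁ A) (FK Mlev K₁))
    {A0 A1 : Type} [CommRing A0] [CommRing A1]
    [Algebra (OK K₁ A) A0] [Algebra (OK K₁ A) A1] [Algebra A0 B01] [Algebra A1 B01]
    [IsScalarTower (OK K₁ A) A0 B01] [IsScalarTower (OK K₁ A) A1 B01] {t : A0} {s : A1}
    [IsLocalization.Away t B01] [IsLocalization.Away s B01]
    (H : Fermat.Agent.FFJ.Pic.ChartDefR35.CurveHypR (OK K₁ A) A0 A1 B01 t s)
    (e : B01 →ₐ[OK K₁ A] OK K₁ A)
    (hfr : ∀ x : FK Mlev K₁, ∃ a ∈ B01, ∃ b ∈ B01, b ≠ 0 ∧ x * b = a)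
    (S : letI := algebraOKA K₁ A; Set (B01 →ₐ[OK K₁ A] ↥A))
    (hSinf : letI := algebraOKA K₁ A
      ((fun P : B01 →ₐ[OK K₁ A] ↥A =>
        IsLocalRing.residue ↥A (P (algebraMap A1 B01 s))) '' S).Infinite)
    (hSunr : letI := algebraOKA K₁ A
      ∀ P ∈ S, ∃ K' : IntermediateField ℚ Qbar, FiniteDimensional ℚ K' ∧ K₁ ≤ K' ∧
        UnramAtPlace A K' ∧ ∀ a, ((P a : ↥A) : Qbar) ∈ K') :
    GeoInputNN l E := by
  obtain ⟨ι, hinj, hmem, hequiv⟩ :=
    Fermat.Agent.FFJ.Bridge.BridgeSubalgebra96.exists_bridge_subalgebra Mlev K₁ (OK K₁ A) B01 H e hfr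
      (AddMonoidHom.id (JZero Mlev)) Function.injective_id (fun _ _ => rfl)
  exact geoInputNN_carry_of_bridge l Mlev E C π hπ jJ hjinj hjact z hz cr hjadd K₁ A hA A0 A1 B01
    t s H e ι hinj hmem hequiv (fun h1 h2 =>
      Fermat.Agent.MAZ.Flat.TwoLevelExit78.literal_of_two_level_s l hl K₁ A hA hunr A0 A1 B01 t s H e
        (Option E) _ h1 h2 (Fermat.Agent.FFJ.Fib.FibR6.fibR H) S hSinf hSunr)

end Fermat.Agent.MAZ.Flat.CarryCurve69
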