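/-
Programme MAZ, chapter K-FLAT (helper69), brick KF3-a: **ORDER with a carry, from a Galois-fixed
class, and its change of level.**

`KOrder92.exists_isFunOrder_carry` wants classes `κ a b ∈ PicZeroR e O` over the BASE RING.  For the
Kummer extension `E_z` the twist is a power of ONE class `c` over `Ω` (the class of `-z`), which is
Galois-fixed; its descent `ζ` to the base ring is brick KF2 (helper92) and enters here as the
hypothesis `hζ`.

* `pow_mem_picZeroR`               : `PicZeroR` is closed under powers (`PicZeroMul` + `1 ∈ PicZeroR`);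
* `exists_isFunOrder_of_class`     : one level.  `j (m + m') = j m * j m' * c ^ cr (π m) (π m')` and
  `c = bcR ζ`, `ζ ∈ PicZeroR e O`, give a function order (`KOrder92` with `κ a b := ζ ^ cr a b`);
* `exists_isFunOrder_of_level`     : two levels, abstract (`k → k'`, fields `F`, `F'` below `Ω`): the
  data `(j₁, c₁)` live at the level `k`, the chart, `ValSurj`, `Admissible` and `ζ` at the level `k'`
  for the transported classes `(baseEquiv Ω)⁻¹ (j₁ m)`, `(baseEquiv Ω)⁻¹ c₁`.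
-/
import Mathlib
import Fermat.Agent.FFJ.Order.KOrder92
import Fermat.Agent.FFJ.Pic.LevelIota85

set_option autoImplicit false
set_option linter.style.haveILetI false
set_option linter.unusedSectionVars false

noncomputable section

namespace Fermat.Agent.MAZ.Flat.CarryLevel69

open scoped TensorProduct
open scoped Fermat.Agent.JAC.Core.ConstFamily36
open Fermat.Agent.JAC.Core.Defs36 Fermat.Agent.JAC.Core.ConstFamily36
  Fermat.Agent.JAC.Grp.Diag33 Fermat.Agent.FFJ.Core.ClR35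
  Fermat.Agent.FFJ.Core.ClRBc35 Fermat.Agent.TW.FF.FunOrder68 Fermat.Agent.FFJ.Spec.Spec35
  Fermat.Agent.S19.Shell64 Fermat.Agent.FFJ.Order.Order77 Fermat.Agent.FFJ.Order.KOrder92
  Fermat.Agent.FFJ.Pic.SpecD35 Fermat.Agent.FFJ.Pic.BaseEquiv85 Fermat.Agent.FFJ.Pic.LevelIota85

/-! ### One level -/

section OneLevel

variable (O : Type) [CommRing O] (A0 A1 A01 : Type) [CommRing A0] [CommRing A1] [CommRing A01]
  [Algebra O A0] [Algebra O A1] [Algebra O A01] [Algebra A0 A01] [Algebra A1 A01]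
  [IsScalarTower O A0 A01] [IsScalarTower O A1 A01] (t : A0) (s : A1)
  [IsLocalization.Away t A01] [IsLocalization.Away s A01] (e : A01 →ₐ[O] O)
  {F Ω : Type} [Field F] [Field Ω] [Algebra O F] [Algebra F Ω] [Algebra O Ω]
  [IsScalarTower O F Ω]

variable {O A0 A1 A01 t s e} in
/-- `Admissible` passes to subsets. -/
theorem admissible_subset {Ω' : Type} [Field Ω'] [Algebra O Ω'] {𝒞 : ChartPkg O A0 A1 A01 t s e}
    {T T' : Set (ClR O A0 A1 A01 t s Ω')} (hTT' : T ⊆ T') (h : Admissible Ω' 𝒞 T') :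
    Admissible Ω' 𝒞 T :=
  ⟨fun ξ hξ => h.1 ξ (hTT' hξ), fun V _ _ ξ hξ hξT => h.2 V ξ hξ (hTT' hξT)⟩

variable {O A0 A1 A01 t s e} in
/-- `PicZeroR e B` is closed under powers. -/
theorem pow_mem_picZeroR (hmul : PicZeroMul O A0 A1 A01 t s e) (B : Type) [CommRing B]
    [Algebra O B] (hone : (1 : ClR O A0 A1 A01 t s B) ∈ PicZeroR e B)
    {ζ : ClR O A0 A1 A01 t s B} (hζ : ζ ∈ PicZeroR e B) (n : ℕ) : ζ ^ n ∈ PicZeroR e B := by
  induction n with
  | zero => rw [pow_zero]; exact hone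
  | succ n ih => rw [pow_succ]; exact hmul B _ _ ih hζ

/-- **ORDER with a carry given by the powers of one class defined over the base ring.** -/
theorem exists_isFunOrder_of_class (hmul : PicZeroMul O A0 A1 A01 t s e)
    (hone : (1 : ClR O A0 A1 A01 t s O) ∈ PicZeroR e O)
    (𝒞 : ChartPkg O A0 A1 A01 t s e) (M : Type) [AddCommGroup M] [Finite M]
    [MulAction (Ω ≃ₐ[F] Ω) M] (C : Type) [AddCommGroup C] [Finite C] (π : M →+ C)
    (hπ : ∀ (σ : Ω ≃ₐ[F] Ω) (m : M), π (σ • m) = π m)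
    (j : M → ClR O A0 A1 A01 t s Ω) (c : ClR O A0 A1 A01 t s Ω)
    (hinj : ∀ m m' : M, π m = π m' → j m = j m' → m = m')
    (hmem : ∀ m, j m ∈ PicZeroR e Ω) (cr : C → C → ℕ)
    (hadd : ∀ m m', j (m + m') = j m * j m' * c ^ cr (π m) (π m'))
    (hequiv : ∀ (σ : Ω ≃ₐ[F] Ω) (m : M), j (σ • m) = galActR O F σ (j m))
    (hVS : ValSurj O A0 A1 A01 t s e Ω) (hAdm : Admissible Ω 𝒞 (Set.range j))
    (hζ : ∃ ζ : ClR O A0 A1 A01 t s O, ζ ∈ PicZeroR e O ∧ bcR (Algebra.ofId O Ω) ζ = c) :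
    ∃ H : Subalgebra O (M → Ω), IsFunOrder O F H := by
  obtain ⟨ζ, hζ0, hζc⟩ := hζ
  refine exists_isFunOrder_carry O A0 A1 A01 t s e hmul 𝒞 M C π hπ (fun a b => ζ ^ cr a b)
    (fun a b => pow_mem_picZeroR hmul O hone hζ0 _) j hinj hmem ?_ hequiv hVS hAdm
  intro m m'
  rw [hadd, map_pow, hζc]

end OneLevel

/-! ### Two levels, abstract form -/

section TwoLevel

variable (k : Type) [CommRing k] (A0 A1 A01 : Type) [CommRing A0] [CommRing A1] [CommRing A01]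
  [Algebra k A0] [Algebra k A1] [Algebra k A01] [Algebra A0 A01] [Algebra A1 A01]
  [IsScalarTower k A0 A01] [IsScalarTower k A1 A01] (t : A0) (s : A1)
  [IsLocalization.Away t A01] [IsLocalization.Away s A01] (e : A01 →ₐ[k] k)
  (k' : Type) [CommRing k'] [Algebra k k']
  (F F' : Type) {Ω : Type} [Field F] [Field F'] [Field Ω]
  [Algebra k F] [Algebra F Ω] [Algebra k Ω] [IsScalarTower k F Ω]
  [Algebra k' F'] [Algebra F' Ω] [Algebra k' Ω] [IsScalarTower k' F' Ω]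
  [IsScalarTower k k' Ω]

/-- **ORDER with a carry, after a change of level.**  The set map `j₁` and the Galois-fixed class
`c₁` are given at the level `k` (field `F`); the chart `𝒞`, `ValSurj`, `Admissible` and the descent
`ζ` of the class are given at the level `k'` (field `F' ⊇ F`) for the classes transported by
`BaseEquiv85.baseEquiv`.  `res` sends an automorphism over `F'` to the same automorphism over `F`. -/
theorem exists_isFunOrder_of_level
    (hmul : PicZeroMul k' (k' ⊗[k] A0) (k' ⊗[k] A1) (k' ⊗[k] A01) ((1 : k') ⊗ₜ[k] t)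
      ((1 : k') ⊗ₜ[k] s) (rigHom k' e))
    (hone : (1 : ClR' k A0 A1 A01 t s k' k') ∈ PicZeroR (rigHom k' e) k')
    (𝒞 : ChartPkg k' (k' ⊗[k] A0) (k' ⊗[k] A1) (k' ⊗[k] A01) ((1 : k') ⊗ₜ[k] t)
      ((1 : k') ⊗ₜ[k] s) (rigHom k' e))
    (M : Type) [AddCommGroup M] [Finite M] [MulAction (Ω ≃ₐ[F'] Ω) M]
    (C : Type) [AddCommGroup C] [Finite C] (π : M →+ C)
    (hπ : ∀ (σ : Ω ≃ₐ[F'] Ω) (m : M), π (σ • m) = π m)
    (j₁ : M → ClR k A0 A1 A01 t s Ω) (c₁ : ClR k A0 A1 A01 t s Ω)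
    (hinj : ∀ m m' : M, π m = π m' → j₁ m = j₁ m' → m = m')
    (hmem : ∀ m, j₁ m ∈ PicZeroR e Ω) (cr : C → C → ℕ)
    (hadd : ∀ m m', j₁ (m + m') = j₁ m * j₁ m' * c₁ ^ cr (π m) (π m'))
    (res : (Ω ≃ₐ[F'] Ω) → (Ω ≃ₐ[F] Ω)) (hres : ∀ σ x, res σ x = σ x)
    (hequiv : ∀ (σ : Ω ≃ₐ[F'] Ω) (m : M), j₁ (σ • m) = galActR k F (res σ) (j₁ m))
    (hVS : ValSurj k' (k' ⊗[k] A0) (k' ⊗[k] A1) (k' ⊗[k] A01) ((1 : k') ⊗ₜ[k] t)
      ((1 : k') ⊗ₜ[k] s) (rigHom k' e) Ω)
    (hAdm : Admissible Ω 𝒞 ((fun x => (baseEquiv k A0 A1 A01 t s k' Ω).symm x) '' Set.range j₁))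
    (hζ : ∃ ζ : ClR' k A0 A1 A01 t s k' k', ζ ∈ PicZeroR (rigHom k' e) k' ∧
      bcR (Algebra.ofId k' Ω) ζ = (baseEquiv k A0 A1 A01 t s k' Ω).symm c₁) :
    ∃ H : Subalgebra k' (M → Ω), IsFunOrder k' F' H := by
  refine exists_isFunOrder_of_class k' (k' ⊗[k] A0) (k' ⊗[k] A1) (k' ⊗[k] A01)
    ((1 : k') ⊗ₜ[k] t) ((1 : k') ⊗ₜ[k] s) (rigHom k' e) hmul hone 𝒞 M C π hπ
    (fun m => (baseEquiv k A0 A1 A01 t s k' Ω).symm (j₁ m))
    ((baseEquiv k A0 A1 A01 t s k' Ω).symm c₁) ?_ ?_ cr ?_ ?_ hVS ?_ hζ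
  · intro m m' hπm hj
    exact hinj m m' hπm ((baseEquiv k A0 A1 A01 t s k' Ω).symm.injective hj)
  · intro m
    rw [← baseEquiv_mem_picZeroR k A0 A1 A01 t s k' Ω e, MulEquiv.apply_symm_apply]
    exact hmem m
  · intro m m'
    rw [hadd, map_mul, map_mul, map_pow]
  · intro σ m
    rw [hequiv, galActR_baseEquiv_symm k A0 A1 A01 t s k' F F' σ (res σ)
      (fun x => (hres σ x).symm)]
  · have hsub : Set.range (fun m => (baseEquiv k A0 A1 A01 t s k' Ω).symm (j₁ m)) ⊆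
        (fun x => (baseEquiv k A0 A1 A01 t s k' Ω).symm x) '' Set.range j₁ := by
      rintro _ ⟨m, rfl⟩
      exact ⟨j₁ m, ⟨m, rfl⟩, rfl⟩
    exact admissible_subset hsub hAdm

end TwoLevel

end Fermat.Agent.MAZ.Flat.CarryLevel69
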