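/-
Programme MAZ, pole P3 (`r = 2`, marked orders; vocabulary of helper68), brick M6 part 4 (helper33):
**THE COUNT `#conn H · #conn H* ≤ #M` on Eisenstein modules.**

`CartierCount33.card_conn_mul_card_conn_dual_le_two` is stated for an abstract class of
`Gal(ℚ̄_2/ℚ_2)`-modules having stable subgroups of order `2`.  Here the class is instantiated: the local
restrictions (along `localGaloisToGlobal 2`) of the `(G_ℚ, T)`-modules with Eisenstein data in the sense
of `EisFiltration19.EisData` (helper19) at `r = 2`; the subgroup of order `2` is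
`EisFiltration19.exists_rank_one_sub`.

* `quotModule W hWT`, `quot_smulCommClass33`, `eisData_quot33` : the `(G, T)`-structure and the Eisenstein
  data on the `AddSubgroup`-quotient `M ⧸ W` (with helper68's `ClosureQuot68.quotAction`);
* `EisClass π χ τ δ M`, `eisClass_step`;
* **`card_conn_mul_card_conn_dual_le_of_eisData`**.
-/
import Mathlib
import Fermat.Agent.MAZ.Flat.CartierCount33
import Fermat.Agent.MAZ.Desc.EisFiltration19

set_option autoImplicit false
set_option linter.unusedSectionVars false
set_option linter.style.haveILetI false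

noncomputable section

namespace Fermat.Agent.MAZ.Flat.CartierEis33

open Fermat.Agent.S19.Shell64 Fermat.Agent.TW.FF.FunOrder68 Fermat.Agent.TW.FF.ClosureQuot68
open Fermat.Agent.MAZ.Flat.Cartier68 Fermat.Agent.MAZ.Flat.CartierCount33
open Fermat.Agent.TW.FF.FlatModel68 Fermat.Agent.TW.FF.Red68
open Fermat.Agent.MAZ.Desc.EisFiltration19

/-! ### 1. The `(G, T)`-structure on the quotient by a stable subgroup -/

section Quot

variable {G : Type} [Group G] {T : Type*} [CommRing T] {M : Type} [AddCommGroup M]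
  [DistribMulAction G M] [Module T M] [SMulCommClass G T M] (W : AddSubgroup M)
  (hWG : ∀ (g : G) (w : M), w ∈ W → g • w ∈ W) (hWT : ∀ (t : T), ∀ w ∈ W, t • w ∈ W)

/-- the action of `t : T` on `M ⧸ W`. -/
def quotTSmul (t : T) : M ⧸ W →+ M ⧸ W :=
  QuotientAddGroup.map W W (DistribSMul.toAddMonoidHom M t) (fun w hw => hWT t w hw)

@[simp] theorem quotTSmul_mk (t : T) (m : M) :
    quotTSmul W hWT t (QuotientAddGroup.mk m) = QuotientAddGroup.mk (t • m) := rfl

/-- the `T`-module structure on `M ⧸ W`. -/
@[reducible] def quotModule : Module T (M ⧸ W) :=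
  letI : SMul T (M ⧸ W) := ⟨fun t q => quotTSmul W hWT t q⟩
  Function.Surjective.module T (QuotientAddGroup.mk' W) (QuotientAddGroup.mk'_surjective W)
    (fun _ _ => rfl)

theorem quot_smulCommClass33 :
    @SMulCommClass G T (M ⧸ W) (quotAction W hWG).toSMul (quotModule W hWT).toSMul := by
  letI := quotAction W hWG
  letI := quotModule W hWT
  refine ⟨fun g t q => ?_⟩
  induction q using QuotientAddGroup.induction_on with
  | H m =>
    change (QuotientAddGroup.mk (g • t • m) : M ⧸ W) = QuotientAddGroup.mk (t • g • m)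
    rw [smul_comm]

variable {r : ℕ} [Fact r.Prime] {π : T →+* ZMod r} {χ : G →* ZMod r} {τ δ : G → T}

theorem eisData_quot33 (E : EisData π χ τ δ M) :
    @EisData r _ G _ T _ π χ τ δ (M ⧸ W) _ (quotAction W hWG) (quotModule W hWT) := by
  letI := quotAction W hWG
  letI := quotModule W hWT
  obtain ⟨m, hm⟩ := E.nil
  refine ⟨⟨m, fun t ht q => ?_⟩, E.tau, E.delta, fun g q => ?_⟩
  · induction q using QuotientAddGroup.induction_on with
    | H x =>
      change (QuotientAddGroup.mk (t • x) : M ⧸ W) = 0
      rw [hm t ht x, QuotientAddGroup.mk_zero]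
  · induction q using QuotientAddGroup.induction_on with
    | H x =>
      change (QuotientAddGroup.mk (g • g • x - τ g • g • x + δ g • x) : M ⧸ W) = 0
      rw [E.rel g x, QuotientAddGroup.mk_zero]

end Quot

/-! ### 2. The class of Eisenstein modules, locally at `2` -/

section Class

variable {T : Type*} [CommRing T] (π : T →+* ZMod 2) (χ : GQ →* ZMod 2) (τ δ : GQ → T)

/-- the local restrictions at `2` of the `(G_ℚ, T)`-modules with Eisenstein data. -/
def EisClass (M : Type) [AddCommGroup M] [DistribMulAction (GQp 2) M] : Prop :=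
  ∃ (_ : DistribMulAction GQ M) (_ : Module T M) (_ : SMulCommClass GQ T M),
    EisData π χ τ δ M ∧ ∀ (σ : GQp 2) (m : M), σ • m = localGaloisToGlobal 2 σ • m

variable {π χ τ δ}

theorem eisClass_step (M : Type) [AddCommGroup M] [DistribMulAction (GQp 2) M] [Finite M]
    (hM : EisClass π χ τ δ M) (hnt : Nontrivial M) :
    ∃ (W : AddSubgroup M) (hW : ∀ (σ : GQp 2) (w : M), w ∈ W → σ • w ∈ W),
      Nat.card W = 2 ∧ @EisClass T _ π χ τ δ (M ⧸ W) _ (quotAction W hW) := by
  obtain ⟨iG, iT, iC, E, hloc⟩ := hM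
  obtain ⟨W, -, hWst, hWcard, -, -⟩ := exists_rank_one_sub E
  have hWG : ∀ (g : GQ) (w : M), w ∈ W → g • w ∈ W := fun g w hw => hWst.1 g w hw
  have hW : ∀ (σ : GQp 2) (w : M), w ∈ W → σ • w ∈ W := fun σ w hw => by
    rw [hloc]
    exact hWG _ w hw
  refine ⟨W, hW, hWcard, ?_⟩
  refine ⟨quotAction W hWG, quotModule W hWst.2, quot_smulCommClass33 W hWG hWst.2,
    eisData_quot33 W hWG hWst.2 E, ?_⟩
  intro σ q
  induction q using QuotientAddGroup.induction_on with
  | H m =>
    change (QuotientAddGroup.mk (σ • m) : M ⧸ W) = QuotientAddGroup.mk (localGaloisToGlobal 2 σ • m)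
    rw [hloc]

end Class

/-! ### 3. The count -/

/-- **`#conn H · #conn H* ≤ #M`** for every function order over `ℤ_2` on (the local restriction at `2` of)
a finite `(G_ℚ, T)`-module with Eisenstein data at `r = 2`, and every group `D` of characters of `M`. -/
theorem card_conn_mul_card_conn_dual_le_of_eisData {T : Type*} [CommRing T] {π : T →+* ZMod 2}
    {χ : GQ →* ZMod 2} {τ δ : GQ → T} {M : Type} [AddCommGroup M] [DistribMulAction GQ M]
    [Module T M] [SMulCommClass GQ T M] [Fintype M] (E : EisData π χ τ δ M)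
    [DistribMulAction (GQp 2) M]
    (hloc : ∀ (σ : GQp 2) (m : M), σ • m = localGaloisToGlobal 2 σ • m)
    {D : Type} [AddCommGroup D] [DistribMulAction (GQp 2) D] [Finite D]
    {H : Subalgebra ℤ_[2] (M → PadicAlgCl 2)} (hH : IsFunOrder ℤ_[2] ℚ_[2] H)
    {e : D → M → PadicAlgCl 2} (he : IsCharPairing ℚ_[2] e) :
    Nat.card (conn hH) * Nat.card (conn (isFunOrder_dualAlg68 hfixp hH he)) ≤ Nat.card M :=
  card_conn_mul_card_conn_dual_le_two (fun M _ _ => EisClass π χ τ δ M)
    (fun M _ _ _ hM hnt => eisClass_step M hM hnt)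
    (⟨inferInstance, inferInstance, inferInstance, E, hloc⟩ : EisClass π χ τ δ M) hH he

end Fermat.Agent.MAZ.Flat.CartierEis33
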