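/-
Programme MAZ, chapter K-FLAT at the prime `2` (owner helper69; this brick: helper92).

**The one-level core of ADM for an extension with a carry cocycle, with the congruences of the points**
= `CoreCarry92.exists_isFunOrder_carry_of_goodAtRank` (same binders) whose conclusion also records
`KOrderCong92.CongSpecCarry e π j Hs`: two points `m, m'` of `M` are congruent modulo the maximal ideal
of a valuation subring `V` of `Ω` (for all functions of the order `Hs`) iff `π m = π m'` and the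
`V`-models of `j m`, `j m'` have the same special fibre.  Carry twin of
`CoreOneCong37.exists_isFunOrder_of_goodAtRank_cong`.
-/
import Mathlib
import Fermat.Agent.FFJ.Pic.CoreOne37
import Fermat.Agent.FFJ.Order.KOrderCong92

set_option autoImplicit false
set_option maxHeartbeats 400000
set_option linter.unusedSectionVars false

noncomputable section

namespace Fermat.Agent.MAZ.Flat.CoreCarryCong92

open scoped TensorProduct
open Fermat.Agent.JAC.Core.Defs36 Fermat.Agent.FFJ.Core.ClR35 Fermat.Agent.FFJ.Core.ClRBc35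
  Fermat.Agent.FFJ.Pic.ChartDefR35 Fermat.Agent.FFJ.Pic.SpecD35 Fermat.Agent.FFJ.Order.ValConj77
  Fermat.Agent.FFJ.Pic.LocalChartR35 Fermat.Agent.FFJ.Pic
open Fermat.Agent.FFJ.Spec.Spec35 (galActR Admissible)

variable {O : Type} [CommRing O] [IsDomain O] [IsDiscreteValuationRing O]
  {A0 A1 A01 : Type} [CommRing A0] [CommRing A1] [CommRing A01]
  [Algebra O A0] [Algebra O A1] [Algebra O A01] [Algebra A0 A01] [Algebra A1 A01]
  [IsScalarTower O A0 A01] [IsScalarTower O A1 A01] {t : A0} {s : A1}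
  [IsLocalization.Away t A01] [IsLocalization.Away s A01]
  (F : Type) {Ω : Type} [Field F] [Field Ω] [Algebra O F] [Algebra F Ω] [Algebra O Ω]
  [IsScalarTower O F Ω] [IsFractionRing O F] [IsGalois F Ω]

/-- **(CORE-ONE), carry form, with the congruences of the points**. -/
theorem exists_isFunOrder_carry_of_goodAtRank_cong [IsAlgClosed Ω] [Algebra.IsAlgebraic O Ω]
    (hO : Function.Injective (algebraMap O Ω))
    (H : CurveHypR O A0 A1 A01 t s) (e : A01 →ₐ[O] O)
    (M : Type) [AddCommGroup M] [Finite M] [MulAction (Ω ≃ₐ[F] Ω) M]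
    (C : Type) [AddCommGroup C] [Finite C] (π : M →+ C)
    (hπ : ∀ (σ : Ω ≃ₐ[F] Ω) (m : M), π (σ • m) = π m)
    (κ : C → C → ClR O A0 A1 A01 t s O) (hκ : ∀ a b, κ a b ∈ PicZeroR e O)
    (j : M → ClR O A0 A1 A01 t s Ω)
    (hinj : ∀ m m' : M, π m = π m' → j m = j m' → m = m')
    (hmem : ∀ m, j m ∈ PicZeroR e Ω)
    (hadd : ∀ m m', j (m + m') = j m * j m' * bcR (Algebra.ofId O Ω) (κ (π m) (π m')))
    (hequiv : ∀ (σ : Ω ≃ₐ[F] Ω) (m : M), j (σ • m) = galActR O F σ (j m))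
    (V₀ : ValuationSubring Ω) [Algebra O V₀] [IsScalarTower O V₀ Ω] (hV₀ : LiesOverBase O F V₀)
    (lam : PUnit.{1} → ClR O A0 A1 A01 t s O) (n : ℕ)
    (hcard : Infinite (IsLocalRing.ResidueField O) ∨
      Nat.card M < Nat.card (IsLocalRing.ResidueField O))
    (hgood : ∀ (ξ : ClR O A0 A1 A01 t s V₀) (m : M), ξ ∈ PicZeroR e V₀ →
      bcR (IsScalarTower.toAlgHom O V₀ Ω) ξ = j m →
      GoodAtRank (IsLocalRing.ResidueField V₀)
        (bcR (Fermat.Agent.FFJ.Order.AdmOne77.resV V₀) ξ *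
          twist lam (IsLocalRing.ResidueField V₀) PUnit.unit) n) :
    ∃ Hs : Subalgebra O (M → Ω), Fermat.Agent.TW.FF.FunOrder68.IsFunOrder O F Hs ∧
      Fermat.Agent.FFJ.Order.KOrderCong92.CongSpecCarry e π j Hs := by
  have hVS := Fermat.Agent.FFJ.Val.ValSurj67.valSurj' H e Ω
  have hVI := Fermat.Agent.FFJ.Val.ValInjR1.valInj' e H hO
  have hmod : ∀ m : M, ∃ ξ : ClR O A0 A1 A01 t s V₀, ξ ∈ PicZeroR e V₀ ∧
      bcR (IsScalarTower.toAlgHom O V₀ Ω) ξ = j m :=
    fun m => hVS V₀ _ (hmem _)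
  choose ξ_ hξ_ hξι using hmod
  -- the chart
  obtain ⟨β, φ, hc, hW⟩ := ChartFinClosed4.chartFin_of_curveHypR H e lam PUnit.unit n
    (IsLocalRing.ResidueField V₀) (AdmCore37.algebraMap_residueField_eq_zero F V₀ hV₀) M
    (fun m => bcR (IsScalarTower.toAlgHom O V₀ (IsLocalRing.ResidueField V₀)) (ξ_ m)) hcard
    (fun m => isDegZeroR_bcR _ _ (hξ_ m).2)
    (fun m => hgood (ξ_ m) m (hξ_ m) (hξι m))
  let 𝔏 : LocalChartR (A0 := A0) (A1 := A1) (t := t) (s := s) e :=
    PicDry37.localChartR_of_curveHypR H e lam β PUnit.unit φ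
      (ChartSpreadR50.spreadR H lam β PUnit.unit φ) hc
  have hWs : ∀ m : M, 𝔏.W (IsLocalRing.ResidueField V₀)
      (bcR (IsScalarTower.toAlgHom O V₀ (IsLocalRing.ResidueField V₀)) (ξ_ m)) := fun m => hW m
  have hAdm : Admissible Ω (ChartPkgOfLocal35.toChartPkg 𝔏 (PicDry37.g4R H e)) (Set.range j) := by
    refine Fermat.Agent.FFJ.Order.AdmOne77.admissible_of_one F
      (ChartPkgOfLocal35.toChartPkg 𝔏 (PicDry37.g4R H e)) (Set.range j) ?_ ?_ V₀ hV₀ ?_
    · rintro σ _ ⟨m, rfl⟩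
      exact ⟨σ • m, hequiv σ m⟩
    · rintro _ ⟨m, rfl⟩
      have := AdmOfSpecial37.W_generic_of_W_special 𝔏 V₀ (ξ_ m) (hξ_ m) (hWs m)
      rw [hξι] at this
      exact this
    · rintro ξ hξ ⟨m, hm⟩
      have : ξ = ξ_ m := hVI V₀ ξ (ξ_ m) hξ (hξ_ _) (by rw [← hm, hξι])
      rw [this]
      exact hWs m
  exact Fermat.Agent.FFJ.Order.KOrderCong92.exists_isFunOrder_carry_cong O A0 A1 A01 t s e
    (Fermat.Agent.FFJ.Val.ValInjR1.picZeroMul' e H)
    (ChartPkgOfLocal35.toChartPkg 𝔏 (PicDry37.g4R H e)) M C π hπ κ hκ j hinj hmem hadd hequiv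
    hVS hAdm

end Fermat.Agent.MAZ.Flat.CoreCarryCong92
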