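/-
Programme MAZ (S15), G-side, chapter K-FLAT (helper69), brick KF5-a: **the target side**.

Everything of K-FLAT which lives in the `JZero p` / `GSpec26` vocabulary and needs no geometry:

* `IsCocycle r k y` for `y : G_ℚ → J₀(p)[r^k]`, and the `DistribMulAction` of `G_ℚ` on the extension module
  `E_y = J₀(p)[r^k] × ℤ/r^k` given by `GSpec26.extAct` (`extDistribMulAction`);
* `flatAtR_of_geoInputNN` : a function order for `E_y` at one place of one number field unramified at
  that place (`FFJ/Alg/SpecNN78.GeoInputNN r E_y`, what chapters GEO + ORDER deliver) gives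
  `GSpec26.FlatAtR r k x` (through `MainNN78.algStatementNN`, which is generic in the finite module);
* the Kummer cocycle `kum y₀ : σ ↦ σ y₀ - y₀` of a point `y₀` with `r^k y₀ = z`, `z` Galois-fixed, and the
  SET MAP `jmap y₀ : E_y → JZero p`, `(m, a) ↦ m + a.val • y₀`, with its properties:
  equivariance (`jmap_smul`), the extension law with carry (`jmap_add`), injectivity (`jmap_injective`
  needs `z` of infinite order; `jmap_inj_fibre` is unconditional) and `r^k • jmap e = e.2.val • z`.
  These are exactly the hypotheses of `FFJ/Order/KOrder92.exists_isFunOrder_carry` /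
  `MAZ/Flat/OrderExt69.exists_isFunOrder_ext` after transport by the BRIDGE.
-/
import Mathlib
import Fermat.Agent.MAZ.Spec.GSpec26
import Fermat.Agent.FFJ.Alg.MainNN78

set_option autoImplicit false
set_option linter.unusedSectionVars false
set_option linter.style.haveILetI false

open AlgebraicCurve ModularCurve

noncomputable section

namespace Fermat.Agent.MAZ.Flat.KummerSet69

open Fermat.Agent.X0 Fermat.Agent.MAZ.Spec.XSpec62 Fermat.Agent.MAZ.Spec.GSpec26

variable {p : ℕ} [NeZero p] (r k : ℕ)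

/-! ### The Galois action on `J₀(p)[r^k]` -/

/-- the Galois action commutes with multiplication by a natural number. -/
theorem gal_nsmul (σ : GQ) (n : ℕ) (x : JZero p) : σ • (n • x) = n • (σ • x) :=
  map_nsmul (DistribSMul.toAddMonoidHom (JZero p) σ) n x

theorem coe_galMk (σ : GQ) (m : ↥(Mk p r k)) :
    ((galMk r k σ m : ↥(Mk p r k)) : JZero p) = σ • (m : JZero p) :=
  rfl

theorem galMk_one (m : ↥(Mk p r k)) : galMk r k 1 m = m :=
  Subtype.ext (one_smul GQ (m : JZero p))

theorem galMk_mul (σ τ : GQ) (m : ↥(Mk p r k)) : galMk r k (σ * τ) m = galMk r k σ (galMk r k τ m) :=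
  Subtype.ext (mul_smul σ τ (m : JZero p))

theorem galMk_add (σ : GQ) (m m' : ↥(Mk p r k)) :
    galMk r k σ (m + m') = galMk r k σ m + galMk r k σ m' :=
  Subtype.ext (smul_add σ (m : JZero p) (m' : JZero p))

theorem galMk_zero (σ : GQ) : galMk r k σ (0 : ↥(Mk p r k)) = 0 :=
  Subtype.ext (smul_zero (A := JZero p) σ)

theorem galMk_nsmul (σ : GQ) (n : ℕ) (m : ↥(Mk p r k)) :
    galMk r k σ (n • m) = n • galMk r k σ m :=
  Subtype.ext (gal_nsmul σ n (m : JZero p))

/-- elements of `J₀(p)[r^k]` are killed by `r^k`. -/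
theorem pow_nsmul_eq_zero (m : ↥(Mk p r k)) : (r ^ k) • m = 0 := by
  apply Subtype.ext
  have h := (Submodule.mem_torsionBy_iff _ _).mp m.2
  rw [Submodule.coe_smul_of_tower, Submodule.coe_zero]
  rw [← natCast_zsmul]
  push_cast
  exact h

/-- `n • m` only depends on `n` modulo `r^k`. -/
theorem mod_nsmul (n : ℕ) (m : ↥(Mk p r k)) : (n % r ^ k) • m = n • m := by
  have h : n • m = (n % r ^ k) • m + (n / r ^ k) • ((r ^ k) • m) := by
    rw [← mul_nsmul', ← add_nsmul, Nat.mod_add_div']
  rw [h, pow_nsmul_eq_zero, nsmul_zero, add_zero]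

/-! ### The extension module of a cocycle -/

/-- the cocycle condition for a cochain with values in `J₀(p)[r^k]`. -/
def IsCocycle (y : GQ → ↥(Mk p r k)) : Prop :=
  ∀ σ τ : GQ, y (σ * τ) = y σ + galMk r k σ (y τ)

variable {r k}

theorem IsCocycle.map_one {y : GQ → ↥(Mk p r k)} (hy : IsCocycle r k y) : y 1 = 0 := by
  have h := hy 1 1
  rw [mul_one, galMk_one] at h
  exact left_eq_add.mp h

variable (r k)

/-- the extension module `E_y = J₀(p)[r^k] × ℤ/r^k` of `GSpec26.extAct`. -/
abbrev Ext (p : ℕ) [NeZero p] (r k : ℕ) : Type := ↥(Mk p r k) × ZMod (r ^ k)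

theorem extAct_fst (y : GQ → ↥(Mk p r k)) (σ : GQ) (e : Ext p r k) :
    (extAct r k y σ e).1 = galMk r k σ e.1 + e.2.val • y σ := rfl

theorem extAct_snd (y : GQ → ↥(Mk p r k)) (σ : GQ) (e : Ext p r k) : (extAct r k y σ e).2 = e.2 := rfl

/-- `(a + b).val • m = a.val • m + b.val • m` on `J₀(p)[r^k]`. -/
theorem val_add_nsmul [NeZero (r ^ k)] (a b : ZMod (r ^ k)) (m : ↥(Mk p r k)) :
    (a + b).val • m = a.val • m + b.val • m := by
  rw [ZMod.val_add, mod_nsmul, add_nsmul]

theorem extAct_one {y : GQ → ↥(Mk p r k)} (hy : IsCocycle r k y) (e : Ext p r k) :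
    extAct r k y 1 e = e := by
  refine Prod.ext ?_ rfl
  rw [extAct_fst, galMk_one, hy.map_one, nsmul_zero, add_zero]

theorem extAct_mul {y : GQ → ↥(Mk p r k)} (hy : IsCocycle r k y) (σ τ : GQ) (e : Ext p r k) :
    extAct r k y (σ * τ) e = extAct r k y σ (extAct r k y τ e) := by
  refine Prod.ext ?_ rfl
  rw [extAct_fst, extAct_fst, extAct_fst, extAct_snd, galMk_mul, hy σ τ, galMk_add, galMk_nsmul,
    nsmul_add]
  abel

theorem extAct_zero (y : GQ → ↥(Mk p r k)) (σ : GQ) : extAct r k y σ (0 : Ext p r k) = 0 := by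
  refine Prod.ext ?_ rfl
  rw [extAct_fst]
  change galMk r k σ 0 + (0 : ZMod (r ^ k)).val • y σ = 0
  rw [galMk_zero, ZMod.val_zero, zero_nsmul, add_zero]

theorem extAct_add [NeZero (r ^ k)] (y : GQ → ↥(Mk p r k)) (σ : GQ) (e e' : Ext p r k) :
    extAct r k y σ (e + e') = extAct r k y σ e + extAct r k y σ e' := by
  refine Prod.ext ?_ rfl
  change galMk r k σ (e.1 + e'.1) + (e.2 + e'.2).val • y σ =
    (galMk r k σ e.1 + e.2.val • y σ) + (galMk r k σ e'.1 + e'.2.val • y σ)
  rw [galMk_add, val_add_nsmul]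
  abel

/-- the action of `G_ℚ` on the extension module of a cocycle (a def, not an instance). -/
@[reducible] def extDistribMulAction [NeZero (r ^ k)] (y : GQ → ↥(Mk p r k)) (hy : IsCocycle r k y) :
    DistribMulAction GQ (Ext p r k) where
  smul σ e := extAct r k y σ e
  one_smul e := extAct_one r k hy e
  mul_smul σ τ e := extAct_mul r k hy σ τ e
  smul_zero σ := extAct_zero r k y σ
  smul_add σ e e' := extAct_add r k y σ e e'

/-- `GSpec26.IsModel` is `FlatModel68.FlatModel`. -/
theorem isModel_iff_flatModel (M : Type) [AddCommGroup M] (act : GQ → M → M) :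
    IsModel r M act ↔ Fermat.Agent.TW.FF.FlatModel68.FlatModel r M act := Iff.rfl

/-- **K-FLAT, the target**: a function order for the extension module of the cocycle `y` at one place
of one number field unramified at that place gives `GSpec26.FlatAtR`. -/
theorem flatAtR_of_geoInputNN [Fact r.Prime] [NeZero (r ^ k)] (x : GQ → JZero p)
    (y : GQ → ↥(Mk p r k)) (hxy : ∀ σ, (y σ : JZero p) = x σ) (hy : IsCocycle r k y)
    (h : letI := extDistribMulAction r k y hy
      Fermat.Agent.FFJ.Alg.SpecNN78.GeoInputNN r (Ext p r k)) :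
    FlatAtR r k x := by
  letI := extDistribMulAction r k y hy
  exact ⟨y, hxy, Fermat.Agent.FFJ.Alg.MainNN78.algStatementNN r (Ext p r k) h⟩

/-! ### The Kummer cocycle and the set map `E_y → JZero p` -/

section Kummer

variable {r k} (y₀ z : JZero p) (hyz : (r ^ k) • y₀ = z) (hz : ∀ σ : GQ, σ • z = z)

include hyz hz in
theorem kum_mem (σ : GQ) : σ • y₀ - y₀ ∈ Mk p r k := by
  rw [Submodule.mem_torsionBy_iff, ← Nat.cast_pow, natCast_zsmul, nsmul_sub, ← gal_nsmul, hyz, hz,
    sub_self]

/-- the Kummer cocycle `σ ↦ σ y₀ - y₀` with values in `J₀(p)[r^k]`. -/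
def kum (σ : GQ) : ↥(Mk p r k) := ⟨σ • y₀ - y₀, kum_mem y₀ z hyz hz σ⟩

theorem coe_kum (σ : GQ) : ((kum y₀ z hyz hz σ : ↥(Mk p r k)) : JZero p) = σ • y₀ - y₀ := rfl

theorem isCocycle_kum : IsCocycle r k (kum y₀ z hyz hz) := by
  intro σ τ
  apply Subtype.ext
  rw [Submodule.coe_add, coe_kum, coe_kum, coe_galMk, coe_kum, mul_smul, smul_sub]
  abel

variable (r k) in
/-- the set map `E_y → JZero p`, `(m, a) ↦ m + a.val • y₀`. -/
def jmap (e : Ext p r k) : JZero p := (e.1 : JZero p) + e.2.val • y₀

theorem jmap_smul [NeZero (r ^ k)] (σ : GQ) (e : Ext p r k) :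
    jmap r k y₀ (extAct r k (kum y₀ z hyz hz) σ e) = σ • jmap r k y₀ e := by
  unfold jmap
  rw [extAct_fst, extAct_snd, Submodule.coe_add, coe_galMk, Submodule.coe_smul_of_tower, coe_kum,
    smul_add, gal_nsmul σ e.2.val y₀, nsmul_sub]
  abel

/-- the carry of the addition of `ℤ/r^k` in terms of representatives. -/
def carry (a b : ZMod (r ^ k)) : ℕ := (a.val + b.val) / r ^ k

theorem val_add_carry [NeZero (r ^ k)] (a b : ZMod (r ^ k)) :
    (a + b).val + carry a b * r ^ k = a.val + b.val := by
  rw [ZMod.val_add, carry, mul_comm]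
  exact Nat.mod_add_div _ _

include hyz in
/-- **the extension law**: `j (e + e') + carry • z = j e + j e'`. -/
theorem jmap_add [NeZero (r ^ k)] (e e' : Ext p r k) :
    jmap r k y₀ (e + e') + carry e.2 e'.2 • z = jmap r k y₀ e + jmap r k y₀ e' := by
  unfold jmap
  have h1 : ((e + e').1 : JZero p) = (e.1 : JZero p) + (e'.1 : JZero p) := rfl
  have h2 : (e + e').2 = e.2 + e'.2 := rfl
  have h3 : (e.2 + e'.2).val • y₀ + carry e.2 e'.2 • z = e.2.val • y₀ + e'.2.val • y₀ := by
    rw [← hyz, ← mul_nsmul', ← add_nsmul, ← add_nsmul, val_add_carry]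
  rw [h1, h2]
  calc (e.1 : JZero p) + (e'.1 : JZero p) + (e.2 + e'.2).val • y₀ + carry e.2 e'.2 • z
      = (e.1 : JZero p) + (e'.1 : JZero p) + ((e.2 + e'.2).val • y₀ + carry e.2 e'.2 • z) := by abel
    _ = _ := by rw [h3]; abel

include hyz in
theorem pow_nsmul_jmap (e : Ext p r k) : (r ^ k) • jmap r k y₀ e = e.2.val • z := by
  unfold jmap
  have h := congrArg (Subtype.val) (pow_nsmul_eq_zero r k e.1)
  rw [Submodule.coe_smul_of_tower, Submodule.coe_zero] at h
  rw [nsmul_add, h, zero_add, ← mul_nsmul, mul_comm, mul_nsmul, hyz]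

/-- `jmap` is injective on the fibres of the projection to `ℤ/r^k`. -/
theorem jmap_inj_fibre (e e' : Ext p r k) (h2 : e.2 = e'.2) (h : jmap r k y₀ e = jmap r k y₀ e') :
    e = e' := by
  unfold jmap at h
  rw [h2] at h
  exact Prod.ext (Subtype.ext (add_right_cancel h)) h2

include hyz in
/-- `jmap` is injective if `z` has infinite order. -/
theorem jmap_injective [NeZero (r ^ k)] (hzinf : ∀ n : ℕ, n • z = 0 → n = 0) :
    Function.Injective (jmap r k y₀) := by
  intro e e' h
  refine jmap_inj_fibre y₀ e e' ?_ h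
  have h1 := congrArg (fun w => (r ^ k) • w) h
  simp only [pow_nsmul_jmap y₀ z hyz] at h1
  -- `e.2.val • z = e'.2.val • z` with `z` of infinite order
  have h2 : e.2.val = e'.2.val := by
    rcases le_total e.2.val e'.2.val with hle | hle
    · have h3 : (e'.2.val - e.2.val) • z = 0 := by
        have h4 : e'.2.val • z = (e'.2.val - e.2.val) • z + e.2.val • z := by
          rw [← add_nsmul, Nat.sub_add_cancel hle]
        rw [← h1] at h4
        exact (left_eq_add.mp (by rw [add_comm] at h4; exact h4))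
      have := hzinf _ h3
      omega
    · have h3 : (e.2.val - e'.2.val) • z = 0 := by
        have h4 : e.2.val • z = (e.2.val - e'.2.val) • z + e'.2.val • z := by
          rw [← add_nsmul, Nat.sub_add_cancel hle]
        rw [h1] at h4
        exact (left_eq_add.mp (by rw [add_comm] at h4; exact h4))
      have := hzinf _ h3
      omega
  exact ZMod.val_injective _ h2

end Kummer

end Fermat.Agent.MAZ.Flat.KummerSet69
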