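/-
Programme MAZ, chapter K-FLAT (helper69), brick KF6-b: **CURVE + BRIDGE + FIB-R + SUPPLY ⇒ a function
order for the Kummer extension `E_{y₀}`** at a level `M` where the geometric data exist.

`CarryCurve69.geoInputNN_carry_of_curve_supply` instantiated at `E := J₀(M)[ℓ^k] × ℤ/ℓ^k` with the
action of the Kummer cocycle of `y₀` (`ℓ^k y₀ = z`, `z` rational), `π := snd`, `jJ := jmap`,
`cr := carry` (`KummerSet69`).
-/
import Mathlib
import Fermat.Agent.MAZ.Flat.CarryCurve69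
import Fermat.Agent.MAZ.Flat.KummerSet69
import Fermat.Agent.FFJ.Bridge.TorsionBridge96

set_option autoImplicit false
set_option linter.style.haveILetI false
set_option linter.unusedSectionVars false
set_option maxHeartbeats 2000000

noncomputable section

namespace Fermat.Agent.MAZ.Flat.KummerCurve69

open scoped TensorProduct
open ModularCurve
open Fermat.Agent.FFJ.Core.ClR35 Fermat.Agent.FFJ.Core.ClRBc35 Fermat.Agent.FFJ.Spec.Spec35
  Fermat.Agent.S19.Shell64 Fermat.Agent.FFJ.Alg.Spec78 Fermat.Agent.FFJ.Alg.SpecLocal78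
  Fermat.Agent.FFJ.Alg.SpecNN78
  Fermat.Agent.TW.FF.FlatModel68 Fermat.Agent.FFJ.Order.GeoWire77
  Fermat.Agent.FFJ.Order.GeoWireOne77
  Fermat.Agent.MAZ.Spec.GSpec26 Fermat.Agent.MAZ.Flat.KummerSet69
  Fermat.Agent.MAZ.Flat.CarryCurve69
open Fermat.Agent.RED.Interface4 (FK)

attribute [local instance 2000] SubalgebraClass.toAlgebra

/-- the extension module is finite. -/
theorem finite_ext (Mlev : ℕ) [NeZero Mlev] (l k : ℕ) (hl : l ≠ 0) : Finite (Ext Mlev l k) := by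
  haveI : NeZero (l ^ k) := ⟨pow_ne_zero k hl⟩
  haveI : Finite ↥(Mk Mlev l k) :=
    Fermat.Agent.FFJ.Bridge.TorsionBridge96.finite_torsionBy Mlev _
      (pow_ne_zero _ (by exact_mod_cast hl))
  exact inferInstanceAs (Finite (↥(Mk Mlev l k) × ZMod (l ^ k)))

/-- **CURVE + BRIDGE + FIB-R + SUPPLY ⇒ a function order for the Kummer extension.** -/
theorem geoInputNN_kummer_of_curve_supply (l : ℕ) (hl : l.Prime) (Mlev : ℕ) [NeZero Mlev] (k : ℕ)
    [NeZero (l ^ k)] (y₀ z : JZero Mlev) (hyz : (l ^ k) • y₀ = z) (hz : ∀ σ : GQ, σ • z = z)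
    (K₁ : IntermediateField ℚ Qbar) [FiniteDimensional ℚ K₁] (A : ValuationSubring Qbar)
    (hA : A.LiesOverPrime l) (hunr : UnramAtPlace A K₁)
    [Algebra (OK K₁ A) (FK Mlev K₁)] [IsScalarTower (OK K₁ A) K₁ (FK Mlev K₁)]
    (B01 : Subalgebra (OK K₁ A) (FK Mlev K₁))
    {A0 A1 : Type} [CommRing A0] [CommRing A1]
    [Algebra (OK K₁ A) A0] [Algebra (OK K₁ A) A1] [Algebra A0 B01] [Algebra A1 B01]
    [IsScalarTower (OK K₁ A) A0 B01] [IsScalarTower (OK K₁ A) A1 B01] {t : A0} {s : A1}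
    [IsLocalization.Away t B01] [IsLocalization.Away s B01]
    (H : Fermat.Agent.FFJ.Pic.ChartDefR35.CurveHypR (OK K₁ A) A0 A1 B01 t s)
    (e : B01 →ₐ[OK K₁ A] OK K₁ A)
    (hfr : ∀ x : FK Mlev K₁, ∃ a ∈ B01, ∃ b ∈ B01, b ≠ 0 ∧ x * b = a)
    (S : letI := algebraOKA K₁ A; Set (B01 →ₐ[OK K₁ A] ↥A))
    (hSinf : letI := algebraOKA K₁ A
      ((fun P : B01 →ₐ[OK K₁ A] ↥A =>
        IsLocalRing.residue ↥A (P (algebraMap A1 B01 s))) '' S).Infinite)
    (hSunr : letI := algebraOKA K₁ A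
      ∀ P ∈ S, ∃ K' : IntermediateField ℚ Qbar, FiniteDimensional ℚ K' ∧ K₁ ≤ K' ∧
        UnramAtPlace A K' ∧ ∀ a, ((P a : ↥A) : Qbar) ∈ K') :
    letI := extDistribMulAction l k (kum y₀ z hyz hz) (isCocycle_kum y₀ z hyz hz)
    GeoInputNN l (Ext Mlev l k) := by
  letI := extDistribMulAction l k (kum y₀ z hyz hz) (isCocycle_kum y₀ z hyz hz)
  haveI := finite_ext Mlev l k hl.ne_zero
  exact geoInputNN_carry_of_curve_supply l hl Mlev (Ext Mlev l k) (ZMod (l ^ k))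
    (AddMonoidHom.snd ↥(Mk Mlev l k) (ZMod (l ^ k))) (fun _ _ => rfl) (jmap l k y₀)
    (fun m m' hmm' => jmap_inj_fibre y₀ m m' hmm') (fun σ m => jmap_smul y₀ z hyz hz σ m)
    z hz carry (fun m m' => jmap_add y₀ z hyz m m') K₁ A hA hunr B01 H e hfr S hSinf hSunr

end Fermat.Agent.MAZ.Flat.KummerCurve69
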