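/-
Programme MAZ, chapter K-FLAT (helper69), brick KF5-b: **change of level for the Kummer extension.**

`π^* = levelPullback h : JZero N →+ JZero M` (`N ∣ M`) is Galois-equivariant and, for
`M = auxLevel r N`, injective on torsion.  It sends a division point `y₀` of a rational point `z` of
`J₀(N)` to a division point `π^* y₀` of the rational point `π^* z` of `J₀(M)`, and
`(m, a) ↦ (π^* m, a)` embeds the extension module `E_{y₀}` equivariantly into `E_{π^* y₀}`
(injectivity only needs `π^*` injective on `r^k`-torsion).  Hence a flat model of `E_{π^* y₀}` gives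
one of `E_{y₀}` (`Level72.FlatModel.of_injective`).

* `flatAtR_kum_of_dvd`      : `FlatAtR` for the Kummer cocycle at level `M` ⇒ at level `N`;
* `flatAtR_kum_of_auxLevel` : the case `M = auxLevel r N`;
* `flatAtR_kum_of_geoInputNN_auxLevel` : a function order for `E_{π^* y₀}` at the auxiliary level gives
  `GSpec26.FlatAtR r k (σ ↦ σ y₀ - y₀)` at level `N`.
-/
import Mathlib
import Fermat.Agent.MAZ.Flat.KummerSet69
import Fermat.Agent.FFJ.Level.Level72

set_option autoImplicit false
set_option linter.unusedSectionVars false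
set_option linter.style.haveILetI false

open AlgebraicCurve ModularCurve

noncomputable section

namespace Fermat.Agent.MAZ.Flat.KummerLevel69

open Fermat.Agent.X0 Fermat.Agent.MAZ.Spec.XSpec62 Fermat.Agent.MAZ.Spec.GSpec26
  Fermat.Agent.MAZ.Flat.KummerSet69 Fermat.Agent.FFJ.Level.Level72
  Fermat.Agent.ES.HECKE.LevelPullback12 Fermat.Agent.ES.RED.PullbackInj12
  Fermat.Agent.RED.Interface4

variable {N M : ℕ} [NeZero N] [NeZero M] (h : N ∣ M) {r k : ℕ}

include h in
theorem pull_hyz {y₀ z : JZero N} (hyz : (r ^ k) • y₀ = z) :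
    (r ^ k) • levelPullback h y₀ = levelPullback h z := by
  rw [← map_nsmul, hyz]

include h in
theorem pull_hz {z : JZero N} (hz : ∀ σ : GQ, σ • z = z) (σ : GQ) :
    σ • levelPullback h z = levelPullback h z := by
  rw [← levelPullback_smul h σ z, hz]

/-- the embedding `E_{y₀} → E_{π^* y₀}`, `(m, a) ↦ (π^* m, a)`. -/
def pullExt (r k : ℕ) : Ext N r k →+ Ext M r k :=
  (pullTors h ((r : ℤ) ^ k)).prodMap (AddMonoidHom.id (ZMod (r ^ k)))

/-! The proofs below avoid every `rfl` which would make the kernel compare `JZero N` with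
`JZero M` by unfolding. -/

theorem pullExt_fst' (e : Ext N r k) :
    (pullExt h r k e).1 = pullTors h ((r : ℤ) ^ k) e.1 := by
  unfold pullExt
  rw [AddMonoidHom.coe_prodMap, Prod.map_fst]

theorem pullExt_fst (e : Ext N r k) :
    (((pullExt h r k e).1 : ↥(Mk M r k)) : JZero M) = levelPullback h (e.1 : JZero N) := by
  rw [pullExt_fst', coe_pullTors]

theorem pullExt_snd (e : Ext N r k) : (pullExt h r k e).2 = e.2 := by
  unfold pullExt
  rw [AddMonoidHom.coe_prodMap, Prod.map_snd, AddMonoidHom.id_apply]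

theorem pullExt_injective
    (hinj : ∀ x : JZero N, ((r : ℤ) ^ k) • x = 0 → levelPullback h x = 0 → x = 0) :
    Function.Injective (pullExt h r k) := by
  rw [injective_iff_map_eq_zero]
  intro e he
  have h1 : levelPullback h (e.1 : JZero N) = 0 := by
    rw [← pullExt_fst, he, Prod.fst_zero, Submodule.coe_zero]
  have h2 : e.2 = 0 := by
    rw [← pullExt_snd h e, he, Prod.snd_zero]
  have h3 : (e.1 : JZero N) = 0 :=
    hinj _ ((Submodule.mem_torsionBy_iff _ _).1 e.1.2) h1
  have h4 : e.1 = 0 := Subtype.ext (by rw [h3, Submodule.coe_zero])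
  exact Prod.ext (by rw [h4, Prod.fst_zero]) (by rw [h2, Prod.snd_zero])

/-- the first component of the action of the Kummer cocycle, in `JZero N` (one level only). -/
theorem coe_extAct_kum (y₀ z : JZero N) (hyz : (r ^ k) • y₀ = z) (hz : ∀ σ : GQ, σ • z = z)
    (σ : GQ) (e : Ext N r k) :
    (((extAct r k (kum y₀ z hyz hz) σ e).1 : ↥(Mk N r k)) : JZero N) =
      σ • (e.1 : JZero N) + e.2.val • (σ • y₀ - y₀) := by
  rw [extAct_fst, Submodule.coe_add, coe_galMk, Submodule.coe_smul_of_tower, coe_kum]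

include h in
theorem pull_formula (σ : GQ) (a y₀ : JZero N) (n : ℕ) :
    levelPullback h (σ • a + n • (σ • y₀ - y₀)) =
      σ • levelPullback h a + n • (σ • levelPullback h y₀ - levelPullback h y₀) := by
  rw [map_add, map_nsmul, map_sub, levelPullback_smul, levelPullback_smul]

theorem pullExt_extAct (y₀ z : JZero N) (hyz : (r ^ k) • y₀ = z) (hz : ∀ σ : GQ, σ • z = z)
    (σ : GQ) (e : Ext N r k) :
    pullExt h r k (extAct r k (kum y₀ z hyz hz) σ e) =
      extAct r k (kum (levelPullback h y₀) (levelPullback h z) (pull_hyz h hyz) (pull_hz h hz)) σ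
        (pullExt h r k e) := by
  refine Prod.ext (Subtype.ext ?_) ?_
  · exact (pullExt_fst h _).trans
      ((congrArg (levelPullback h) (coe_extAct_kum y₀ z hyz hz σ e)).trans
        ((pull_formula h σ (e.1 : JZero N) y₀ e.2.val).trans
          ((congrArg₂ (fun (a : JZero M) (b : ZMod (r ^ k)) =>
              σ • a + b.val • (σ • levelPullback h y₀ - levelPullback h y₀))
              (pullExt_fst h e) (pullExt_snd h e)).symm.trans
            (coe_extAct_kum (levelPullback h y₀) (levelPullback h z) (pull_hyz h hyz)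
              (pull_hz h hz) σ (pullExt h r k e)).symm)))
  · exact (pullExt_snd h _).trans (pullExt_snd h e).symm

variable [Fact r.Prime]

/-- **Level descent for the Kummer extension, `IsModel` form.** -/
theorem isModel_kum_of_dvd
    (hinj : ∀ x : JZero N, ((r : ℤ) ^ k) • x = 0 → levelPullback h x = 0 → x = 0)
    (y₀ z : JZero N) (hyz : (r ^ k) • y₀ = z) (hz : ∀ σ : GQ, σ • z = z)
    (hM : IsModel r (Ext M r k)
      (extAct r k (kum (levelPullback h y₀) (levelPullback h z) (pull_hyz h hyz) (pull_hz h hz)))) :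
    IsModel r (Ext N r k) (extAct r k (kum y₀ z hyz hz)) :=
  FlatModel.of_injective (pullExt h r k) (pullExt_injective h hinj)
    (pullExt_extAct h y₀ z hyz hz) hM

/-- **Level descent for the Kummer extension, `FlatAtR` form.** -/
theorem flatAtR_kum_of_dvd
    (hinj : ∀ x : JZero N, ((r : ℤ) ^ k) • x = 0 → levelPullback h x = 0 → x = 0)
    (y₀ z : JZero N) (hyz : (r ^ k) • y₀ = z) (hz : ∀ σ : GQ, σ • z = z)
    (hM : FlatAtR (p := M) r k (fun σ => σ • levelPullback h y₀ - levelPullback h y₀)) :
    FlatAtR (p := N) r k (fun σ => σ • y₀ - y₀) := by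
  obtain ⟨y', hy', hmod⟩ := hM
  have hy'' : y' = kum (levelPullback h y₀) (levelPullback h z) (pull_hyz h hyz) (pull_hz h hz) :=
    funext fun σ => Subtype.ext (hy' σ)
  subst hy''
  exact ⟨kum y₀ z hyz hz, fun σ => rfl, isModel_kum_of_dvd h hinj y₀ z hyz hz hmod⟩

end Fermat.Agent.MAZ.Flat.KummerLevel69

namespace Fermat.Agent.MAZ.Flat.KummerLevel69

open Fermat.Agent.X0 Fermat.Agent.MAZ.Spec.XSpec62 Fermat.Agent.MAZ.Spec.GSpec26
  Fermat.Agent.MAZ.Flat.KummerSet69 Fermat.Agent.FFJ.Level.Level72
  Fermat.Agent.ES.HECKE.LevelPullback12 Fermat.Agent.ES.RED.PullbackInj12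
  Fermat.Agent.RED.Interface4

variable (N : ℕ) [NeZero N] (r k : ℕ) [Fact r.Prime]

/-- **Level descent from the auxiliary level** `auxLevel r N` (`= lcm N 4`, resp. `lcm N 9` for
`r = 2`) for the Kummer extension. -/
theorem flatAtR_kum_of_auxLevel (y₀ z : JZero N) (hyz : (r ^ k) • y₀ = z)
    (hz : ∀ σ : GQ, σ • z = z)
    (hM : haveI := Fermat.Agent.RED.LVL.LevelDegree17.neZero_auxLevel r N
      FlatAtR (p := auxLevel r N) r k
        (fun σ => σ • levelPullback (dvd_auxLevel r N) y₀ - levelPullback (dvd_auxLevel r N) y₀)) :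
    FlatAtR (p := N) r k (fun σ => σ • y₀ - y₀) := by
  haveI := Fermat.Agent.RED.LVL.LevelDegree17.neZero_auxLevel r N
  have hr : 0 < r := (Fact.out : r.Prime).pos
  refine flatAtR_kum_of_dvd (dvd_auxLevel r N) (fun x hx hx0 => ?_) y₀ z hyz hz hM
  refine levelPullback_auxLevel_eq_zero r N (r ^ k) (pow_pos hr k) x ?_ hx0
  rw [← natCast_zsmul]
  push_cast
  exact hx

/-- **K-FLAT from a function order at the auxiliary level**: a function order for the extension
module of `π^* y₀` at one place of one number field unramified at that place gives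
`GSpec26.FlatAtR r k (σ ↦ σ y₀ - y₀)` at level `N`. -/
theorem flatAtR_kum_of_geoInputNN_auxLevel [NeZero (r ^ k)] (y₀ z : JZero N)
    (hyz : (r ^ k) • y₀ = z) (hz : ∀ σ : GQ, σ • z = z)
    (hG : haveI := Fermat.Agent.RED.LVL.LevelDegree17.neZero_auxLevel r N
      letI := extDistribMulAction r k
        (kum (levelPullback (dvd_auxLevel r N) y₀) (levelPullback (dvd_auxLevel r N) z)
          (pull_hyz (dvd_auxLevel r N) hyz) (pull_hz (dvd_auxLevel r N) hz))
        (isCocycle_kum _ _ _ _)
      Fermat.Agent.FFJ.Alg.SpecNN78.GeoInputNN r (Ext (auxLevel r N) r k)) :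
    FlatAtR (p := N) r k (fun σ => σ • y₀ - y₀) := by
  haveI := Fermat.Agent.RED.LVL.LevelDegree17.neZero_auxLevel r N
  exact flatAtR_kum_of_auxLevel N r k y₀ z hyz hz
    (flatAtR_of_geoInputNN r k _ _ (fun σ => rfl) (isCocycle_kum _ _ _ _) hG)

end Fermat.Agent.MAZ.Flat.KummerLevel69
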