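/-
Programme MAZ (S15), G-side, chapter K-FLAT (helper69): **THE EXIT.**

`kFlat`: for every level `p`, every prime `r ∤ p`, every `k`, every rational point `z` of `J₀(p)`
(TORSION ALLOWED) and every `y₀` with `r^k y₀ = z`, the Kummer cocycle `σ ↦ σ y₀ - y₀` is flat at `r`
(`GSpec26.FlatAtR`): the extension module `E_{y₀} = J₀(p)[r^k] × ℤ/r^k` is the module of `ℚ̄`-points of a
finite flat cocommutative Hopf algebra over `ℤ_(r)`.  No hypothesis.

Chain: LEVEL (`KummerLevel69`: `E_{y₀} ↪ E_{π^* y₀}` at the auxiliary level `lcm p 4` resp. `lcm p 9`)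
→ the explicit curve data and supply of programme FFJ at that level, in continuation form
(`GeoElim75.geo_elim_four / _nine`, = the ladder of `Geo72`) → BRIDGE on all of `J₀(M)(ℚ̄)`, FIB-R and
the two-level seam for the family `Option E` (`CarryCurve69`, `TwoLevelExit78`) → the descent of the
class of `-z` to the base ring (`BaseClass92`) and ORDER with a carry (`KOrder92`, through
`CarryLevel69 / CarryGeo69 / CarryBridge69`) → ALG (`MainNN78.algStatementNN`, in `KummerSet69`).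
-/
import Mathlib
import Fermat.Agent.MAZ.Flat.KummerCurve69
import Fermat.Agent.MAZ.Flat.KummerLevel69
import Fermat.Agent.FFJ.Spec.GeoElim75

set_option autoImplicit false
set_option linter.style.haveILetI false
set_option linter.unusedSectionVars false
set_option maxHeartbeats 2000000

noncomputable section

namespace Fermat.Agent.MAZ.Flat.KFlat69

open scoped TensorProduct
open ModularCurve
open Fermat.Agent.FFJ.Core.ClR35 Fermat.Agent.FFJ.Core.ClRBc35 Fermat.Agent.FFJ.Spec.Spec35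
  Fermat.Agent.S19.Shell64 Fermat.Agent.FFJ.Alg.Spec78 Fermat.Agent.FFJ.Alg.SpecLocal78
  Fermat.Agent.FFJ.Alg.SpecNN78
  Fermat.Agent.TW.FF.FlatModel68 Fermat.Agent.FFJ.Order.GeoWire77
  Fermat.Agent.FFJ.Order.GeoWireOne77
  Fermat.Agent.MAZ.Spec.GSpec26 Fermat.Agent.MAZ.Flat.KummerSet69
  Fermat.Agent.MAZ.Flat.KummerCurve69 Fermat.Agent.MAZ.Flat.KummerLevel69
  Fermat.Agent.FFJ.Spec.GeoElimRungs75 Fermat.Agent.FFJ.Spec.GeoElim75
  Fermat.Agent.TW.OrdLocal.PadicPlace97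
  Fermat.Agent.ES.HECKE.LevelPullback12
open Fermat.Agent.RED.Interface4 (FK auxLevel dvd_auxLevel not_dvd_auxLevel)

attribute [local instance 2000] SubalgebraClass.toAlgebra

/-- the function order of the Kummer extension as a continuation of the geometric data. -/
theorem contAt_kummer (l : ℕ) (hl : l.Prime) (Mlev : ℕ) [NeZero Mlev] (k : ℕ) [NeZero (l ^ k)]
    (y₀ z : JZero Mlev) (hyz : (l ^ k) • y₀ = z) (hz : ∀ σ : GQ, σ • z = z)
    (K₁ : IntermediateField ℚ Qbar) (hfd : FiniteDimensional ℚ K₁) (A : ValuationSubring Qbar)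
    (hA : A.LiesOverPrime l) (hunr : UnramAtPlace A K₁) :
    letI := extDistribMulAction l k (kum y₀ z hyz hz) (isCocycle_kum y₀ z hyz hz)
    ContAt Mlev K₁ A (GeoInputNN l (Ext Mlev l k)) := by
  letI := extDistribMulAction l k (kum y₀ z hyz hz) (isCocycle_kum y₀ z hyz hz)
  intro i1 i2 B01 A0 A1 i3 i4 i5 i6 i7 i8 i9 i10 t s i11 i12 H e hfr S hSinf hSunr
  exact geoInputNN_kummer_of_curve_supply l hl Mlev k y₀ z hyz hz K₁ A hA hunr B01 H e hfr S hSinf
    hSunr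

/-- **GEO for the Kummer extension** at every level `Mlev` divisible by `4` or by `9` and every prime
`ℓ ∤ Mlev`: the twin of `Status72.GeoStatement` for `E_{y₀}`. -/
theorem geoInputNN_kummer (Mlev : ℕ) [NeZero Mlev] (h49 : 4 ∣ Mlev ∨ 9 ∣ Mlev) (ℓ : ℕ)
    [Fact ℓ.Prime] (hℓM : ¬ ℓ ∣ Mlev) (k : ℕ) [NeZero (ℓ ^ k)] (y₀ z : JZero Mlev)
    (hyz : (ℓ ^ k) • y₀ = z) (hz : ∀ σ : GQ, σ • z = z) :
    letI := extDistribMulAction ℓ k (kum y₀ z hyz hz) (isCocycle_kum y₀ z hyz hz)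
    GeoInputNN ℓ (Ext Mlev ℓ k) := by
  have hℓ : ℓ.Prime := Fact.out
  rcases h49 with h4 | h9
  · exact geo_elim_four Mlev h4 ℓ hℓM fun K₁ hfd hunr =>
      contAt_kummer ℓ hℓ Mlev k y₀ z hyz hz K₁ hfd (padicPlace ℓ) (padicPlace_liesOverPrime ℓ) hunr
  · exact geo_elim_nine Mlev h9 ℓ hℓM fun K₁ hfd hunr =>
      contAt_kummer ℓ hℓ Mlev k y₀ z hyz hz K₁ hfd (padicPlace ℓ) (padicPlace_liesOverPrime ℓ) hunr

theorem four_or_nine_dvd_auxLevel (ℓ N : ℕ) : 4 ∣ auxLevel ℓ N ∨ 9 ∣ auxLevel ℓ N := by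
  unfold auxLevel
  split_ifs
  · exact Or.inr (Nat.dvd_lcm_right N 9)
  · exact Or.inl (Nat.dvd_lcm_right N 4)

/-- **K-FLAT.**  The Kummer cocycle of a division point of ANY rational point of `J₀(p)` is flat at
every prime `r ∤ p`. -/
theorem kFlat (p : ℕ) [NeZero p] (r : ℕ) [Fact r.Prime] (hrp : ¬ r ∣ p) (k : ℕ) (y₀ z : JZero p)
    (hyz : (r ^ k) • y₀ = z) (hz : ∀ σ : GQ, σ • z = z) :
    FlatAtR r k (fun σ => σ • y₀ - y₀) := by
  have hr : r.Prime := Fact.out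
  haveI : NeZero (r ^ k) := ⟨pow_ne_zero k hr.ne_zero⟩
  haveI := Fermat.Agent.RED.LVL.LevelDegree17.neZero_auxLevel r p
  exact flatAtR_kum_of_geoInputNN_auxLevel p r k y₀ z hyz hz
    (geoInputNN_kummer (auxLevel r p) (four_or_nine_dvd_auxLevel r p) r (not_dvd_auxLevel hr hrp) k
      _ _ _ _)

/-- **K-FLAT, in the shape consumed by `ContractAdapters26.kFlat_of_flatAtR`**: for every `y` whose
multiple `r^k y` is rational. -/
theorem kFlat' (p : ℕ) [NeZero p] (r : ℕ) [Fact r.Prime] (hrp : ¬ r ∣ p) (k : ℕ) (y : JZero p)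
    (hy : ∀ σ : GQ, σ • ((r ^ k) • y) = (r ^ k) • y) :
    FlatAtR r k (fun σ => σ • y - y) :=
  kFlat p r hrp k y _ rfl hy

end Fermat.Agent.MAZ.Flat.KFlat69
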