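/-
Programme MAZ (S15), marks at the prime `r = 2`, brick M7 (instantiation).  Owner: helper37.

**`Mark68.MarkedModel` from the orders of programme FFJ.**

* `markedModel_of_isFunOrder` : a global function order `D` over `ℤ_(p)` gives
  `MarkedModel p M (localGaloisToGlobal p · • ·) (markOf hD)` (`MarkBridge37` in the vocabulary of
  `Mark68`);
* `markedModel_of_geoOrder` : a function order `H` over `A ∩ K` at the standard place
  `A = padicPlace p` of a number field `K` unramified there (what chapter GEO of programme FFJ
  delivers) gives a marked model of `M`, whose mark is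

    `{m | ∀ ρ in the decomposition group of A, ρ⁻¹ • m is congruent to 0 for H}`,

  the largest subgroup of the kernel of reduction of `H` which is stable under the decomposition
  group (`MainNNCong37.exists_descentOrder_cong` + `MarkBridge37`).  The mark only depends on the
  kernel of reduction of `H`, so two orders with the same kernel of reduction (e.g. the order of
  `J[r^k]` and the restriction of the carry order of a Kummer extension) give the same mark.
-/
import Mathlib
import Fermat.Agent.MAZ.Flat.Mark68
import Fermat.Agent.MAZ.Flat.MarkBridge37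
import Fermat.Agent.FFJ.Alg.MainNNCong37
import Fermat.Agent.TW.OrdLocal.PadicPlace97

set_option autoImplicit false
set_option linter.style.haveILetI false

noncomputable section

namespace Fermat.Agent.MAZ.Flat.MarkBridgeInst37

open Fermat.Agent.S19.Shell64 Fermat.Agent.TW.FF.FunOrder68 Fermat.Agent.TW.FF.FlatModel68
open Fermat.Agent.TW.FF.Red68 Fermat.Agent.MAZ.Flat.Mark68 Fermat.Agent.MAZ.Flat.MarkBridge37
open Fermat.Agent.FFJ.Alg.Spec78 Fermat.Agent.FFJ.Alg.SpecLocal78 Fermat.Agent.FFJ.Alg.Defs78

local notation "Qb" => AlgebraicClosure ℚ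

variable {p : ℕ} [Fact p.Prime] {M : Type} [AddCommGroup M] [DistribMulAction GQ M]

/-- **M7 in the vocabulary of `Mark68`.** -/
theorem markedModel_of_isFunOrder {D : Subalgebra (Zloc p) (M → Qb)}
    (hD : IsFunOrder (Zloc p) ℚ D) :
    MarkedModel p M (fun τ m => localGaloisToGlobal p τ • m) (markOf hD) := by
  letI : DistribMulAction (GQp p) M := DistribMulAction.compHom M (localGaloisToGlobal p)
  exact ⟨inferInstance, locAlg D, isFunOrder_locAlg hD, fun _ _ => rfl, fun _ => Iff.rfl⟩

/-- the mark attached to a kernel-of-reduction predicate: the points all of whose conjugates under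
the decomposition group of `A` satisfy it. -/
def satMark (A : ValuationSubring Qb) (P : M → Prop) : Set M :=
  {m | ∀ ρ ∈ stab (F := ℚ) A.toSubring, P (ρ⁻¹ • m)}

/-- **GEO-order at the standard place ⟹ marked model**, with the mark described through the
congruences of the given order. -/
theorem markedModel_of_geoOrder (K : IntermediateField ℚ Qb) [FiniteDimensional ℚ K]
    (hunr : UnramAtPlace (padicPlace p) K)
    (H : Subalgebra ((padicPlace p).comap (algebraMap K Qb)) (M → Qb))
    (hH : @IsFunOrder ((padicPlace p).comap (algebraMap K Qb)) K Qb M _ _ _ _ _ _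
      (resMulAction K M) H) :
    ∃ M₀ : AddSubgroup M, MarkedModel p M (fun τ m => localGaloisToGlobal p τ • m) M₀ ∧
      ∀ m : M, m ∈ M₀ ↔
        m ∈ satMark (padicPlace p) (fun x => ∀ h ∈ H, h x - h 0 ∈ (padicPlace p).nonunits) := by
  obtain ⟨D, hD, -, hcong⟩ := Fermat.Agent.FFJ.Alg.MainNNCong37.exists_descentOrder_cong_zero K
    (padicPlace p) (Fermat.Agent.TW.OrdLocal.PadicPlace97.padicPlace_liesOverPrime p) hunr H hH
  refine ⟨markOf hD, markedModel_of_isFunOrder hD, fun m => ?_⟩
  rw [mem_markOf_iff, hcong m]
  rfl

end Fermat.Agent.MAZ.Flat.MarkBridgeInst37
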