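/-
Programme MAZ (S15), marks at the prime `r = 2`, gluing lemma for `MarkStmt` (helper37's FILE 3; helper33).

The extension module `E_c = N × ℤ/r^k` of a cocycle `c` (`FlatAdm68.extActN`): if the mark of `N` is the
saturation `satMark A P_N` of a kernel-of-reduction predicate `P_N` and the mark of `E_c` is the saturation
of a predicate `P_E` with `P_E (x, i) ↔ i = 0 ∧ P_N x` (the quotient `ℤ/r^k` is étale), then the mark of
`E_c` is `N₀ × 0`, and a marked model of `E_c` for the `G_ℚ`-module structure is a marked model for the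
literal action `extActN r k c`.

* `satMark_prod_eq` : `satMark A P_E = (satMark A P_N) × {0}`, pointwise;
* **`marked_ext_of_satMark`**.
-/
import Mathlib
import Fermat.Agent.MAZ.Flat.MarkBridgeInst37

set_option autoImplicit false
set_option linter.unusedSectionVars false
set_option linter.style.haveILetI false

noncomputable section

namespace Fermat.Agent.MAZ.Flat.MarkGlue33

open Fermat.Agent.TW.FF.FlatModel68 Fermat.Agent.MAZ.Desc.FlatAdm68
open Fermat.Agent.MAZ.Flat.Mark68 Fermat.Agent.MAZ.Flat.MarkBridgeInst37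
open Fermat.Agent.FFJ.Alg.Defs78

local notation "Qb" => AlgebraicClosure ℚ

variable {r : ℕ} [Fact r.Prime] {k : ℕ} {N : Type} [AddCommGroup N] [DistribMulAction GQ N]
  (c : GQ → N) [DistribMulAction GQ (N × ZMod (r ^ k))]
  (hact : ∀ (σ : GQ) (x : N × ZMod (r ^ k)), σ • x = extActN r k c σ x)
  (A : ValuationSubring Qb) (P_N : N → Prop) (P_E : N × ZMod (r ^ k) → Prop)
  (hP : ∀ (x : N) (i : ZMod (r ^ k)), P_E (x, i) ↔ i = 0 ∧ P_N x)

include hact hP in
/-- the saturated mark of the extension module is the saturated mark of `N`, in the first factor. -/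
theorem mem_satMark_ext_iff (x : N) (i : ZMod (r ^ k)) :
    (x, i) ∈ satMark A P_E ↔ x ∈ satMark A P_N ∧ i = 0 := by
  constructor
  · intro h
    have hi : i = 0 := by
      have h1 := h 1 (one_mem _)
      rw [hact, extActN_apply, hP] at h1
      exact h1.1
    refine ⟨fun ρ hρ => ?_, hi⟩
    have h1 := h ρ hρ
    rw [hact, extActN_apply, hP, hi] at h1
    have h2 := h1.2
    rwa [ZMod.val_zero, zero_smul, add_zero] at h2
  · rintro ⟨hx, rfl⟩ ρ hρ
    rw [hact, extActN_apply, hP]
    refine ⟨rfl, ?_⟩
    rw [ZMod.val_zero, zero_smul, add_zero]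
    exact hx ρ hρ

variable (N)

include hact hP in
/-- **gluing lemma for the marks of the Kummer extension modules**: a marked model of `E_c` (for its
`G_ℚ`-module structure) whose mark is the saturation of `P_E` is a marked model for the literal action
`extActN r k c`, marked by `N₀ × 0`, where `N₀` is the saturation of `P_N`. -/
theorem marked_ext_of_satMark {N₀ : AddSubgroup N} {E₀ : AddSubgroup (N × ZMod (r ^ k))}
    (hN₀ : ∀ m, m ∈ N₀ ↔ m ∈ satMark A P_N) (hE₀ : ∀ x, x ∈ E₀ ↔ x ∈ satMark A P_E)
    (hE : MarkedModel r (N × ZMod (r ^ k))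
      (fun (τ : GQp r) (x : N × ZMod (r ^ k)) => localGaloisToGlobal r τ • x) E₀) :
    MarkedModel r (N × ZMod (r ^ k)) (fun (τ : GQp r) => extActN r k c (localGaloisToGlobal r τ))
      (N₀.prod (⊥ : AddSubgroup (ZMod (r ^ k)))) := by
  have hmark : E₀ = N₀.prod (⊥ : AddSubgroup (ZMod (r ^ k))) := by
    ext ⟨x, i⟩
    rw [hE₀, mem_satMark_ext_iff c hact A P_N P_E hP, AddSubgroup.mem_prod, AddSubgroup.mem_bot, hN₀]
  exact (hE.mark_eq hmark).act_congr (fun τ x => hact (localGaloisToGlobal r τ) x)

end Fermat.Agent.MAZ.Flat.MarkGlue33
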