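/-
Programme MAZ (S15), marks at the prime `r = 2`.  Owner: helper37.

**The marked model of the extension module of a Kummer cocycle, from a carry order with its
congruences.**

`E_c = N × ℤ/r^k` with the action `FlatAdm68.extActN r k c`.  Input: a function order `Hs` for `E_c`
at the standard place of a number field unramified there, whose congruences at the place are
described at the level `O₁` of the curve (exit shape of the `_cong` twin of
`CarryBridge69.geoInputNN_carry_of_bridge`):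

  `m ≡ m'  ↔  m.2 = m'.2  ∧  (the A-models of jE m, jE m' have the same special fibre)`,

for a set map `jE : E_c → PicZeroR e₁ ℚ̄` restricting to `jN` on `N × 0`.  If the mark `N₀` of `N` is
`satMark A (SameSpec (jN ·) x₀)`, `x₀ = jE 0` (`MarkTorsion37.markedModel_of_bridge_comp`), then `E_c` has
a marked model with mark `N₀ × 0` for the literal action `extActN r k c`: the shape asked by
`MarkStmt` / `MarkedAdm19.mem_ZadmM_of`.
-/
import Mathlib
import Fermat.Agent.MAZ.Flat.MarkTwoLevel37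
import Fermat.Agent.MAZ.Flat.MarkGlue33

set_option autoImplicit false
set_option linter.style.haveILetI false
set_option linter.unusedSectionVars false
set_option maxHeartbeats 2000000

noncomputable section

namespace Fermat.Agent.MAZ.Flat.MarkExtGlue37

open scoped TensorProduct
open Fermat.Agent.JAC.Core.Defs36 Fermat.Agent.FFJ.Core.ClR35 Fermat.Agent.FFJ.Core.ClRBc35
  Fermat.Agent.TW.FF.FunOrder68 Fermat.Agent.FFJ.Spec.Spec35 Fermat.Agent.S19.Shell64
  Fermat.Agent.FFJ.Alg.Spec78 Fermat.Agent.FFJ.Alg.SpecLocal78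
  Fermat.Agent.TW.FF.FlatModel68 Fermat.Agent.FFJ.Order.GeoWire77 Fermat.Agent.FFJ.Order.AdmOne77
  Fermat.Agent.FFJ.Order.GeoWireOne77 Fermat.Agent.FFJ.Pic.SpecD35
  Fermat.Agent.MAZ.Flat.Mark68 Fermat.Agent.FFJ.Pic.LevelInst85
  Fermat.Agent.MAZ.Flat.MarkBridgeInst37 Fermat.Agent.MAZ.Flat.MarkTwoLevel37
  Fermat.Agent.MAZ.Flat.MarkGlue33 Fermat.Agent.MAZ.Desc.FlatAdm68

/-- **The marked model of the extension module, with mark `N₀ × 0`.** -/
theorem markedModel_ext_of_cong (r : ℕ) [Fact r.Prime] {k : ℕ}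
    (N : Type) [AddCommGroup N] [DistribMulAction GQ N] (c : GQ → N)
    [DistribMulAction GQ (N × ZMod (r ^ k))]
    (hactE : ∀ (σ : GQ) (x : N × ZMod (r ^ k)), σ • x = extActN r k c σ x)
    (K₁ : IntermediateField ℚ Qbar) [FiniteDimensional ℚ K₁]
    (A0 A1 A01 : Type) [CommRing A0] [CommRing A1] [CommRing A01]
    [Algebra (OK K₁ (padicPlace r)) A0] [Algebra (OK K₁ (padicPlace r)) A1]
    [Algebra (OK K₁ (padicPlace r)) A01] [Algebra A0 A01]
    [Algebra A1 A01] [IsScalarTower (OK K₁ (padicPlace r)) A0 A01]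
    [IsScalarTower (OK K₁ (padicPlace r)) A1 A01]
    (t : A0) (s : A1) [IsLocalization.Away t A01] [IsLocalization.Away s A01]
    (H₁ : Fermat.Agent.FFJ.Pic.ChartDefR35.CurveHypR (OK K₁ (padicPlace r)) A0 A1 A01 t s)
    (e₁ : A01 →ₐ[OK K₁ (padicPlace r)] OK K₁ (padicPlace r))
    (jN : N → ClR (OK K₁ (padicPlace r)) A0 A1 A01 t s Qbar)
    (x₀ : ClR (OK K₁ (padicPlace r)) A0 A1 A01 t s Qbar)
    (jE : N × ZMod (r ^ k) → ClR (OK K₁ (padicPlace r)) A0 A1 A01 t s Qbar)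
    (hjE0 : ∀ x : N, jE (x, 0) = jN x) (hjE00 : jE 0 = x₀)
    (hjEmem : ∀ m, jE m ∈ PicZeroR e₁ Qbar)
    {N₀ : AddSubgroup N}
    (hN₀ : ∀ m : N, m ∈ N₀ ↔ m ∈ satMark (padicPlace r) (fun x =>
      SameSpec K₁ (padicPlace r) e₁ (jN x) x₀))
    (K' : IntermediateField ℚ Qbar) [FiniteDimensional ℚ K']
    (hu' : UnramAtPlace (padicPlace r) K')
    (Hs : Subalgebra (OK K' (padicPlace r)) (N × ZMod (r ^ k) → Qbar))
    (hHs : @IsFunOrder (OK K' (padicPlace r)) K' Qbar (N × ZMod (r ^ k)) _ _ _ _ _ _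
      (resMulAction K' (N × ZMod (r ^ k))) Hs)
    (hcong : letI := algebraOKA K₁ (padicPlace r)
      haveI := isScalarTower_OKA K₁ (padicPlace r)
      ∀ (m m' : N × ZMod (r ^ k))
        (ξ ξ' : ClR (OK K₁ (padicPlace r)) A0 A1 A01 t s (padicPlace r)),
        ξ ∈ PicZeroR e₁ (padicPlace r) → ξ' ∈ PicZeroR e₁ (padicPlace r) →
        bcR (IsScalarTower.toAlgHom (OK K₁ (padicPlace r)) (padicPlace r) Qbar) ξ = jE m →
        bcR (IsScalarTower.toAlgHom (OK K₁ (padicPlace r)) (padicPlace r) Qbar) ξ' = jE m' →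
        ((∀ h ∈ Hs, h m - h m' ∈ (padicPlace r).nonunits) ↔
          m.2 = m'.2 ∧ bcR (resV (O := OK K₁ (padicPlace r)) (padicPlace r)) ξ =
            bcR (resV (O := OK K₁ (padicPlace r)) (padicPlace r)) ξ')) :
    MarkedModel r (N × ZMod (r ^ k)) (fun (τ : GQp r) => extActN r k c (localGaloisToGlobal r τ))
      (N₀.prod (⊥ : AddSubgroup (ZMod (r ^ k)))) := by
  have hr : r.Prime := Fact.out
  have hA := Fermat.Agent.TW.OrdLocal.PadicPlace97.padicPlace_liesOverPrime r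
  letI := algebraOKA K₁ (padicPlace r)
  haveI := isScalarTower_OKA K₁ (padicPlace r)
  obtain ⟨E₀, hEM, hE₀⟩ := markedModel_of_geoOrder K' hu' Hs hHs
  refine marked_ext_of_satMark N c hactE (padicPlace r)
    (fun x => SameSpec K₁ (padicPlace r) e₁ (jN x) x₀)
    (fun x => ∀ h ∈ Hs, h x - h 0 ∈ (padicPlace r).nonunits) ?_ hN₀ hE₀ hEM
  intro x i
  constructor
  · intro h
    obtain ⟨ξ, hξ, hx⟩ := exists_model hr K₁ (padicPlace r) hA H₁ e₁ _ (hjEmem (x, i))
    obtain ⟨ξ0, hξ0, hx0⟩ := exists_model hr K₁ (padicPlace r) hA H₁ e₁ _ (hjEmem 0)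
    have hi : i = 0 := ((hcong (x, i) 0 ξ ξ0 hξ hξ0 hx hx0).mp h).1
    subst hi
    refine ⟨rfl, fun η η' hη hη' hηx hηx0 => ?_⟩
    exact ((hcong (x, 0) 0 η η' hη hη' (hηx.trans (hjE0 x).symm)
      (hηx0.trans hjE00.symm)).mp h).2
  · rintro ⟨rfl, hS⟩
    obtain ⟨ξ, hξ, hx⟩ := exists_model hr K₁ (padicPlace r) hA H₁ e₁ _ (hjEmem (x, 0))
    obtain ⟨ξ0, hξ0, hx0⟩ := exists_model hr K₁ (padicPlace r) hA H₁ e₁ _ (hjEmem 0)
    exact (hcong (x, 0) 0 ξ ξ0 hξ hξ0 hx hx0).mpr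
      ⟨rfl, hS ξ ξ0 hξ hξ0 (hx.trans (hjE0 x)) (hx0.trans hjE00)⟩

end Fermat.Agent.MAZ.Flat.MarkExtGlue37
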