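/-
Programme MAZ (S15), marks at the prime `r = 2`: the `S19`-side exit.  Owner: helper37.

**A marked model for a finite Galois module bridged to the level-`O₁` curve, with an order-free
description of its mark.**

Curve + bridge data at the level `O₁ = A ∩ K₁`, `A = padicPlace r` (binders of
`GeoTwoLevel77.geoInputNN_of_two_level_s`).  Then `M` has a marked local model at `r` whose mark is

  `satMark A (fun x => SameSpec K₁ A e₁ (ι₁ x) (ι₁ 0))`,

the points all of whose conjugates under the decomposition group of `A` have the same special fibre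
(over the level-`O₁` curve) as the origin.  `SameSpec` only mentions the classes `ι₁ x` over `ℚ̄`, not
the order: two modules bridged to the same curve by compatible maps get compatible marks.
-/
import Mathlib
import Fermat.Agent.FFJ.Spec.GeoTwoLevelCong37
import Fermat.Agent.MAZ.Flat.MarkBridgeInst37

set_option autoImplicit false
set_option linter.style.haveILetI false
set_option linter.unusedSectionVars false
set_option maxHeartbeats 2000000

noncomputable section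

namespace Fermat.Agent.MAZ.Flat.MarkTwoLevel37

open scoped TensorProduct
open Fermat.Agent.JAC.Core.Defs36 Fermat.Agent.FFJ.Core.ClR35 Fermat.Agent.FFJ.Core.ClRBc35
  Fermat.Agent.TW.FF.FunOrder68 Fermat.Agent.FFJ.Spec.Spec35 Fermat.Agent.S19.Shell64
  Fermat.Agent.FFJ.Alg.Spec78 Fermat.Agent.FFJ.Alg.SpecLocal78
  Fermat.Agent.TW.FF.FlatModel68 Fermat.Agent.FFJ.Order.GeoWire77 Fermat.Agent.FFJ.Order.AdmOne77
  Fermat.Agent.FFJ.Order.GeoWireOne77 Fermat.Agent.FFJ.Pic.SpecD35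
  Fermat.Agent.FFJ.Spec.GeoTwoLevelCong37 Fermat.Agent.MAZ.Flat.Mark68 Fermat.Agent.FFJ.Pic.LevelInst85
  Fermat.Agent.MAZ.Flat.MarkBridgeInst37

/-- **two classes over `ℚ̄` have the same special fibre at `A`**: all their `A`-models (over the
level-`O₁` curve, in `PicZeroR`) have the same image over the residue field of `A`. -/
def SameSpec (K₁ : IntermediateField ℚ Qbar) (A : ValuationSubring Qbar)
    {A0 A1 A01 : Type} [CommRing A0] [CommRing A1] [CommRing A01]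
    [Algebra (OK K₁ A) A0] [Algebra (OK K₁ A) A1] [Algebra (OK K₁ A) A01] [Algebra A0 A01]
    [Algebra A1 A01] [IsScalarTower (OK K₁ A) A0 A01] [IsScalarTower (OK K₁ A) A1 A01]
    {t : A0} {s : A1} [IsLocalization.Away t A01] [IsLocalization.Away s A01]
    (e₁ : A01 →ₐ[OK K₁ A] OK K₁ A) (x y : ClR (OK K₁ A) A0 A1 A01 t s Qbar) : Prop :=
  letI := algebraOKA K₁ A
  haveI := isScalarTower_OKA K₁ A
  ∀ ξ ξ' : ClR (OK K₁ A) A0 A1 A01 t s A, ξ ∈ PicZeroR e₁ A → ξ' ∈ PicZeroR e₁ A →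
    bcR (IsScalarTower.toAlgHom (OK K₁ A) A Qbar) ξ = x →
    bcR (IsScalarTower.toAlgHom (OK K₁ A) A Qbar) ξ' = y →
    bcR (resV (O := OK K₁ A) A) ξ = bcR (resV (O := OK K₁ A) A) ξ'

section CongToSame

variable {l : ℕ} (hl : l.Prime) (K₁ : IntermediateField ℚ Qbar) [FiniteDimensional ℚ K₁]
  (A : ValuationSubring Qbar) (hA : A.LiesOverPrime l)
  {A0 A1 A01 : Type} [CommRing A0] [CommRing A1] [CommRing A01]
  [Algebra (OK K₁ A) A0] [Algebra (OK K₁ A) A1] [Algebra (OK K₁ A) A01] [Algebra A0 A01]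
  [Algebra A1 A01] [IsScalarTower (OK K₁ A) A0 A01] [IsScalarTower (OK K₁ A) A1 A01]
  {t : A0} {s : A1} [IsLocalization.Away t A01] [IsLocalization.Away s A01]
  (H₁ : Fermat.Agent.FFJ.Pic.ChartDefR35.CurveHypR (OK K₁ A) A0 A1 A01 t s)
  (e₁ : A01 →ₐ[OK K₁ A] OK K₁ A)

include hl hA H₁ in
/-- every class of `PicZeroR e₁ ℚ̄` has an `A`-model. -/
theorem exists_model (x : ClR (OK K₁ A) A0 A1 A01 t s Qbar) (hx : x ∈ PicZeroR e₁ Qbar) :
    letI := algebraOKA K₁ A
    haveI := isScalarTower_OKA K₁ A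
    ∃ ξ : ClR (OK K₁ A) A0 A1 A01 t s A, ξ ∈ PicZeroR e₁ A ∧
      bcR (IsScalarTower.toAlgHom (OK K₁ A) A Qbar) ξ = x := by
  letI := algebraOKA K₁ A
  haveI := isScalarTower_OKA K₁ A
  haveI : IsDiscreteValuationRing (OK K₁ A) :=
    Fermat.Agent.RED.DESC.NumberFieldDVR27.isDiscreteValuationRing_AK A K₁ hl.ne_zero hA
  haveI := isAlgebraic_OK_Qbar A K₁
  have hinjO := algebraMap_OK_Qbar_injective A K₁
  exact (Fermat.Agent.FFJ.Val.ValInjR1.existsUnique_extension e₁ H₁ hinjO A x hx).exists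

include hl hA H₁ in
/-- **`CongSpecAt` in order-free form.** -/
theorem cong_iff_sameSpec {M : Type} [AddCommGroup M]
    (ι₁ : Multiplicative M →* ClR (OK K₁ A) A0 A1 A01 t s Qbar)
    (hmem : ∀ m, ι₁ m ∈ PicZeroR e₁ Qbar) {Hs : Set (M → Qbar)}
    (hcong : CongSpecAt K₁ A e₁ ι₁ Hs) (m m' : M) :
    (∀ h ∈ Hs, h m - h m' ∈ A.nonunits) ↔
      SameSpec K₁ A e₁ (ι₁ (Multiplicative.ofAdd m)) (ι₁ (Multiplicative.ofAdd m')) := by
  letI := algebraOKA K₁ A
  haveI := isScalarTower_OKA K₁ A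
  constructor
  · intro h ξ ξ' hξ hξ' hx hy
    exact (hcong m m' ξ ξ' hξ hξ' hx hy).mp h
  · intro h
    obtain ⟨ξ, hξ, hx⟩ := exists_model hl K₁ A hA H₁ e₁ _ (hmem (Multiplicative.ofAdd m))
    obtain ⟨ξ', hξ', hy⟩ := exists_model hl K₁ A hA H₁ e₁ _ (hmem (Multiplicative.ofAdd m'))
    exact (hcong m m' ξ ξ' hξ hξ' hx hy).mpr (h ξ ξ' hξ hξ' hx hy)

end CongToSame

/-- **The `S19`-side exit with marks.**  Binders of `GeoTwoLevel77.geoInputNN_of_two_level_s` at the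
standard place `A = padicPlace r`. -/
theorem markedModel_of_two_level (r : ℕ) [Fact r.Prime] (M : Type) [AddCommGroup M] [Finite M]
    [DistribMulAction GQ M]
    (K₁ : IntermediateField ℚ Qbar) [FiniteDimensional ℚ K₁]
    (hunr : UnramAtPlace (padicPlace r) K₁)
    (A0 A1 A01 : Type) [CommRing A0] [CommRing A1] [CommRing A01]
    [Algebra (OK K₁ (padicPlace r)) A0] [Algebra (OK K₁ (padicPlace r)) A1]
    [Algebra (OK K₁ (padicPlace r)) A01] [Algebra A0 A01]
    [Algebra A1 A01] [IsScalarTower (OK K₁ (padicPlace r)) A0 A01]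
    [IsScalarTower (OK K₁ (padicPlace r)) A1 A01]
    (t : A0) (s : A1) [IsLocalization.Away t A01] [IsLocalization.Away s A01]
    (H₁ : Fermat.Agent.FFJ.Pic.ChartDefR35.CurveHypR (OK K₁ (padicPlace r)) A0 A1 A01 t s)
    (e₁ : A01 →ₐ[OK K₁ (padicPlace r)] OK K₁ (padicPlace r))
    (ι₁ : Multiplicative M →* ClR (OK K₁ (padicPlace r)) A0 A1 A01 t s Qbar)
    (hinj : Function.Injective ι₁)
    (hmem : ∀ m, ι₁ m ∈ PicZeroR e₁ Qbar)
    (hequiv : ∀ (σ : Qbar ≃ₐ[K₁] Qbar) (m : M),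
      ι₁ (Multiplicative.ofAdd ((σ.restrictScalars ℚ : GQ) • m)) =
        galActR (OK K₁ (padicPlace r)) K₁ σ (ι₁ (Multiplicative.ofAdd m)))
    (hFib : FibStatement (OK K₁ (padicPlace r)) A0 A1 A01 t s H₁.hts)
    (S : letI := algebraOKA K₁ (padicPlace r);
      Set (A01 →ₐ[OK K₁ (padicPlace r)] (padicPlace r)))
    (hSinf : letI := algebraOKA K₁ (padicPlace r)
      ((fun P : A01 →ₐ[OK K₁ (padicPlace r)] (padicPlace r) =>
        IsLocalRing.residue (padicPlace r) (P (algebraMap A1 A01 s))) '' S).Infinite)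
    (hSunr : letI := algebraOKA K₁ (padicPlace r)
      ∀ P ∈ S, ∃ K' : IntermediateField ℚ Qbar, FiniteDimensional ℚ K' ∧ K₁ ≤ K' ∧
        UnramAtPlace (padicPlace r) K' ∧ ∀ a, ((P a : (padicPlace r)) : Qbar) ∈ K') :
    ∃ M₀ : AddSubgroup M, MarkedModel r M (fun τ m => localGaloisToGlobal r τ • m) M₀ ∧
      ∀ m : M, m ∈ M₀ ↔ m ∈ satMark (padicPlace r) (fun x =>
        SameSpec K₁ (padicPlace r) e₁ (ι₁ (Multiplicative.ofAdd x))
          (ι₁ (Multiplicative.ofAdd (0 : M)))) := by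
  have hr : r.Prime := Fact.out
  have hA := Fermat.Agent.TW.OrdLocal.PadicPlace97.padicPlace_liesOverPrime r
  obtain ⟨K', hfd', -, hu', Hs, hHs, hcong⟩ := geoInputNN_of_two_level_s_cong r hr M K₁
    (padicPlace r) hA hunr A0 A1 A01 t s H₁ e₁ ι₁ hinj hmem hequiv hFib S hSinf hSunr
  haveI := hfd'
  obtain ⟨M₀, hMM, hM₀⟩ := markedModel_of_geoOrder K' hu' Hs hHs
  refine ⟨M₀, hMM, fun m => ?_⟩
  rw [hM₀]
  constructor
  · intro h ρ hρ
    exact (cong_iff_sameSpec hr K₁ (padicPlace r) hA H₁ e₁ ι₁ hmem hcong _ _).mp (h ρ hρ)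
  · intro h ρ hρ
    exact (cong_iff_sameSpec hr K₁ (padicPlace r) hA H₁ e₁ ι₁ hmem hcong _ _).mpr (h ρ hρ)

end Fermat.Agent.MAZ.Flat.MarkTwoLevel37
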