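/-
Programme MAZ (S15), marks at the prime `r = 2`.  Owner: helper37.

**A marked model for a finite Galois module embedded in `J₀(M)(ℚ̄)`, from a BRIDGE on the whole group
`J₀(M)(ℚ̄)`**, with the order-free description of the mark (`MarkTwoLevel37.SameSpec`).

The bridge `ι₁ : J₀(M)(ℚ̄) → PicZeroR e₁ ℚ̄` is the one of `BridgeSubalgebra96.exists_bridge_subalgebra`
at `T := JZero M`, `f := id`; it is SHARED by all the finite modules mapped to `J₀(M)(ℚ̄)`, so their
marks are compatible: this is what the marks of the extension modules of the Kummer cocycles need.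

* `markedModel_of_bridge_comp` : the finite module `T`, `f : T →+ JZero Mlev` injective, equivariant;
* `pullMk`                      : `π^* : J₀(p)[r^k] →+ JZero Mlev` for `p ∣ Mlev`, its equivariance, and
                                  its injectivity for `Mlev = auxLevel ℓ p`;
-/
import Mathlib
import Fermat.Agent.MAZ.Flat.MarkTwoLevel37
import Fermat.Agent.MAZ.Desc.KummerInst26
import Fermat.Agent.FFJ.Level.Level72

set_option autoImplicit false
set_option linter.style.haveILetI false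
set_option linter.unusedSectionVars false
set_option maxHeartbeats 2000000

noncomputable section

namespace Fermat.Agent.MAZ.Flat.MarkTorsion37

open scoped TensorProduct
open ModularCurve
open Fermat.Agent.JAC.Core.Defs36 Fermat.Agent.FFJ.Core.ClR35 Fermat.Agent.FFJ.Core.ClRBc35
  Fermat.Agent.TW.FF.FunOrder68 Fermat.Agent.FFJ.Spec.Spec35 Fermat.Agent.S19.Shell64
  Fermat.Agent.FFJ.Alg.Spec78 Fermat.Agent.FFJ.Alg.SpecLocal78
  Fermat.Agent.TW.FF.FlatModel68 Fermat.Agent.FFJ.Order.GeoWire77 Fermat.Agent.FFJ.Order.AdmOne77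
  Fermat.Agent.FFJ.Order.GeoWireOne77 Fermat.Agent.FFJ.Pic.SpecD35
  Fermat.Agent.FFJ.Spec.GeoTwoLevelCong37 Fermat.Agent.MAZ.Flat.Mark68 Fermat.Agent.FFJ.Pic.LevelInst85
  Fermat.Agent.MAZ.Flat.MarkBridgeInst37 Fermat.Agent.MAZ.Flat.MarkTwoLevel37

/-- **A marked model from a bridge on all of `J₀(Mlev)(ℚ̄)`.** -/
theorem markedModel_of_bridge_comp (r : ℕ) [Fact r.Prime] (Mlev : ℕ)
    (T : Type) [AddCommGroup T] [Finite T] [DistribMulAction GQ T]
    (f : T →+ JZero Mlev) (hf : Function.Injective f)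
    (hact : ∀ (σ : GQ) (m : T), f (σ • m) = σ • f m)
    (K₁ : IntermediateField ℚ Qbar) [FiniteDimensional ℚ K₁]
    (hunr : UnramAtPlace (padicPlace r) K₁)
    (A0 A1 A01 : Type) [CommRing A0] [CommRing A1] [CommRing A01]
    [Algebra (OK K₁ (padicPlace r)) A0] [Algebra (OK K₁ (padicPlace r)) A1]
    [Algebra (OK K₁ (padicPlace r)) A01] [Algebra A0 A01]
    [Algebra A1 A01] [IsScalarTower (OK K₁ (padicPlace r)) A0 A01]
    [IsScalarTower (OK K₁ (padicPlace r)) A1 A01]
    (t : A0) (s : A1) [IsLocalization.Away t A01] [IsLocalization.Away s A01]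
    (H₁ : Fermat.Agent.FFJ.Pic.ChartDefR35.CurveHypR (OK K₁ (padicPlace r)) A0 A1 A01 t s)
    (e₁ : A01 →ₐ[OK K₁ (padicPlace r)] OK K₁ (padicPlace r))
    (ι₁ : Multiplicative (JZero Mlev) →* ClR (OK K₁ (padicPlace r)) A0 A1 A01 t s Qbar)
    (hinj : Function.Injective ι₁)
    (hmem : ∀ m, ι₁ m ∈ PicZeroR e₁ Qbar)
    (hequiv : ∀ (σ : Qbar ≃ₐ[K₁] Qbar) (m : JZero Mlev),
      ι₁ (Multiplicative.ofAdd ((σ.restrictScalars ℚ : GQ) • m)) =
        galActR (OK K₁ (padicPlace r)) K₁ σ (ι₁ (Multiplicative.ofAdd m)))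
    (hFib : FibStatement (OK K₁ (padicPlace r)) A0 A1 A01 t s H₁.hts)
    (S : letI := algebraOKA K₁ (padicPlace r);
      Set (A01 →ₐ[OK K₁ (padicPlace r)] (padicPlace r)))
    (hSinf : letI := algebraOKA K₁ (padicPlace r)
      ((fun P : A01 →ₐ[OK K₁ (padicPlace r)] (padicPlace r) =>
        IsLocalRing.residue (padicPlace r) (P (algebraMap A1 A01 s))) '' S).Infinite)
    (hSunr : letI := algebraOKA K₁ (padicPlace r)
      ∀ P ∈ S, ∃ K' : IntermediateField ℚ Qbar, FiniteDimensional ℚ K' ∧ K₁ ≤ K' ∧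
        UnramAtPlace (padicPlace r) K' ∧ ∀ a, ((P a : (padicPlace r)) : Qbar) ∈ K') :
    ∃ M₀ : AddSubgroup T, MarkedModel r T (fun τ m => localGaloisToGlobal r τ • m) M₀ ∧
      ∀ m : T, m ∈ M₀ ↔ m ∈ satMark (padicPlace r) (fun x =>
        SameSpec K₁ (padicPlace r) e₁ (ι₁ (Multiplicative.ofAdd (f x)))
          (ι₁ (Multiplicative.ofAdd (0 : JZero Mlev)))) := by
  obtain ⟨M₀, hMM, hM₀⟩ := markedModel_of_two_level r T K₁ hunr A0 A1 A01 t s H₁ e₁
    (ι₁.comp (AddMonoidHom.toMultiplicative f))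
    (hinj.comp (fun a b hab => Multiplicative.toAdd.injective (hf hab)))
    (fun m => hmem _)
    (fun σ m => by
      show ι₁ (Multiplicative.ofAdd (f ((σ.restrictScalars ℚ : GQ) • m))) = _
      rw [hact]
      exact hequiv σ (f m))
    hFib S hSinf hSunr
  refine ⟨M₀, hMM, fun m => ?_⟩
  rw [hM₀]
  have h0 : (ι₁.comp (AddMonoidHom.toMultiplicative f)) (Multiplicative.ofAdd (0 : T)) =
      ι₁ (Multiplicative.ofAdd (0 : JZero Mlev)) := by
    show ι₁ (Multiplicative.ofAdd (f 0)) = _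
    rw [map_zero]
  rw [h0]
  rfl

/-! ### The torsion of `J₀(p)` inside `J₀(Mlev)(ℚ̄)` -/

section Pull

open Fermat.Agent.MAZ.Spec.GSpec26 Fermat.Agent.MAZ.Desc.KummerInst26
open Fermat.Agent.ES.HECKE.LevelPullback12 Fermat.Agent.ES.RED.PullbackInj12
open Fermat.Agent.RED.Interface4

attribute [local instance] dmaMk

variable {p Mlev : ℕ} [NeZero p] [NeZero Mlev] (r : ℕ) [Fact r.Prime] (k : ℕ)

/-- `π^*` on `J₀(p)[r^k]`, with values in `J₀(Mlev)(ℚ̄)`. -/
def pullMk (h : p ∣ Mlev) : ↥(Mk p r k) →+ JZero Mlev :=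
  (levelPullback h).comp (Mk p r k).subtype.toAddMonoidHom

@[simp]
theorem pullMk_apply (h : p ∣ Mlev) (x : ↥(Mk p r k)) :
    pullMk r k h x = levelPullback h (x : JZero p) := rfl

theorem pullMk_smul (h : p ∣ Mlev) (σ : GQ) (x : ↥(Mk p r k)) :
    pullMk r k h (σ • x) = σ • pullMk r k h x := by
  show levelPullback h (σ • (x : JZero p)) = σ • levelPullback h (x : JZero p)
  exact levelPullback_smul h σ _

/-- `π^* x = 0` for a torsion point `x` forces `x = 0`, at the auxiliary level. -/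
theorem levelPullback_eq_zero_of_nsmul (ℓ : ℕ) (m : ℕ) (hm : 0 < m) (x : JZero p)
    (hmx : m • x = 0)
    (hx : haveI := Fermat.Agent.RED.LVL.LevelDegree17.neZero_auxLevel ℓ p
      levelPullback (dvd_auxLevel ℓ p) x = 0) : x = 0 :=
  levelPullback_auxLevel_eq_zero ℓ p m hm x hmx hx

/-- `π^*` is injective on `J₀(p)[r^k]`, at the auxiliary level. -/
theorem pullMk_injective (ℓ : ℕ) :
    haveI := Fermat.Agent.RED.LVL.LevelDegree17.neZero_auxLevel ℓ p
    Function.Injective (pullMk r k (dvd_auxLevel ℓ p)) := by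
  haveI := Fermat.Agent.RED.LVL.LevelDegree17.neZero_auxLevel ℓ p
  rw [injective_iff_map_eq_zero]
  intro x hx
  apply Subtype.ext
  rw [Submodule.coe_zero]
  exact levelPullback_auxLevel_eq_zero ℓ p (r ^ k) (pow_pos (Fact.out : r.Prime).pos k) _
    ((mem_Mk_iff r k).1 x.2) hx

/-- `π^*` separates two points of `J₀(p)(ℚ̄)` with torsion difference, at the auxiliary level. -/
theorem eq_of_levelPullback_eq (ℓ : ℕ) (m : ℕ) (hm : 0 < m) (x y : JZero p)
    (hmx : m • (x - y) = 0)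
    (hxy : haveI := Fermat.Agent.RED.LVL.LevelDegree17.neZero_auxLevel ℓ p
      levelPullback (dvd_auxLevel ℓ p) x = levelPullback (dvd_auxLevel ℓ p) y) : x = y := by
  haveI := Fermat.Agent.RED.LVL.LevelDegree17.neZero_auxLevel ℓ p
  have h := levelPullback_auxLevel_eq_zero ℓ p m hm (x - y) hmx (by rw [map_sub, hxy, sub_self])
  exact sub_eq_zero.mp h

end Pull

end Fermat.Agent.MAZ.Flat.MarkTorsion37
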