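/-
Programme MAZ (S15), marks at the prime `r = 2`.  Owner: helper37.

**`MarkStmt` from CURVE + SUPPLY at one level `Mlev` divisible by `p`** (binder list of
`Geo72.geoInputNN_of_curve_supply` at the standard place `A = padicPlace r`).

ONE bridge `ι₁ : J₀(Mlev)(ℚ̄) → PicZeroR e ℚ̄` (`BridgeSubalgebra96` at `T := JZero Mlev`, `f := id`)
serves both

* the module `J₀(p)[r^k]` (through `π^* : J₀(p)[r^k] → J₀(Mlev)(ℚ̄)`, `MarkTorsion37`), and
* the extension modules `E_c = J₀(p)[r^k] × ℤ/r^k` of the Kummer cocycles of the rational points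
  (through `(m, a) ↦ π^* (m + a • y)`, `CarryCong92` + the two-level seam `TwoLevelSet78`),

so the mark of `E_c` is `M₀ × 0` (`MarkExtGlue37`).
-/
import Mathlib
import Fermat.Agent.MAZ.Flat.MarkTorsion37
import Fermat.Agent.MAZ.Flat.MarkExtGlue37
import Fermat.Agent.MAZ.Flat.CarryCong92
import Fermat.Agent.MAZ.Flat.TwoLevelSet78
import Fermat.Agent.MAZ.Flat.KummerSet69
import Fermat.Agent.FFJ.Bridge.BridgeSubalgebra96
import Fermat.Agent.FFJ.Bridge.TorsionBridge96
import Fermat.Agent.FFJ.Fib.FibR6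

set_option autoImplicit false
set_option linter.style.haveILetI false
set_option linter.unusedSectionVars false
set_option linter.unusedVariables false
set_option maxHeartbeats 2000000

noncomputable section

namespace Fermat.Agent.MAZ.Flat.MarkCurve37

open scoped TensorProduct
open ModularCurve
open Fermat.Agent.JAC.Core.Defs36 Fermat.Agent.FFJ.Core.ClR35 Fermat.Agent.FFJ.Core.ClRBc35
  Fermat.Agent.TW.FF.FunOrder68 Fermat.Agent.FFJ.Spec.Spec35 Fermat.Agent.S19.Shell64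
  Fermat.Agent.FFJ.Alg.Spec78 Fermat.Agent.FFJ.Alg.SpecLocal78
  Fermat.Agent.TW.FF.FlatModel68 Fermat.Agent.FFJ.Order.GeoWire77 Fermat.Agent.FFJ.Order.AdmOne77
  Fermat.Agent.FFJ.Order.GeoWireOne77 Fermat.Agent.FFJ.Pic.SpecD35
  Fermat.Agent.MAZ.Flat.Mark68 Fermat.Agent.FFJ.Pic.LevelInst85
  Fermat.Agent.MAZ.Flat.MarkBridgeInst37 Fermat.Agent.MAZ.Flat.MarkTwoLevel37
  Fermat.Agent.MAZ.Flat.MarkTorsion37 Fermat.Agent.MAZ.Flat.MarkExtGlue37
  Fermat.Agent.MAZ.Flat.KummerSet69 Fermat.Agent.MAZ.Flat.CarryBridge69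
  Fermat.Agent.MAZ.Flat.CarryGeo69 Fermat.Agent.MAZ.Flat.CarryCong92
  Fermat.Agent.MAZ.Flat.TwoLevelSet78
  Fermat.Agent.MAZ.Spec.GSpec26 Fermat.Agent.MAZ.Desc.KummerInst26 Fermat.Agent.MAZ.Desc.FlatAdm68
  Fermat.Agent.ES.HECKE.LevelPullback12 Fermat.Agent.ES.RED.PullbackInj12
  Fermat.Agent.FFJ.Pic.BaseEquiv85 Fermat.Agent.FFJ.Pic.LevelIota85
open Fermat.Agent.RED.Interface4 (FK)

attribute [local instance 2000] SubalgebraClass.toAlgebra
attribute [local instance] dmaMk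

/-! ### The Kummer set map at the level `Mlev` -/

section KummerPull

variable {p Mlev : ℕ} [NeZero p] [NeZero Mlev] (h : p ∣ Mlev) {r k : ℕ}
  (y₀ z : JZero p) (hyz : (r ^ k) • y₀ = z) (hz : ∀ σ : GQ, σ • z = z)

/-- the set map `E_y → J₀(Mlev)(ℚ̄)`, `(m, a) ↦ π^* (m + a • y₀)`. -/
def jPull (e : Ext p r k) : JZero Mlev := levelPullback h (jmap r k y₀ e)

theorem jPull_smul [NeZero (r ^ k)] (σ : GQ) (e : Ext p r k) :
    jPull h y₀ (extAct r k (kum y₀ z hyz hz) σ e) = σ • jPull h y₀ e := by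
  unfold jPull
  rw [jmap_smul y₀ z hyz hz σ e, levelPullback_smul]

include hyz in
theorem jPull_add [NeZero (r ^ k)] (e e' : Ext p r k) :
    jPull h y₀ (e + e') + carry e.2 e'.2 • levelPullback h z =
      jPull h y₀ e + jPull h y₀ e' := by
  unfold jPull
  rw [← map_nsmul, ← map_add, jmap_add y₀ z hyz e e', map_add]

theorem jPull_inj_fibre
    (hinj : ∀ x : JZero p, (r ^ k) • x = 0 → levelPullback h x = 0 → x = 0)
    (e e' : Ext p r k) (h2 : e.2 = e'.2) (hj : jPull h y₀ e = jPull h y₀ e') : e = e' := by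
  refine jmap_inj_fibre y₀ e e' h2 ?_
  have hd : jmap r k y₀ e - jmap r k y₀ e' = ((e.1 - e'.1 : ↥(Mk p r k)) : JZero p) := by
    unfold jmap
    rw [h2, Submodule.coe_sub]
    abel
  have hk : (r ^ k) • (jmap r k y₀ e - jmap r k y₀ e') = 0 := by
    rw [hd]
    have := congrArg Subtype.val (pow_nsmul_eq_zero r k (e.1 - e'.1))
    rw [Submodule.coe_smul_of_tower, Submodule.coe_zero] at this
    exact this
  have h0 := hinj _ hk (by
    unfold jPull at hj
    rw [map_sub, hj, sub_self])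
  exact sub_eq_zero.mp h0

theorem jPull_zero_snd (x : ↥(Mk p r k)) :
    jPull h y₀ ((x, 0) : Ext p r k) = levelPullback h (x : JZero p) := by
  unfold jPull jmap
  rw [ZMod.val_zero, zero_nsmul, add_zero]

theorem jPull_zero : jPull h y₀ (0 : Ext p r k) = 0 := by
  have := jPull_zero_snd h y₀ (0 : ↥(Mk p r k))
  rw [Submodule.coe_zero, map_zero] at this
  exact this

end KummerPull

/-! ### The marks from curve + supply -/

/-- **`MarkStmt` at the level `k`, from CURVE + SUPPLY at a level `Mlev` divisible by `p`** on whose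
torsion `π^*` is injective. -/
theorem markStmt_of_curve_supply (p : ℕ) [NeZero p] (r : ℕ) [Fact r.Prime] (Mlev : ℕ) [NeZero Mlev]
    (hpM : p ∣ Mlev)
    (hpull : ∀ (m : ℕ), 0 < m → ∀ x : JZero p, m • x = 0 → levelPullback hpM x = 0 → x = 0)
    (K₁ : IntermediateField ℚ Qbar) [FiniteDimensional ℚ K₁]
    (hunr : UnramAtPlace (padicPlace r) K₁)
    [Algebra (OK K₁ (padicPlace r)) (FK Mlev K₁)]
    [IsScalarTower (OK K₁ (padicPlace r)) K₁ (FK Mlev K₁)]
    (B01 : Subalgebra (OK K₁ (padicPlace r)) (FK Mlev K₁))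
    {A0 A1 : Type} [CommRing A0] [CommRing A1]
    [Algebra (OK K₁ (padicPlace r)) A0] [Algebra (OK K₁ (padicPlace r)) A1]
    [Algebra A0 B01] [Algebra A1 B01]
    [IsScalarTower (OK K₁ (padicPlace r)) A0 B01] [IsScalarTower (OK K₁ (padicPlace r)) A1 B01]
    {t : A0} {s : A1}
    [IsLocalization.Away t B01] [IsLocalization.Away s B01]
    (H : Fermat.Agent.FFJ.Pic.ChartDefR35.CurveHypR (OK K₁ (padicPlace r)) A0 A1 B01 t s)
    (e : B01 →ₐ[OK K₁ (padicPlace r)] OK K₁ (padicPlace r))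
    (hfr : ∀ x : FK Mlev K₁, ∃ a ∈ B01, ∃ b ∈ B01, b ≠ 0 ∧ x * b = a)
    (S : letI := algebraOKA K₁ (padicPlace r);
      Set (B01 →ₐ[OK K₁ (padicPlace r)] ↥(padicPlace r)))
    (hSinf : letI := algebraOKA K₁ (padicPlace r)
      ((fun P : B01 →ₐ[OK K₁ (padicPlace r)] ↥(padicPlace r) =>
        IsLocalRing.residue ↥(padicPlace r) (P (algebraMap A1 B01 s))) '' S).Infinite)
    (hSunr : letI := algebraOKA K₁ (padicPlace r)
      ∀ P ∈ S, ∃ K' : IntermediateField ℚ Qbar, FiniteDimensional ℚ K' ∧ K₁ ≤ K' ∧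
        UnramAtPlace (padicPlace r) K' ∧ ∀ a, ((P a : ↥(padicPlace r)) : Qbar) ∈ K')
    (k : ℕ) :
    ∃ M₀ : AddSubgroup ↥(Mk p r k),
      MarkedModel r ↥(Mk p r k)
        (fun (τ : GQp r) (x : ↥(Mk p r k)) => localGaloisToGlobal r τ • x) M₀ ∧
      ∀ z : JZero p, (∀ σ : GQ, σ • z = z) → ∀ y : JZero p, (r ^ k) • y = z →
        ∀ c : GQ → ↥(Mk p r k), (∀ σ, (c σ : JZero p) = σ • y - y) →
          MarkedModel r (↥(Mk p r k) × ZMod (r ^ k))
            (fun (τ : GQp r) => extActN r k c (localGaloisToGlobal r τ))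
            (M₀.prod (⊥ : AddSubgroup (ZMod (r ^ k)))) := by
  have hr : r.Prime := Fact.out
  have hA := Fermat.Agent.TW.OrdLocal.PadicPlace97.padicPlace_liesOverPrime r
  haveI : NeZero (r ^ k) := ⟨pow_ne_zero k hr.ne_zero⟩
  haveI : Finite ↥(Mk p r k) :=
    Fermat.Agent.FFJ.Bridge.TorsionBridge96.finite_torsionBy p _
      (pow_ne_zero _ (by exact_mod_cast hr.ne_zero))
  -- the bridge on the whole of `J₀(Mlev)(ℚ̄)`
  obtain ⟨ι₁, hinj, hmem, hequiv⟩ :=
    Fermat.Agent.FFJ.Bridge.BridgeSubalgebra96.exists_bridge_subalgebra Mlev K₁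
      (OK K₁ (padicPlace r)) B01 H e hfr (AddMonoidHom.id (JZero Mlev)) Function.injective_id
      (fun _ _ => rfl)
  have hFib := Fermat.Agent.FFJ.Fib.FibR6.fibR H
  -- the module `J₀(p)[r^k]`
  have hpinj : Function.Injective (pullMk r k hpM) := by
    rw [injective_iff_map_eq_zero]
    intro x hx
    apply Subtype.ext
    rw [Submodule.coe_zero]
    exact hpull (r ^ k) (pow_pos hr.pos k) _ ((mem_Mk_iff r k).1 x.2) hx
  obtain ⟨M₀, hMM, hM₀⟩ := markedModel_of_bridge_comp r Mlev ↥(Mk p r k) (pullMk r k hpM) hpinj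
    (pullMk_smul r k hpM) K₁ hunr A0 A1 B01 t s H e ι₁ hinj hmem hequiv hFib S hSinf hSunr
  refine ⟨M₀, hMM, fun z hz y hy c hc => ?_⟩
  -- the extension module of the Kummer cocycle
  have hc' : c = kum y z hy hz := funext fun σ => Subtype.ext (hc σ)
  subst hc'
  have hcyc := isCocycle_kum y z hy hz
  letI : DistribMulAction GQ (Ext p r k) := extDistribMulAction r k (kum y z hy hz) hcyc
  have hactE : ∀ (σ : GQ) (x : ↥(Mk p r k) × ZMod (r ^ k)),
      σ • x = extActN r k (kum y z hy hz) σ x := fun _ _ => rfl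
  obtain ⟨K', hfd', hu', Hs, hHs, hcong⟩ := exists_order_carry_of_bridge_cong r Mlev (Ext p r k)
    (ZMod (r ^ k)) (AddMonoidHom.snd ↥(Mk p r k) (ZMod (r ^ k))) (fun _ _ => rfl)
    (jPull hpM y)
    (fun m m' hπ hj => jPull_inj_fibre hpM y
      (hpull (r ^ k) (pow_pos hr.pos k)) m m' hπ hj)
    (fun σ m => jPull_smul hpM y z hy hz σ m)
    (levelPullback hpM z)
    (fun σ => by rw [← levelPullback_smul hpM σ z, hz])
    carry
    (fun m m' => jPull_add hpM y z hy m m')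
    K₁ (padicPlace r) hA A0 A1 B01 t s H e ι₁ hinj hmem hequiv
    (fun hmem' hstab => by
      obtain ⟨K', hfd', hK, hu', h'⟩ := levelAdmissible_of_two_level_s r hr K₁ (padicPlace r) hA
        hunr A0 A1 B01 t s H e (Option (Ext p r k)) _ hmem' hstab hFib S hSinf hSunr
      letI := algebraOKOK hK (padicPlace r)
      haveI := isScalarTower_OKOK_Qbar hK (padicPlace r)
      exact ⟨K', hfd', hK, hu', h'.image⟩)
  haveI := hfd'
  refine markedModel_ext_of_cong r ↥(Mk p r k) (kum y z hy hz) hactE K₁ A0 A1 B01 t s H e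
    (fun x => ι₁ (Multiplicative.ofAdd (pullMk r k hpM x)))
    (ι₁ (Multiplicative.ofAdd (0 : JZero Mlev)))
    (jCl ι₁ (jPull hpM y)) ?_ ?_ (fun m => hmem _) hM₀ K' hu' Hs hHs
    (fun m m' ξ ξ' h1 h2 h3 h4 => hcong m m' ξ ξ' h1 h2 h3 h4)
  · intro x
    unfold jCl
    rw [jPull_zero_snd]
    rfl
  · unfold jCl
    rw [jPull_zero]

end Fermat.Agent.MAZ.Flat.MarkCurve37
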