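/-
Programme MAZ (S15), chapter K-FLAT: **K-FLAT directly at the level `p`** (insurance twin of
helper69's KF6; by-product of `MarkCurve37`).  Owner: helper37.

The extension module `E_c = J₀(p)[r^k] × ℤ/r^k` of the Kummer cocycle of a rational point `z = r^k y`
is mapped to `J₀(Mlev)(ℚ̄)`, `Mlev = auxLevel r p`, by the set map `(m, a) ↦ π^* (m + a • y)`
(`MarkCurve37.jPull`): equivariant, injective on the fibres of the projection to `ℤ/r^k` (`π^*` is
injective on torsion), additive up to the carry.  `CarryBridge69.geoInputNN_carry_of_bridge` with the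
two-level seam `TwoLevelExit78.literal_of_two_level_s` gives a function order on `E_c`, hence
`GSpec26.FlatAtR r k (σ ↦ σ y - y)`; the curve data come from `GeoElim75`.

* `geoInputNN_ext_of_curve_supply` : CURVE + SUPPLY at a level `Mlev` divisible by `p` ⇒
  `GeoInputNN r E_c`;
* **`flatAtR_kum`** : `¬ r ∣ p → (r ^ k) • y = z → (∀ σ, σ • z = z) → FlatAtR r k (σ ↦ σ • y - y)`;
* `kFlat_univ` : `KummerInst26.KFlat p r A` for every set `A` of rational points.
-/
import Mathlib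
import Fermat.Agent.MAZ.Flat.MarkCurve37
import Fermat.Agent.MAZ.Flat.TwoLevelExit78
import Fermat.Agent.FFJ.Spec.GeoElim75

set_option autoImplicit false
set_option linter.style.haveILetI false
set_option linter.unusedSectionVars false
set_option linter.unusedVariables false
set_option maxHeartbeats 2000000

noncomputable section

namespace Fermat.Agent.MAZ.Flat.KFlatCurve37

open scoped TensorProduct
open ModularCurve
open Fermat.Agent.JAC.Core.Defs36 Fermat.Agent.FFJ.Core.ClR35 Fermat.Agent.FFJ.Core.ClRBc35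
  Fermat.Agent.TW.FF.FunOrder68 Fermat.Agent.FFJ.Spec.Spec35 Fermat.Agent.S19.Shell64
  Fermat.Agent.FFJ.Alg.Spec78 Fermat.Agent.FFJ.Alg.SpecLocal78 Fermat.Agent.FFJ.Alg.SpecNN78
  Fermat.Agent.TW.FF.FlatModel68 Fermat.Agent.FFJ.Order.GeoWire77
  Fermat.Agent.FFJ.Order.GeoWireOne77 Fermat.Agent.FFJ.Pic.SpecD35
  Fermat.Agent.MAZ.Flat.MarkCurve37
  Fermat.Agent.MAZ.Flat.KummerSet69 Fermat.Agent.MAZ.Flat.CarryBridge69
  Fermat.Agent.MAZ.Flat.TwoLevelExit78
  Fermat.Agent.MAZ.Spec.GSpec26 Fermat.Agent.MAZ.Desc.KummerInst26 Fermat.Agent.MAZ.Desc.FlatAdm68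
  Fermat.Agent.ES.HECKE.LevelPullback12 Fermat.Agent.ES.RED.PullbackInj12
  Fermat.Agent.TW.OrdLocal.PadicPlace97
  Fermat.Agent.FFJ.Spec.GeoElim75 Fermat.Agent.FFJ.Spec.GeoElimRungs75
open Fermat.Agent.RED.Interface4 (FK auxLevel dvd_auxLevel not_dvd_auxLevel)

attribute [local instance 2000] SubalgebraClass.toAlgebra

/-- **K-FLAT from CURVE + SUPPLY at a level `Mlev` divisible by `p`** on whose torsion `π^*` is
injective (binder list of `Geo72.geoInputNN_of_curve_supply`). -/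
theorem geoInputNN_ext_of_curve_supply (p : ℕ) [NeZero p] (l : ℕ) (hl : l.Prime) (r k : ℕ)
    [NeZero (r ^ k)] (Mlev : ℕ) [NeZero Mlev] (hpM : p ∣ Mlev)
    (hpull : ∀ x : JZero p, (r ^ k) • x = 0 → levelPullback hpM x = 0 → x = 0)
    (K₁ : IntermediateField ℚ Qbar) [FiniteDimensional ℚ K₁] (A : ValuationSubring Qbar)
    (hA : A.LiesOverPrime l) (hunr : UnramAtPlace A K₁)
    [Algebra (OK K₁ A) (FK Mlev K₁)] [IsScalarTower (OK K₁ A) K₁ (FK Mlev K₁)]
    (B01 : Subalgebra (OK K₁ A) (FK Mlev K₁))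
    {A0 A1 : Type} [CommRing A0] [CommRing A1]
    [Algebra (OK K₁ A) A0] [Algebra (OK K₁ A) A1] [Algebra A0 B01] [Algebra A1 B01]
    [IsScalarTower (OK K₁ A) A0 B01] [IsScalarTower (OK K₁ A) A1 B01] {t : A0} {s : A1}
    [IsLocalization.Away t B01] [IsLocalization.Away s B01]
    (H : Fermat.Agent.FFJ.Pic.ChartDefR35.CurveHypR (OK K₁ A) A0 A1 B01 t s)
    (e : B01 →ₐ[OK K₁ A] OK K₁ A)
    (hfr : ∀ x : FK Mlev K₁, ∃ a ∈ B01, ∃ b ∈ B01, b ≠ 0 ∧ x * b = a)
    (S : letI := algebraOKA K₁ A; Set (B01 →ₐ[OK K₁ A] ↥A))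
    (hSinf : letI := algebraOKA K₁ A
      ((fun P : B01 →ₐ[OK K₁ A] ↥A =>
        IsLocalRing.residue ↥A (P (algebraMap A1 B01 s))) '' S).Infinite)
    (hSunr : letI := algebraOKA K₁ A
      ∀ P ∈ S, ∃ K' : IntermediateField ℚ Qbar, FiniteDimensional ℚ K' ∧ K₁ ≤ K' ∧
        UnramAtPlace A K' ∧ ∀ a, ((P a : ↥A) : Qbar) ∈ K')
    (y z : JZero p) (hy : (r ^ k) • y = z) (hz : ∀ σ : GQ, σ • z = z) :
    letI := extDistribMulAction r k (kum y z hy hz) (isCocycle_kum y z hy hz)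
    GeoInputNN l (Ext p r k) := by
  letI : DistribMulAction GQ (Ext p r k) :=
    extDistribMulAction r k (kum y z hy hz) (isCocycle_kum y z hy hz)
  haveI : Finite ↥(Mk p r k) :=
    Fermat.Agent.FFJ.Bridge.TorsionBridge96.finite_torsionBy p _
      (by exact_mod_cast (NeZero.ne (r ^ k)))
  obtain ⟨ι₁, hinj, hmem, hequiv⟩ :=
    Fermat.Agent.FFJ.Bridge.BridgeSubalgebra96.exists_bridge_subalgebra Mlev K₁
      (OK K₁ A) B01 H e hfr (AddMonoidHom.id (JZero Mlev)) Function.injective_id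
      (fun _ _ => rfl)
  exact geoInputNN_carry_of_bridge l Mlev (Ext p r k)
    (ZMod (r ^ k)) (AddMonoidHom.snd ↥(Mk p r k) (ZMod (r ^ k))) (fun _ _ => rfl)
    (jPull hpM y)
    (fun m m' hπ hj => jPull_inj_fibre hpM y hpull m m' hπ hj)
    (fun σ m => jPull_smul hpM y z hy hz σ m)
    (levelPullback hpM z)
    (fun σ => by rw [← levelPullback_smul hpM σ z, hz])
    carry
    (fun m m' => jPull_add hpM y z hy m m')
    K₁ A hA A0 A1 B01 t s H e ι₁ hinj hmem hequiv
    (fun h1 h2 => literal_of_two_level_s l hl K₁ A hA hunr A0 A1 B01 t s H e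
      (Option (Ext p r k)) _ h1 h2 (Fermat.Agent.FFJ.Fib.FibR6.fibR H) S hSinf hSunr)

/-- **K-FLAT**: for every prime `r ∤ p`, every level `k` and every rational point `z = r^k • y` of
`J₀(p)`, the Kummer cocycle `σ ↦ σ y - y` is flat at `r`. -/
theorem flatAtR_kum (p : ℕ) [NeZero p] (r : ℕ) [Fact r.Prime] (hrp : ¬ r ∣ p) (k : ℕ)
    (y z : JZero p) (hy : (r ^ k) • y = z) (hz : ∀ σ : GQ, σ • z = z) :
    FlatAtR r k (fun σ : GQ => σ • y - y) := by
  have hr : r.Prime := Fact.out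
  haveI : NeZero (r ^ k) := ⟨pow_ne_zero k hr.ne_zero⟩
  haveI := Fermat.Agent.RED.LVL.LevelDegree17.neZero_auxLevel r p
  have hrM : ¬ r ∣ auxLevel r p := not_dvd_auxLevel hr hrp
  have hA := padicPlace_liesOverPrime r
  refine flatAtR_of_geoInputNN r k _ (kum y z hy hz) (fun σ => rfl) (isCocycle_kum y z hy hz) ?_
  letI : DistribMulAction GQ (Ext p r k) :=
    extDistribMulAction r k (kum y z hy hz) (isCocycle_kum y z hy hz)
  have hcont : ∀ (K₁ : IntermediateField ℚ Fermat.Agent.FFJ.Alg.Spec78.Qbar)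
      (_ : FiniteDimensional ℚ K₁) (_ : UnramAtPlace (padicPlace r) K₁),
      ContAt (auxLevel r p) K₁ (padicPlace r) (GeoInputNN r (Ext p r k)) := by
    intro K₁ hfd hunr
    haveI := hfd
    intro i1 i2 B01 A0 A1 i3 i4 i5 i6 i7 i8 i9 i10 t s i11 i12 H e hfr S hSinf hSunr
    exact geoInputNN_ext_of_curve_supply p r hr r k (auxLevel r p) (dvd_auxLevel r p)
      (fun x hmx hx => levelPullback_auxLevel_eq_zero r p (r ^ k) (pow_pos hr.pos k) x hmx hx)
      K₁ (padicPlace r) hA hunr B01 H e hfr S hSinf hSunr y z hy hz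
  by_cases h2 : r = 2
  · have h9 : 9 ∣ auxLevel r p := by
      unfold auxLevel
      rw [if_pos h2]
      exact Nat.dvd_lcm_right _ _
    exact geo_elim_nine (auxLevel r p) h9 r hrM hcont
  · have h4 : 4 ∣ auxLevel r p := by
      unfold auxLevel
      rw [if_neg h2]
      exact Nat.dvd_lcm_right _ _
    exact geo_elim_four (auxLevel r p) h4 r hrM hcont

/-- **K-FLAT in the shape of `KummerInst26.KFlat`**, for every set of rational points. -/
theorem kFlat_univ (p : ℕ) [NeZero p] (r : ℕ) [Fact r.Prime] (hrp : ¬ r ∣ p) (A : Set (JZero p))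
    (hA : ∀ z ∈ A, ∀ σ : GQ, σ • z = z) : KFlat p r A := by
  intro k z hzA y hy c hc
  obtain ⟨c', hc', hmod⟩ := flatAtR_kum p r hrp k y z hy (hA z hzA)
  have hcc : c' = c := funext fun σ => Subtype.ext ((hc' σ).trans (hc σ).symm)
  subst hcc
  exact hmod

end Fermat.Agent.MAZ.Flat.KFlatCurve37
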