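/-
Programme MAZ (S15), G-side, chapter K-FLAT (owner helper69), brick KF6-a, DECLARED BACKUP
(helper92): **the function order of the Kummer extension module from CURVE + SUPPLY.**

Binder list of `Geo72.geoInputNN_of_curve_supply` (= `GeoElimRungs75.ContAt`) at a level `Mlev`, a
place `A` over the prime `r`, a point `y₀` of `J₀(Mlev)(ℚ̄)` with `r^k y₀ = z` rational.  ONE bridge
`ι₁ : J₀(Mlev)(ℚ̄) → PicZeroR e ℚ̄` (`BridgeSubalgebra96` at `T := JZero Mlev`, `f := id`), the set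
map `KummerSet69.jmap` with its carry, the two-level seam for the family `Option E`
(`TwoLevelExit78.literal_of_two_level_s`) and `CarryBridge69.geoInputNN_carry_of_bridge` give
`SpecNN78.GeoInputNN r (Ext Mlev r k)` for the extension module of the Kummer cocycle of `y₀`
(the K-twin of `Geo72.geoInputNN_of_curve_supply`), hence `GSpec26.FlatAtR r k (σ ↦ σ y₀ - y₀)` at the
level `Mlev`.  (Finiteness of `J₀(Mlev)[r^k]` is an instance binder; `TorsionBridge96.finite_torsionBy`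
supplies it.)
-/
import Mathlib
import Fermat.Agent.MAZ.Flat.CarryBridge69
import Fermat.Agent.MAZ.Flat.TwoLevelExit78
import Fermat.Agent.MAZ.Flat.KummerSet69
import Fermat.Agent.FFJ.Bridge.BridgeSubalgebra96
import Fermat.Agent.FFJ.Fib.FibR6

set_option autoImplicit false
set_option linter.style.haveILetI false
set_option linter.unusedSectionVars false
set_option linter.unusedVariables false
set_option maxHeartbeats 2000000

noncomputable section

namespace Fermat.Agent.MAZ.Flat.KFlatCurve92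

open scoped TensorProduct
open ModularCurve
open Fermat.Agent.JAC.Core.Defs36 Fermat.Agent.FFJ.Core.ClR35 Fermat.Agent.FFJ.Core.ClRBc35
  Fermat.Agent.TW.FF.FunOrder68 Fermat.Agent.FFJ.Spec.Spec35 Fermat.Agent.S19.Shell64
  Fermat.Agent.FFJ.Alg.Spec78 Fermat.Agent.FFJ.Alg.SpecLocal78 Fermat.Agent.FFJ.Alg.SpecNN78
  Fermat.Agent.TW.FF.FlatModel68 Fermat.Agent.FFJ.Order.GeoWire77
  Fermat.Agent.FFJ.Order.GeoWireOne77 Fermat.Agent.FFJ.Pic.SpecD35
  Fermat.Agent.FFJ.Pic.LevelInst85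
  Fermat.Agent.MAZ.Flat.KummerSet69 Fermat.Agent.MAZ.Flat.CarryBridge69
  Fermat.Agent.MAZ.Flat.CarryGeo69
  Fermat.Agent.MAZ.Spec.GSpec26
  Fermat.Agent.FFJ.Pic.BaseEquiv85 Fermat.Agent.FFJ.Pic.LevelIota85
open Fermat.Agent.RED.Interface4 (FK)

attribute [local instance 2000] SubalgebraClass.toAlgebra

/-- **KF6-a: CURVE + SUPPLY ⇒ `GeoInputNN` for the Kummer extension module** (the K-twin of
`Geo72.geoInputNN_of_curve_supply`; the continuation shape of `GeoElimRungs75.ContAt`). -/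
theorem geoInputNN_kum_of_curve_supply (r : ℕ) [Fact r.Prime] (Mlev : ℕ) [NeZero Mlev] (k : ℕ)
    [NeZero (r ^ k)] [Finite ↥(Mk Mlev r k)]
    (y₀ z : JZero Mlev) (hyz : (r ^ k) • y₀ = z) (hz : ∀ σ : GQ, σ • z = z)
    (K₁ : IntermediateField ℚ Qbar) [FiniteDimensional ℚ K₁] (A : ValuationSubring Qbar)
    (hA : A.LiesOverPrime r) (hunr : UnramAtPlace A K₁)
    [Algebra (OK K₁ A) (FK Mlev K₁)] [IsScalarTower (OK K₁ A) K₁ (FK Mlev K₁)]
    (B01 : Subalgebra (OK K₁ A) (FK Mlev K₁))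
    {A0 A1 : Type} [CommRing A0] [CommRing A1]
    [Algebra (OK K₁ A) A0] [Algebra (OK K₁ A) A1] [Algebra A0 B01] [Algebra A1 B01]
    [IsScalarTower (OK K₁ A) A0 B01] [IsScalarTower (OK K₁ A) A1 B01] {t : A0} {s : A1}
    [IsLocalization.Away t B01] [IsLocalization.Away s B01]
    (H : Fermat.Agent.FFJ.Pic.ChartDefR35.CurveHypR (OK K₁ A) A0 A1 B01 t s)
    (e : B01 →ₐ[OK K₁ A] OK K₁ A)
    (hfr : ∀ x : FK Mlev K₁, ∃ a ∈ B01, ∃ b ∈ B01, b ≠ 0 ∧ x * b = a)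
    (S : letI := algebraOKA K₁ A; Set (B01 →ₐ[OK K₁ A] ↥A))
    (hSinf : letI := algebraOKA K₁ A
      ((fun P : B01 →ₐ[OK K₁ A] ↥A =>
        IsLocalRing.residue ↥A (P (algebraMap A1 B01 s))) '' S).Infinite)
    (hSunr : letI := algebraOKA K₁ A
      ∀ P ∈ S, ∃ K' : IntermediateField ℚ Qbar, FiniteDimensional ℚ K' ∧ K₁ ≤ K' ∧
        UnramAtPlace A K' ∧ ∀ a, ((P a : ↥A) : Qbar) ∈ K') :
    letI := extDistribMulAction r k (kum y₀ z hyz hz) (isCocycle_kum y₀ z hyz hz)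
    GeoInputNN r (Ext Mlev r k) := by
  have hr : r.Prime := Fact.out
  letI := extDistribMulAction r k (kum y₀ z hyz hz) (isCocycle_kum y₀ z hyz hz)
  -- the bridge on the whole of `J₀(Mlev)(ℚ̄)`
  obtain ⟨ι₁, hinj, hmem, hequiv⟩ :=
    Fermat.Agent.FFJ.Bridge.BridgeSubalgebra96.exists_bridge_subalgebra Mlev K₁
      (OK K₁ A) B01 H e hfr (AddMonoidHom.id (JZero Mlev)) Function.injective_id
      (fun _ _ => rfl)
  exact geoInputNN_carry_of_bridge r Mlev (Ext Mlev r k) (ZMod (r ^ k))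
    (AddMonoidHom.snd ↥(Mk Mlev r k) (ZMod (r ^ k))) (fun _ _ => rfl)
    (jmap r k y₀)
    (fun m m' hπ hj => jmap_inj_fibre y₀ m m' hπ hj)
    (fun σ m => jmap_smul y₀ z hyz hz σ m)
    z hz carry
    (fun m m' => jmap_add y₀ z hyz m m')
    K₁ A hA A0 A1 B01 t s H e ι₁ hinj hmem hequiv
    (fun h1 h2 => Fermat.Agent.MAZ.Flat.TwoLevelExit78.literal_of_two_level_s r hr K₁ A hA hunr
      A0 A1 B01 t s H e (Option (Ext Mlev r k)) _ h1 h2 (Fermat.Agent.FFJ.Fib.FibR6.fibR H) S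
      hSinf hSunr)

/-- **KF6-a, `FlatAtR` form**: CURVE + SUPPLY at the level `Mlev` ⇒ K-FLAT for the Kummer cocycle of
`y₀` at the level `Mlev`. -/
theorem flatAtR_kum_of_curve_supply (r : ℕ) [Fact r.Prime] (Mlev : ℕ) [NeZero Mlev] (k : ℕ)
    [Finite ↥(Mk Mlev r k)]
    (y₀ z : JZero Mlev) (hyz : (r ^ k) • y₀ = z) (hz : ∀ σ : GQ, σ • z = z)
    (K₁ : IntermediateField ℚ Qbar) [FiniteDimensional ℚ K₁] (A : ValuationSubring Qbar)
    (hA : A.LiesOverPrime r) (hunr : UnramAtPlace A K₁)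
    [Algebra (OK K₁ A) (FK Mlev K₁)] [IsScalarTower (OK K₁ A) K₁ (FK Mlev K₁)]
    (B01 : Subalgebra (OK K₁ A) (FK Mlev K₁))
    {A0 A1 : Type} [CommRing A0] [CommRing A1]
    [Algebra (OK K₁ A) A0] [Algebra (OK K₁ A) A1] [Algebra A0 B01] [Algebra A1 B01]
    [IsScalarTower (OK K₁ A) A0 B01] [IsScalarTower (OK K₁ A) A1 B01] {t : A0} {s : A1}
    [IsLocalization.Away t B01] [IsLocalization.Away s B01]
    (H : Fermat.Agent.FFJ.Pic.ChartDefR35.CurveHypR (OK K₁ A) A0 A1 B01 t s)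
    (e : B01 →ₐ[OK K₁ A] OK K₁ A)
    (hfr : ∀ x : FK Mlev K₁, ∃ a ∈ B01, ∃ b ∈ B01, b ≠ 0 ∧ x * b = a)
    (S : letI := algebraOKA K₁ A; Set (B01 →ₐ[OK K₁ A] ↥A))
    (hSinf : letI := algebraOKA K₁ A
      ((fun P : B01 →ₐ[OK K₁ A] ↥A =>
        IsLocalRing.residue ↥A (P (algebraMap A1 B01 s))) '' S).Infinite)
    (hSunr : letI := algebraOKA K₁ A
      ∀ P ∈ S, ∃ K' : IntermediateField ℚ Qbar, FiniteDimensional ℚ K' ∧ K₁ ≤ K' ∧
        UnramAtPlace A K' ∧ ∀ a, ((P a : ↥A) : Qbar) ∈ K') :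
    FlatAtR (p := Mlev) r k (fun σ => σ • y₀ - y₀) := by
  have hr : r.Prime := Fact.out
  haveI : NeZero (r ^ k) := ⟨pow_ne_zero k hr.ne_zero⟩
  exact flatAtR_of_geoInputNN r k _ (kum y₀ z hyz hz) (fun σ => rfl) (isCocycle_kum y₀ z hyz hz)
    (geoInputNN_kum_of_curve_supply r Mlev k y₀ z hyz hz K₁ A hA hunr B01 H e hfr S hSinf hSunr)

end Fermat.Agent.MAZ.Flat.KFlatCurve92
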