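/-
Programme MAZ (S15), marks at the prime `r = 2`, brick M7.  Owner: helper37.

**From a global function order to a local marked order.**

`D ⊆ Fun(M, ℚ̄)` a function order over `ℤ_(p)` for `G_ℚ` (what the chapters GEO + ALG of programme FFJ
deliver: `MainNNCong37.exists_descentOrder_cong`).  Its base change

  `locAlg D = ℤ_p · (ι ∘ D) ⊆ Fun(M, ℚ̄_p)`,   `ι = padicEmbedding p`,

is a function order over `ℤ_p` for `Gal(ℚ̄_p/ℚ_p)` acting on `M` through `localGaloisToGlobal p`
(`isFunOrder_locAlg`), and two points are congruent for `locAlg D` (`Red68.Cong`) iff they are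
congruent for `D` modulo the maximal ideal of the standard place `padicPlace p` (`cong_locAlg_iff`).
In particular `Red68.conn` of the local order is the kernel of reduction of `D` at `padicPlace p`
(`mem_conn_locAlg_iff`, `exists_markedOrder`): this is `MarkedModel` of helper68's `Mark68`, unfolded.
-/
import Mathlib
import Fermat.Agent.TW.FF.Red68
import Fermat.Agent.TW.FF.LocalOfGlobal68

set_option autoImplicit false
set_option linter.style.haveILetI false

noncomputable section

open scoped TensorProduct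

namespace Fermat.Agent.MAZ.Flat.MarkBridge37

open Fermat.Agent.S19.Shell64 Fermat.Agent.TW.FF.FunOrder68 Fermat.Agent.TW.FF.FlatModel68
open Fermat.Agent.TW.FF.LocalOfGlobal68 Fermat.Agent.TW.FF.Red68

local notation "Qb" => AlgebraicClosure ℚ

variable {p : ℕ} [Fact p.Prime]

/-! ### The standard place -/

/-- Membership in the maximal ideal of `padicPlace p` in terms of the norm. -/
theorem mem_nonunits_padicPlace_iff' (x : Qb) :
    x ∈ (padicPlace p).nonunits ↔ ‖padicEmbedding p x‖ < 1 := by
  rw [ValuationSubring.mem_nonunits_iff]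
  by_cases hx : x = 0
  · subst hx
    rw [map_zero, map_zero, norm_zero]
    exact ⟨fun _ => one_pos, fun _ => zero_lt_one⟩
  have hιx : padicEmbedding p x ≠ 0 := by
    rw [Ne, map_eq_zero]
    exact hx
  have h1 : (padicPlace p).valuation x < 1 ↔ x⁻¹ ∉ padicPlace p := by
    rw [← (padicPlace p).valuation_le_one_iff, map_inv₀, not_le, one_lt_inv₀]
    exact zero_lt_iff.mpr ((map_ne_zero _).mpr hx)
  rw [h1, mem_padicPlace_iff, map_inv₀, nnnorm_inv, not_le, ← NNReal.coe_lt_coe, NNReal.coe_one,
    NNReal.coe_inv, coe_nnnorm, one_lt_inv₀ (norm_pos_iff.mpr hιx)]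

/-! ### The base change of a global order -/

section LocAlg

variable {M : Type}

/-- composition with `ι : ℚ̄ → ℚ̄_p`. -/
def embFun : (M → Qb) →ₐ[Zloc p] (M → PadicAlgCl p) := (emb p).compLeft M

@[simp] theorem embFun_apply (g : M → Qb) (m : M) :
    embFun (p := p) g m = padicEmbedding p (g m) := rfl

variable (D : Subalgebra (Zloc p) (M → Qb))

/-- `ℤ_p ⊗ D → Fun(M, ℚ̄_p)`. -/
def locMap : ℤ_[p] ⊗[Zloc p] D →ₐ[ℤ_[p]] (M → PadicAlgCl p) :=
  Algebra.TensorProduct.lift (Algebra.ofId ℤ_[p] (M → PadicAlgCl p))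
    ((embFun (p := p)).comp D.val) (fun _ _ => Commute.all _ _)

theorem locMap_tmul (z : ℤ_[p]) (g : D) (m : M) :
    locMap D (z ⊗ₜ g) m = algebraMap ℤ_[p] (PadicAlgCl p) z * padicEmbedding p ((g : M → Qb) m) := by
  simp [locMap, Algebra.ofId_apply]

theorem locMap_one_tmul (g : D) (m : M) :
    locMap D ((1 : ℤ_[p]) ⊗ₜ g) m = padicEmbedding p ((g : M → Qb) m) := by
  rw [locMap_tmul, map_one, one_mul]

/-- **the local order**: the `ℤ_p`-span of `ι ∘ D`. -/
def locAlg : Subalgebra ℤ_[p] (M → PadicAlgCl p) := (locMap D).range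

theorem mem_locAlg {f : M → PadicAlgCl p} : f ∈ locAlg D ↔ ∃ t, locMap D t = f := AlgHom.mem_range (locMap D)

theorem embFun_mem_locAlg {g : M → Qb} (hg : g ∈ D) : embFun (p := p) g ∈ locAlg D := by
  rw [mem_locAlg]
  refine ⟨(1 : ℤ_[p]) ⊗ₜ ⟨g, hg⟩, ?_⟩
  funext m
  rw [locMap_one_tmul, embFun_apply]

end LocAlg

/-! ### The local order is a function order -/

section Order

variable {M : Type} [AddCommGroup M] [DistribMulAction GQ M]

/-- the local Galois group acts on `M` through `localGaloisToGlobal p`. -/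
@[reducible] def locAction : MulAction (GQp p) M := MulAction.compHom M (localGaloisToGlobal p)

theorem locAction_smul (τ : GQp p) (m : M) :
    @HSMul.hSMul (GQp p) M M (@instHSMul _ _ (locAction (p := p) (M := M)).toSMul) τ m =
      localGaloisToGlobal p τ • m := rfl

variable (D : Subalgebra (Zloc p) (M → Qb))

theorem map_algebraMap_padicInt (τ : GQp p) (z : ℤ_[p]) :
    τ (algebraMap ℤ_[p] (PadicAlgCl p) z) = algebraMap ℤ_[p] (PadicAlgCl p) z := by
  rw [IsScalarTower.algebraMap_apply ℤ_[p] ℚ_[p] (PadicAlgCl p), AlgEquiv.commutes]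

variable {D}

/-- **the base change of a global function order is a local function order.** -/
theorem isFunOrder_locAlg (hD : IsFunOrder (Zloc p) ℚ D) :
    @IsFunOrder ℤ_[p] ℚ_[p] (PadicAlgCl p) M _ _ _ _ _ _ (locAction (p := p) (M := M))
      (locAlg D) := by
  letI := locAction (p := p) (M := M)
  refine ⟨?_, ?_, ?_, ?_⟩
  · -- finiteness
    haveI := hD.finite
    exact Module.Finite.of_surjective (locMap D).rangeRestrict.toLinearMap
      (AlgHom.rangeRestrict_surjective _)
  · -- equivariance
    intro h hh τ m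
    obtain ⟨t, rfl⟩ := (mem_locAlg D).mp hh
    induction t using TensorProduct.induction_on with
    | zero => simp
    | tmul z g =>
      rw [locMap_tmul, locMap_tmul, map_mul, map_algebraMap_padicInt]
      congr 1
      have h1 : (g : M → Qb) (τ • m) = localGaloisToGlobal p τ ((g : M → Qb) m) :=
        hD.equivariant _ g.2 (localGaloisToGlobal p τ) m
      rw [h1, padicEmbedding_localGaloisToGlobal]
    | add x y hx hy =>
      rw [map_add, Pi.add_apply, Pi.add_apply, map_add, hx ⟨x, rfl⟩, hy ⟨y, rfl⟩]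
  · -- separation
    intro m m' hmm
    obtain ⟨g, hg, hne⟩ := hD.separates m m' hmm
    refine ⟨embFun (p := p) g, embFun_mem_locAlg D hg, ?_⟩
    rw [embFun_apply, embFun_apply]
    exact fun h => hne ((padicEmbedding p).injective h)
  · -- comultiplication
    intro h hh
    obtain ⟨t, rfl⟩ := (mem_locAlg D).mp hh
    induction t using TensorProduct.induction_on with
    | zero => exact ⟨0, Fin.elim0, Fin.elim0, fun m m' => by simp⟩
    | tmul z g =>
      obtain ⟨n, a, b, hab⟩ := hD.comul _ g.2
      refine ⟨n, fun i => ⟨locMap D (z ⊗ₜ a i), (mem_locAlg D).mpr ⟨_, rfl⟩⟩,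
        fun i => ⟨locMap D ((1 : ℤ_[p]) ⊗ₜ b i), (mem_locAlg D).mpr ⟨_, rfl⟩⟩, fun m m' => ?_⟩
      rw [locMap_tmul, hab m m', map_sum, Finset.mul_sum]
      refine Finset.sum_congr rfl fun i _ => ?_
      show _ = locMap D (z ⊗ₜ a i) m * locMap D ((1 : ℤ_[p]) ⊗ₜ b i) m'
      rw [locMap_tmul, locMap_one_tmul, map_mul, mul_assoc]
    | add x y hx hy =>
      obtain ⟨n, a, b, hab⟩ := hx ⟨x, rfl⟩
      obtain ⟨n', a', b', hab'⟩ := hy ⟨y, rfl⟩
      refine ⟨n + n', Fin.append a a', Fin.append b b', fun m m' => ?_⟩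
      rw [map_add, Pi.add_apply, hab m m', hab' m m', Fin.sum_univ_add]
      simp

/-! ### The congruences of the local order -/

omit [AddCommGroup M] [DistribMulAction GQ M] in
/-- **two points are congruent for the local order iff they are congruent for the global order
modulo the maximal ideal of the standard place.** -/
theorem cong_locAlg_iff (m m' : M) :
    Cong (locAlg D) m m' ↔ ∀ g ∈ D, g m - g m' ∈ (padicPlace p).nonunits := by
  constructor
  · intro h g hg
    have h1 := h _ (embFun_mem_locAlg D hg)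
    rw [embFun_apply, embFun_apply, ← map_sub] at h1
    exact (mem_nonunits_padicPlace_iff' _).mpr h1
  · intro h f hf
    obtain ⟨t, rfl⟩ := (mem_locAlg D).mp hf
    induction t using TensorProduct.induction_on with
    | zero => simp
    | tmul z g =>
      rw [locMap_tmul, locMap_tmul, ← mul_sub, ← map_sub, norm_mul]
      have h1 : ‖padicEmbedding p ((g : M → Qb) m - (g : M → Qb) m')‖ < 1 :=
        (mem_nonunits_padicPlace_iff' _).mp (h _ g.2)
      have h2 := Fermat.Agent.TW.FF.RigidOmega92.norm_algebraMap_padicInt_le p z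
      nlinarith [norm_nonneg (algebraMap ℤ_[p] (PadicAlgCl p) z),
        norm_nonneg (padicEmbedding p ((g : M → Qb) m - (g : M → Qb) m'))]
    | add x y hx hy =>
      have e : (locMap D (x + y)) m - (locMap D (x + y)) m' =
          (locMap D x m - locMap D x m') + (locMap D y m - locMap D y m') := by
        rw [map_add, Pi.add_apply, Pi.add_apply]
        ring
      rw [e]
      exact lt_of_le_of_lt (IsUltrametricDist.norm_add_le_max _ _)
        (max_lt (hx ⟨x, rfl⟩) (hy ⟨y, rfl⟩))

/-- the kernel of reduction of the local order. -/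
theorem mem_conn_locAlg_iff (hD : IsFunOrder (Zloc p) ℚ D) (m : M) :
    m ∈ @conn p _ M (locAlg D) _ (locAction (p := p) (M := M)) (isFunOrder_locAlg hD) ↔
      ∀ g ∈ D, g m - g 0 ∈ (padicPlace p).nonunits :=
  cong_locAlg_iff m 0

/-- **M7**: a global function order over `ℤ_(p)` gives a local marked order, whose kernel of
reduction is the kernel of reduction of the global order at the standard place. -/
theorem exists_markedOrder (hD : IsFunOrder (Zloc p) ℚ D) :
    ∃ (_ : MulAction (GQp p) M) (H : Subalgebra ℤ_[p] (M → PadicAlgCl p))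
      (hH : IsFunOrder ℤ_[p] ℚ_[p] H),
      (∀ (τ : GQp p) (m : M), τ • m = localGaloisToGlobal p τ • m) ∧
      (∀ m m' : M, Cong H m m' ↔ ∀ g ∈ D, g m - g m' ∈ (padicPlace p).nonunits) ∧
      ∀ m : M, m ∈ conn hH ↔ ∀ g ∈ D, g m - g 0 ∈ (padicPlace p).nonunits :=
  ⟨locAction (p := p) (M := M), locAlg D, isFunOrder_locAlg hD, fun _ _ => rfl,
    fun m m' => cong_locAlg_iff m m', fun m => mem_conn_locAlg_iff hD m⟩

/-- **the mark of a global function order**: its kernel of reduction at the standard place, as a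
subgroup of `M`. -/
def markOf (hD : IsFunOrder (Zloc p) ℚ D) : AddSubgroup M :=
  @conn p _ M (locAlg D) _ (locAction (p := p) (M := M)) (isFunOrder_locAlg hD)

theorem mem_markOf_iff (hD : IsFunOrder (Zloc p) ℚ D) (m : M) :
    m ∈ markOf hD ↔ ∀ g ∈ D, g m - g 0 ∈ (padicPlace p).nonunits :=
  mem_conn_locAlg_iff hD m

/-- the mark is stable under the decomposition group of the standard place. -/
theorem smul_mem_markOf (hD : IsFunOrder (Zloc p) ℚ D) (τ : GQp p) {m : M} (hm : m ∈ markOf hD) :
    localGaloisToGlobal p τ • m ∈ markOf hD := by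
  letI := locAction (p := p) (M := M)
  have h1 : Cong (locAlg D) (τ • m) (τ • (0 : M)) := Cong.smul (isFunOrder_locAlg hD) τ hm
  have h2 : (τ • (0 : M)) = 0 := smul_zero (localGaloisToGlobal p τ)
  rw [h2] at h1
  exact h1

/-- **M7, subgroup form** (`MarkedModel` unfolded, with the mark `markOf hD`). -/
theorem exists_markedOrder_markOf (hD : IsFunOrder (Zloc p) ℚ D) :
    ∃ (_ : MulAction (GQp p) M) (H : Subalgebra ℤ_[p] (M → PadicAlgCl p))
      (hH : IsFunOrder ℤ_[p] ℚ_[p] H),
      (∀ (τ : GQp p) (m : M), τ • m = localGaloisToGlobal p τ • m) ∧ conn hH = markOf hD :=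
  ⟨locAction (p := p) (M := M), locAlg D, isFunOrder_locAlg hD, fun _ _ => rfl, rfl⟩

end Order

end Fermat.Agent.MAZ.Flat.MarkBridge37
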