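/-
Programme MAZ (S15), marks at the prime `r = 2`: the K-FLAT-side exit with marks (helper37's FILE 2
of the architecture of `LevelDualInstM2.MarkStmt`; this brick: helper92).

Binders of `CarryBridge69.geoInputNN_carry_of_bridge` (curve + BRIDGE `ι₁` on ALL of `J₀(M)(ℚ̄)` at
the level `O₁ = A ∩ K₁`, an extension module `E` with invariant projection `π : E →+ C` and an
equivariant set map `jJ : E → J₀(M)(ℚ̄)` with carry).

* `exists_order_carry_of_bridge_cong_le` : the literal exit asked for: `∃ K' ⊇ K₁` finite,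
  unramified at `A`, and a function order `Hs` over `O' = A ∩ K'` on `E` such that `m ≡ m'` for
  all functions of `Hs` iff `π m = π m'` and the `A`-models of `jCl ι₁ jJ m`, `jCl ι₁ jJ m'` have the
  same special fibre (= `CarryCong92.exists_order_carry_of_bridge_cong` keeping `K₁ ≤ K'`);
* `cong_iff_sameSpec_carry` : the order-free form of `CarryCong92.CongAt`
  (`MarkTwoLevel37.SameSpec`);
* `markedModel_carry_of_bridge` : at the standard place `A = padicPlace r`, a MARKED local model of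
  `E` at `r` whose mark is `satMark A (fun x => π x = 0 ∧ SameSpec (jCl ι₁ jJ x) (jCl ι₁ jJ 0))`
  (the `E`-twin of `MarkTwoLevel37.markedModel_of_two_level`);
* `markedModel_ext_of_bridge` : for `E = N × ℤ/r^k` with the literal action `extActN r k c`,
  `jJ (x, i) = f x + i.val • y'`: the marked model of `E` with the mark `N₀ × 0`, where `N₀` is the
  mark of `N` given by `MarkTwoLevel37.markedModel_of_two_level` for the bridge `ι₁ ∘ f`
  (through `MarkGlue33.marked_ext_of_satMark`).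
-/
import Mathlib
import Fermat.Agent.MAZ.Flat.CarryCong92
import Fermat.Agent.MAZ.Flat.MarkTwoLevel37
import Fermat.Agent.MAZ.Flat.MarkGlue33

set_option autoImplicit false
set_option linter.style.haveILetI false
set_option linter.unusedSectionVars false
set_option linter.unusedVariables false
set_option maxHeartbeats 2000000

noncomputable section

namespace Fermat.Agent.MAZ.Flat.MarkCarry92

open scoped TensorProduct
open scoped Fermat.Agent.JAC.Core.ConstFamily36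
open ModularCurve
open Fermat.Agent.JAC.Core.Defs36 Fermat.Agent.JAC.Core.ConstFamily36 Fermat.Agent.JAC.Grp.Diag33
  Fermat.Agent.FFJ.Core.ClR35 Fermat.Agent.FFJ.Core.ClRBc35 Fermat.Agent.TW.FF.FunOrder68
  Fermat.Agent.FFJ.Spec.Spec35 Fermat.Agent.S19.Shell64 Fermat.Agent.FFJ.Alg.Spec78
  Fermat.Agent.FFJ.Alg.SpecLocal78 Fermat.Agent.FFJ.Alg.SpecNN78
  Fermat.Agent.TW.FF.FlatModel68 Fermat.Agent.FFJ.Order.GeoWire77
  Fermat.Agent.FFJ.Order.GeoWireOne77 Fermat.Agent.FFJ.Order.Order77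
  Fermat.Agent.FFJ.Order.ChartCong37
  Fermat.Agent.FFJ.Pic.SpecD35 Fermat.Agent.FFJ.Pic.BaseEquiv85 Fermat.Agent.FFJ.Pic.LevelIota85
  Fermat.Agent.FFJ.Pic.LevelInst85 Fermat.Agent.MAZ.Flat.CarryLevel69
  Fermat.Agent.MAZ.Flat.CarryGeo69 Fermat.Agent.MAZ.Flat.CarryBridge69
  Fermat.Agent.MAZ.Flat.CarryCong92 Fermat.Agent.MAZ.Flat.Mark68
  Fermat.Agent.MAZ.Flat.MarkBridgeInst37 Fermat.Agent.MAZ.Flat.MarkTwoLevel37
  Fermat.Agent.MAZ.Desc.FlatAdm68

/-- **FILE 2, literal exit** (twin of `CarryBridge69.geoInputNN_carry_of_bridge`, same binders):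
`CarryCong92.exists_order_carry_of_bridge_cong` keeping `K₁ ≤ K'`, with `CongAt` unfolded. -/
theorem exists_order_carry_of_bridge_cong_le (l : ℕ) (Mlev : ℕ) (E : Type) [AddCommGroup E]
    [Finite E] [DistribMulAction GQ E] (C : Type) [AddCommGroup C] [Finite C] (π : E →+ C)
    (hπ : ∀ (σ : GQ) (m : E), π (σ • m) = π m)
    (jJ : E → JZero Mlev) (hjinj : ∀ m m' : E, π m = π m' → jJ m = jJ m' → m = m')
    (hjact : ∀ (σ : GQ) (m : E), jJ (σ • m) = σ • jJ m)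
    (z : JZero Mlev) (hz : ∀ σ : GQ, σ • z = z) (cr : C → C → ℕ)
    (hjadd : ∀ m m', jJ (m + m') + cr (π m) (π m') • z = jJ m + jJ m')
    (K₁ : IntermediateField ℚ Qbar) (A : ValuationSubring Qbar) (hA : A.LiesOverPrime l)
    (A0 A1 A01 : Type) [CommRing A0] [CommRing A1] [CommRing A01]
    [Algebra (OK K₁ A) A0] [Algebra (OK K₁ A) A1] [Algebra (OK K₁ A) A01] [Algebra A0 A01]
    [Algebra A1 A01] [IsScalarTower (OK K₁ A) A0 A01] [IsScalarTower (OK K₁ A) A1 A01]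
    (t : A0) (s : A1) [IsLocalization.Away t A01] [IsLocalization.Away s A01]
    (H₁ : Fermat.Agent.FFJ.Pic.ChartDefR35.CurveHypR (OK K₁ A) A0 A1 A01 t s)
    (e₁ : A01 →ₐ[OK K₁ A] OK K₁ A)
    (ι₁ : Multiplicative (JZero Mlev) →* ClR (OK K₁ A) A0 A1 A01 t s Qbar)
    (hinj : Function.Injective ι₁) (hmem : ∀ m, ι₁ m ∈ PicZeroR e₁ Qbar)
    (hequiv : ∀ (σ : Qbar ≃ₐ[K₁] Qbar) (m : JZero Mlev),
      ι₁ (Multiplicative.ofAdd ((σ.restrictScalars ℚ : GQ) • m)) =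
        galActR (OK K₁ A) K₁ σ (ι₁ (Multiplicative.ofAdd m)))
    (hLA : (∀ i, optFamily (jCl ι₁ jJ) (cCl ι₁ z) i ∈ PicZeroR e₁ Qbar) →
      (∀ (σ : Qbar ≃ₐ[K₁] Qbar) (i : Option E), ∃ i' : Option E,
        optFamily (jCl ι₁ jJ) (cCl ι₁ z) i' =
          galActR (OK K₁ A) K₁ σ (optFamily (jCl ι₁ jJ) (cCl ι₁ z) i)) →
      ∃ (K' : IntermediateField ℚ Qbar) (_ : FiniteDimensional ℚ K') (hK : K₁ ≤ K'),
        UnramAtPlace A K' ∧
        (letI := algebraOKOK hK A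
         haveI := isScalarTower_OKOK_Qbar hK A
         ∃ 𝒞 : ChartPkg (OK K' A) (OK K' A ⊗[OK K₁ A] A0) (OK K' A ⊗[OK K₁ A] A1)
            (OK K' A ⊗[OK K₁ A] A01) ((1 : OK K' A) ⊗ₜ[OK K₁ A] t)
            ((1 : OK K' A) ⊗ₜ[OK K₁ A] s) (rigHom (OK K' A) e₁),
          PicZeroMul (OK K' A) (OK K' A ⊗[OK K₁ A] A0) (OK K' A ⊗[OK K₁ A] A1)
            (OK K' A ⊗[OK K₁ A] A01) ((1 : OK K' A) ⊗ₜ[OK K₁ A] t)
            ((1 : OK K' A) ⊗ₜ[OK K₁ A] s) (rigHom (OK K' A) e₁) ∧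
          ValSurj (OK K' A) (OK K' A ⊗[OK K₁ A] A0) (OK K' A ⊗[OK K₁ A] A1)
            (OK K' A ⊗[OK K₁ A] A01) ((1 : OK K' A) ⊗ₜ[OK K₁ A] t)
            ((1 : OK K' A) ⊗ₜ[OK K₁ A] s) (rigHom (OK K' A) e₁) Qbar ∧
          Admissible Qbar 𝒞
            ((fun x => (baseEquiv (OK K₁ A) A0 A1 A01 t s (OK K' A) Qbar).symm x) ''
              Set.range (optFamily (jCl ι₁ jJ) (cCl ι₁ z))))) :
    letI := algebraOKA K₁ A
    haveI := isScalarTower_OKA K₁ A
    ∃ (K' : IntermediateField ℚ Qbar) (_ : FiniteDimensional ℚ K'), K₁ ≤ K' ∧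
      UnramAtPlace A K' ∧
      ∃ Hs : Subalgebra (OK K' A) (E → Qbar),
        @IsFunOrder (OK K' A) K' Qbar E _ _ _ _ _ _ (resMulAction K' E) Hs ∧
        ∀ (m m' : E) (ξ ξ' : ClR (OK K₁ A) A0 A1 A01 t s A), ξ ∈ PicZeroR e₁ A →
          ξ' ∈ PicZeroR e₁ A →
          bcR (IsScalarTower.toAlgHom (OK K₁ A) A Qbar) ξ = jCl ι₁ jJ m →
          bcR (IsScalarTower.toAlgHom (OK K₁ A) A Qbar) ξ' = jCl ι₁ jJ m' →
          ((∀ h ∈ Hs, h m - h m' ∈ A.nonunits) ↔
            π m = π m' ∧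
              bcR (resV (O := OK K₁ A) A) ξ = bcR (resV (O := OK K₁ A) A) ξ') := by
  have hcfix : ∀ σ : Qbar ≃ₐ[K₁] Qbar, galActR (OK K₁ A) K₁ σ (cCl ι₁ z) = cCl ι₁ z := by
    intro σ
    have h1 := hequiv σ (-z)
    rw [smul_neg, hz] at h1
    exact h1.symm
  have hjequiv : ∀ (σ : Qbar ≃ₐ[K₁] Qbar) (m : E),
      jCl ι₁ jJ ((σ.restrictScalars ℚ : GQ) • m) = galActR (OK K₁ A) K₁ σ (jCl ι₁ jJ m) := by
    intro σ m
    unfold jCl
    rw [hjact]
    exact hequiv σ (jJ m)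
  have hmem' : ∀ i, optFamily (jCl ι₁ jJ) (cCl ι₁ z) i ∈ PicZeroR e₁ Qbar := by
    rintro (_ | m)
    · exact hmem _
    · exact hmem _
  have hstab : ∀ (σ : Qbar ≃ₐ[K₁] Qbar) (i : Option E), ∃ i' : Option E,
      optFamily (jCl ι₁ jJ) (cCl ι₁ z) i' =
        galActR (OK K₁ A) K₁ σ (optFamily (jCl ι₁ jJ) (cCl ι₁ z) i) := by
    rintro σ (_ | m)
    · exact ⟨none, (hcfix σ).symm⟩
    · exact ⟨some ((σ.restrictScalars ℚ : GQ) • m), hjequiv σ m⟩
  obtain ⟨K', hfd', hK, hu', h⟩ := hLA hmem' hstab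
  obtain ⟨H, hH, hcong⟩ := exists_order_of_levelData_cong l E C π hπ K₁ A hA A0 A1 A01 t s H₁ e₁
    (jCl ι₁ jJ) (cCl ι₁ z) (jCl_inj ι₁ π jJ hinj hjinj) (fun m => hmem _) (hmem _) cr
    (jCl_add ι₁ π jJ z cr hjadd) hjequiv hcfix K' hfd' hK hu' h
  exact ⟨K', hfd', hK, hu', H, hH, hcong⟩

/-! ### The order-free form of the congruences -/

section OrderFree

variable {l : ℕ} (hl : l.Prime) (K₁ : IntermediateField ℚ Qbar) [FiniteDimensional ℚ K₁]
  (A : ValuationSubring Qbar) (hA : A.LiesOverPrime l)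
  {A0 A1 A01 : Type} [CommRing A0] [CommRing A1] [CommRing A01]
  [Algebra (OK K₁ A) A0] [Algebra (OK K₁ A) A1] [Algebra (OK K₁ A) A01] [Algebra A0 A01]
  [Algebra A1 A01] [IsScalarTower (OK K₁ A) A0 A01] [IsScalarTower (OK K₁ A) A1 A01]
  {t : A0} {s : A1} [IsLocalization.Away t A01] [IsLocalization.Away s A01]
  (H₁ : Fermat.Agent.FFJ.Pic.ChartDefR35.CurveHypR (OK K₁ A) A0 A1 A01 t s)
  (e₁ : A01 →ₐ[OK K₁ A] OK K₁ A)

include hl hA H₁ in
/-- **`CarryCong92.CongAt` in order-free form**: `m ≡ m'` for all functions of the order iff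
`π m = π m'` and the classes `j₁ m`, `j₁ m'` have the same special fibre at `A`. -/
theorem cong_iff_sameSpec_carry {E C R : Type} [CommRing R] [Algebra R Qbar] (π : E → C)
    (j₁ : E → ClR (OK K₁ A) A0 A1 A01 t s Qbar) (hmem : ∀ m, j₁ m ∈ PicZeroR e₁ Qbar)
    {H : Subalgebra R (E → Qbar)} (hcong : CongAt π j₁ e₁ H) (m m' : E) :
    (∀ h ∈ H, h m - h m' ∈ A.nonunits) ↔
      π m = π m' ∧ SameSpec K₁ A e₁ (j₁ m) (j₁ m') := by
  letI := algebraOKA K₁ A
  haveI := isScalarTower_OKA K₁ A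
  obtain ⟨ξ₀, hξ₀, hx₀⟩ := exists_model hl K₁ A hA H₁ e₁ _ (hmem m)
  obtain ⟨ξ₀', hξ₀', hy₀⟩ := exists_model hl K₁ A hA H₁ e₁ _ (hmem m')
  constructor
  · intro h
    refine ⟨((hcong m m' ξ₀ ξ₀' hξ₀ hξ₀' hx₀ hy₀).mp h).1, fun ξ ξ' hξ hξ' hx hy => ?_⟩
    exact ((hcong m m' ξ ξ' hξ hξ' hx hy).mp h).2
  · rintro ⟨h1, h2⟩
    exact (hcong m m' ξ₀ ξ₀' hξ₀ hξ₀' hx₀ hy₀).mpr ⟨h1, h2 ξ₀ ξ₀' hξ₀ hξ₀' hx₀ hy₀⟩

end OrderFree

/-! ### The marked model of the extension module -/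

/-- **The K-FLAT-side exit with marks.**  Binders of `CarryBridge69.geoInputNN_carry_of_bridge` at
the standard place `A = padicPlace r`: `E` has a marked local model at `r` whose mark is the set of
the points all of whose conjugates `x` under the decomposition group of `A` satisfy `π x = 0` and
have the same special fibre (over the level-`O₁` curve) as the origin. -/
theorem markedModel_carry_of_bridge (r : ℕ) [Fact r.Prime] (Mlev : ℕ) (E : Type) [AddCommGroup E]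
    [Finite E] [DistribMulAction GQ E] (C : Type) [AddCommGroup C] [Finite C] (π : E →+ C)
    (hπ : ∀ (σ : GQ) (m : E), π (σ • m) = π m)
    (jJ : E → JZero Mlev) (hjinj : ∀ m m' : E, π m = π m' → jJ m = jJ m' → m = m')
    (hjact : ∀ (σ : GQ) (m : E), jJ (σ • m) = σ • jJ m)
    (z : JZero Mlev) (hz : ∀ σ : GQ, σ • z = z) (cr : C → C → ℕ)
    (hjadd : ∀ m m', jJ (m + m') + cr (π m) (π m') • z = jJ m + jJ m')
    (K₁ : IntermediateField ℚ Qbar) [FiniteDimensional ℚ K₁]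
    (A0 A1 A01 : Type) [CommRing A0] [CommRing A1] [CommRing A01]
    [Algebra (OK K₁ (padicPlace r)) A0] [Algebra (OK K₁ (padicPlace r)) A1]
    [Algebra (OK K₁ (padicPlace r)) A01] [Algebra A0 A01]
    [Algebra A1 A01] [IsScalarTower (OK K₁ (padicPlace r)) A0 A01]
    [IsScalarTower (OK K₁ (padicPlace r)) A1 A01]
    (t : A0) (s : A1) [IsLocalization.Away t A01] [IsLocalization.Away s A01]
    (H₁ : Fermat.Agent.FFJ.Pic.ChartDefR35.CurveHypR (OK K₁ (padicPlace r)) A0 A1 A01 t s)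
    (e₁ : A01 →ₐ[OK K₁ (padicPlace r)] OK K₁ (padicPlace r))
    (ι₁ : Multiplicative (JZero Mlev) →* ClR (OK K₁ (padicPlace r)) A0 A1 A01 t s Qbar)
    (hinj : Function.Injective ι₁) (hmem : ∀ m, ι₁ m ∈ PicZeroR e₁ Qbar)
    (hequiv : ∀ (σ : Qbar ≃ₐ[K₁] Qbar) (m : JZero Mlev),
      ι₁ (Multiplicative.ofAdd ((σ.restrictScalars ℚ : GQ) • m)) =
        galActR (OK K₁ (padicPlace r)) K₁ σ (ι₁ (Multiplicative.ofAdd m)))
    (hLA : (∀ i, optFamily (jCl ι₁ jJ) (cCl ι₁ z) i ∈ PicZeroR e₁ Qbar) →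
      (∀ (σ : Qbar ≃ₐ[K₁] Qbar) (i : Option E), ∃ i' : Option E,
        optFamily (jCl ι₁ jJ) (cCl ι₁ z) i' =
          galActR (OK K₁ (padicPlace r)) K₁ σ (optFamily (jCl ι₁ jJ) (cCl ι₁ z) i)) →
      ∃ (K' : IntermediateField ℚ Qbar) (_ : FiniteDimensional ℚ K') (hK : K₁ ≤ K'),
        UnramAtPlace (padicPlace r) K' ∧
        (letI := algebraOKOK hK (padicPlace r)
         haveI := isScalarTower_OKOK_Qbar hK (padicPlace r)
         ∃ 𝒞 : ChartPkg (OK K' (padicPlace r)) (OK K' (padicPlace r) ⊗[OK K₁ (padicPlace r)] A0)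
            (OK K' (padicPlace r) ⊗[OK K₁ (padicPlace r)] A1)
            (OK K' (padicPlace r) ⊗[OK K₁ (padicPlace r)] A01)
            ((1 : OK K' (padicPlace r)) ⊗ₜ[OK K₁ (padicPlace r)] t)
            ((1 : OK K' (padicPlace r)) ⊗ₜ[OK K₁ (padicPlace r)] s)
            (rigHom (OK K' (padicPlace r)) e₁),
          PicZeroMul (OK K' (padicPlace r)) (OK K' (padicPlace r) ⊗[OK K₁ (padicPlace r)] A0)
            (OK K' (padicPlace r) ⊗[OK K₁ (padicPlace r)] A1)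
            (OK K' (padicPlace r) ⊗[OK K₁ (padicPlace r)] A01)
            ((1 : OK K' (padicPlace r)) ⊗ₜ[OK K₁ (padicPlace r)] t)
            ((1 : OK K' (padicPlace r)) ⊗ₜ[OK K₁ (padicPlace r)] s)
            (rigHom (OK K' (padicPlace r)) e₁) ∧
          ValSurj (OK K' (padicPlace r)) (OK K' (padicPlace r) ⊗[OK K₁ (padicPlace r)] A0)
            (OK K' (padicPlace r) ⊗[OK K₁ (padicPlace r)] A1)
            (OK K' (padicPlace r) ⊗[OK K₁ (padicPlace r)] A01)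
            ((1 : OK K' (padicPlace r)) ⊗ₜ[OK K₁ (padicPlace r)] t)
            ((1 : OK K' (padicPlace r)) ⊗ₜ[OK K₁ (padicPlace r)] s)
            (rigHom (OK K' (padicPlace r)) e₁) Qbar ∧
          Admissible Qbar 𝒞
            ((fun x => (baseEquiv (OK K₁ (padicPlace r)) A0 A1 A01 t s (OK K' (padicPlace r))
                Qbar).symm x) ''
              Set.range (optFamily (jCl ι₁ jJ) (cCl ι₁ z))))) :
    ∃ E₀ : AddSubgroup E, MarkedModel r E (fun τ x => localGaloisToGlobal r τ • x) E₀ ∧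
      ∀ x : E, x ∈ E₀ ↔ x ∈ satMark (padicPlace r) (fun x =>
        π x = 0 ∧ SameSpec K₁ (padicPlace r) e₁ (jCl ι₁ jJ x) (jCl ι₁ jJ 0)) := by
  have hr : r.Prime := Fact.out
  have hA := Fermat.Agent.TW.OrdLocal.PadicPlace97.padicPlace_liesOverPrime r
  obtain ⟨K', hfd', hu', H, hH, hcong⟩ := exists_order_carry_of_bridge_cong r Mlev E C π hπ jJ
    hjinj hjact z hz cr hjadd K₁ (padicPlace r) hA A0 A1 A01 t s H₁ e₁ ι₁ hinj hmem hequiv hLA
  haveI := hfd'
  obtain ⟨E₀, hEM, hE₀⟩ := markedModel_of_geoOrder K' hu' H hH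
  refine ⟨E₀, hEM, fun x => ?_⟩
  rw [hE₀]
  have key : ∀ y : E, (∀ h ∈ H, h y - h 0 ∈ (padicPlace r).nonunits) ↔
      π y = 0 ∧ SameSpec K₁ (padicPlace r) e₁ (jCl ι₁ jJ y) (jCl ι₁ jJ 0) := by
    intro y
    rw [cong_iff_sameSpec_carry hr K₁ (padicPlace r) hA H₁ e₁ (fun m => π m) (jCl ι₁ jJ)
      (fun m => hmem _) hcong y 0, map_zero]
  constructor
  · intro h ρ hρ
    exact (key _).mp (h ρ hρ)
  · intro h ρ hρ
    exact (key _).mpr (h ρ hρ)

/-! ### The Kummer extension module `N × ℤ/r^k` over `J₀(M)(ℚ̄)` -/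

section Ext

variable {r k Mlev : ℕ} {N : Type} [AddCommGroup N] (f : N →+ JZero Mlev) (y' : JZero Mlev)

/-- the set map `N × ℤ/r^k → J₀(M)(ℚ̄)`, `(x, i) ↦ f x + i.val • y'`. -/
def jExt (e : N × ZMod (r ^ k)) : JZero Mlev := f e.1 + e.2.val • y'

/-- the carry of the addition of `ℤ/r^k` in terms of representatives. -/
def carryNat (a b : ZMod (r ^ k)) : ℕ := (a.val + b.val) / r ^ k

theorem val_add_carryNat [NeZero (r ^ k)] (a b : ZMod (r ^ k)) :
    (a + b).val + carryNat a b * r ^ k = a.val + b.val := by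
  rw [ZMod.val_add, carryNat, mul_comm]
  exact Nat.mod_add_div _ _

theorem jExt_inj_fibre (hf : Function.Injective f) (e e' : N × ZMod (r ^ k)) (h2 : e.2 = e'.2)
    (h : jExt f y' e = jExt f y' e') : e = e' := by
  unfold jExt at h
  rw [h2] at h
  exact Prod.ext (hf (add_right_cancel h)) h2

theorem jExt_add [NeZero (r ^ k)] (e e' : N × ZMod (r ^ k)) :
    jExt f y' (e + e') + carryNat e.2 e'.2 • ((r ^ k) • y') = jExt f y' e + jExt f y' e' := by
  unfold jExt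
  have h3 : (e.2 + e'.2).val • y' + carryNat e.2 e'.2 • ((r ^ k) • y') =
      e.2.val • y' + e'.2.val • y' := by
    rw [← mul_nsmul', ← add_nsmul, ← add_nsmul, val_add_carryNat]
  rw [Prod.fst_add, Prod.snd_add, map_add]
  calc f e.1 + f e'.1 + (e.2 + e'.2).val • y' + carryNat e.2 e'.2 • ((r ^ k) • y')
      = f e.1 + f e'.1 + ((e.2 + e'.2).val • y' + carryNat e.2 e'.2 • ((r ^ k) • y')) := by abel
    _ = _ := by rw [h3]; abel

theorem jExt_smul [Fact r.Prime] [DistribMulAction GQ N] (c : GQ → N)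
    [DistribMulAction GQ (N × ZMod (r ^ k))]
    (hact : ∀ (σ : GQ) (x : N × ZMod (r ^ k)), σ • x = extActN r k c σ x)
    (hfact : ∀ (σ : GQ) (x : N), f (σ • x) = σ • f x)
    (hc : ∀ σ : GQ, f (c σ) = σ • y' - y') (σ : GQ) (e : N × ZMod (r ^ k)) :
    jExt f y' (σ • e) = σ • jExt f y' e := by
  have h1 : σ • (e.2.val • y') = e.2.val • (σ • y') :=
    map_nsmul (DistribSMul.toAddMonoidHom (JZero Mlev) σ) e.2.val y'
  rw [hact]
  unfold jExt extActN
  rw [map_add, map_nsmul, hfact, hc, smul_add, h1, nsmul_sub]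
  abel

end Ext

/-- **The marks of the Kummer extension modules.**  `N` a finite `G_ℚ`-module with an injective
equivariant `f : N →+ J₀(M)(ℚ̄)`, `c` a cochain with `f (c σ) = σ y' - y'` for a point `y'` with
`r^k y'` rational, `E_c = N × ℤ/r^k` with the literal action `extActN r k c`, the curve and the
bridge `ι₁` on all of `J₀(M)(ℚ̄)` at the level `O₁ = A ∩ K₁`, `A = padicPlace r`.  If the mark `N₀` of
`N` is the one of `MarkTwoLevel37.markedModel_of_two_level` for a bridge `ι₁N` of `N` with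
`ι₁N x = ι₁ (f x)`, then `E_c` has a marked local model at `r` with the mark `N₀ × 0`. -/
theorem markedModel_ext_of_bridge (r : ℕ) [Fact r.Prime] (k : ℕ) (Mlev : ℕ) (N : Type)
    [AddCommGroup N] [Finite N] [DistribMulAction GQ N] (c : GQ → N)
    [DistribMulAction GQ (N × ZMod (r ^ k))]
    (hact : ∀ (σ : GQ) (x : N × ZMod (r ^ k)), σ • x = extActN r k c σ x)
    (f : N →+ JZero Mlev) (hf : Function.Injective f)
    (hfact : ∀ (σ : GQ) (x : N), f (σ • x) = σ • f x)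
    (y' : JZero Mlev) (hc : ∀ σ : GQ, f (c σ) = σ • y' - y')
    (hz : ∀ σ : GQ, σ • ((r ^ k) • y') = (r ^ k) • y')
    (K₁ : IntermediateField ℚ Qbar) [FiniteDimensional ℚ K₁]
    (A0 A1 A01 : Type) [CommRing A0] [CommRing A1] [CommRing A01]
    [Algebra (OK K₁ (padicPlace r)) A0] [Algebra (OK K₁ (padicPlace r)) A1]
    [Algebra (OK K₁ (padicPlace r)) A01] [Algebra A0 A01]
    [Algebra A1 A01] [IsScalarTower (OK K₁ (padicPlace r)) A0 A01]
    [IsScalarTower (OK K₁ (padicPlace r)) A1 A01]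
    (t : A0) (s : A1) [IsLocalization.Away t A01] [IsLocalization.Away s A01]
    (H₁ : Fermat.Agent.FFJ.Pic.ChartDefR35.CurveHypR (OK K₁ (padicPlace r)) A0 A1 A01 t s)
    (e₁ : A01 →ₐ[OK K₁ (padicPlace r)] OK K₁ (padicPlace r))
    (ι₁ : Multiplicative (JZero Mlev) →* ClR (OK K₁ (padicPlace r)) A0 A1 A01 t s Qbar)
    (hinj : Function.Injective ι₁) (hmem : ∀ m, ι₁ m ∈ PicZeroR e₁ Qbar)
    (hequiv : ∀ (σ : Qbar ≃ₐ[K₁] Qbar) (m : JZero Mlev),
      ι₁ (Multiplicative.ofAdd ((σ.restrictScalars ℚ : GQ) • m)) =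
        galActR (OK K₁ (padicPlace r)) K₁ σ (ι₁ (Multiplicative.ofAdd m)))
    (hLA : (∀ i, optFamily (jCl ι₁ (jExt (r := r) (k := k) f y')) (cCl ι₁ ((r ^ k) • y')) i ∈
        PicZeroR e₁ Qbar) →
      (∀ (σ : Qbar ≃ₐ[K₁] Qbar) (i : Option (N × ZMod (r ^ k))),
        ∃ i' : Option (N × ZMod (r ^ k)),
        optFamily (jCl ι₁ (jExt (r := r) (k := k) f y')) (cCl ι₁ ((r ^ k) • y')) i' =
          galActR (OK K₁ (padicPlace r)) K₁ σ
            (optFamily (jCl ι₁ (jExt (r := r) (k := k) f y')) (cCl ι₁ ((r ^ k) • y')) i)) →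
      ∃ (K' : IntermediateField ℚ Qbar) (_ : FiniteDimensional ℚ K') (hK : K₁ ≤ K'),
        UnramAtPlace (padicPlace r) K' ∧
        (letI := algebraOKOK hK (padicPlace r)
         haveI := isScalarTower_OKOK_Qbar hK (padicPlace r)
         ∃ 𝒞 : ChartPkg (OK K' (padicPlace r)) (OK K' (padicPlace r) ⊗[OK K₁ (padicPlace r)] A0)
            (OK K' (padicPlace r) ⊗[OK K₁ (padicPlace r)] A1)
            (OK K' (padicPlace r) ⊗[OK K₁ (padicPlace r)] A01)
            ((1 : OK K' (padicPlace r)) ⊗ₜ[OK K₁ (padicPlace r)] t)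
            ((1 : OK K' (padicPlace r)) ⊗ₜ[OK K₁ (padicPlace r)] s)
            (rigHom (OK K' (padicPlace r)) e₁),
          PicZeroMul (OK K' (padicPlace r)) (OK K' (padicPlace r) ⊗[OK K₁ (padicPlace r)] A0)
            (OK K' (padicPlace r) ⊗[OK K₁ (padicPlace r)] A1)
            (OK K' (padicPlace r) ⊗[OK K₁ (padicPlace r)] A01)
            ((1 : OK K' (padicPlace r)) ⊗ₜ[OK K₁ (padicPlace r)] t)
            ((1 : OK K' (padicPlace r)) ⊗ₜ[OK K₁ (padicPlace r)] s)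
            (rigHom (OK K' (padicPlace r)) e₁) ∧
          ValSurj (OK K' (padicPlace r)) (OK K' (padicPlace r) ⊗[OK K₁ (padicPlace r)] A0)
            (OK K' (padicPlace r) ⊗[OK K₁ (padicPlace r)] A1)
            (OK K' (padicPlace r) ⊗[OK K₁ (padicPlace r)] A01)
            ((1 : OK K' (padicPlace r)) ⊗ₜ[OK K₁ (padicPlace r)] t)
            ((1 : OK K' (padicPlace r)) ⊗ₜ[OK K₁ (padicPlace r)] s)
            (rigHom (OK K' (padicPlace r)) e₁) Qbar ∧
          Admissible Qbar 𝒞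
            ((fun x => (baseEquiv (OK K₁ (padicPlace r)) A0 A1 A01 t s (OK K' (padicPlace r))
                Qbar).symm x) ''
              Set.range (optFamily (jCl ι₁ (jExt (r := r) (k := k) f y'))
                (cCl ι₁ ((r ^ k) • y'))))))
    (ι₁N : Multiplicative N →* ClR (OK K₁ (padicPlace r)) A0 A1 A01 t s Qbar)
    (hιN : ∀ x : N, ι₁N (Multiplicative.ofAdd x) = ι₁ (Multiplicative.ofAdd (f x)))
    {N₀ : AddSubgroup N}
    (hN₀ : ∀ m : N, m ∈ N₀ ↔ m ∈ satMark (padicPlace r) (fun x =>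
      SameSpec K₁ (padicPlace r) e₁ (ι₁N (Multiplicative.ofAdd x))
        (ι₁N (Multiplicative.ofAdd (0 : N))))) :
    MarkedModel r (N × ZMod (r ^ k))
      (fun (τ : GQp r) => extActN r k c (localGaloisToGlobal r τ))
      (N₀.prod (⊥ : AddSubgroup (ZMod (r ^ k)))) := by
  have hr : r.Prime := Fact.out
  haveI : NeZero (r ^ k) := ⟨pow_ne_zero k hr.ne_zero⟩
  have hπ : ∀ (σ : GQ) (m : N × ZMod (r ^ k)),
      AddMonoidHom.snd N (ZMod (r ^ k)) (σ • m) = AddMonoidHom.snd N (ZMod (r ^ k)) m := by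
    intro σ m
    rw [hact]
    rfl
  obtain ⟨E₀, hEM, hE₀⟩ := markedModel_carry_of_bridge r Mlev (N × ZMod (r ^ k)) (ZMod (r ^ k))
    (AddMonoidHom.snd N (ZMod (r ^ k))) hπ (jExt f y')
    (fun e e' h2 h => jExt_inj_fibre f y' hf e e' h2 h)
    (fun σ e => jExt_smul f y' c hact hfact hc σ e) ((r ^ k) • y') hz carryNat
    (fun e e' => jExt_add f y' e e') K₁ A0 A1 A01 t s H₁ e₁ ι₁ hinj hmem hequiv hLA
  refine Fermat.Agent.MAZ.Flat.MarkGlue33.marked_ext_of_satMark N c hact (padicPlace r)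
    (fun x => SameSpec K₁ (padicPlace r) e₁ (ι₁N (Multiplicative.ofAdd x))
      (ι₁N (Multiplicative.ofAdd (0 : N))))
    (fun x => AddMonoidHom.snd N (ZMod (r ^ k)) x = 0 ∧
      SameSpec K₁ (padicPlace r) e₁ (jCl ι₁ (jExt (r := r) (k := k) f y') x)
        (jCl ι₁ (jExt (r := r) (k := k) f y') 0)) ?_ hN₀ hE₀ hEM
  intro x i
  have h0 : jCl ι₁ (jExt (r := r) (k := k) f y') 0 = ι₁N (Multiplicative.ofAdd (0 : N)) := by
    rw [hιN]
    unfold jCl jExt
    rw [Prod.fst_zero, Prod.snd_zero, ZMod.val_zero, zero_nsmul, add_zero]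
  have hx : jCl ι₁ (jExt (r := r) (k := k) f y') (x, 0) = ι₁N (Multiplicative.ofAdd x) := by
    rw [hιN]
    unfold jCl jExt
    rw [ZMod.val_zero, zero_nsmul, add_zero]
  constructor
  · rintro ⟨hi, hs⟩
    have hi' : i = 0 := hi
    subst hi'
    rw [h0, hx] at hs
    exact ⟨rfl, hs⟩
  · rintro ⟨rfl, hs⟩
    refine ⟨rfl, ?_⟩
    rw [h0, hx]
    exact hs

end Fermat.Agent.MAZ.Flat.MarkCarry92
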