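/-
Programme MAZ (S15), marks at the prime `r = 2`: **THE MARKS** (`MarkStmt`).  Owner: helper37.

For every `p`, every prime `r ∤ p` and every level `k`: a marked local model of `J₀(p)[r^k]` at the
standard place over `r`, with mark `M₀`, such that for EVERY rational point `z`, every `y` with
`r^k • y = z` and the Kummer cocycle `c σ = σ y - y`, the extension module
`E_c = J₀(p)[r^k] × ℤ/r^k` (action `FlatAdm68.extActN r k c`) has a marked local model with mark
`M₀ × 0`.

At `r = 2` this is LITERALLY `LevelDualInstM2.MarkStmt p` (for all rational `z`, no hypothesis of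
infinite order), hence also `LevelDualInstMA2.MarkStmtInf p`.

Proof: `GeoElim75.geo_elim_four/_nine` (CURVE + SUPPLY at the auxiliary level `auxLevel r p`, in
continuation-passing form) applied to `MarkCurve37.markStmt_of_curve_supply`; `π^*` is injective on
torsion at the auxiliary level (`PullbackInj12.levelPullback_auxLevel_eq_zero`).
-/
import Mathlib
import Fermat.Agent.MAZ.Flat.MarkCurve37
import Fermat.Agent.FFJ.Spec.GeoElim75

set_option autoImplicit false
set_option linter.style.haveILetI false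
set_option linter.unusedSectionVars false
set_option linter.unusedVariables false
set_option maxHeartbeats 2000000

noncomputable section

namespace Fermat.Agent.MAZ.Flat.MarkStmt37

open ModularCurve
open Fermat.Agent.S19.Shell64 Fermat.Agent.TW.FF.FlatModel68 Fermat.Agent.FFJ.Alg.Spec78
  Fermat.Agent.FFJ.Alg.SpecLocal78 Fermat.Agent.TW.OrdLocal.PadicPlace97
  Fermat.Agent.FFJ.Order.GeoWire77 Fermat.Agent.FFJ.Order.GeoWireOne77
  Fermat.Agent.MAZ.Flat.Mark68 Fermat.Agent.MAZ.Flat.MarkCurve37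
  Fermat.Agent.MAZ.Spec.GSpec26 Fermat.Agent.MAZ.Desc.KummerInst26 Fermat.Agent.MAZ.Desc.FlatAdm68
  Fermat.Agent.ES.HECKE.LevelPullback12 Fermat.Agent.ES.RED.PullbackInj12
  Fermat.Agent.FFJ.Spec.GeoElim75 Fermat.Agent.FFJ.Spec.GeoElimRungs75
  Fermat.Agent.RED.Interface4

attribute [local instance 2000] SubalgebraClass.toAlgebra
attribute [local instance] dmaMk

/-- **THE MARKS at a prime `r ∤ p`, level `k`.** -/
theorem markStmt_level (p : ℕ) [NeZero p] (r : ℕ) [Fact r.Prime] (hrp : ¬ r ∣ p) (k : ℕ) :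
    ∃ M₀ : AddSubgroup ↥(Mk p r k),
      MarkedModel r ↥(Mk p r k)
        (fun (τ : GQp r) (x : ↥(Mk p r k)) => localGaloisToGlobal r τ • x) M₀ ∧
      ∀ z : JZero p, (∀ σ : GQ, σ • z = z) → ∀ y : JZero p, (r ^ k) • y = z →
        ∀ c : GQ → ↥(Mk p r k), (∀ σ, (c σ : JZero p) = σ • y - y) →
          MarkedModel r (↥(Mk p r k) × ZMod (r ^ k))
            (fun (τ : GQp r) => extActN r k c (localGaloisToGlobal r τ))
            (M₀.prod (⊥ : AddSubgroup (ZMod (r ^ k)))) := by
  have hr : r.Prime := Fact.out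
  haveI := Fermat.Agent.RED.LVL.LevelDegree17.neZero_auxLevel r p
  have hrM : ¬ r ∣ auxLevel r p := not_dvd_auxLevel hr hrp
  have hcont : ∀ (K₁ : IntermediateField ℚ Fermat.Agent.FFJ.Alg.Spec78.Qbar)
      (_ : FiniteDimensional ℚ K₁) (_ : UnramAtPlace (padicPlace r) K₁),
      ContAt (auxLevel r p) K₁ (padicPlace r)
        (∃ M₀ : AddSubgroup ↥(Mk p r k),
          MarkedModel r ↥(Mk p r k)
            (fun (τ : GQp r) (x : ↥(Mk p r k)) => localGaloisToGlobal r τ • x) M₀ ∧
          ∀ z : JZero p, (∀ σ : GQ, σ • z = z) → ∀ y : JZero p, (r ^ k) • y = z →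
            ∀ c : GQ → ↥(Mk p r k), (∀ σ, (c σ : JZero p) = σ • y - y) →
              MarkedModel r (↥(Mk p r k) × ZMod (r ^ k))
                (fun (τ : GQp r) => extActN r k c (localGaloisToGlobal r τ))
                (M₀.prod (⊥ : AddSubgroup (ZMod (r ^ k))))) := by
    intro K₁ hfd hunr
    haveI := hfd
    intro i1 i2 B01 A0 A1 i3 i4 i5 i6 i7 i8 i9 i10 t s i11 i12 H e hfr S hSinf hSunr
    exact markStmt_of_curve_supply p r (auxLevel r p) (dvd_auxLevel r p)
      (fun m hm x hmx hx => levelPullback_auxLevel_eq_zero r p m hm x hmx hx)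
      K₁ hunr B01 H e hfr S hSinf hSunr k
  by_cases h2 : r = 2
  · have h9 : 9 ∣ auxLevel r p := by
      unfold auxLevel
      rw [if_pos h2]
      exact Nat.dvd_lcm_right _ _
    exact geo_elim_nine (auxLevel r p) h9 r hrM hcont
  · have h4 : 4 ∣ auxLevel r p := by
      unfold auxLevel
      rw [if_neg h2]
      exact Nat.dvd_lcm_right _ _
    exact geo_elim_four (auxLevel r p) h4 r hrM hcont

/-- **THE MARKS AT `2`**, in the literal shape of `LevelDualInstM2.MarkStmt p` (every level, every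
rational point). -/
theorem markStmt_two (p : ℕ) [NeZero p] (h2 : ¬ 2 ∣ p) :
    ∀ k : ℕ, 1 ≤ k → ∃ M₀ : AddSubgroup ↥(Mk p 2 k),
      MarkedModel 2 ↥(Mk p 2 k)
        (fun (τ : GQp 2) (x : ↥(Mk p 2 k)) => localGaloisToGlobal 2 τ • x) M₀ ∧
      ∀ z : JZero p, (∀ σ : GQ, σ • z = z) → ∀ y : JZero p, ((2 : ℕ) ^ k) • y = z →
        ∀ c : GQ → ↥(Mk p 2 k), (∀ σ, (c σ : JZero p) = σ • y - y) →
          MarkedModel 2 (↥(Mk p 2 k) × ZMod (2 ^ k))
            (fun (τ : GQp 2) => extActN 2 k c (localGaloisToGlobal 2 τ))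
            (M₀.prod (⊥ : AddSubgroup (ZMod (2 ^ k)))) :=
  fun k _ => markStmt_level p 2 h2 k

end Fermat.Agent.MAZ.Flat.MarkStmt37
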