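/-
Programme MAZ (S15), G-side, chapter K-FLAT (helper69): "the Kummer extension `E_z` of a rational point
`z` of `J` has a flat model at `r`" (report 1530).

**KF1 = the formal theorem of chapter ORDER for an EXTENSION LAW** (generalisation of
`FFJ/Order/Order77.exists_isFunOrder`).

Setting of `FFJ/Spec/Spec35`: base ring `O`, two-chart curve data `(A0 → A01 ← A1; t, s; e)` over `O`, one
chart `𝒞` of the functor `B ↦ PicZeroR e B`.  Let `M` be a finite abelian group with an action of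
`Aut(Ω/F)`, `π : M → Q` a Galois-invariant homomorphism to a finite abelian group, and
`ι : M → PicZeroR e Ω` an injective equivariant MAP (not a homomorphism) satisfying the extension law

  `ι (m + m') = ι m * ι m' * ζ (π m) (π m')`,

where every `ζ q q'` is a class over the BASE RING `O`.  (For `E_z = {y | r^k y ∈ ℤ z} / ℤ z`:
`Q = ℤ / r^k`, `ι` the representative with `r^k y = i z`, `0 ≤ i < r^k`, and
`ζ q q' = [z]^(-carry q q')`.)  If the chart contains `ι(M)` and all its specialisations (`Admissible`) and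
`ValSurj` holds, then

  `H = { m ↦ c_m (r_{π m}) | (r_q)_q ∈ RW^Q }`   (`c_m : RW → Ω` the coordinates of the point `ι m`)

is a function order on `M` over `O`.  Compared with `Order77`: the order contains the idempotents of the
fibres of `π` (the law is only locally constant), and the comultiplication is computed fibre by fibre
(`exists_comul2`: two index sets and a twist by a class over `O`).

`Q = 0`, `ζ = 1` gives back `Order77.exists_isFunOrder`.
-/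
import Mathlib
import Fermat.Agent.FFJ.Order.Order77

set_option autoImplicit false
set_option linter.style.haveILetI false
set_option linter.unusedSectionVars false

noncomputable section

namespace Fermat.Agent.MAZ.Flat.OrderExt69

open scoped TensorProduct
open Fermat.Agent.JAC.Core.Defs36 Fermat.Agent.JAC.Grp.Diag33 Fermat.Agent.FFJ.Core.ClR35
  Fermat.Agent.FFJ.Core.ClRBc35 Fermat.Agent.TW.FF.FunOrder68 Fermat.Agent.FFJ.Spec.Spec35
  Fermat.Agent.S19.Shell64 Fermat.Agent.FFJ.Order.Order77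

variable {O : Type} [CommRing O] {A0 A1 A01 : Type} [CommRing A0] [CommRing A1] [CommRing A01]
  [Algebra O A0] [Algebra O A1] [Algebra O A01] [Algebra A0 A01] [Algebra A1 A01]
  [IsScalarTower O A0 A01] [IsScalarTower O A1 A01] {t : A0} {s : A1}
  [IsLocalization.Away t A01] [IsLocalization.Away s A01] {e : A01 →ₐ[O] O}
  {Ω : Type} [Field Ω] [Algebra O Ω]
  (𝒞 : ChartPkg O A0 A1 A01 t s e)

/-! ### Points of the chart with class in an admissible set -/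

section Points

variable {𝒯 : Set (ClR O A0 A1 A01 t s Ω)}

/-- A point of the chart whose class lies in an admissible set has integral coordinates. -/
theorem isIntegral_point (hAdm : Admissible Ω 𝒞 𝒯) (hVS : ValSurj O A0 A1 A01 t s e Ω)
    (c : 𝒞.RW →ₐ[O] Ω) (hc𝒯 : bcR c 𝒞.x ∈ 𝒯) (hcmem : bcR c 𝒞.x ∈ PicZeroR e Ω) (r : 𝒞.RW) :
    IsIntegral O (c r) := by
  apply isIntegral_of_forall_mem
  intro V hV
  letI : Algebra O V := ((algebraMap O Ω).codRestrict V.toSubring hV).toAlgebra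
  haveI : IsScalarTower O V Ω := IsScalarTower.of_algebraMap_eq fun _ => rfl
  obtain ⟨ξ, hξ, hξΩ⟩ := hVS V (bcR c 𝒞.x) hcmem
  obtain ⟨φ, hφ⟩ := exists_point_val 𝒞 hAdm V ξ hξ (by rw [hξΩ]; exact hc𝒯)
  have h1 : (IsScalarTower.toAlgHom O V Ω).comp φ = c :=
    𝒞.inj Ω _ _ (by rw [← bcR_bc, hφ, hξΩ])
  have h2 : c r = (φ r : Ω) := by
    rw [← h1]
    rfl
  rw [h2]
  exact (φ r).2

/-- the coordinate map of a family of points. -/
def pts {I : Type} (c : I → (𝒞.RW →ₐ[O] Ω)) : 𝒞.RW →ₐ[O] (I → Ω) := AlgHom.pi c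

theorem pts_apply {I : Type} (c : I → (𝒞.RW →ₐ[O] Ω)) (r : 𝒞.RW) (i : I) : pts 𝒞 c r i = c i r := rfl

/-- The image of the chart ring under the coordinates of a finite family of points with classes in an
admissible set is a finite `O`-module. -/
theorem finite_range_pts (hAdm : Admissible Ω 𝒞 𝒯) (hVS : ValSurj O A0 A1 A01 t s e Ω)
    {I : Type} [Finite I] (c : I → (𝒞.RW →ₐ[O] Ω)) (hc𝒯 : ∀ i, bcR (c i) 𝒞.x ∈ 𝒯)
    (hcmem : ∀ i, bcR (c i) 𝒞.x ∈ PicZeroR e Ω) : Module.Finite O (pts 𝒞 c).range := by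
  haveI : Algebra.FiniteType O (pts 𝒞 c).range :=
    haveI := 𝒞.finiteType
    Algebra.FiniteType.of_surjective (pts 𝒞 c).rangeRestrict (pts 𝒞 c).rangeRestrict_surjective
  haveI : Algebra.IsIntegral O (pts 𝒞 c).range := ⟨by
    rintro ⟨_, ⟨r, rfl⟩⟩
    rw [← isIntegral_algHom_iff (pts 𝒞 c).range.val Subtype.val_injective]
    apply isIntegral_pi77
    intro i
    exact isIntegral_point 𝒞 hAdm hVS (c i) (hc𝒯 i) (hcmem i) r⟩
  exact Algebra.IsIntegral.finite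

end Points

/-! ### The comultiplication for two index sets, twisted by a class over the base ring -/

section Two

variable {I I' : Type}

variable (O Ω I I') in
/-- pull-back of functions along the first projection `I × I' → I`. -/
def prL : (I → Ω) →ₐ[O] (I × I' → Ω) := AlgHom.pi fun p => Pi.evalAlgHom O (fun _ : I => Ω) p.1

variable (O Ω I I') in
/-- pull-back of functions along the second projection `I × I' → I'`. -/
def prR : (I' → Ω) →ₐ[O] (I × I' → Ω) := AlgHom.pi fun p => Pi.evalAlgHom O (fun _ : I' => Ω) p.2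

/-- the external product `H ⊗[O] H' → Fun(I × I', Ω)`. -/
def mu2 (H : Subalgebra O (I → Ω)) (H' : Subalgebra O (I' → Ω)) : H ⊗[O] H' →ₐ[O] (I × I' → Ω) :=
  Algebra.TensorProduct.productMap ((prL O Ω I I').comp H.val) ((prR O Ω I I').comp H'.val)

theorem mu2_tmul (H : Subalgebra O (I → Ω)) (H' : Subalgebra O (I' → Ω)) (a : H) (b : H')
    (p : I × I') : mu2 H H' (a ⊗ₜ[O] b) p = (a : I → Ω) p.1 * (b : I' → Ω) p.2 := by
  rw [mu2, Algebra.TensorProduct.productMap_apply_tmul]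
  rfl

/-- the first inclusion `H → T'`. -/
def inL (H : Subalgebra O (I → Ω)) (H' : Subalgebra O (I' → Ω)) : H →ₐ[O] (mu2 H H').range :=
  (mu2 H H').rangeRestrict.comp Algebra.TensorProduct.includeLeft

/-- the second inclusion `H' → T'`. -/
def inR (H : Subalgebra O (I → Ω)) (H' : Subalgebra O (I' → Ω)) : H' →ₐ[O] (mu2 H H').range :=
  (mu2 H H').rangeRestrict.comp Algebra.TensorProduct.includeRight

theorem inL_apply (H : Subalgebra O (I → Ω)) (H' : Subalgebra O (I' → Ω)) (a : H) (p : I × I') :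
    ((inL H H' a : (mu2 H H').range) : I × I' → Ω) p = (a : I → Ω) p.1 := by
  change mu2 H H' (a ⊗ₜ[O] 1) p = _
  rw [mu2_tmul]
  simp

theorem inR_apply (H : Subalgebra O (I → Ω)) (H' : Subalgebra O (I' → Ω)) (b : H') (p : I × I') :
    ((inR H H' b : (mu2 H H').range) : I × I' → Ω) p = (b : I' → Ω) p.2 := by
  change mu2 H H' (1 ⊗ₜ[O] b) p = _
  rw [mu2_tmul]
  simp

/-- evaluation of `T'` at a pair. -/
def ev2 (H : Subalgebra O (I → Ω)) (H' : Subalgebra O (I' → Ω)) (p : I × I') :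
    (mu2 H H').range →ₐ[O] Ω :=
  (Pi.evalAlgHom O (fun _ : I × I' => Ω) p).comp (mu2 H H').range.val

variable (c : I → (𝒞.RW →ₐ[O] Ω)) (c' : I' → (𝒞.RW →ₐ[O] Ω))

theorem ev2_inL (p : I × I') :
    ((ev2 (pts 𝒞 c).range (pts 𝒞 c').range p).comp (inL (pts 𝒞 c).range (pts 𝒞 c').range)).comp
      (pts 𝒞 c).rangeRestrict = c p.1 :=
  AlgHom.ext fun _ => inL_apply _ _ _ p

theorem ev2_inR (p : I × I') :
    ((ev2 (pts 𝒞 c).range (pts 𝒞 c').range p).comp (inR (pts 𝒞 c).range (pts 𝒞 c').range)).comp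
      (pts 𝒞 c').rangeRestrict = c' p.2 :=
  AlgHom.ext fun _ => inR_apply _ _ _ p

/-- the twisted product of the two pull-backs of the universal point, over `T'`. -/
def yT2 (ζ : ClR O A0 A1 A01 t s O) : ClR O A0 A1 A01 t s (mu2 (pts 𝒞 c).range (pts 𝒞 c').range).range :=
  bcR ((inL (pts 𝒞 c).range (pts 𝒞 c').range).comp (pts 𝒞 c).rangeRestrict) 𝒞.x *
    bcR ((inR (pts 𝒞 c).range (pts 𝒞 c').range).comp (pts 𝒞 c').rangeRestrict) 𝒞.x *
    bcR (Algebra.ofId O (mu2 (pts 𝒞 c).range (pts 𝒞 c').range).range) ζ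

theorem bcR_ev2_yT2 (ζ : ClR O A0 A1 A01 t s O) (p : I × I') :
    bcR (ev2 (pts 𝒞 c).range (pts 𝒞 c').range p) (yT2 𝒞 c c' ζ) =
      bcR (c p.1) 𝒞.x * bcR (c' p.2) 𝒞.x * bcR (Algebra.ofId O Ω) ζ := by
  have h3 : (ev2 (pts 𝒞 c).range (pts 𝒞 c').range p).comp
      (Algebra.ofId O (mu2 (pts 𝒞 c).range (pts 𝒞 c').range).range) = Algebra.ofId O Ω :=
    AlgHom.ext fun a => by
      rw [AlgHom.comp_apply, Algebra.ofId_apply, Algebra.ofId_apply, AlgHom.commutes]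
  rw [yT2, map_mul, map_mul, bcR_bc, bcR_bc, bcR_bc, ← AlgHom.comp_assoc, ← AlgHom.comp_assoc,
    ev2_inL, ev2_inR, h3]

/-- **the twisted comultiplication**: if the twisted products `d (i, i')` of the points `c i`, `c' i'`
again lie in the admissible set, there is `Ψ : RW → T'` computing their coordinates. -/
theorem exists_comul2 [Finite I] [Finite I'] (hmul : PicZeroMul O A0 A1 A01 t s e)
    {𝒯 : Set (ClR O A0 A1 A01 t s Ω)} (hAdm : Admissible Ω 𝒞 𝒯)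
    (d : I × I' → (𝒞.RW →ₐ[O] Ω)) (ζ : ClR O A0 A1 A01 t s O) (hζ : ζ ∈ PicZeroR e O)
    (hd : ∀ p, bcR (d p) 𝒞.x = bcR (c p.1) 𝒞.x * bcR (c' p.2) 𝒞.x * bcR (Algebra.ofId O Ω) ζ)
    (hd𝒯 : ∀ p, bcR (d p) 𝒞.x ∈ 𝒯) :
    ∃ Ψ : 𝒞.RW →ₐ[O] (mu2 (pts 𝒞 c).range (pts 𝒞 c').range).range, ∀ (r : 𝒞.RW) (p : I × I'),
      ((Ψ r : (mu2 (pts 𝒞 c).range (pts 𝒞 c').range).range) : I × I' → Ω) p = d p r := by
  have hy : yT2 𝒞 c c' ζ ∈ PicZeroR e (mu2 (pts 𝒞 c).range (pts 𝒞 c').range).range :=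
    hmul _ _ _ (hmul _ _ _ (picZeroR_bcR _ 𝒞.x_mem) (picZeroR_bcR _ 𝒞.x_mem)) (picZeroR_bcR _ hζ)
  have hex : ∃ Ψ : 𝒞.RW →ₐ[O] (mu2 (pts 𝒞 c).range (pts 𝒞 c').range).range,
      bcR Ψ 𝒞.x = yT2 𝒞 c c' ζ :=
    exists_point_subalgebra 𝒞 hAdm _ (yT2 𝒞 c c' ζ) hy fun p => by
      rw [← ev2, bcR_ev2_yT2, ← hd]
      exact hd𝒯 p
  obtain ⟨Ψ, hΨ⟩ := hex
  refine ⟨Ψ, fun r p => ?_⟩
  have h1 : (ev2 (pts 𝒞 c).range (pts 𝒞 c').range p).comp Ψ = d p :=
    𝒞.inj Ω _ _ (by rw [← bcR_bc, hΨ, bcR_ev2_yT2, hd])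
  rw [← h1]
  rfl

end Two

/-! ### The order attached to an extension law -/

section Main

variable {M : Type} [AddCommGroup M] {Q : Type} [AddCommGroup Q] (π : M →+ Q)
  (c : M → (𝒞.RW →ₐ[O] Ω))

/-- the fibre of `π` over `q`. -/
abbrev Fib (q : Q) : Type := {m : M // π m = q}

/-- the points of the fibre over `q`. -/
def cq (q : Q) : Fib π q → (𝒞.RW →ₐ[O] Ω) := fun i => c i.1

/-- the coordinate map of the order: `(r_q)_q ↦ (m ↦ c_m (r_{π m}))`. -/
def Phi : (Q → 𝒞.RW) →ₐ[O] (M → Ω) :=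
  AlgHom.pi fun m => (c m).comp (Pi.evalAlgHom O (fun _ : Q => 𝒞.RW) (π m))

theorem Phi_apply (r : Q → 𝒞.RW) (m : M) : Phi 𝒞 π c r m = c m (r (π m)) := rfl

open Classical in
/-- extension by zero of a function on a fibre. -/
def extz (q : Q) (f : Fib π q → Ω) : M → Ω := fun m => if h : π m = q then f ⟨m, h⟩ else 0

theorem extz_of_eq {q : Q} (f : Fib π q → Ω) {m : M} (h : π m = q) : extz π q f m = f ⟨m, h⟩ := by
  unfold extz
  rw [dif_pos h]

theorem extz_of_ne {q : Q} (f : Fib π q → Ω) {m : M} (h : π m ≠ q) : extz π q f m = 0 := by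
  unfold extz
  rw [dif_neg h]

open Classical in
/-- the extension by zero of a coordinate function of a fibre lies in the order. -/
theorem extz_pts (q : Q) (ρ : 𝒞.RW) :
    extz π q (pts 𝒞 (cq 𝒞 π c q) ρ) = Phi 𝒞 π c (Pi.single q ρ) := by
  funext m
  rw [Phi_apply]
  by_cases h : π m = q
  · rw [extz_of_eq π _ h, pts_apply, h, Pi.single_eq_same]
    rfl
  · rw [extz_of_ne π _ h, Pi.single_eq_of_ne h, map_zero]

theorem extz_mem (q : Q) (a : (pts 𝒞 (cq 𝒞 π c q)).range) :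
    extz π q (a : Fib π q → Ω) ∈ (Phi 𝒞 π c).range := by
  obtain ⟨ρ, hρ⟩ := a.2
  have hρ' : pts 𝒞 (cq 𝒞 π c q) ρ = (a : Fib π q → Ω) := hρ
  rw [← hρ', extz_pts]
  exact ⟨_, rfl⟩

/-- the linear map `∏_q H_q → Fun(M, Ω)` gluing functions on the fibres. -/
def glue : (∀ q : Q, (pts 𝒞 (cq 𝒞 π c q)).range) →ₗ[O] (M → Ω) where
  toFun h := fun m => ((h (π m) : (pts 𝒞 (cq 𝒞 π c (π m))).range) : Fib π (π m) → Ω) ⟨m, rfl⟩
  map_add' _ _ := rfl
  map_smul' _ _ := rfl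

theorem range_glue :
    LinearMap.range (glue 𝒞 π c) = Subalgebra.toSubmodule (Phi 𝒞 π c).range := by
  apply le_antisymm
  · rintro _ ⟨h, rfl⟩
    have hq : ∀ q, ∃ ρ : 𝒞.RW, pts 𝒞 (cq 𝒞 π c q) ρ = (h q : Fib π q → Ω) := fun q => (h q).2
    choose r hr using hq
    refine ⟨r, ?_⟩
    funext m
    change c m (r (π m)) = ((h (π m) : (pts 𝒞 (cq 𝒞 π c (π m))).range) : Fib π (π m) → Ω) ⟨m, rfl⟩
    rw [← hr (π m)]
    rfl
  · rintro _ ⟨r, rfl⟩
    exact ⟨fun q => ⟨pts 𝒞 (cq 𝒞 π c q) (r q), ⟨r q, rfl⟩⟩, rfl⟩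

/-- the order is a finite `O`-module. -/
theorem finite_range_Phi [Finite M] [Finite Q] {𝒯 : Set (ClR O A0 A1 A01 t s Ω)}
    (hAdm : Admissible Ω 𝒞 𝒯) (hVS : ValSurj O A0 A1 A01 t s e Ω)
    (hc𝒯 : ∀ m, bcR (c m) 𝒞.x ∈ 𝒯) (hcmem : ∀ m, bcR (c m) 𝒞.x ∈ PicZeroR e Ω) :
    Module.Finite O (Phi 𝒞 π c).range := by
  haveI : ∀ q : Q, Module.Finite O (pts 𝒞 (cq 𝒞 π c q)).range := fun q =>
    finite_range_pts 𝒞 hAdm hVS (cq 𝒞 π c q) (fun i => hc𝒯 i.1) (fun i => hcmem i.1)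
  haveI : Module.Finite O (∀ q : Q, (pts 𝒞 (cq 𝒞 π c q)).range) := Module.Finite.pi
  have h1 : Module.Finite O (LinearMap.range (glue 𝒞 π c)) := Module.Finite.range _
  rw [range_glue] at h1
  exact h1

/-- reindexing a finite sum of products by `Fin n`. -/
theorem exists_fin_of_fintype {H : Subalgebra O (M → Ω)} {κ : Type} [Fintype κ] (a b : κ → H) :
    ∃ (n : ℕ) (a' b' : Fin n → H), ∀ m m' : M,
      ∑ i, (a' i : M → Ω) m * (b' i : M → Ω) m' = ∑ k, (a k : M → Ω) m * (b k : M → Ω) m' := by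
  refine ⟨Fintype.card κ, fun i => a ((Fintype.equivFin κ).symm i),
    fun i => b ((Fintype.equivFin κ).symm i), fun m m' => ?_⟩
  exact Fintype.sum_equiv (Fintype.equivFin κ).symm _ _ fun _ => rfl

variable (F : Type) [Field F] [Algebra O F] [Algebra F Ω] [IsScalarTower O F Ω]

/-- **K-FLAT, chapter ORDER for an extension law.** -/
theorem exists_isFunOrder_ext (hmul : PicZeroMul O A0 A1 A01 t s e)
    (𝒞 : ChartPkg O A0 A1 A01 t s e) (M : Type) [AddCommGroup M] [Finite M]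
    [MulAction (Ω ≃ₐ[F] Ω) M] (Q : Type) [AddCommGroup Q] [Finite Q] (π : M →+ Q)
    (hπ : ∀ (σ : Ω ≃ₐ[F] Ω) (m : M), π (σ • m) = π m)
    (ι : M → ClR O A0 A1 A01 t s Ω) (hinj : Function.Injective ι)
    (hmem : ∀ m, ι m ∈ PicZeroR e Ω)
    (hequiv : ∀ (σ : Ω ≃ₐ[F] Ω) (m : M), ι (σ • m) = galActR O F σ (ι m))
    (ζ : Q → Q → ClR O A0 A1 A01 t s O) (hζ : ∀ q q', ζ q q' ∈ PicZeroR e O)
    (hlaw : ∀ m m' : M, ι (m + m') = ι m * ι m' * bcR (Algebra.ofId O Ω) (ζ (π m) (π m')))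
    (hVS : ValSurj O A0 A1 A01 t s e Ω) (hAdm : Admissible Ω 𝒞 (Set.range ι)) :
    ∃ H : Subalgebra O (M → Ω), IsFunOrder O F H := by
  classical
  have hpt : ∀ m : M, ∃ c : 𝒞.RW →ₐ[O] Ω, bcR c 𝒞.x = ι m := fun m =>
    (𝒞.mem_iff Ω _ (hmem _)).mpr fun p =>
      (𝒞.W_iff Ω p.asIdeal.ResidueField (toResidueR Ω p) _ (hmem _)).mpr (hAdm.1 _ ⟨_, rfl⟩)
  choose c hc using hpt
  have hc𝒯 : ∀ m, bcR (c m) 𝒞.x ∈ Set.range ι := fun m => ⟨m, (hc m).symm⟩
  have hcmem : ∀ m, bcR (c m) 𝒞.x ∈ PicZeroR e Ω := fun m => by rw [hc]; exact hmem m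
  refine ⟨(Phi 𝒞 π c).range,
    { finite := finite_range_Phi 𝒞 π c hAdm hVS hc𝒯 hcmem
      equivariant := ?_
      separates := ?_
      comul := ?_ }⟩
  · -- equivariance
    rintro _ ⟨r, rfl⟩ σ m
    have h1 : (galHom O F σ).comp (c m) = c (σ • m) :=
      𝒞.inj Ω _ _ (by
        rw [← bcR_bc, hc, hc, hequiv]
        rfl)
    change Phi 𝒞 π c r (σ • m) = σ (Phi 𝒞 π c r m)
    rw [Phi_apply, Phi_apply, hπ, ← h1]
    rfl
  · -- separation
    intro m m' hne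
    by_cases hq : π m = π m'
    · have h1 : c m ≠ c m' := fun h => hne (hinj (by rw [← hc m, h, hc m']))
      obtain ⟨r, hr⟩ := DFunLike.exists_ne h1
      exact ⟨Phi 𝒞 π c (fun _ => r), ⟨_, rfl⟩, hr⟩
    · refine ⟨Phi 𝒞 π c (Pi.single (π m) 1), ⟨_, rfl⟩, ?_⟩
      rw [Phi_apply, Phi_apply, Pi.single_eq_same, Pi.single_eq_of_ne (Ne.symm hq), map_one, map_zero]
      exact one_ne_zero
  · -- comultiplication
    rintro _ ⟨r, rfl⟩
    -- fibrewise twisted comultiplications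
    have hΨ : ∀ p : Q × Q, ∃ Ψ : 𝒞.RW →ₐ[O]
        (mu2 (pts 𝒞 (cq 𝒞 π c p.1)).range (pts 𝒞 (cq 𝒞 π c p.2)).range).range,
        ∀ (ρ : 𝒞.RW) (i : Fib π p.1 × Fib π p.2),
          ((Ψ ρ : (mu2 (pts 𝒞 (cq 𝒞 π c p.1)).range (pts 𝒞 (cq 𝒞 π c p.2)).range).range) :
            Fib π p.1 × Fib π p.2 → Ω) i = c (i.1.1 + i.2.1) ρ := fun p =>
      exists_comul2 𝒞 (cq 𝒞 π c p.1) (cq 𝒞 π c p.2) hmul hAdm
        (fun i => c (i.1.1 + i.2.1)) (ζ p.1 p.2) (hζ p.1 p.2)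
        (fun i => by
          change bcR (c (i.1.1 + i.2.1)) 𝒞.x = bcR (c i.1.1) 𝒞.x * bcR (c i.2.1) 𝒞.x * _
          rw [hc, hc, hc, hlaw, i.1.2, i.2.2])
        (fun i => hc𝒯 _)
    choose Ψ hΨ' using hΨ
    -- decompose `Ψ_p (r (p.1 + p.2))` into pure tensors
    have hdec : ∀ p : Q × Q, ∃ (n : ℕ) (a : Fin n → (pts 𝒞 (cq 𝒞 π c p.1)).range)
        (b : Fin n → (pts 𝒞 (cq 𝒞 π c p.2)).range), ∀ i : Fib π p.1 × Fib π p.2,
          c (i.1.1 + i.2.1) (r (p.1 + p.2)) =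
            ∑ j, (a j : Fib π p.1 → Ω) i.1 * (b j : Fib π p.2 → Ω) i.2 := fun p => by
      obtain ⟨z, hz⟩ := (Ψ p (r (p.1 + p.2))).2
      obtain ⟨n, a, b, rfl⟩ := exists_fin_sum_tmul z
      have hz' : mu2 (pts 𝒞 (cq 𝒞 π c p.1)).range (pts 𝒞 (cq 𝒞 π c p.2)).range
          (∑ j, a j ⊗ₜ[O] b j) =
          ((Ψ p (r (p.1 + p.2)) :
            (mu2 (pts 𝒞 (cq 𝒞 π c p.1)).range (pts 𝒞 (cq 𝒞 π c p.2)).range).range) :
            Fib π p.1 × Fib π p.2 → Ω) := hz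
      refine ⟨n, a, b, fun i => ?_⟩
      rw [← hΨ' p (r (p.1 + p.2)) i, ← hz', map_sum, Finset.sum_apply]
      exact Finset.sum_congr rfl fun j _ => mu2_tmul _ _ _ _ _
    choose n a b hab using hdec
    haveI := Fintype.ofFinite Q
    -- the global family, indexed by `Σ p, Fin (n p)`
    let A : (Σ p : Q × Q, Fin (n p)) → (Phi 𝒞 π c).range := fun k =>
      ⟨extz π k.1.1 (a k.1 k.2 : Fib π k.1.1 → Ω), extz_mem 𝒞 π c _ _⟩
    let B : (Σ p : Q × Q, Fin (n p)) → (Phi 𝒞 π c).range := fun k =>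
      ⟨extz π k.1.2 (b k.1 k.2 : Fib π k.1.2 → Ω), extz_mem 𝒞 π c _ _⟩
    obtain ⟨N, a', b', hN⟩ := exists_fin_of_fintype A B
    refine ⟨N, a', b', fun m m' => ?_⟩
    change Phi 𝒞 π c r (m + m') = _
    rw [hN, Phi_apply, map_add, Fintype.sum_sigma]
    rw [Finset.sum_eq_single (π m, π m')]
    · have h0 := hab (π m, π m') (⟨m, rfl⟩, ⟨m', rfl⟩)
      rw [h0]
      refine Finset.sum_congr rfl fun j _ => ?_
      change _ = extz π (π m) _ m * extz π (π m') _ m'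
      rw [extz_of_eq π _ rfl, extz_of_eq π _ rfl]
    · intro p _ hp
      refine Finset.sum_eq_zero fun j _ => ?_
      change extz π p.1 _ m * extz π p.2 _ m' = 0
      by_cases h1 : π m = p.1
      · have h2 : π m' ≠ p.2 := fun h2 => hp (Prod.ext h1.symm h2.symm)
        rw [extz_of_ne π _ h2, mul_zero]
      · rw [extz_of_ne π _ h1, zero_mul]
    · intro h
      exact absurd (Finset.mem_univ _) h

end Main

end Fermat.Agent.MAZ.Flat.OrderExt69
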