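/-
Programme MAZ, pole P3 (`r = 2`, marked orders; owner of the vocabulary: helper68), brick M5 (helper14):
**the function orders on a group of order 2 over `ℤ_2`, and their Cartier duals.**

`Ω = PadicAlgCl 2`, `M = {0, x}` a group of order two (the local Galois group acts trivially on it),
`H ⊆ Fun(M, Ω)` a function order over `ℤ_2` (`FunOrder68.IsFunOrder`).  Write `ι : ℤ_2 → Ω`.

* `O_μ ⊆ H ⊆ O_ét` (`mem_of_range_of_norm_lt`, `apply_mem_range`), where `O_ét` = all `ℤ_2`-valued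
  functions and `O_μ` = those with `h x ≡ h 0 mod 2`.  The inclusion `O_μ ⊆ H` is the only place where the
  comultiplication is used: the ideal `Λ = {h x | h ∈ H, h 0 = 0}` of `ℤ_2` is `(c₀)`, and the second
  difference of the comultiplication of `c₀ δ_x` at `(x, x)` reads `-2 c₀ = c₀² S`, so `c₀ ∣ 2`
  (`two_mem_diffIdeal`).
* CLASSIFICATION: `H = O_ét ⟺ conn H = ⊥ ⟺ δ_x ∈ H` (`mem_iff_of_not_conn`), and
  `H = O_μ ⟺ conn H = ⊤` (`mem_iff_of_conn`); always `conn H = ⊥ ∨ conn H = ⊤`.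
  The non-trivial character `(1, -1)` always lies in `H` (`char_mem`).
* CARTIER DUALS (in `Cartier68.dualAlg68`, `D = {0, d}` a group of order two paired with `M`):
  `(O_ét)^* = O_μ` (`mem_dual_iff_of_not_conn`), `(O_μ)^* = O_ét` (`mem_dual_iff_of_conn`), hence
  `conn (H^*) = ⊤ ⟺ conn H = ⊥`, `conn (H^*) = ⊥ ⟺ conn H = ⊤`, and
  **`#conn H · #conn (H^*) = 2`** (`card_conn_mul_card_conn_dual`): the base case of the count
  `#conn H · #conn (H^*) = #M` along a filtration with graded pieces of order 2.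
-/
import Mathlib
import Fermat.Agent.TW.FF.Red68
import Fermat.Agent.MAZ.Flat.Cartier68

set_option autoImplicit false
set_option linter.unusedSectionVars false

noncomputable section

namespace Fermat.Agent.MAZ.Flat.RankTwo14

open Fermat.Agent.S19.Shell64 Fermat.Agent.TW.FF.FunOrder68 Fermat.Agent.TW.FF.FlatModel68
open Fermat.Agent.TW.FF.Spec72 Fermat.Agent.TW.FF.Red68 Fermat.Agent.MAZ.Flat.Cartier68

local notation "Ω" => PadicAlgCl 2
local notation "ι" => algebraMap ℤ_[2] (PadicAlgCl 2)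

/-! ### 0. Norms of `2`-adic integers in `Ω` -/

theorem norm_iota (a : ℤ_[2]) : ‖ι a‖ = ‖a‖ := by
  rw [IsScalarTower.algebraMap_apply ℤ_[2] ℚ_[2] (PadicAlgCl 2)]
  exact PadicAlgCl.norm_extends 2 _

theorem iota_injective : Function.Injective ι := by
  refine (injective_iff_map_eq_zero _).2 fun a ha => ?_
  rw [← norm_eq_zero, ← norm_iota, ha, norm_zero]

theorem norm_lt_one_iff_two_dvd (a : ℤ_[2]) : ‖a‖ < 1 ↔ (2 : ℤ_[2]) ∣ a := by
  have h := PadicInt.norm_lt_one_iff_dvd (p := 2) a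
  rwa [Nat.cast_ofNat] at h

theorem norm_two_lt_one : ‖(2 : Ω)‖ < 1 := by
  have h : (2 : Ω) = ι 2 := (map_ofNat ι 2).symm
  rw [h, norm_iota, norm_lt_one_iff_two_dvd]

theorem two_ne_zero_omega : (2 : Ω) ≠ 0 := by
  have h : (2 : Ω) = ι 2 := (map_ofNat ι 2).symm
  rw [h]
  intro h0
  have := iota_injective (h0.trans (map_zero ι).symm)
  exact two_ne_zero this

/-- a difference of `2`-adic integers of norm `< 1` in `Ω` is divisible by `2`. -/
theorem exists_eq_two_mul_of_norm_lt {a b : ℤ_[2]} (h : ‖ι a - ι b‖ < 1) :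
    ∃ c : ℤ_[2], a - b = 2 * c := by
  rw [← map_sub, norm_iota, norm_lt_one_iff_two_dvd] at h
  exact h

/-! ### 1. Groups of order two -/

section OrderTwo

variable {M : Type} [AddCommGroup M]

/-- a group of order two is `{0, x}` with `x + x = 0`. -/
theorem exists_gen (hM : Nat.card M = 2) :
    ∃ x : M, x ≠ 0 ∧ (∀ m : M, m = 0 ∨ m = x) ∧ x + x = 0 := by
  obtain ⟨x, hx, huniq⟩ := (Nat.card_eq_two_iff' (0 : M)).1 hM
  have hall : ∀ m : M, m = 0 ∨ m = x := fun m => by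
    by_cases hm : m = 0
    · exact Or.inl hm
    · exact Or.inr (huniq m hm)
  refine ⟨x, hx, hall, ?_⟩
  rcases hall (x + x) with h | h
  · exact h
  · exact absurd (add_eq_right.mp h) hx

/-- a group acts trivially (by automorphisms) on a group of order two. -/
theorem smul_eq_self {G : Type} [Group G] [DistribMulAction G M] {x : M} (hx : x ≠ 0)
    (hall : ∀ m : M, m = 0 ∨ m = x) (σ : G) (m : M) : σ • m = m := by
  rcases hall m with hm | hm
  · rw [hm]
    exact smul_zero σ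
  · rcases hall (σ • m) with h | h
    · rw [(smul_eq_zero_iff_eq σ).mp h] at hm
      exact absurd hm.symm hx
    · rw [h, hm]

end OrderTwo

/-! ### 2. The ideal of differences and the classification -/

section Core

variable {M : Type} [AddCommGroup M] [MulAction (GQp 2) M]
  {H : Subalgebra ℤ_[2] (M → PadicAlgCl 2)}

/-- the values of the functions of a function order at a Galois-fixed point lie in `ℤ_2`. -/
theorem apply_mem_range (hH : IsFunOrder ℤ_[2] ℚ_[2] H) {h : M → Ω} (hh : h ∈ H) {m : M}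
    (hm : ∀ σ : GQp 2, σ • m = m) : ∃ r : ℤ_[2], ι r = h m := by
  have := hH.finite
  refine Fermat.Agent.TW.FF.ClosureQuot68.mem_range_of_fixed_of_isIntegral (R := ℤ_[2]) (F := ℚ_[2])
    fixedFieldEqBase_of_isGalois (fun σ => ?_) ?_
  · rw [← hH.equivariant h hh σ m, hm]
  · exact (Algebra.IsIntegral.isIntegral (R := ℤ_[2]) (⟨h, hh⟩ : H)).map (evalPt H.val m)

/-- the ideal of the values at `x` of the functions of `H` which vanish at `0`. -/
def diffIdeal (H : Subalgebra ℤ_[2] (M → PadicAlgCl 2)) (x : M) : Ideal ℤ_[2] where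
  carrier := {c | ∃ h ∈ H, h 0 = 0 ∧ h x = ι c}
  add_mem' := by
    rintro a b ⟨h, hh, h0, hx⟩ ⟨h', hh', h0', hx'⟩
    refine ⟨h + h', H.add_mem hh hh', ?_, ?_⟩
    · rw [Pi.add_apply, h0, h0', add_zero]
    · rw [Pi.add_apply, hx, hx', map_add]
  zero_mem' := ⟨0, H.zero_mem, rfl, by rw [Pi.zero_apply, map_zero]⟩
  smul_mem' := by
    rintro c a ⟨h, hh, h0, hx⟩
    refine ⟨c • h, H.smul_mem hh c, ?_, ?_⟩
    · rw [Pi.smul_apply, h0, smul_zero]
    · have e : (c • h) x = ι (c * a) := by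
        rw [Pi.smul_apply, hx, Algebra.smul_def, map_mul]
      exact e

theorem mem_diffIdeal_iff (x : M) (c : ℤ_[2]) :
    c ∈ diffIdeal H x ↔ ∃ h ∈ H, h 0 = 0 ∧ h x = ι c := Iff.rfl

theorem sub_mem_diffIdeal {h : M → Ω} (hh : h ∈ H) (x : M) {a b : ℤ_[2]} (h0 : h 0 = ι b)
    (hx : h x = ι a) : a - b ∈ diffIdeal H x := by
  refine ⟨h - b • (1 : M → Ω), H.sub_mem hh (H.smul_mem H.one_mem b), ?_, ?_⟩
  · rw [Pi.sub_apply, Pi.smul_apply, Pi.one_apply, Algebra.smul_def, mul_one, h0, sub_self]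
  · rw [Pi.sub_apply, Pi.smul_apply, Pi.one_apply, Algebra.smul_def, mul_one, hx, map_sub]

/-- a function with `ℤ_2`-values whose difference lies in the ideal belongs to `H`. -/
theorem mem_of_mem_diffIdeal {x : M} (hall : ∀ m : M, m = 0 ∨ m = x) {h : M → Ω} {a b : ℤ_[2]}
    (h0 : h 0 = ι b) (hx : h x = ι a) (hab : a - b ∈ diffIdeal H x) : h ∈ H := by
  obtain ⟨g, hg, hg0, hgx⟩ := hab
  have e : h = b • (1 : M → Ω) + g := by
    funext m
    rw [Pi.add_apply, Pi.smul_apply, Pi.one_apply, Algebra.smul_def, mul_one]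
    rcases hall m with hm | hm
    · rw [hm, h0, hg0, add_zero]
    · rw [hm, hx, hgx, ← map_add, add_sub_cancel]
  rw [e]
  exact H.add_mem (H.smul_mem H.one_mem b) hg

variable (hH : IsFunOrder ℤ_[2] ℚ_[2] H) (htriv : ∀ (σ : GQp 2) (m : M), σ • m = m)

include hH htriv in
theorem diffIdeal_ne_bot {x : M} (hx : x ≠ 0) : diffIdeal H x ≠ ⊥ := by
  intro hbot
  obtain ⟨h, hh, hne⟩ := hH.separates x 0 hx
  obtain ⟨a, ha⟩ := apply_mem_range hH hh (fun σ => htriv σ x)
  obtain ⟨b, hb⟩ := apply_mem_range hH hh (fun σ => htriv σ 0)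
  have hmem := sub_mem_diffIdeal hh x hb.symm ha.symm
  rw [hbot, Ideal.mem_bot, sub_eq_zero] at hmem
  exact hne (by rw [← ha, ← hb, hmem])

include hH htriv in
/-- **`2 δ_x ∈ H`**: the generator `c₀` of the ideal of differences divides `2` (second difference of
the comultiplication at `(x, x)`). -/
theorem two_mem_diffIdeal {x : M} (hx : x ≠ 0) (h2x : x + x = 0) :
    (2 : ℤ_[2]) ∈ diffIdeal H x := by
  classical
  have hprinc : Submodule.IsPrincipal (diffIdeal H x) := IsPrincipalIdealRing.principal _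
  obtain ⟨c₀, hc₀⟩ := (Submodule.isPrincipal_iff _).1 hprinc
  have hc₀mem : c₀ ∈ diffIdeal H x := by
    rw [hc₀]
    exact Submodule.mem_span_singleton_self c₀
  have hc₀ne : c₀ ≠ 0 := by
    intro h0
    apply diffIdeal_ne_bot hH htriv hx
    rw [hc₀, h0]
    exact Submodule.span_zero_singleton ℤ_[2]
  have hgen : ∀ c ∈ diffIdeal H x, ∃ s : ℤ_[2], c = s * c₀ := by
    intro c hc
    rw [hc₀] at hc
    obtain ⟨s, hs⟩ := Submodule.mem_span_singleton.1 hc
    exact ⟨s, hs.symm⟩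
  have hval : ∀ f ∈ H, ∃ s : ℤ_[2], f x - f 0 = ι (s * c₀) := by
    intro f hf
    obtain ⟨r, hr⟩ := apply_mem_range hH hf (fun σ => htriv σ x)
    obtain ⟨r0, hr0⟩ := apply_mem_range hH hf (fun σ => htriv σ 0)
    obtain ⟨s, hs⟩ := hgen _ (sub_mem_diffIdeal hf x hr0.symm hr.symm)
    exact ⟨s, by rw [← hr, ← hr0, ← map_sub, hs]⟩
  obtain ⟨g, hg, hg0, hgx⟩ := (mem_diffIdeal_iff x c₀).1 hc₀mem
  obtain ⟨n, a, b, hab⟩ := hH.comul g hg
  choose s hs using fun i => hval _ (a i).2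
  choose t ht using fun i => hval _ (b i).2
  have key : ∑ i, ((a i : M → Ω) x - (a i : M → Ω) 0) * ((b i : M → Ω) x - (b i : M → Ω) 0) =
      g (x + x) - g (x + 0) - g (0 + x) + g (0 + 0) := by
    rw [hab x x, hab x 0, hab 0 x, hab 0 0, ← Finset.sum_sub_distrib, ← Finset.sum_sub_distrib,
      ← Finset.sum_add_distrib]
    refine Finset.sum_congr rfl fun i _ => ?_
    ring
  have hxx : g (x + x) = 0 := by rw [h2x, hg0]
  have hx0 : g (x + 0) = ι c₀ := by rw [add_zero, hgx]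
  have h0x : g (0 + x) = ι c₀ := by rw [zero_add, hgx]
  have h00 : g (0 + 0) = 0 := by rw [add_zero, hg0]
  rw [hxx, hx0, h0x, h00] at key
  have e1 : ∑ i, ((a i : M → Ω) x - (a i : M → Ω) 0) * ((b i : M → Ω) x - (b i : M → Ω) 0) =
      ι (c₀ * (c₀ * ∑ i, s i * t i)) := by
    rw [Finset.mul_sum, Finset.mul_sum, map_sum]
    refine Finset.sum_congr rfl fun i _ => ?_
    rw [hs i, ht i, ← map_mul]
    congr 1
    ring
  have e2 : (0 : Ω) - ι c₀ - ι c₀ + 0 = ι (c₀ * (-2)) := by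
    rw [map_mul, map_neg, map_ofNat]
    ring
  rw [e1, e2] at key
  have h3 := mul_left_cancel₀ hc₀ne (iota_injective key)
  have h4 : (2 : ℤ_[2]) = (-∑ i, s i * t i) * c₀ := by
    linear_combination h3
  have h5 := (diffIdeal H x).mul_mem_left (-∑ i, s i * t i) hc₀mem
  rwa [← h4] at h5

include hH htriv in
/-- `2 δ_x ∈ H`, as a function. -/
theorem exists_two_delta {x : M} (hx : x ≠ 0) (h2x : x + x = 0) :
    ∃ h ∈ H, h 0 = 0 ∧ h x = 2 := by
  obtain ⟨h, hh, h0, hx'⟩ := two_mem_diffIdeal hH htriv hx h2x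
  exact ⟨h, hh, h0, by rw [hx', map_ofNat]⟩

include htriv in
/-- if `x` does not reduce to the unit point, then `δ_x ∈ H`. -/
theorem one_mem_diffIdeal_of_not_conn {x : M} (hnc : x ∉ conn hH) :
    (1 : ℤ_[2]) ∈ diffIdeal H x := by
  have h1 : ¬ Cong H x 0 := hnc
  unfold Cong at h1
  push Not at h1
  obtain ⟨h, hh, hle⟩ := h1
  obtain ⟨a, ha⟩ := apply_mem_range hH hh (fun σ => htriv σ x)
  obtain ⟨b, hb⟩ := apply_mem_range hH hh (fun σ => htriv σ 0)
  have hmem := sub_mem_diffIdeal hh x hb.symm ha.symm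
  rw [← ha, ← hb, ← map_sub, norm_iota] at hle
  have hu : IsUnit (a - b) := PadicInt.isUnit_iff.2 (le_antisymm (PadicInt.norm_le_one _) hle)
  rw [Ideal.eq_top_of_isUnit_mem _ hmem hu]
  exact Submodule.mem_top

include htriv in
theorem exists_delta_of_not_conn {x : M} (hnc : x ∉ conn hH) : ∃ h ∈ H, h 0 = 0 ∧ h x = 1 := by
  obtain ⟨h, hh, h0, hx'⟩ := one_mem_diffIdeal_of_not_conn hH htriv hnc
  exact ⟨h, hh, h0, by rw [hx', map_one]⟩

include hH htriv in
/-- **`O_μ ⊆ H`**: every `ℤ_2`-valued function with `h x ≡ h 0 mod 2` lies in `H`. -/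
theorem mem_of_range_of_norm_lt {x : M} (hx : x ≠ 0) (hall : ∀ m : M, m = 0 ∨ m = x)
    (h2x : x + x = 0) {h : M → Ω} (hr : ∀ m, ∃ r : ℤ_[2], ι r = h m) (hlt : ‖h x - h 0‖ < 1) :
    h ∈ H := by
  obtain ⟨a, ha⟩ := hr x
  obtain ⟨b, hb⟩ := hr 0
  rw [← ha, ← hb] at hlt
  obtain ⟨c, hc⟩ := exists_eq_two_mul_of_norm_lt hlt
  refine mem_of_mem_diffIdeal hall hb.symm ha.symm ?_
  rw [hc, mul_comm]
  exact (diffIdeal H x).mul_mem_left c (two_mem_diffIdeal hH htriv hx h2x)

include hH htriv in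
/-- the non-trivial character `(1, -1)` lies in every function order on a group of order two. -/
theorem char_mem {x : M} (hx : x ≠ 0) (hall : ∀ m : M, m = 0 ∨ m = x) (h2x : x + x = 0)
    {χ : M → Ω} (h0 : χ 0 = 1) (hχx : χ x = -1) : χ ∈ H := by
  refine mem_of_range_of_norm_lt hH htriv hx hall h2x (fun m => ?_) ?_
  · rcases hall m with hm | hm
    · exact ⟨1, by rw [hm, h0, map_one]⟩
    · exact ⟨-1, by rw [hm, hχx, map_neg, map_one]⟩
  · rw [h0, hχx]
    have e : (-1 : Ω) - 1 = -2 := by ring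
    rw [e, norm_neg]
    exact norm_two_lt_one

include htriv in
/-- **`H = O_ét`** when `x` does not reduce to the unit point. -/
theorem mem_iff_of_not_conn {x : M} (hall : ∀ m : M, m = 0 ∨ m = x) (hnc : x ∉ conn hH)
    (h : M → Ω) : h ∈ H ↔ ∀ m, ∃ r : ℤ_[2], ι r = h m := by
  constructor
  · intro hh m
    exact apply_mem_range hH hh (fun σ => htriv σ m)
  · intro hr
    obtain ⟨a, ha⟩ := hr x
    obtain ⟨b, hb⟩ := hr 0
    refine mem_of_mem_diffIdeal hall hb.symm ha.symm ?_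
    have := (diffIdeal H x).mul_mem_left (a - b) (one_mem_diffIdeal_of_not_conn hH htriv hnc)
    rwa [mul_one] at this

include htriv in
/-- **`H = O_μ`** when `x` reduces to the unit point. -/
theorem mem_iff_of_conn {x : M} (hx : x ≠ 0) (hall : ∀ m : M, m = 0 ∨ m = x) (h2x : x + x = 0)
    (hc : x ∈ conn hH) (h : M → Ω) :
    h ∈ H ↔ (∀ m, ∃ r : ℤ_[2], ι r = h m) ∧ ‖h x - h 0‖ < 1 := by
  constructor
  · intro hh
    exact ⟨fun m => apply_mem_range hH hh (fun σ => htriv σ m), hc h hh⟩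
  · rintro ⟨hr, hlt⟩
    exact mem_of_range_of_norm_lt hH htriv hx hall h2x hr hlt

theorem conn_eq_bot_of_not_mem {x : M} (hall : ∀ m : M, m = 0 ∨ m = x) (hnc : x ∉ conn hH) :
    conn hH = ⊥ := by
  rw [eq_bot_iff]
  intro m hm
  rcases hall m with h | h
  · rw [h]
    exact zero_mem _
  · rw [h] at hm
    exact absurd hm hnc

theorem conn_eq_top_of_mem {x : M} (hall : ∀ m : M, m = 0 ∨ m = x) (hc : x ∈ conn hH) :
    conn hH = ⊤ := by
  rw [eq_top_iff]
  intro m _
  rcases hall m with h | h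
  · rw [h]
    exact zero_mem _
  · rw [h]
    exact hc

theorem conn_eq_bot_iff {x : M} (hx : x ≠ 0) (hall : ∀ m : M, m = 0 ∨ m = x) :
    conn hH = ⊥ ↔ x ∉ conn hH := by
  constructor
  · intro h hmem
    rw [h, AddSubgroup.mem_bot] at hmem
    exact hx hmem
  · exact conn_eq_bot_of_not_mem hH hall

theorem conn_eq_top_iff {x : M} (hall : ∀ m : M, m = 0 ∨ m = x) :
    conn hH = ⊤ ↔ x ∈ conn hH := by
  constructor
  · intro h
    rw [h]
    exact AddSubgroup.mem_top x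
  · exact conn_eq_top_of_mem hH hall

/-- the kernel of reduction of a function order on a group of order two is `⊥` or `⊤`. -/
theorem conn_eq_bot_or_eq_top (hM : Nat.card M = 2) : conn hH = ⊥ ∨ conn hH = ⊤ := by
  obtain ⟨x, -, hall, -⟩ := exists_gen hM
  by_cases hc : x ∈ conn hH
  · exact Or.inr (conn_eq_top_of_mem hH hall hc)
  · exact Or.inl (conn_eq_bot_of_not_mem hH hall hc)

end Core

/-! ### 3. Cartier duals -/

section Dual

variable {M D : Type} [AddCommGroup M] [DistribMulAction (GQp 2) M] [Fintype M]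
  [AddCommGroup D] [MulAction (GQp 2) D]
  {H : Subalgebra ℤ_[2] (M → PadicAlgCl 2)} {e : D → M → PadicAlgCl 2}

theorem pairing_zero_left (he : IsCharPairing ℚ_[2] e) (m : M) : e 0 m = 1 := by
  have h1 : e 0 m = e 0 m * e 0 m := by
    have := he.add_map 0 0 m
    rwa [add_zero] at this
  have h2 : e 0 m ≠ 0 := by
    intro h0
    have := he.map_add 0 m (-m)
    rw [add_neg_cancel, he.map_zero, h0, zero_mul] at this
    exact one_ne_zero this
  exact (mul_left_cancel₀ h2 ((mul_one _).trans h1)).symm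

theorem pairing_gen (he : IsCharPairing ℚ_[2] e) {x : M} (hall : ∀ m : M, m = 0 ∨ m = x)
    (h2x : x + x = 0) {d : D} (hd : d ≠ 0) : e d x = -1 := by
  have hsq : e d x * e d x = 1 := by rw [← he.map_add, h2x, he.map_zero]
  have hne : e d x ≠ 1 := by
    obtain ⟨m, hm⟩ := he.separates d 0 hd
    rw [pairing_zero_left he] at hm
    rcases hall m with h | h
    · rw [h] at hm
      exact absurd (he.map_zero d) hm
    · rw [h] at hm
      exact hm
  have h1 : (e d x - 1) * (e d x + 1) = 0 := by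
    have : (e d x - 1) * (e d x + 1) = e d x * e d x - 1 := by ring
    rw [this, hsq, sub_self]
  rcases mul_eq_zero.1 h1 with h | h
  · exact absurd (sub_eq_zero.1 h) hne
  · exact eq_neg_of_add_eq_zero_left h

theorem pair68_two {x : M} (hx : x ≠ 0) (hall : ∀ m : M, m = 0 ∨ m = x) (ℓ g : M → Ω) :
    pair68 ℓ g = ℓ 0 * g 0 + ℓ x * g x := by
  classical
  have huniv : (Finset.univ : Finset M) = {0, x} := by
    ext m
    simp only [Finset.mem_univ, Finset.mem_insert, Finset.mem_singleton, true_iff]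
    exact hall m
  unfold pair68
  rw [huniv, Finset.sum_pair hx.symm]

theorem evMeas68_zero_two (he : IsCharPairing ℚ_[2] e) {x : M} (hx : x ≠ 0)
    (hall : ∀ m : M, m = 0 ∨ m = x) (ℓ : M → Ω) : evMeas68 e ℓ 0 = ℓ 0 + ℓ x := by
  unfold evMeas68
  rw [pair68_two hx hall, pairing_zero_left he, pairing_zero_left he, mul_one, mul_one]

theorem evMeas68_gen_two (he : IsCharPairing ℚ_[2] e) {x : M} (hx : x ≠ 0)
    (hall : ∀ m : M, m = 0 ∨ m = x) (h2x : x + x = 0) {d : D} (hd : d ≠ 0) (ℓ : M → Ω) :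
    evMeas68 e ℓ d = ℓ 0 - ℓ x := by
  unfold evMeas68
  rw [pair68_two hx hall, he.map_zero, pairing_gen he hall h2x hd, mul_one, mul_neg, mul_one,
    sub_eq_add_neg]

variable (hfix : FixedFieldEqBase ℚ_[2] (PadicAlgCl 2)) (hH : IsFunOrder ℤ_[2] ℚ_[2] H)
  (he : IsCharPairing ℚ_[2] e)

/-- **`(O_ét)^* = O_μ`.** -/
theorem mem_dual_iff_of_not_conn {x : M} (hx : x ≠ 0) (hall : ∀ m : M, m = 0 ∨ m = x)
    (h2x : x + x = 0) {d : D} (hd : d ≠ 0) (hallD : ∀ d' : D, d' = 0 ∨ d' = d)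
    (hnc : x ∉ conn hH) (f : D → Ω) :
    f ∈ dualAlg68 hfix hH he ↔ (∀ d', ∃ r : ℤ_[2], ι r = f d') ∧ ‖f d - f 0‖ < 1 := by
  classical
  have htriv : ∀ (σ : GQp 2) (m : M), σ • m = m := smul_eq_self hx hall
  constructor
  · rintro ⟨ℓ, hℓ, rfl⟩
    obtain ⟨g, hg, hg0, hgx⟩ := exists_delta_of_not_conn hH htriv hnc
    obtain ⟨rx, hrx⟩ := hℓ g hg
    rw [pair68_two hx hall, hg0, hgx, mul_zero, zero_add, mul_one] at hrx
    obtain ⟨r1, hr1⟩ := hℓ 1 H.one_mem
    rw [pair68_two hx hall, Pi.one_apply, Pi.one_apply, mul_one, mul_one] at hr1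
    have h0 : evMeas68 e ℓ 0 = ι r1 := by rw [evMeas68_zero_two he hx hall, hr1]
    have hdv : evMeas68 e ℓ d = ι (r1 - 2 * rx) := by
      rw [evMeas68_gen_two he hx hall h2x hd, map_sub, map_mul, map_ofNat, hr1, hrx]
      ring
    refine ⟨fun d' => ?_, ?_⟩
    · rcases hallD d' with h | h
      · exact ⟨r1, by rw [h, h0]⟩
      · exact ⟨r1 - 2 * rx, by rw [h, hdv]⟩
    · rw [hdv, h0, ← map_sub, norm_iota, norm_lt_one_iff_two_dvd]
      exact ⟨-rx, by ring⟩
  · rintro ⟨hr, hlt⟩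
    obtain ⟨a, ha⟩ := hr 0
    obtain ⟨b, hb⟩ := hr d
    rw [← ha, ← hb] at hlt
    obtain ⟨c, hc⟩ := exists_eq_two_mul_of_norm_lt hlt
    obtain ⟨ℓ, hℓ0, hℓx⟩ : ∃ ℓ : M → Ω, ℓ 0 = ι (a + c) ∧ ℓ x = ι (-c) :=
      ⟨fun m => if m = 0 then ι (a + c) else ι (-c), if_pos rfl, if_neg hx⟩
    refine ⟨ℓ, fun h hh => ?_, ?_⟩
    · obtain ⟨r0, hr0⟩ := apply_mem_range hH hh (fun σ => htriv σ 0)
      obtain ⟨rx, hrx⟩ := apply_mem_range hH hh (fun σ => htriv σ x)
      rw [pair68_two hx hall, hℓ0, hℓx, ← hr0, ← hrx]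
      exact Subring.add_mem _ (Subring.mul_mem _ ⟨_, rfl⟩ ⟨_, rfl⟩)
        (Subring.mul_mem _ ⟨_, rfl⟩ ⟨_, rfl⟩)
    · funext d'
      rcases hallD d' with h | h
      · rw [h, evMeas68_zero_two he hx hall, hℓ0, hℓx, ← ha, ← map_add]
        congr 1
        ring
      · rw [h, evMeas68_gen_two he hx hall h2x hd, hℓ0, hℓx, ← hb, ← map_sub]
        congr 1
        linear_combination hc

/-- **`(O_μ)^* = O_ét`.** -/
theorem mem_dual_iff_of_conn {x : M} (hx : x ≠ 0) (hall : ∀ m : M, m = 0 ∨ m = x)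
    (h2x : x + x = 0) {d : D} (hd : d ≠ 0) (hallD : ∀ d' : D, d' = 0 ∨ d' = d)
    (hc : x ∈ conn hH) (f : D → Ω) :
    f ∈ dualAlg68 hfix hH he ↔ ∀ d', ∃ r : ℤ_[2], ι r = f d' := by
  classical
  have htriv : ∀ (σ : GQp 2) (m : M), σ • m = m := smul_eq_self hx hall
  constructor
  · rintro ⟨ℓ, hℓ, rfl⟩ d'
    have hmem : e d' ∈ H := by
      rcases hallD d' with h | h
      · have e1 : e d' = 1 := by
          funext m
          rw [h, pairing_zero_left he, Pi.one_apply]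
        rw [e1]
        exact H.one_mem
      · rw [h]
        exact char_mem hH htriv hx hall h2x (he.map_zero d) (pairing_gen he hall h2x hd)
    obtain ⟨r, hr⟩ := hℓ (e d') hmem
    exact ⟨r, hr⟩
  · intro hr
    obtain ⟨a, ha⟩ := hr 0
    obtain ⟨b, hb⟩ := hr d
    have h2 : (2 : Ω) ≠ 0 := two_ne_zero_omega
    obtain ⟨η, hη⟩ : ∃ η : Ω, 2 * η = 1 := ⟨2⁻¹, mul_inv_cancel₀ h2⟩
    obtain ⟨ℓ, hℓ0, hℓx⟩ : ∃ ℓ : M → Ω, ℓ 0 = η * ι (a + b) ∧ ℓ x = η * ι (a - b) :=
      ⟨fun m => if m = 0 then η * ι (a + b) else η * ι (a - b), if_pos rfl, if_neg hx⟩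
    refine ⟨ℓ, fun h hh => ?_, ?_⟩
    · obtain ⟨r0, hr0⟩ := apply_mem_range hH hh (fun σ => htriv σ 0)
      obtain ⟨rx, hrx⟩ := apply_mem_range hH hh (fun σ => htriv σ x)
      have hlt := hc h hh
      rw [← hr0, ← hrx] at hlt
      obtain ⟨t, ht⟩ := exists_eq_two_mul_of_norm_lt hlt
      have hrx' : rx = r0 + 2 * t := by linear_combination ht
      rw [pair68_two hx hall, hℓ0, hℓx, ← hr0, ← hrx, hrx']
      refine ⟨a * r0 + (a - b) * t, ?_⟩
      simp only [map_add, map_sub, map_mul, map_ofNat]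
      linear_combination (-(ι a * ι r0 + (ι a - ι b) * ι t)) * hη
    · funext d'
      rcases hallD d' with h | h
      · rw [h, evMeas68_zero_two he hx hall, hℓ0, hℓx, ← ha]
        simp only [map_add, map_sub]
        linear_combination (-(ι a)) * hη
      · rw [h, evMeas68_gen_two he hx hall h2x hd, hℓ0, hℓx, ← hb]
        simp only [map_add, map_sub]
        linear_combination (-(ι b)) * hη

variable (hH' : IsFunOrder ℤ_[2] ℚ_[2] (dualAlg68 hfix hH he))

/-- if `H` is étale, its dual is connected. -/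
theorem dual_mem_conn_of_not_conn {x : M} (hx : x ≠ 0) (hall : ∀ m : M, m = 0 ∨ m = x)
    (h2x : x + x = 0) {d : D} (hd : d ≠ 0) (hallD : ∀ d' : D, d' = 0 ∨ d' = d)
    (hnc : x ∉ conn hH) : d ∈ conn hH' := fun f hf =>
  ((mem_dual_iff_of_not_conn hfix hH he hx hall h2x hd hallD hnc f).1 hf).2

/-- if `H` is connected, its dual is étale. -/
theorem dual_not_mem_conn_of_conn {x : M} (hx : x ≠ 0) (hall : ∀ m : M, m = 0 ∨ m = x)
    (h2x : x + x = 0) {d : D} (hd : d ≠ 0) (hallD : ∀ d' : D, d' = 0 ∨ d' = d)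
    (hc : x ∈ conn hH) : d ∉ conn hH' := by
  classical
  intro hdc
  obtain ⟨f, hf0, hfd⟩ : ∃ f : D → Ω, f 0 = 0 ∧ f d = 1 :=
    ⟨fun d' => if d' = 0 then 0 else 1, if_pos rfl, if_neg hd⟩
  have hf : f ∈ dualAlg68 hfix hH he := by
    rw [mem_dual_iff_of_conn hfix hH he hx hall h2x hd hallD hc]
    intro d'
    rcases hallD d' with h | h
    · exact ⟨0, by rw [h, hf0, map_zero]⟩
    · exact ⟨1, by rw [h, hfd, map_one]⟩
  have h1 := hdc f hf
  rw [hfd, hf0, sub_zero, norm_one] at h1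
  exact lt_irrefl _ h1

/-- **`conn (H^*) = ⊤ ⟺ conn H = ⊥`** on groups of order two. -/
theorem conn_dual_eq_top_iff (hM : Nat.card M = 2) (hD : Nat.card D = 2) :
    conn hH' = ⊤ ↔ conn hH = ⊥ := by
  obtain ⟨x, hx, hall, h2x⟩ := exists_gen hM
  obtain ⟨d, hd, hallD, -⟩ := exists_gen hD
  rw [conn_eq_top_iff hH' hallD, conn_eq_bot_iff hH hx hall]
  constructor
  · intro h1 h2
    exact dual_not_mem_conn_of_conn hfix hH he hH' hx hall h2x hd hallD h2 h1
  · exact dual_mem_conn_of_not_conn hfix hH he hH' hx hall h2x hd hallD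

/-- **`conn (H^*) = ⊥ ⟺ conn H = ⊤`** on groups of order two. -/
theorem conn_dual_eq_bot_iff (hM : Nat.card M = 2) (hD : Nat.card D = 2) :
    conn hH' = ⊥ ↔ conn hH = ⊤ := by
  obtain ⟨x, hx, hall, h2x⟩ := exists_gen hM
  obtain ⟨d, hd, hallD, -⟩ := exists_gen hD
  rw [conn_eq_bot_iff hH' hd hallD, conn_eq_top_iff hH hall]
  constructor
  · intro h1
    by_contra h2
    exact h1 (dual_mem_conn_of_not_conn hfix hH he hH' hx hall h2x hd hallD h2)
  · exact dual_not_mem_conn_of_conn hfix hH he hH' hx hall h2x hd hallD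

/-- **the count on a graded piece of order two**: `#conn H · #conn (H^*) = 2`. -/
theorem card_conn_mul_card_conn_dual (hM : Nat.card M = 2) (hD : Nat.card D = 2) :
    Nat.card (conn hH) * Nat.card (conn hH') = 2 := by
  rcases conn_eq_bot_or_eq_top hH hM with h | h
  · have e1 : Nat.card (conn hH) = 1 := by rw [h, AddSubgroup.card_bot]
    have e2 : Nat.card (conn hH') = 2 := by
      rw [(conn_dual_eq_top_iff hfix hH he hH' hM hD).2 h, AddSubgroup.card_top, hD]
    rw [e1, e2]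
  · have e1 : Nat.card (conn hH) = 2 := by rw [h, AddSubgroup.card_top, hM]
    have e2 : Nat.card (conn hH') = 1 := by
      rw [(conn_dual_eq_bot_iff hfix hH he hH' hM hD).2 h, AddSubgroup.card_bot]
    rw [e1, e2]

end Dual

end Fermat.Agent.MAZ.Flat.RankTwo14
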